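import Mathlib
import Fermat.Agent.S05.RVal
import Fermat.Agent.S05.RValOfSubring

/-!
# S13: finite-level ("relative") inertia

For a valuation subring `A` of `ℚ̄` and an intermediate field `M` (in practice: a finite normal
extension of `ℚ` containing all coordinates of the torsion points under consideration), an
automorphism `σ` of `ℚ̄` is *relatively inertial* if it moves every element of `M ∩ A` only by an
element of the maximal ideal of `A`.  For `M` finite and normal these are exactly the lifts of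
the elements of the inertia group of the prime `𝔪_A ∩ 𝓞_M` in `Gal(M/ℚ)`.

All the local (valuation-theoretic) analysis of S13 only uses the consequences proved in this
file, while the global input (the Galois group of `M/ℚ` is generated by inertia groups; the
inertia field is unramified) is naturally phrased with this predicate.  This avoids lifting
finite-level inertia elements to the absolute inertia group of `A`.
-/

set_option autoImplicit false

namespace Fermat.Agent.S13

open Fermat.Agent.S05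

local notation "Qbar" => AlgebraicClosure ℚ

/-- Finite-level inertia: `σ` moves every element of `M ∩ A` by an element of the maximal ideal
of `A`. -/
def RelInertia (A : ValuationSubring Qbar) (M : IntermediateField ℚ Qbar)
    (σ : Qbar ≃ₐ[ℚ] Qbar) : Prop :=
  ∀ a ∈ M, a ∈ A → σ a - a ∈ A.nonunits

/-- Automorphisms preserve a normal intermediate field. -/
theorem map_mem_of_normal (M : IntermediateField ℚ Qbar) [Normal ℚ M] (σ : Qbar ≃ₐ[ℚ] Qbar)
    {a : Qbar} (ha : a ∈ M) : σ a ∈ M := by
  have h := AlgEquiv.restrictNormal_commutes σ M ⟨a, ha⟩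
  have h2 : σ a = ((σ.restrictNormal M ⟨a, ha⟩ : M) : Qbar) := h.symm
  rw [h2]
  exact (σ.restrictNormal M ⟨a, ha⟩).2

namespace RelInertia

variable {A : ValuationSubring Qbar} {M : IntermediateField ℚ Qbar} {σ τ : Qbar ≃ₐ[ℚ] Qbar}

theorem one : RelInertia A M 1 := by
  intro a _ _
  simp only [AlgEquiv.one_apply, sub_self]
  rw [ValuationSubring.mem_nonunits_iff]
  simp

theorem mono {M' : IntermediateField ℚ Qbar} (hM : M' ≤ M) (h : RelInertia A M σ) :
    RelInertia A M' σ :=
  fun a ha haA => h a (hM ha) haA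

theorem map_mem (h : RelInertia A M σ) {a : Qbar} (haM : a ∈ M) (ha : a ∈ A) : σ a ∈ A := by
  have h1 := A.nonunits_le (h a haM ha)
  have h2 : σ a = (σ a - a) + a := by ring
  rw [h2]
  exact A.add_mem _ _ h1 ha

theorem map_mem_nonunits (h : RelInertia A M σ) {a : Qbar} (haM : a ∈ M)
    (ha : a ∈ A.nonunits) : σ a ∈ A.nonunits := by
  have h1 := h a haM (A.nonunits_le ha)
  have h2 : σ a = (σ a - a) + a := by ring
  rw [h2]
  rw [ValuationSubring.mem_nonunits_iff] at h1 ha ⊢
  exact lt_of_le_of_lt (Valuation.map_add _ _ _) (max_lt h1 ha)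

/-- Relatively inertial automorphisms are closed under composition (for normal `M`). -/
theorem mul [Normal ℚ M] (hσ : RelInertia A M σ) (hτ : RelInertia A M τ) :
    RelInertia A M (σ * τ) := by
  intro a haM ha
  have h1 := hτ a haM ha
  have hτM : τ a ∈ M := map_mem_of_normal M τ haM
  have h2 : τ a - a ∈ M := M.sub_mem hτM haM
  have h3 := hσ.map_mem_nonunits h2 h1
  have h4 := hσ a haM ha
  have e : (σ * τ) a - a = σ (τ a - a) + (σ a - a) := by
    simp only [AlgEquiv.mul_apply, map_sub]
    ring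
  rw [e]
  rw [ValuationSubring.mem_nonunits_iff] at h3 h4 ⊢
  exact lt_of_le_of_lt (Valuation.map_add _ _ _) (max_lt h3 h4)

section RValSection

variable (V : RVal Qbar)

/-- `σ z ≡ z` modulo the maximal ideal, in terms of the absolute value. -/
theorem w_sub_lt_one (hV1 : ∀ x, V.w x ≤ 1 ↔ x ∈ A) (hV2 : ∀ x, V.w x < 1 ↔ x ∈ A.nonunits)
    (h : RelInertia A M σ) {z : Qbar} (hzM : z ∈ M) (hz : V.w z ≤ 1) : V.w (σ z - z) < 1 :=
  (hV2 _).mpr (h z hzM ((hV1 z).mp hz))

/-- If `|z| = |t|` for some `t ≠ 0` in `M` fixed by `σ`, then `|σ z - z| < |z|`. -/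
theorem w_sub_lt (hV1 : ∀ x, V.w x ≤ 1 ↔ x ∈ A) (hV2 : ∀ x, V.w x < 1 ↔ x ∈ A.nonunits)
    (h : RelInertia A M σ) {t z : Qbar} (hzM : z ∈ M) (htM : t ∈ M) (ht : σ t = t)
    (ht0 : t ≠ 0) (hz : V.w z = V.w t) : V.w (σ z - z) < V.w z := by
  have htpos : 0 < V.w t := V.w_pos t ht0
  have hu : V.w (z / t) ≤ 1 := by
    rw [V.w_div, hz, div_self htpos.ne']
  have h1 := w_sub_lt_one V hV1 hV2 h (M.div_mem hzM htM) hu
  have h2 : σ z - z = t * (σ (z / t) - z / t) := by
    rw [map_div₀, ht]
    field_simp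
  rw [h2, V.w_mul, hz]
  calc V.w t * V.w (σ (z / t) - z / t) < V.w t * 1 := by
        exact mul_lt_mul_of_pos_left h1 htpos
    _ = V.w t := mul_one _

/-- A relatively inertial automorphism preserves the absolute value on `M`. -/
theorem w_map (hV1 : ∀ x, V.w x ≤ 1 ↔ x ∈ A) (hV2 : ∀ x, V.w x < 1 ↔ x ∈ A.nonunits)
    (h : RelInertia A M σ) {q : ℕ} (hq : q.Prime) (hA : (q : Qbar) ∈ A.nonunits)
    {z : Qbar} (hzM : z ∈ M) : V.w (σ z) = V.w z := by
  by_cases hz0 : z = 0
  · rw [hz0, map_zero]
  have halg := (AlgebraicClosure.isAlgebraic ℚ).isAlgebraic z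
  obtain ⟨n, m, hn, hnm⟩ :=
    @exists_pow_valuation_eq_zpow _ _ A q _ _ hq hA z hz0 halg
  have hq0 : (q : Qbar) ≠ 0 := by exact_mod_cast hq.ne_zero
  have hqpos : 0 < V.w (q : Qbar) := V.w_pos _ hq0
  set u : Qbar := z ^ n / (q : Qbar) ^ m with hu
  have hvq : A.valuation (q : Qbar) ≠ 0 := (Valuation.ne_zero_iff _).2 hq0
  have hvu : A.valuation u = 1 := by
    rw [hu, map_div₀, map_pow, map_zpow₀, hnm]
    exact div_self (zpow_ne_zero _ hvq)
  have huA : u ∈ A := (A.valuation_le_one_iff u).mp hvu.le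
  have huA' : u⁻¹ ∈ A := by
    rw [← A.valuation_le_one_iff, map_inv₀, hvu, inv_one]
  have hu0 : u ≠ 0 := by
    intro h0
    rw [h0, map_zero] at hvu
    exact zero_ne_one hvu
  have hwu : V.w u = 1 := by
    have h1 := (hV1 u).mpr huA
    have h2 := (hV1 u⁻¹).mpr huA'
    rw [V.w_inv] at h2
    have h3 : 0 < V.w u := V.w_pos u hu0
    have h4 : 1 ≤ V.w u := by
      by_contra hc
      push Not at hc
      have := one_lt_inv₀ h3 |>.mpr hc
      linarith
    exact le_antisymm h1 h4
  have huM : u ∈ M := by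
    rw [hu]
    exact M.div_mem (pow_mem hzM n) (zpow_mem (natCast_mem M q) m)
  have h1 := w_sub_lt_one V hV1 hV2 h huM hwu.le
  have hwσu : V.w (σ u) = 1 := by
    have e : σ u = u + (σ u - u) := by ring
    rw [e, V.w_add_eq_of_lt (by rw [hwu]; exact h1), hwu]
  have e1 : σ u = σ z ^ n / (q : Qbar) ^ m := by
    rw [hu, map_div₀, map_pow, map_zpow₀, map_natCast]
  have h5 : V.w (σ z) ^ n = V.w (q : Qbar) ^ m := by
    have := hwσu
    rw [e1, V.w_div, V.w_pow, V.w_zpow] at this
    have hne : V.w (q : Qbar) ^ m ≠ 0 := zpow_ne_zero _ hqpos.ne'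
    field_simp at this
    exact this
  have h6 : V.w z ^ n = V.w (q : Qbar) ^ m := by
    have := hwu
    rw [hu, V.w_div, V.w_pow, V.w_zpow] at this
    have hne : V.w (q : Qbar) ^ m ≠ 0 := zpow_ne_zero _ hqpos.ne'
    field_simp at this
    exact this
  exact (pow_left_inj₀ (V.w_nonneg _) (V.w_nonneg _) hn.ne').mp (h5.trans h6.symm)

end RValSection

end RelInertia

/-- Translation of an equality of valuations into the absolute value. -/
theorem w_eq_of_valuation_eq {A : ValuationSubring Qbar} (V : RVal Qbar)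
    (hV1 : ∀ x, V.w x ≤ 1 ↔ x ∈ A) {x y : Qbar} (h : A.valuation x = A.valuation y) :
    V.w x = V.w y := by
  by_cases hy : y = 0
  · rw [hy, map_zero] at h
    have hx : x = 0 := (Valuation.zero_iff _).mp h
    rw [hx, hy]
  have hx : x ≠ 0 := by
    intro hx
    rw [hx, map_zero] at h
    exact hy ((Valuation.zero_iff _).mp h.symm)
  have hvy : A.valuation y ≠ 0 := (Valuation.ne_zero_iff _).2 hy
  have hvx : A.valuation x ≠ 0 := (Valuation.ne_zero_iff _).2 hx
  have h1 : x / y ∈ A := by
    rw [← A.valuation_le_one_iff, map_div₀, h, div_self hvy]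
  have h2 : y / x ∈ A := by
    rw [← A.valuation_le_one_iff, map_div₀, h, div_self hvy]
  have h3 := (hV1 _).mpr h1
  have h4 := (hV1 _).mpr h2
  rw [V.w_div] at h3 h4
  have hwy : 0 < V.w y := V.w_pos y hy
  have hwx : 0 < V.w x := V.w_pos x hx
  rw [div_le_one hwy] at h3
  rw [div_le_one hwx] at h4
  exact le_antisymm h3 h4

end Fermat.Agent.S13
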