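import Mathlib
import Fermat.Agent.S05.Assembly
import Fermat.Agent.S05.MultTorsion
import Fermat.Agent.S13.RelInertia

/-!
# S13: the Frey representation is unramified outside `2p`, finite-level version

This is the S05 argument re-run for an automorphism `σ` which is only *relatively inertial*
(`RelInertia A M σ`) for an intermediate field `M` containing the coordinates of the `p`-torsion
points of the Frey curve.

* `short_fixed_fin`: the assembly on the short model;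
* `frey_glue_fin`: transport from the Frey model to the short model, keeping track of `M`;
* `frey_case_fin`: uniform treatment of the good and multiplicative cases;
* `frey_unram_fin`: for a prime `q ∉ {2, p}` and `A` over `q`, every `σ` with `RelInertia A M σ`
  fixes the `p`-torsion of the Frey curve.
-/

set_option autoImplicit false

namespace Fermat.Agent.S13

open WeierstrassCurve WeierstrassCurve.Affine Fermat.Agent.S05

local notation "Qbar" => AlgebraicClosure ℚ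

/-- `short_fixed` of S05 for a relatively inertial automorphism. -/
theorem short_fixed_fin (A : ValuationSubring Qbar) (V : RVal Qbar)
    (hV1 : ∀ x, V.w x ≤ 1 ↔ x ∈ A) (hV2 : ∀ x, V.w x < 1 ↔ x ∈ A.nonunits)
    (M : IntermediateField ℚ Qbar) (σ : Qbar ≃ₐ[ℚ] Qbar) (hσ : RelInertia A M σ) {a b : Qbar}
    (ha : V.w a ≤ 1) (hb : V.w b ≤ 1) (h2 : V.w 2 = 1) (hd : V.w (a ^ 2 - 4 * b) = 1) (n : ℕ)
    (hn : V.w (n : Qbar) = 1)
    (Hnode : ∀ (X Y : Qbar) (h : (shortW a b).toAffine.Nonsingular X Y),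
      n • Point.some X Y h = 0 → V.w X < 1 →
        V.w (3 * X ^ 2 + 2 * a * X + b) = 1 ∨
          (V.w Y = V.w X ∧ ∃ t : Qbar, t ∈ M ∧ σ t = t ∧ t ≠ 0 ∧ V.w X = V.w t))
    {X Y : Qbar} (hXM : X ∈ M) (hYM : Y ∈ M) (h : (shortW a b).toAffine.Nonsingular X Y)
    (h' : (shortW a b).toAffine.Nonsingular (σ X) (σ Y))
    (hp : n • Point.some X Y h = 0) (hp' : n • Point.some (σ X) (σ Y) h' = 0) :
    Point.some (σ X) (σ Y) h' = Point.some X Y h := by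
  have he := shortW_equation.mp h.1
  -- `X` is integral
  have hX : V.w X ≤ 1 := by
    by_contra hc
    refine nsmul_ne_zero_of_X_notMem A (shortW a b).toAffine ?_ ?_ ?_ ?_ ?_ h ?_ n ?_ hp
    · exact A.zero_mem
    · exact (hV1 a).mp ha
    · exact A.zero_mem
    · exact (hV1 b).mp hb
    · exact A.zero_mem
    · intro hc'
      exact hc ((hV1 X).mpr hc')
    · intro hc'
      exact absurd ((hV2 _).mpr hc') (by rw [hn]; exact lt_irrefl _)
  have hY : V.w Y ≤ 1 := w_y_le_one V ha hb he hX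
  apply eq_of_sub_eq_zero_or_ker A V hV1 hV2 ha hb n hn hp hp'
  have good : (V.w Y = 1 ∨ V.w (3 * X ^ 2 + 2 * a * X + b) = 1) →
      (Point.some (σ X) (σ Y) h' - Point.some X Y h = 0 ∨
      ∃ (x₃ y₃ : Qbar) (h₃ : (shortW a b).toAffine.Nonsingular x₃ y₃),
        Point.some (σ X) (σ Y) h' - Point.some X Y h = Point.some x₃ y₃ h₃ ∧ 1 < V.w x₃) :=
    fun hns => cong_sub_good V ha hb h2 h h' hX
      (hσ.w_sub_lt_one V hV1 hV2 hXM hX) (hσ.w_sub_lt_one V hV1 hV2 hYM hY) hns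
  rcases lt_or_eq_of_le hX with hX1 | hX1
  · rcases Hnode X Y h hp hX1 with hns | ⟨hYX, t, htM, ht, ht0, hXt⟩
    · exact good (Or.inr hns)
    · exact cong_sub_mult V ha h2 h h' hX hYX
        (hσ.w_sub_lt V hV1 hV2 hXM htM ht ht0 hXt)
        (by
          have := hσ.w_sub_lt V hV1 hV2 hYM htM ht ht0 (hYX.trans hXt)
          rwa [hYX] at this)
  · exact good (ns_of_unit_x V ha hb h2 hd he hX1)

/-- `frey_glue` of S05, keeping track of an intermediate field `M` containing the coordinates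
of the `p`-torsion points. -/
theorem frey_glue_fin (P : FreyPackage) (M : IntermediateField ℚ Qbar)
    (hM : ∀ (x y : Qbar) (h : (P.freyCurve⁄Qbar).Nonsingular x y),
      P.p • (Point.some x y h : (P.freyCurve⁄Qbar).Point) = 0 → x ∈ M ∧ y ∈ M)
    (σ : Qbar ≃ₐ[ℚ] Qbar) (ρ : ℤ)
    (hρ : ρ ^ 3 + (P.b ^ P.p - P.a ^ P.p) * ρ ^ 2 - P.a ^ P.p * P.b ^ P.p * ρ = 0)
    (Hcore : ∀ (X Y : Qbar) (_ : X ∈ M) (_ : Y ∈ M)
      (h : (shortW (((P.b ^ P.p - P.a ^ P.p + 3 * ρ : ℤ) : Qbar))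
        (((3 * ρ ^ 2 + 2 * (P.b ^ P.p - P.a ^ P.p) * ρ - P.a ^ P.p * P.b ^ P.p : ℤ) :
          Qbar))).toAffine.Nonsingular X Y)
      (h' : (shortW (((P.b ^ P.p - P.a ^ P.p + 3 * ρ : ℤ) : Qbar))
        (((3 * ρ ^ 2 + 2 * (P.b ^ P.p - P.a ^ P.p) * ρ - P.a ^ P.p * P.b ^ P.p : ℤ) :
          Qbar))).toAffine.Nonsingular (σ X) (σ Y)),
      P.p • Point.some X Y h = 0 → P.p • Point.some (σ X) (σ Y) h' = 0 →
      Point.some (σ X) (σ Y) h' = Point.some X Y h) :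
    ∀ x : Submodule.torsionBy ℤ (P.freyCurve⁄Qbar).Point P.p, σ • x = x := by
  intro x
  apply Subtype.ext
  rw [coe_smul_torsionBy]
  have hx : P.p • (x : (P.freyCurve⁄Qbar).Point) = 0 := by
    have := x.2
    rw [Submodule.mem_torsionBy_iff] at this
    rw [← this, natCast_zsmul]
  have h2 : (2 : Qbar) ≠ 0 := two_ne_zero
  have hr : ((ρ : ℤ) : Qbar) ^ 3 +
      (4 * (WeierstrassCurve.baseChange P.freyCurve Qbar).a₂ + 1) * ((ρ : ℤ) : Qbar) ^ 2 +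
      16 * (WeierstrassCurve.baseChange P.freyCurve Qbar).a₄ * ((ρ : ℤ) : Qbar) = 0 := by
    rw [frey_a₂, frey_a₄]
    have := congrArg (Int.cast (R := Qbar)) hρ
    push_cast at this ⊢
    linear_combination this
  obtain ⟨φ, hinj, hφ⟩ := exists_shortHom' (WeierstrassCurve.baseChange P.freyCurve Qbar) h2
    (frey_a₁ P) (frey_a₃ P) (frey_a₆ P) ((ρ : ℤ) : Qbar) hr
    (((P.b ^ P.p - P.a ^ P.p + 3 * ρ : ℤ) : Qbar))
    (((3 * ρ ^ 2 + 2 * (P.b ^ P.p - P.a ^ P.p) * ρ - P.a ^ P.p * P.b ^ P.p : ℤ) : Qbar))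
    (by rw [frey_a₂]; push_cast; ring)
    (by
      have h4 := frey_a₄ P
      rw [frey_a₂, h4]; push_cast; ring)
  generalize hPt : (x : (P.freyCurve⁄Qbar).Point) = Pt at hx ⊢
  rcases Pt with _ | ⟨x₀, y₀, h₀⟩
  · rfl
  · obtain ⟨hx₀M, hy₀M⟩ := hM x₀ y₀ h₀ hx
    obtain ⟨h₀', hσ⟩ := smul_some (S := ℚ) σ h₀
    have hx' : P.p • (σ • (Point.some x₀ y₀ h₀ : (P.freyCurve⁄Qbar).Point)) = 0 := by
      rw [← smul_nsmul_comm_point, hx, smul_zero]
    obtain ⟨h1, e1⟩ := hφ x₀ y₀ h₀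
    obtain ⟨h1', e1'⟩ := hφ (σ x₀) (σ y₀) h₀'
    have eX : 4 * σ x₀ - ((ρ : ℤ) : Qbar) = σ (4 * x₀ - ((ρ : ℤ) : Qbar)) := by
      rw [map_sub, map_mul, map_intCast, map_ofNat]
    have eY : 8 * σ y₀ + 4 * σ x₀ = σ (8 * y₀ + 4 * x₀) := by
      rw [map_add, map_mul, map_mul, map_ofNat, map_ofNat]
    have h1'' := h1'
    rw [eX, eY] at h1''
    have e1'' : φ (Point.some (σ x₀) (σ y₀) h₀') =
        Point.some (σ (4 * x₀ - ((ρ : ℤ) : Qbar))) (σ (8 * y₀ + 4 * x₀)) h1'' := by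
      rw [e1']
      exact point_some_congr _ _ eX eY
    have hp1 : P.p • Point.some (4 * x₀ - ((ρ : ℤ) : Qbar)) (8 * y₀ + 4 * x₀) h1 = 0 := by
      rw [← e1, ← map_nsmul]
      erw [hx]
      exact map_zero φ
    have hp2 : P.p • Point.some (σ (4 * x₀ - ((ρ : ℤ) : Qbar))) (σ (8 * y₀ + 4 * x₀)) h1'' =
        0 := by
      rw [← e1'', ← map_nsmul]
      rw [hσ] at hx'
      erw [hx']
      exact map_zero φ
    have h4M : (4 : Qbar) ∈ M := ofNat_mem M 4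
    have h8M : (8 : Qbar) ∈ M := ofNat_mem M 8
    have hXM : 4 * x₀ - ((ρ : ℤ) : Qbar) ∈ M :=
      M.sub_mem (M.mul_mem h4M hx₀M) (intCast_mem M ρ)
    have hYM : 8 * y₀ + 4 * x₀ ∈ M :=
      M.add_mem (M.mul_mem h8M hy₀M) (M.mul_mem h4M hx₀M)
    have key := Hcore _ _ hXM hYM h1 h1'' hp1 hp2
    rw [hσ]
    apply hinj
    rw [e1'', key]
    exact e1.symm

/-- `node_of_mult` of S05 with the witness `t` in `M`. -/
theorem node_of_mult_fin (V : RVal Qbar) (M : IntermediateField ℚ Qbar) (σ : Qbar ≃ₐ[ℚ] Qbar)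
    {a b : Qbar} (ha : V.w a = 1) (τ : ℤ) (hτ0 : τ ≠ 0) (p : ℕ) (hp0 : p ≠ 0)
    (hbτ : V.w b = V.w ((τ : ℤ) : Qbar) ^ p)
    {X Y : Qbar} (he : Y ^ 2 = X ^ 3 + a * X ^ 2 + b * X) (hX : V.w X < 1)
    (hbX : V.w b < V.w X) (k : ℤ) (hk : V.w X ^ p = V.w b ^ k) :
    V.w Y = V.w X ∧ ∃ t : Qbar, t ∈ M ∧ σ t = t ∧ t ≠ 0 ∧ V.w X = V.w t := by
  have hτ0' : ((τ : ℤ) : Qbar) ≠ 0 := by exact_mod_cast hτ0
  obtain ⟨h1, t, ht, ht0, hXt⟩ := node_of_mult V σ ha ((τ : ℤ) : Qbar) (map_intCast σ τ) hτ0'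
    p hp0 hbτ he hX hbX k hk
  refine ⟨h1, ((τ : ℤ) : Qbar) ^ k, zpow_mem (intCast_mem M τ) k, ?_, zpow_ne_zero k hτ0', ?_⟩
  · rw [map_zpow₀, map_intCast]
  · rw [V.w_zpow]
    have hXpos : 0 < V.w X := lt_of_le_of_lt (V.w_nonneg _) hbX
    have hτpos : 0 < V.w ((τ : ℤ) : Qbar) := V.w_pos _ hτ0'
    have h3 : V.w X ^ p = (V.w ((τ : ℤ) : Qbar) ^ k) ^ p := by
      rw [hk, hbτ, ← zpow_natCast, ← zpow_mul, ← zpow_natCast (V.w ((τ : ℤ) : Qbar) ^ k),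
        ← zpow_mul, mul_comm]
    have h4 : 0 ≤ V.w ((τ : ℤ) : Qbar) ^ k := (zpow_pos hτpos k).le
    exact (pow_left_inj₀ hXpos.le h4 hp0).mp h3

/-- Uniform treatment of the good and multiplicative cases for the Frey curve, finite-level
version of `frey_case`. -/
theorem frey_case_fin (P : FreyPackage) {q : ℕ} (hq : q.Prime) (hq2 : q ≠ 2) (hqp : q ≠ P.p)
    (A : ValuationSubring Qbar) (hA : A.LiesOverPrime q) (M : IntermediateField ℚ Qbar)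
    (hM : ∀ (x y : Qbar) (h : (P.freyCurve⁄Qbar).Nonsingular x y),
      P.p • (Point.some x y h : (P.freyCurve⁄Qbar).Point) = 0 → x ∈ M ∧ y ∈ M)
    (σ : Qbar ≃ₐ[ℚ] Qbar) (hσ : RelInertia A M σ) (ρ : ℤ)
    (hρ : ρ ^ 3 + (P.b ^ P.p - P.a ^ P.p) * ρ ^ 2 - P.a ^ P.p * P.b ^ P.p * ρ = 0)
    (as bs : ℤ) (has : as = P.b ^ P.p - P.a ^ P.p + 3 * ρ)
    (hbs : bs = 3 * ρ ^ 2 + 2 * (P.b ^ P.p - P.a ^ P.p) * ρ - P.a ^ P.p * P.b ^ P.p)
    (hdisc : ¬ (q : ℤ) ∣ as ^ 2 - 4 * bs)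
    (hcase : (q : ℤ) ∣ bs → ¬ (q : ℤ) ∣ as ∧ bs ≠ 0 ∧
      ∃ τ : ℤ, τ ≠ 0 ∧ (bs = τ ^ P.p ∨ bs = -τ ^ P.p)) :
    ∀ x : Submodule.torsionBy ℤ (P.freyCurve⁄Qbar).Point P.p, σ • x = x := by
  obtain ⟨V, hV1, hV2, hVq, hunit, hnon⟩ := exists_rval' A hq hA
  have h2 : V.w (2 : Qbar) = 1 := by
    have h := hunit 2 (by
      intro hc
      have h1 : q ∣ 2 := by exact_mod_cast hc
      exact hq2 ((Nat.prime_dvd_prime_iff_eq hq Nat.prime_two).mp h1))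
    simpa using h
  have hn : V.w ((P.p : ℕ) : Qbar) = 1 := by
    have h := hunit (P.p : ℤ) (by
      intro hc
      have h1 : q ∣ P.p := by exact_mod_cast hc
      exact hqp ((Nat.prime_dvd_prime_iff_eq hq P.pp).mp h1))
    simpa using h
  have ha : V.w ((as : ℤ) : Qbar) ≤ 1 := V.w_intCast_le _
  have hb : V.w ((bs : ℤ) : Qbar) ≤ 1 := V.w_intCast_le _
  have hd : V.w (((as : ℤ) : Qbar) ^ 2 - 4 * ((bs : ℤ) : Qbar)) = 1 := by
    have h := hunit _ hdisc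
    have e : (((as ^ 2 - 4 * bs : ℤ)) : Qbar) = ((as : ℤ) : Qbar) ^ 2 - 4 * ((bs : ℤ) : Qbar) := by
      push_cast; ring
    rwa [e] at h
  subst has hbs
  apply frey_glue_fin P M hM σ ρ hρ
  intro X Y hXM hYM h h' hp hp'
  refine short_fixed_fin A V hV1 hV2 M σ hσ ha hb h2 hd P.p hn ?_ hXM hYM h h' hp hp'
  intro X Y h hp hX
  by_cases hqb : (q : ℤ) ∣ 3 * ρ ^ 2 + 2 * (P.b ^ P.p - P.a ^ P.p) * ρ - P.a ^ P.p * P.b ^ P.p
  · right
    obtain ⟨has_unit, hbs0, τ, hτ0, hτ⟩ := hcase hqb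
    have ha1 := hunit _ has_unit
    have hb1 := hnon _ hqb
    obtain ⟨α, hα⟩ : ∃ α : Qbar, α ^ 2 = ((P.b ^ P.p - P.a ^ P.p + 3 * ρ : ℤ) : Qbar) :=
      IsAlgClosed.exists_pow_nat_eq _ (by norm_num)
    have hα1 : V.w α = 1 := by
      have h1 : V.w α ^ 2 = 1 := by rw [← V.w_pow, hα, ha1]
      have h0 := V.w_nonneg α
      nlinarith
    have hb0 : ((3 * ρ ^ 2 + 2 * (P.b ^ P.p - P.a ^ P.p) * ρ - P.a ^ P.p * P.b ^ P.p : ℤ) :
        Qbar) ≠ 0 := by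
      exact_mod_cast hbs0
    obtain ⟨hbX, k, hk⟩ := mult_torsion_val V hα hα1 h2 hb0 hb1 h P.hp_odd hp hX
    have hbτ : V.w ((3 * ρ ^ 2 + 2 * (P.b ^ P.p - P.a ^ P.p) * ρ - P.a ^ P.p * P.b ^ P.p : ℤ) :
        Qbar) = V.w ((τ : ℤ) : Qbar) ^ P.p := by
      rcases hτ with hτ | hτ
      · rw [hτ]; push_cast; rw [V.w_pow]
      · rw [hτ]; push_cast; rw [V.w_neg, V.w_pow]
    exact node_of_mult_fin V M σ ha1 τ hτ0 P.p P.hp0 hbτ
      (shortW_equation.mp h.1) hX hbX k hk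
  · left
    exact ns_of_unit_b V ha (hunit _ hqb) hX

/-- A prime dividing one of two coprime integers does not divide the other. -/
lemma not_dvd_of_gcd_eq_one' {q : ℕ} (hq : q.Prime) {m n : ℤ} (hmn : gcd m n = 1)
    (hm : (q : ℤ) ∣ m) : ¬ (q : ℤ) ∣ n := by
  intro hn
  have h1 : (q : ℤ) ∣ gcd m n := dvd_gcd hm hn
  rw [hmn] at h1
  have h2 : q ∣ 1 := by exact_mod_cast h1
  exact hq.one_lt.ne' (Nat.dvd_one.mp h2)

/-- **Finite-level S05**: for a prime `q ∉ {2, p}`, a valuation subring `A` of `ℚ̄` over `q` and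
an intermediate field `M` containing the coordinates of the `p`-torsion points of the Frey
curve, every relatively inertial `σ` fixes the `p`-torsion of the Frey curve. -/
theorem frey_unram_fin (P : FreyPackage) {q : ℕ} (hq : q.Prime) (hq2 : q ≠ 2) (hqp : q ≠ P.p)
    (A : ValuationSubring Qbar) (hA : A.LiesOverPrime q) (M : IntermediateField ℚ Qbar)
    (hM : ∀ (x y : Qbar) (h : (P.freyCurve⁄Qbar).Nonsingular x y),
      P.p • (Point.some x y h : (P.freyCurve⁄Qbar).Point) = 0 → x ∈ M ∧ y ∈ M)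
    (σ : Qbar ≃ₐ[ℚ] Qbar) (hσ : RelInertia A M σ) :
    ∀ x : Submodule.torsionBy ℤ (P.freyCurve⁄Qbar).Point P.p, σ • x = x := by
  have hqi : Prime (q : ℤ) := Nat.prime_iff_prime_int.mp hq
  have hp0 : P.p ≠ 0 := P.hp0
  have hFLT := P.hFLT
  by_cases hc : (q : ℤ) ∣ P.c
  · -- `q ∣ c`: multiplicative reduction, `ρ = a ^ p`
    have hna : ¬ (q : ℤ) ∣ P.a := by
      have := P.hgcdac
      exact not_dvd_of_gcd_eq_one' hq (by rw [gcd_comm]; exact this) hc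
    have hnb : ¬ (q : ℤ) ∣ P.b := by
      have := P.hgcdbc
      exact not_dvd_of_gcd_eq_one' hq (by rw [gcd_comm]; exact this) hc
    refine frey_case_fin P hq hq2 hqp A hA M hM σ hσ (P.a ^ P.p) (by ring) _ _ rfl rfl ?_ ?_
    · have e : (P.b ^ P.p - P.a ^ P.p + 3 * P.a ^ P.p) ^ 2 -
          4 * (3 * (P.a ^ P.p) ^ 2 + 2 * (P.b ^ P.p - P.a ^ P.p) * P.a ^ P.p -
            P.a ^ P.p * P.b ^ P.p) = P.b ^ (P.p * 2) := by ring
      rw [e]
      exact fun h => hnb (hqi.dvd_of_dvd_pow h)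
    · intro _
      have e1 : P.b ^ P.p - P.a ^ P.p + 3 * P.a ^ P.p = P.c ^ P.p + P.a ^ P.p := by
        rw [← hFLT]; ring
      have e2 : 3 * (P.a ^ P.p) ^ 2 + 2 * (P.b ^ P.p - P.a ^ P.p) * P.a ^ P.p -
          P.a ^ P.p * P.b ^ P.p = (P.a * P.c) ^ P.p := by
        rw [mul_pow, ← hFLT]; ring
      refine ⟨?_, ?_, P.a * P.c, mul_ne_zero P.ha0 P.hc0, Or.inl e2⟩
      · rw [e1]
        intro h
        have h1 : (q : ℤ) ∣ P.c ^ P.p := dvd_pow hc hp0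
        have h2 : (q : ℤ) ∣ P.a ^ P.p := (dvd_add_right h1).mp h
        exact hna (hqi.dvd_of_dvd_pow h2)
      · rw [e2]
        exact pow_ne_zero _ (mul_ne_zero P.ha0 P.hc0)
  · -- `q ∤ c`: good reduction or `q ∣ a b`, `ρ = 0`
    refine frey_case_fin P hq hq2 hqp A hA M hM σ hσ 0 (by ring) _ _ rfl rfl ?_ ?_
    · have e : (P.b ^ P.p - P.a ^ P.p + 3 * 0) ^ 2 -
          4 * (3 * (0 : ℤ) ^ 2 + 2 * (P.b ^ P.p - P.a ^ P.p) * 0 - P.a ^ P.p * P.b ^ P.p) =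
          P.c ^ (P.p * 2) := by
        rw [pow_mul, ← hFLT]; ring
      rw [e]
      exact fun h => hc (hqi.dvd_of_dvd_pow h)
    · intro hqb
      have e2 : 3 * (0 : ℤ) ^ 2 + 2 * (P.b ^ P.p - P.a ^ P.p) * 0 - P.a ^ P.p * P.b ^ P.p =
          -(P.a * P.b) ^ P.p := by
        rw [mul_pow]; ring
      have e1 : P.b ^ P.p - P.a ^ P.p + 3 * 0 = P.b ^ P.p - P.a ^ P.p := by ring
      rw [e2] at hqb
      have hab : (q : ℤ) ∣ P.a * P.b := hqi.dvd_of_dvd_pow ((dvd_neg).mp hqb)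
      refine ⟨?_, ?_, P.a * P.b, mul_ne_zero P.ha0 P.hb0, Or.inr e2⟩
      · rw [e1]
        intro h
        rcases hqi.dvd_or_dvd hab with ha | hb
        · have hnb : ¬ (q : ℤ) ∣ P.b := not_dvd_of_gcd_eq_one' hq P.hgcdab ha
          have h1 : (q : ℤ) ∣ P.a ^ P.p := dvd_pow ha hp0
          have h2 : (q : ℤ) ∣ P.b ^ P.p := (dvd_sub_left h1).mp h
          exact hnb (hqi.dvd_of_dvd_pow h2)
        · have hna : ¬ (q : ℤ) ∣ P.a :=
            not_dvd_of_gcd_eq_one' hq (by rw [gcd_comm]; exact P.hgcdab) hb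
          have h1 : (q : ℤ) ∣ P.b ^ P.p := dvd_pow hb hp0
          have h2 : (q : ℤ) ∣ P.a ^ P.p := (dvd_sub_right h1).mp h
          exact hna (hqi.dvd_of_dvd_pow h2)
      · rw [e2]
        exact neg_ne_zero.mpr (pow_ne_zero _ (mul_ne_zero P.ha0 P.hb0))

end Fermat.Agent.S13
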