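import Mathlib
import Fermat.Statements.S13
import Fermat.Agent.S05.Inertia
import Fermat.Agent.S13.RelInertia
import Fermat.Agent.S13.UnramFin

/-!
# S13: assembly

`asm_main`: the statement S13 from the local and global pieces, each given as an explicit
hypothesis.
-/

set_option autoImplicit false

namespace Fermat.Agent.S13

open WeierstrassCurve WeierstrassCurve.Affine WeierstrassCurve.Affine.Point Fermat.Agent.S05

local notation "Qbar" => AlgebraicClosure ℚ

/-- `M` contains the coordinates of all `p`-torsion points of the Frey curve. -/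
def TorsCoords (P : FreyPackage) (M : IntermediateField ℚ Qbar) : Prop :=
  ∀ (x y : Qbar) (h : (P.freyCurve⁄Qbar).Nonsingular x y),
    P.p • (Point.some x y h : (P.freyCurve⁄Qbar).Point) = 0 → x ∈ M ∧ y ∈ M

section Subgroups

variable {P : FreyPackage}
  (N : Submodule (ZMod P.p) (Submodule.torsionBy ℤ (P.freyCurve⁄Qbar).Point P.p))

/-- The subgroup of automorphisms fixing `N` pointwise. -/
def asmFix : Subgroup (Qbar ≃ₐ[ℚ] Qbar) where
  carrier := {σ | ∀ x ∈ N, σ • x = x}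
  mul_mem' := by
    intro σ τ hσ hτ x hx
    rw [mul_smul, hτ x hx, hσ x hx]
  one_mem' := by
    intro x _
    rw [one_smul]
  inv_mem' := by
    intro σ hσ x hx
    have h := hσ x hx
    calc σ⁻¹ • x = σ⁻¹ • (σ • x) := by rw [h]
      _ = x := by rw [inv_smul_smul]

theorem mem_asmFix {σ : Qbar ≃ₐ[ℚ] Qbar} : σ ∈ asmFix N ↔ ∀ x ∈ N, σ • x = x := Iff.rfl

theorem asmFix_normal (hN : IsGaloisStable ℚ N) : (asmFix N).Normal := by
  constructor
  intro σ hσ τ x hx
  have h1 : τ⁻¹ • x ∈ N := hN τ⁻¹ x hx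
  have h2 := hσ _ h1
  rw [mul_smul, mul_smul, h2, smul_inv_smul]

/-- The subgroup of automorphisms acting trivially on the quotient by `N`
(for a Galois-stable `N`). -/
def asmCofix (hN : IsGaloisStable ℚ N) : Subgroup (Qbar ≃ₐ[ℚ] Qbar) where
  carrier := {σ | ∀ x, σ • x - x ∈ N}
  mul_mem' := by
    intro σ τ hσ hτ x
    have h1 : σ • (τ • x - x) ∈ N := hN σ _ (hτ x)
    have h2 := hσ x
    have e : (σ * τ) • x - x = σ • (τ • x - x) + (σ • x - x) := by
      rw [mul_smul, smul_sub]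
      abel
    rw [e]
    exact N.add_mem h1 h2
  one_mem' := by
    intro x
    rw [one_smul, sub_self]
    exact N.zero_mem
  inv_mem' := by
    intro σ hσ x
    have h1 : σ⁻¹ • (σ • x - x) ∈ N := hN σ⁻¹ _ (hσ x)
    have e : σ⁻¹ • x - x = -(σ⁻¹ • (σ • x - x)) := by
      rw [smul_sub, inv_smul_smul]
      abel
    rw [e]
    exact N.neg_mem h1

theorem mem_asmCofix (hN : IsGaloisStable ℚ N) {σ : Qbar ≃ₐ[ℚ] Qbar} :
    σ ∈ asmCofix N hN ↔ ∀ x, σ • x - x ∈ N := Iff.rfl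

theorem asmCofix_normal (hN : IsGaloisStable ℚ N) : (asmCofix N hN).Normal := by
  constructor
  intro σ hσ τ x
  have h1 := hσ (τ⁻¹ • x)
  have h2 : τ • (σ • (τ⁻¹ • x) - τ⁻¹ • x) ∈ N := hN τ _ h1
  have e : (τ * σ * τ⁻¹) • x - x = τ • (σ • (τ⁻¹ • x) - τ⁻¹ • x) := by
    rw [mul_smul, mul_smul, smul_sub, smul_inv_smul]
  rw [e]
  exact h2

end Subgroups

/-- An automorphism fixing the coordinates of a point fixes the point. -/
theorem asm_smul_eq_of_fix (P : FreyPackage) (σ : Qbar ≃ₐ[ℚ] Qbar)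
    (x : Submodule.torsionBy ℤ (P.freyCurve⁄Qbar).Point P.p)
    (hσ : ∀ (x₀ y₀ : Qbar) (h : (P.freyCurve⁄Qbar).Nonsingular x₀ y₀),
      (x : (P.freyCurve⁄Qbar).Point) = Point.some x₀ y₀ h → σ x₀ = x₀ ∧ σ y₀ = y₀) :
    σ • x = x := by
  apply Subtype.ext
  rw [coe_smul_torsionBy]
  generalize hPt : (x : (P.freyCurve⁄Qbar).Point) = Pt at hσ
  rcases Pt with _ | ⟨x₀, y₀, h₀⟩
  · rfl
  · obtain ⟨h₀', e⟩ := smul_some (S := ℚ) σ h₀
    rw [e]
    obtain ⟨e1, e2⟩ := hσ x₀ y₀ h₀ rfl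
    exact point_some_congr _ _ e1 e2

/-- The torsion property of an element of the torsion submodule, in `ℕ`-multiple form. -/
theorem asm_nsmul_eq_zero (P : FreyPackage)
    (x : Submodule.torsionBy ℤ (P.freyCurve⁄Qbar).Point P.p) :
    P.p • (x : (P.freyCurve⁄Qbar).Point) = 0 := by
  have := x.2
  rw [Submodule.mem_torsionBy_iff] at this
  rw [← this, natCast_zsmul]

/-- `x`-coordinate of a point (`0` at infinity). -/
noncomputable def asmX {W : Affine Qbar} : W.Point → Qbar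
  | .zero => 0
  | .some x _ _ => x

/-- `y`-coordinate of a point (`0` at infinity). -/
noncomputable def asmY {W : Affine Qbar} : W.Point → Qbar
  | .zero => 0
  | .some _ y _ => y

/-- The assembly of S13 from its pieces. -/
theorem asm_main (P : FreyPackage)
    (hnon : Nontrivial (Submodule.torsionBy ℤ (P.freyCurve⁄Qbar).Point P.p))
    (hfin : Finite (Submodule.torsionBy ℤ (P.freyCurve⁄Qbar).Point P.p))
    (hGal0 : ∀ S : Finset Qbar, ∃ M : IntermediateField ℚ Qbar,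
      FiniteDimensional ℚ M ∧ Normal ℚ M ∧ ∀ x ∈ S, x ∈ M)
    (hGal1 : ∀ q : ℕ, q.Prime → ∃ A : ValuationSubring Qbar, A.LiesOverPrime q)
    (hG : ∀ (M : IntermediateField ℚ Qbar), FiniteDimensional ℚ M → Normal ℚ M →
      ∀ (H : Subgroup (Qbar ≃ₐ[ℚ] Qbar)), H.Normal →
      (∀ σ : Qbar ≃ₐ[ℚ] Qbar, (∀ x ∈ M, σ x = x) → σ ∈ H) →
      (∀ q : ℕ, q.Prime → ∃ A : ValuationSubring Qbar, A.LiesOverPrime q ∧
        ∀ σ, RelInertia A M σ → σ ∈ H) → H = ⊤)
    (hL2 : ∃ S₀ : Finset Qbar, ∀ (M : IntermediateField ℚ Qbar) (A : ValuationSubring Qbar),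
      FiniteDimensional ℚ M → Normal ℚ M → (∀ x ∈ S₀, x ∈ M) → TorsCoords P M →
      A.LiesOverPrime 2 →
      ∀ N : Submodule (ZMod P.p) (Submodule.torsionBy ℤ (P.freyCurve⁄Qbar).Point P.p),
        IsGaloisStable ℚ N → N ≠ ⊥ → N ≠ ⊤ →
        ∀ σ : Qbar ≃ₐ[ℚ] Qbar, RelInertia A M σ →
          (∀ x ∈ N, σ • x = x) ∧ (∀ x, σ • x - x ∈ N))
    (hLp : ∃ S₀ : Finset Qbar, ∀ (M : IntermediateField ℚ Qbar) (A : ValuationSubring Qbar),
      FiniteDimensional ℚ M → Normal ℚ M → (∀ x ∈ S₀, x ∈ M) → TorsCoords P M →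
      A.LiesOverPrime P.p →
      ∀ N : Submodule (ZMod P.p) (Submodule.torsionBy ℤ (P.freyCurve⁄Qbar).Point P.p),
        IsGaloisStable ℚ N → N ≠ ⊥ → N ≠ ⊤ →
        (∀ σ : Qbar ≃ₐ[ℚ] Qbar, RelInertia A M σ → ∀ x ∈ N, σ • x = x) ∨
        (∀ σ : Qbar ≃ₐ[ℚ] Qbar, RelInertia A M σ → ∀ x, σ • x - x ∈ N))
    (hrat : ∀ (x y : ℚ)
      (h : (P.freyCurve⁄Qbar).Nonsingular (algebraMap ℚ Qbar x) (algebraMap ℚ Qbar y)),
      P.p • (Point.some _ _ h : (P.freyCurve⁄Qbar).Point) ≠ 0)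
    (hred : ¬ GaloisRepIsIrreducible (K := Qbar) ℚ P.freyCurve P.p) :
    HasGaloisStableCofixedLine (K := Qbar) ℚ P.freyCurve P.p := by
  classical
  -- a stable proper nonzero submodule
  obtain ⟨N, hN, hN0, hN1⟩ : ∃ N : Submodule (ZMod P.p)
      (Submodule.torsionBy ℤ (P.freyCurve⁄Qbar).Point P.p),
      IsGaloisStable ℚ N ∧ N ≠ ⊥ ∧ N ≠ ⊤ := by
    by_contra hc
    apply hred
    refine ⟨hnon, fun N hN => ?_⟩
    by_contra hc'
    push Not at hc'
    exact hc ⟨N, hN, hc'.1, hc'.2⟩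
  -- the finite set of coordinates
  obtain ⟨S2, hS2⟩ := hL2
  obtain ⟨Sp, hSp⟩ := hLp
  let _ : Fintype (Submodule.torsionBy ℤ (P.freyCurve⁄Qbar).Point P.p) := Fintype.ofFinite _
  have hAC : IsAlgClosure ℚ Qbar := AlgebraicClosure.instIsAlgClosure ℚ
  have hgal : IsGalois ℚ Qbar := IsAlgClosure.isGalois ℚ Qbar
  let SX : Finset Qbar := Finset.univ.image
    (fun x : Submodule.torsionBy ℤ (P.freyCurve⁄Qbar).Point P.p =>
      asmX (x : (P.freyCurve⁄Qbar).Point))
  let SY : Finset Qbar := Finset.univ.image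
    (fun x : Submodule.torsionBy ℤ (P.freyCurve⁄Qbar).Point P.p =>
      asmY (x : (P.freyCurve⁄Qbar).Point))
  obtain ⟨M, hMfd, hMn, hMS⟩ := hGal0 (SX ∪ SY ∪ S2 ∪ Sp)
  have hTC : TorsCoords P M := by
    intro x y h hp
    have hmem : (Point.some x y h : (P.freyCurve⁄Qbar).Point) ∈
        Submodule.torsionBy ℤ (P.freyCurve⁄Qbar).Point P.p := by
      rw [Submodule.mem_torsionBy_iff, natCast_zsmul]
      exact hp
    constructor
    · apply hMS
      have : x ∈ SX := Finset.mem_image.mpr ⟨⟨_, hmem⟩, Finset.mem_univ _, rfl⟩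
      simp only [Finset.mem_union]
      tauto
    · apply hMS
      have : y ∈ SY := Finset.mem_image.mpr ⟨⟨_, hmem⟩, Finset.mem_univ _, rfl⟩
      simp only [Finset.mem_union]
      tauto
  have hS2M : ∀ x ∈ S2, x ∈ M := fun x hx => hMS x (by simp only [Finset.mem_union]; tauto)
  have hSpM : ∀ x ∈ Sp, x ∈ M := fun x hx => hMS x (by simp only [Finset.mem_union]; tauto)
  -- automorphisms fixing `M` fix all torsion points
  have hfixM : ∀ σ : Qbar ≃ₐ[ℚ] Qbar, (∀ x ∈ M, σ x = x) →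
      ∀ x : Submodule.torsionBy ℤ (P.freyCurve⁄Qbar).Point P.p, σ • x = x := by
    intro σ hσ x
    apply asm_smul_eq_of_fix P σ x
    intro x₀ y₀ h hx
    have hp : P.p • (Point.some x₀ y₀ h : (P.freyCurve⁄Qbar).Point) = 0 := by
      rw [← hx]
      exact asm_nsmul_eq_zero P x
    obtain ⟨h1, h2⟩ := hTC x₀ y₀ h hp
    exact ⟨hσ _ h1, hσ _ h2⟩
  -- primes away from `2p`
  have haway : ∀ q : ℕ, q.Prime → q ≠ 2 → q ≠ P.p → ∃ A : ValuationSubring Qbar,
      A.LiesOverPrime q ∧ ∀ σ, RelInertia A M σ →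
        ∀ x : Submodule.torsionBy ℤ (P.freyCurve⁄Qbar).Point P.p, σ • x = x := by
    intro q hq hq2 hqp
    obtain ⟨A, hA⟩ := hGal1 q hq
    exact ⟨A, hA, fun σ hσ => frey_unram_fin P hq hq2 hqp A hA M hTC σ hσ⟩
  obtain ⟨A2, hA2⟩ := hGal1 2 Nat.prime_two
  obtain ⟨Ap, hAp⟩ := hGal1 P.p P.pp
  have h2 := hS2 M A2 hMfd hMn hS2M hTC hA2 N hN hN0 hN1
  have hp := hSp M Ap hMfd hMn hSpM hTC hAp N hN hN0 hN1
  have hp2 : P.p ≠ 2 := by
    have := P.hp5
    omega
  rcases hp with hp | hp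
  · -- inertia at `p` acts trivially on `N`: then `Γ` fixes `N` pointwise, impossible
    exfalso
    have htop : asmFix N = ⊤ := by
      apply hG M hMfd hMn (asmFix N) (asmFix_normal N hN)
      · intro σ hσ x _
        exact hfixM σ hσ x
      · intro q hq
        by_cases hq2 : q = 2
        · subst hq2
          exact ⟨A2, hA2, fun σ hσ => (h2 σ hσ).1⟩
        by_cases hqp : q = P.p
        · subst hqp
          exact ⟨Ap, hAp, fun σ hσ => hp σ hσ⟩
        · obtain ⟨A, hA, hAσ⟩ := haway q hq hq2 hqp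
          exact ⟨A, hA, fun σ hσ x _ => hAσ σ hσ x⟩
    -- a nonzero element of `N`
    obtain ⟨x, hxN, hx0⟩ := (Submodule.ne_bot_iff N).mp hN0
    have hfix : ∀ σ : Qbar ≃ₐ[ℚ] Qbar, σ • x = x := by
      intro σ
      have : σ ∈ asmFix N := by rw [htop]; exact Subgroup.mem_top σ
      exact this x hxN
    have hxp := asm_nsmul_eq_zero P x
    have hx0' : (x : (P.freyCurve⁄Qbar).Point) ≠ 0 := by
      intro h
      apply hx0
      exact Subtype.ext h
    have hfix' : ∀ σ : Qbar ≃ₐ[ℚ] Qbar, σ • (x : (P.freyCurve⁄Qbar).Point) = x := by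
      intro σ
      have := congrArg Subtype.val (hfix σ)
      rwa [coe_smul_torsionBy] at this
    generalize hPt : (x : (P.freyCurve⁄Qbar).Point) = Pt at hxp hx0' hfix'
    rcases Pt with _ | ⟨x₀, y₀, h₀⟩
    · exact hx0' rfl
    · have hfx : ∀ σ : Qbar ≃ₐ[ℚ] Qbar, σ x₀ = x₀ ∧ σ y₀ = y₀ := by
        intro σ
        obtain ⟨h₀', e⟩ := smul_some (S := ℚ) σ h₀
        have h3 := hfix' σ
        rw [e] at h3
        have h4 := Point.some.inj h3
        exact h4
      have hx₀ : x₀ ∈ (algebraMap ℚ Qbar).range := by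
        have := (InfiniteGalois.mem_range_algebraMap_iff_fixed (k := ℚ) (K := Qbar) x₀).mpr
          (fun σ => (hfx σ).1)
        exact this
      have hy₀ : y₀ ∈ (algebraMap ℚ Qbar).range := by
        have := (InfiniteGalois.mem_range_algebraMap_iff_fixed (k := ℚ) (K := Qbar) y₀).mpr
          (fun σ => (hfx σ).2)
        exact this
      obtain ⟨a, rfl⟩ := hx₀
      obtain ⟨b, rfl⟩ := hy₀
      exact hrat a b h₀ hxp
  · -- inertia at `p` acts trivially on the quotient: `N` is the cofixed line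
    have htop : asmCofix N hN = ⊤ := by
      apply hG M hMfd hMn (asmCofix N hN) (asmCofix_normal N hN)
      · intro σ hσ x
        rw [hfixM σ hσ x, sub_self]
        exact N.zero_mem
      · intro q hq
        by_cases hq2 : q = 2
        · subst hq2
          exact ⟨A2, hA2, fun σ hσ => (h2 σ hσ).2⟩
        by_cases hqp : q = P.p
        · subst hqp
          exact ⟨Ap, hAp, fun σ hσ => hp σ hσ⟩
        · obtain ⟨A, hA, hAσ⟩ := haway q hq hq2 hqp
          refine ⟨A, hA, fun σ hσ x => ?_⟩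
          rw [hAσ σ hσ x, sub_self]
          exact N.zero_mem
    refine ⟨N, hN, hN0, hN1, fun σ x => ?_⟩
    have : σ ∈ asmCofix N hN := by rw [htop]; exact Subgroup.mem_top σ
    exact this x

end Fermat.Agent.S13
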