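import Mathlib

/-!
# S13: a finite normal extension containing a given finite set
-/

set_option autoImplicit false

namespace Fermat.Agent.S13

local notation "Qbar" => AlgebraicClosure ℚ

/-- (Gal0) Every finite subset of `ℚ̄` lies in a finite normal extension of `ℚ`. -/
theorem exists_normal_finite (S : Finset Qbar) :
    ∃ M : IntermediateField ℚ Qbar, FiniteDimensional ℚ M ∧ Normal ℚ M ∧ ∀ x ∈ S, x ∈ M := by
  have hAC : IsAlgClosure ℚ Qbar := AlgebraicClosure.instIsAlgClosure ℚ
  have hint : ∀ z : Qbar, IsIntegral ℚ z := fun z =>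
    (hAC.isAlgebraic.isAlgebraic z).isIntegral
  have hnorm : Normal ℚ Qbar := IsAlgClosure.normal ℚ Qbar
  have hfd : FiniteDimensional ℚ (IntermediateField.adjoin ℚ (S : Set Qbar)) :=
    IntermediateField.finiteDimensional_adjoin fun z _ => hint z
  refine ⟨IntermediateField.normalClosure ℚ (IntermediateField.adjoin ℚ (S : Set Qbar)) Qbar,
    normalClosure.is_finiteDimensional ℚ (IntermediateField.adjoin ℚ (S : Set Qbar)) Qbar,
    normalClosure.normal ℚ (IntermediateField.adjoin ℚ (S : Set Qbar)) Qbar, fun x hx => ?_⟩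
  exact IntermediateField.le_normalClosure (IntermediateField.adjoin ℚ (S : Set Qbar))
    (IntermediateField.subset_adjoin ℚ (S : Set Qbar) hx)

end Fermat.Agent.S13
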