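import Mathlib
import Fermat.Agent.S05.RVal

/-!
# S13, piece (Lp): linear algebra in a plane and a Newton-polygon estimate

* `line_dichotomy`, `action_dichotomy`: in a 2-dimensional space, a line `N` and a proper subspace
  `U` are equal or meet trivially; hence maps `x ↦ act i x` stabilising `N` and moving every
  vector by an element of `U` are trivial on `N` or on the quotient by `N`.
* `newton_poly`: a split polynomial with integral constant coefficient and leading coefficient
  of absolute value `< 1`, all of whose roots have absolute value `≥ 1`, cannot have a set `S` of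
  roots with `|∏ S| = |lc| ^ m > 1` and a further root of absolute value `> 1`.
-/

set_option autoImplicit false

namespace Fermat.Agent.S13.Lp

open Fermat.Agent.S05 Polynomial

section Linear

variable {F V : Type*} [Field F] [AddCommGroup V] [Module F V]

/-- In a plane, a line and a proper subspace are equal or meet trivially. -/
theorem line_dichotomy (hrank : Module.finrank F V = 2) (N U : Submodule F V) (hN0 : N ≠ ⊥)
    (hN1 : N ≠ ⊤) (hU : U ≠ ⊤) : N = U ∨ N ⊓ U = ⊥ := by
  have : Module.Finite F V := Module.finite_of_finrank_pos (by omega)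
  have hNlt : Module.finrank F N < 2 :=
    hrank ▸ Submodule.finrank_lt hN1
  have hUlt : Module.finrank F U < 2 :=
    hrank ▸ Submodule.finrank_lt hU
  have hpos : ∀ W : Submodule F V, W ≠ ⊥ → 0 < Module.finrank F W := by
    intro W hW
    have : Nontrivial W := Submodule.nontrivial_iff_ne_bot.mpr hW
    exact Module.finrank_pos
  have hNpos := hpos N hN0
  by_cases hle : N ≤ U
  · left
    exact Submodule.eq_of_le_of_finrank_le hle (by omega)
  · right
    by_contra hne
    have h1 := hpos _ hne
    have h2 : N ⊓ U = N := Submodule.eq_of_le_of_finrank_le inf_le_left (by omega)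
    exact hle (h2 ▸ inf_le_right)

/-- Maps stabilising a line `N` of a plane and moving every vector by an element of a proper
subspace `U` are all trivial on `N`, or all trivial modulo `N`. -/
theorem action_dichotomy {ι : Type*} (hrank : Module.finrank F V = 2) (N U : Submodule F V)
    (hN0 : N ≠ ⊥) (hN1 : N ≠ ⊤) (hU : U ≠ ⊤) (act : ι → V → V)
    (hN : ∀ i, ∀ x ∈ N, act i x ∈ N) (hact : ∀ i x, act i x - x ∈ U) :
    (∀ i, ∀ x ∈ N, act i x = x) ∨ (∀ i x, act i x - x ∈ N) := by
  rcases line_dichotomy hrank N U hN0 hN1 hU with h | h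
  · right
    intro i x
    rw [h]
    exact hact i x
  · left
    intro i x hx
    have h1 : act i x - x ∈ N ⊓ U := ⟨N.sub_mem (hN i x hx) hx, hact i x⟩
    rw [h, Submodule.mem_bot] at h1
    exact sub_eq_zero.mp h1

end Linear

section Newton

variable {K : Type*} [Field K]

/-- The absolute value as a monoid homomorphism. -/
def wHom (V : RVal K) : K →* ℝ where
  toFun := V.w
  map_one' := V.w_one
  map_mul' := V.w_mul

lemma w_finset_prod (V : RVal K) {ι : Type*} (S : Finset ι) (f : ι → K) :
    V.w (∏ i ∈ S, f i) = ∏ i ∈ S, V.w (f i) :=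
  map_prod (wHom V) f S

lemma w_multiset_prod (V : RVal K) (s : Multiset K) : V.w s.prod = (s.map V.w).prod :=
  map_multiset_prod (wHom V) s

lemma one_le_multiset_prod (s : Multiset ℝ) (h : ∀ r ∈ s, 1 ≤ r) : 1 ≤ s.prod := by
  induction s using Multiset.induction with
  | empty => simp
  | cons a s ih =>
    rw [Multiset.prod_cons]
    have h1 := h a (Multiset.mem_cons_self a s)
    have h2 := ih (fun r hr => h r (Multiset.mem_cons_of_mem hr))
    nlinarith

lemma one_lt_finset_prod {ι : Type*} (S : Finset ι) (f : ι → ℝ) (hS : S.Nonempty)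
    (h : ∀ i ∈ S, 1 < f i) : 1 < ∏ i ∈ S, f i := by
  induction hS using Finset.Nonempty.cons_induction with
  | singleton a => simpa using h
  | cons a s ha hs ih =>
    rw [Finset.prod_cons]
    have h1 := h a (Finset.mem_cons_self a s)
    have h2 := ih (fun i hi => h i (Finset.mem_cons_of_mem hi))
    nlinarith

/-- Newton polygon estimate: the product of the absolute values of the roots of a split
polynomial with integral constant coefficient is at most `|lc|⁻¹`. -/
theorem newton_poly (V : RVal K) (f : K[X]) (hf : f.Splits) (hf0 : f ≠ 0)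
    (hc0 : V.w (f.coeff 0) ≤ 1) (hlc : V.w f.leadingCoeff < 1)
    (hroots : ∀ r, f.IsRoot r → 1 ≤ V.w r)
    (S : Finset K) (hS : ∀ x ∈ S, f.IsRoot x) (x₀ : K) (hx₀ : f.IsRoot x₀) (hx₀S : x₀ ∉ S)
    (hx₀1 : 1 < V.w x₀) (m : ℤ) (hm : V.w (∏ x ∈ S, x) = V.w f.leadingCoeff ^ m)
    (hS1 : 1 < V.w (∏ x ∈ S, x)) : False := by
  classical
  have hlc0 : 0 < V.w f.leadingCoeff := V.w_pos _ (leadingCoeff_ne_zero.mpr hf0)
  have h1 := hf.coeff_zero_eq_leadingCoeff_mul_prod_roots
  have h2 : V.w (f.coeff 0) = V.w f.leadingCoeff * (f.roots.map V.w).prod := by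
    rw [h1, V.w_mul, V.w_mul, V.w_pow, V.w_neg, V.w_one, one_pow, one_mul, w_multiset_prod]
  have hT : (insert x₀ S).val ≤ f.roots := by
    rw [Multiset.le_iff_subset (insert x₀ S).nodup]
    intro r hr
    rw [Finset.mem_val, Finset.mem_insert] at hr
    rw [mem_roots hf0]
    rcases hr with rfl | hr
    · exact hx₀
    · exact hS r hr
  obtain ⟨R, hR⟩ := Multiset.le_iff_exists_add.mp hT
  have h3 : (f.roots.map V.w).prod = (V.w x₀ * V.w (∏ x ∈ S, x)) * (R.map V.w).prod := by
    rw [hR, Multiset.map_add, Multiset.prod_add]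
    congr 1
    rw [w_finset_prod, ← Finset.prod_insert hx₀S]
    rfl
  have h4 : 1 ≤ (R.map V.w).prod := one_le_multiset_prod _ (by
    intro r hr
    obtain ⟨x, hx, rfl⟩ := Multiset.mem_map.mp hr
    apply hroots
    rw [← mem_roots hf0, hR]
    exact Multiset.mem_add.mpr (Or.inr hx))
  have hm0 : m < 0 := by
    by_contra hc
    rw [not_lt] at hc
    have h5 : V.w f.leadingCoeff ^ m ≤ 1 := zpow_le_one₀ hlc0 hlc.le hc
    rw [hm] at hS1
    exact absurd hS1 (not_lt.mpr h5)
  have h5 : 1 ≤ V.w f.leadingCoeff * V.w (∏ x ∈ S, x) := by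
    rw [hm, ← zpow_one_add₀ hlc0.ne']
    exact one_le_zpow_of_nonpos₀ hlc0 hlc.le (by omega)
  have h6 : 1 < V.w f.leadingCoeff * (f.roots.map V.w).prod := by
    rw [h3]
    have h7 : 0 < V.w (∏ x ∈ S, x) := lt_trans one_pos hS1
    calc (1 : ℝ) ≤ V.w f.leadingCoeff * V.w (∏ x ∈ S, x) := h5
      _ < V.w f.leadingCoeff * (V.w x₀ * V.w (∏ x ∈ S, x)) := by
          apply mul_lt_mul_of_pos_left _ hlc0
          nlinarith
      _ ≤ V.w f.leadingCoeff * (V.w x₀ * V.w (∏ x ∈ S, x) * (R.map V.w).prod) := by
          apply mul_le_mul_of_nonneg_left _ hlc0.le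
          have h8 : 0 < V.w x₀ * V.w (∏ x ∈ S, x) := mul_pos (lt_trans one_pos hx₀1) h7
          nlinarith
  rw [← h2] at h6
  exact absurd h6 (not_lt.mpr hc0)

end Newton

end Fermat.Agent.S13.Lp
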