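import Mathlib
import Fermat.Statements.S05
import Fermat.Agent.S05.RVal
import Fermat.Agent.S05.Inertia
import Fermat.Agent.S13.LocalPLinear

/-!
# S13, piece (Lp): the Newton polygon of the division polynomial

`newton_no_line`: let `W` be a Weierstrass curve with integral coefficients and nonzero
discriminant over an algebraically closed field `K` with a real absolute value `V`, and `n` an
odd integer with `|n| < 1`.  Assume that every nonzero `n`-torsion point lies in the kernel of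
reduction (`1 < |x|`), that `n`-torsion is detected by the division polynomial `preΨ n`, and that
products of `x`-coordinates of `n`-torsion points which are fixed by a set `I` of automorphisms
have absolute value in `|n| ^ ℤ`.  Then no submodule `N ≠ ⊥, ⊤` of the `n`-torsion is stable
under `I`.
-/

set_option autoImplicit false

namespace Fermat.Agent.S13.Lp

open Fermat.Agent.S05 Polynomial WeierstrassCurve WeierstrassCurve.Affine

section Integrality

variable {K : Type*} [Field K]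

/-- The valuation ring of a real absolute value, as a subring. -/
def wIntegers (V : RVal K) : Subring K where
  carrier := {x | V.w x ≤ 1}
  mul_mem' := fun {x y} hx hy => by
    change V.w (x * y) ≤ 1
    rw [V.w_mul]
    exact mul_le_one₀ hx (V.w_nonneg y) hy
  one_mem' := V.w_one.le
  add_mem' := fun hx hy => V.w_add_le hx hy
  zero_mem' := by
    change V.w 0 ≤ 1
    rw [V.w_zero]
    exact zero_le_one
  neg_mem' := fun {x} hx => by
    change V.w (-x) ≤ 1
    rw [V.w_neg]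
    exact hx

/-- The division polynomials of a curve with integral coefficients have integral
coefficients. -/
theorem w_coeff_preΨ_le (V : RVal K) (W : WeierstrassCurve K) (h₁ : V.w W.a₁ ≤ 1)
    (h₂ : V.w W.a₂ ≤ 1) (h₃ : V.w W.a₃ ≤ 1) (h₄ : V.w W.a₄ ≤ 1) (h₆ : V.w W.a₆ ≤ 1) (n : ℤ)
    (i : ℕ) : V.w ((W.preΨ n).coeff i) ≤ 1 := by
  let WO : WeierstrassCurve (wIntegers V) :=
    ⟨⟨W.a₁, h₁⟩, ⟨W.a₂, h₂⟩, ⟨W.a₃, h₃⟩, ⟨W.a₄, h₄⟩, ⟨W.a₆, h₆⟩⟩
  have e : W = WO.map (wIntegers V).subtype := by ext <;> rfl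
  rw [e, WeierstrassCurve.map_preΨ, Polynomial.coeff_map]
  exact ((WO.preΨ n).coeff i).2

/-- Over an algebraically closed field every `x` is the abscissa of a point of an elliptic
curve. -/
theorem exists_nonsingular_of_Δ_ne_zero [IsAlgClosed K] (W : WeierstrassCurve.Affine K)
    (hΔ : W.Δ ≠ 0) (x : K) : ∃ y, W.Nonsingular x y := by
  have hdeg : (C (1 : K) * X ^ 2 + C (W.a₁ * x + W.a₃) * X +
      C (-(x ^ 3 + W.a₂ * x ^ 2 + W.a₄ * x + W.a₆)) : K[X]).degree ≠ 0 := by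
    rw [degree_quadratic one_ne_zero]
    norm_num
  obtain ⟨y, hy⟩ := IsAlgClosed.exists_root _ hdeg
  refine ⟨y, (W.equation_iff_nonsingular_of_Δ_ne_zero hΔ).mp ?_⟩
  rw [Affine.equation_iff]
  simp only [IsRoot.def, eval_add, eval_pow, eval_X, eval_mul, eval_C] at hy
  linear_combination hy

end Integrality

section Curve

variable {R : Type*} {S : Type*} {K : Type*} [CommRing R] [CommRing S] [Field K]
  [DecidableEq K] {W' : Affine R} [Algebra R S] [Algebra R K] [Algebra S K]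
  [IsScalarTower R S K]

/-- A nonzero torsion point is an affine point. -/
lemma exists_some_of_ne_zero {n : ℕ} (t : Submodule.torsionBy ℤ (W'⁄K).Point n) (ht : t ≠ 0) :
    ∃ (x y : K) (h : (W'⁄K).Nonsingular x y),
      (t : (W'⁄K).Point) = Point.some x y h ∧ n • Point.some x y h = 0 := by
  have h1 : n • (t : (W'⁄K).Point) = 0 := by
    have := t.2
    rw [Submodule.mem_torsionBy_iff] at this
    rw [← this, natCast_zsmul]
  rcases hteq : (t : (W'⁄K).Point) with _ | ⟨x, y, h⟩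
  · exact absurd (Subtype.ext hteq) ht
  · exact ⟨x, y, h, rfl, by rw [← hteq]; exact h1⟩

/-- The `x`-coordinate of a point (`0` for the point at infinity). -/
def xCoord : (W'⁄K).Point → K
  | .zero => 0
  | .some x _ _ => x

/-- Newton polygon argument: if all nonzero `n`-torsion points lie in the kernel of reduction,
there is no `I`-stable line. -/
theorem newton_no_line [IsAlgClosed K] (V : RVal K) (n : ℕ) (hodd : Odd n) (hn0 : (n : K) ≠ 0)
    (hn1 : V.w (n : K) < 1)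
    (hW : V.w (W'⁄K).a₁ ≤ 1 ∧ V.w (W'⁄K).a₂ ≤ 1 ∧ V.w (W'⁄K).a₃ ≤ 1 ∧ V.w (W'⁄K).a₄ ≤ 1 ∧
      V.w (W'⁄K).a₆ ≤ 1)
    (hΔ : (W'⁄K).Δ ≠ 0)
    (hT : ∀ (x y : K) (h : (W'⁄K).Nonsingular x y),
      n • Point.some x y h = 0 ↔ ((W'⁄K).preΨ n).eval x = 0)
    (hall : ∀ (x y : K) (h : (W'⁄K).Nonsingular x y), n • Point.some x y h = 0 → 1 < V.w x)
    (I : Set (K ≃ₐ[S] K))
    (hNP : ∀ T : Finset K,
      (∀ x ∈ T, ∃ (y : K) (h : (W'⁄K).Nonsingular x y), n • Point.some x y h = 0) →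
      (∏ x ∈ T, x) ≠ 0 → (∀ σ ∈ I, σ (∏ x ∈ T, x) = ∏ x ∈ T, x) →
      ∃ m : ℤ, V.w (∏ x ∈ T, x) = V.w (n : K) ^ m)
    [Finite (Submodule.torsionBy ℤ (W'⁄K).Point n)]
    (N : Submodule (ZMod n) (Submodule.torsionBy ℤ (W'⁄K).Point n))
    (hN : ∀ σ ∈ I, ∀ x ∈ N, σ • x ∈ N) (hN0 : N ≠ ⊥) (hN1 : N ≠ ⊤) : False := by
  classical
  have hfinN : {t : Submodule.torsionBy ℤ (W'⁄K).Point n | t ∈ N ∧ t ≠ 0}.Finite :=
    Set.toFinite _
  set Sx : Finset K := hfinN.toFinset.image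
    (fun t : Submodule.torsionBy ℤ (W'⁄K).Point n => xCoord (t : (W'⁄K).Point)) with hSx
  -- description of the elements of `Sx`
  have hSmem : ∀ x ∈ Sx, ∃ (y : K) (h : (W'⁄K).Nonsingular x y),
      n • Point.some x y h = 0 ∧
      ∃ t : Submodule.torsionBy ℤ (W'⁄K).Point n, t ∈ N ∧
        (t : (W'⁄K).Point) = Point.some x y h := by
    intro x hx
    obtain ⟨t, ht, hxt⟩ := Finset.mem_image.mp hx
    rw [Set.Finite.mem_toFinset] at ht
    obtain ⟨x', y, h, hteq, hn⟩ := exists_some_of_ne_zero t ht.2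
    have hx' : x' = x := by
      rw [← hxt, hteq]; rfl
    subst hx'
    exact ⟨y, h, hn, t, ht.1, hteq⟩
  have hSof : ∀ (t : Submodule.torsionBy ℤ (W'⁄K).Point n) (x y : K)
      (h : (W'⁄K).Nonsingular x y), t ∈ N → (t : (W'⁄K).Point) = Point.some x y h →
      x ∈ Sx := by
    intro t x y h htN hteq
    refine Finset.mem_image.mpr ⟨t, ?_, by rw [hteq]; rfl⟩
    rw [Set.Finite.mem_toFinset]
    refine ⟨htN, ?_⟩
    intro h0
    rw [h0] at hteq
    exact Point.some_ne_zero h hteq.symm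
  -- `Sx` is nonempty
  obtain ⟨t₁, ht₁N, ht₁0⟩ := Submodule.exists_mem_ne_zero_of_ne_bot hN0
  obtain ⟨x₁, y₁, h₁, ht₁eq, -⟩ := exists_some_of_ne_zero t₁ ht₁0
  have hSne : Sx.Nonempty := ⟨x₁, hSof t₁ x₁ y₁ h₁ ht₁N ht₁eq⟩
  -- the elements of `Sx` are roots with `1 < |x|`
  have hSroot : ∀ x ∈ Sx, ((W'⁄K).preΨ n).IsRoot x := by
    intro x hx
    obtain ⟨y, h, hn, -⟩ := hSmem x hx
    exact (hT x y h).mp hn
  have hSw : ∀ x ∈ Sx, 1 < V.w x := by
    intro x hx
    obtain ⟨y, h, hn, -⟩ := hSmem x hx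
    exact hall x y h hn
  -- `Sx` is stable under `I`
  have hSσ : ∀ σ ∈ I, ∀ x ∈ Sx, σ x ∈ Sx := by
    intro σ hσ x hx
    obtain ⟨y, h, hn, t, htN, hteq⟩ := hSmem x hx
    obtain ⟨h', hσeq⟩ := smul_some (S := S) σ h
    refine hSof (σ • t) (σ x) (σ y) h' (hN σ hσ t htN) ?_
    rw [coe_smul_torsionBy, hteq, hσeq]
  have hprodσ : ∀ σ ∈ I, σ (∏ x ∈ Sx, x) = ∏ x ∈ Sx, x := by
    intro σ hσ
    have himg : Sx.image σ = Sx := by
      apply Finset.eq_of_subset_of_card_le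
      · intro z hz
        obtain ⟨x, hx, rfl⟩ := Finset.mem_image.mp hz
        exact hSσ σ hσ x hx
      · rw [Finset.card_image_of_injective _ σ.injective]
    rw [map_prod]
    conv_rhs => rw [← himg]
    rw [Finset.prod_image (fun x _ y _ hxy => σ.injective hxy)]
  have hprod0 : (∏ x ∈ Sx, x) ≠ 0 := by
    rw [Finset.prod_ne_zero_iff]
    intro x hx h0
    have := hSw x hx
    rw [h0, V.w_zero] at this
    linarith
  obtain ⟨m, hm⟩ := hNP Sx (fun x hx => by
    obtain ⟨y, h, hn, -⟩ := hSmem x hx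
    exact ⟨y, h, hn⟩) hprod0 hprodσ
  have hS1 : 1 < V.w (∏ x ∈ Sx, x) := by
    rw [w_finset_prod]
    exact one_lt_finset_prod Sx _ hSne hSw
  -- a further root
  obtain ⟨t₀, ht₀N⟩ : ∃ t₀ : Submodule.torsionBy ℤ (W'⁄K).Point n, t₀ ∉ N := by
    by_contra hcon
    push Not at hcon
    exact hN1 ((Submodule.eq_top_iff').mpr hcon)
  have ht₀0 : t₀ ≠ 0 := fun h => ht₀N (h ▸ N.zero_mem)
  obtain ⟨x₀, y₀, h₀, ht₀eq, hn₀⟩ := exists_some_of_ne_zero t₀ ht₀0
  have hx₀S : x₀ ∉ Sx := by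
    intro hx
    obtain ⟨y, h, hn, t, htN, hteq⟩ := hSmem x₀ hx
    rcases Affine.Y_eq_of_X_eq h.1 h₀.1 rfl with hy | hy
    · subst hy
      exact ht₀N ((Subtype.ext (hteq.trans ht₀eq.symm) : t = t₀) ▸ htN)
    · have hneg : (t : (W'⁄K).Point) = -(t₀ : (W'⁄K).Point) := by
        rw [hteq, ht₀eq, Point.neg_some]
        subst hy
        rfl
      have ht : t = -t₀ := Subtype.ext hneg
      have : t₀ = -t := by rw [ht, neg_neg]
      exact ht₀N (this ▸ N.neg_mem htN)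
  have hcast : ((n : ℤ) : K) ≠ 0 := by rwa [Int.cast_natCast]
  have hf0 : (W'⁄K).preΨ n ≠ 0 := (W'⁄K).preΨ_ne_zero hcast
  have hlc : ((W'⁄K).preΨ n).leadingCoeff = (n : K) := by
    rw [(W'⁄K).leadingCoeff_preΨ hcast, if_neg (by
      rw [Int.not_even_iff_odd]; exact_mod_cast hodd)]
    push_cast; rfl
  refine newton_poly V ((W'⁄K).preΨ n) (IsAlgClosed.splits _) hf0
    (w_coeff_preΨ_le V (W'⁄K) hW.1 hW.2.1 hW.2.2.1 hW.2.2.2.1 hW.2.2.2.2 n 0)
    (by rw [hlc]; exact hn1) ?_ Sx hSroot x₀ ((hT x₀ y₀ h₀).mp hn₀) hx₀S (hall x₀ y₀ h₀ hn₀) m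
    (by rw [hlc]; exact hm) hS1
  intro r hr
  obtain ⟨y, h⟩ := exists_nonsingular_of_Δ_ne_zero (W'⁄K) hΔ r
  exact (hall r y h ((hT r y h).mpr hr)).le

end Curve

end Fermat.Agent.S13.Lp
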