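import Mathlib
import Fermat.Agent.S05.Short
import Fermat.Agent.S05.RVal
import Fermat.Agent.S05.KerRed
import Fermat.Agent.S05.CongGood
import Fermat.Agent.S05.Cores
import Fermat.Agent.S05.MultTorsion

/-!
# S13, piece (Lp): the short model at a place of odd residue characteristic

On the short model `Y² = X³ + aX² + bX` over a field with a real absolute value `V` (integral
coefficients, `2` and `a² - 4b` units, and `a` a unit square if `b` is a nonunit) we consider

* `InK1`: the kernel of reduction (`0` or `1 < |X|`);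
* `InE0`: the points with nonsingular reduction (everything if `b` is a unit, `0` or `1 ≤ |X|`
  otherwise).

Both are subgroups (`K1sub`, `E0sub`).  The two pair lemmas are

* `cong_inK1`: if `P ∈ E₀` and `P'` is congruent to `P`, then `P' - P ∈ K₁`;
* `torsion_sub_inE0`: if `P` is torsion of odd order and `P'` has the same depth and the same
  tangent direction as `P`, then `P' - P ∈ E₀`.
-/

set_option autoImplicit false
set_option linter.unusedSectionVars false

namespace Fermat.Agent.S13.Lp

open Fermat.Agent.S05 WeierstrassCurve WeierstrassCurve.Affine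

variable {K : Type*} [Field K] [DecidableEq K]

/-- The hypotheses on the short model `Y² = X³ + aX² + bX` at a place of odd residue
characteristic: integral coefficients, `2` and `a² - 4b` units, and multiplicative reduction
(with `a` a unit square) as soon as `b` is not a unit. -/
structure LpSetting (V : RVal K) (a b : K) : Prop where
  wa : V.w a ≤ 1
  wb : V.w b ≤ 1
  w2 : V.w 2 = 1
  wd : V.w (a ^ 2 - 4 * b) = 1
  mult : V.w b < 1 → ∃ α : K, MultSetting V a b α

/-- The kernel of reduction of the short model. -/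
def InK1 (V : RVal K) {a b : K} : (shortW a b).toAffine.Point → Prop
  | .zero => True
  | .some x _ _ => 1 < V.w x

/-- The points of the short model with nonsingular reduction. -/
def InE0 (V : RVal K) {a b : K} : (shortW a b).toAffine.Point → Prop
  | .zero => True
  | .some x _ _ => V.w b = 1 ∨ 1 ≤ V.w x

section Basic

variable {V : RVal K} {a b : K}

lemma inK1_zero : InK1 V (0 : (shortW a b).toAffine.Point) := trivial

lemma inE0_zero : InE0 V (0 : (shortW a b).toAffine.Point) := trivial

lemma inK1_some {x y : K} (h : (shortW a b).toAffine.Nonsingular x y) :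
    InK1 V (Point.some x y h) ↔ 1 < V.w x := Iff.rfl

lemma inE0_some {x y : K} (h : (shortW a b).toAffine.Nonsingular x y) :
    InE0 V (Point.some x y h) ↔ (V.w b = 1 ∨ 1 ≤ V.w x) := Iff.rfl

lemma InK1.inE0 {P : (shortW a b).toAffine.Point} (h : InK1 V P) : InE0 V P := by
  cases P with
  | zero => trivial
  | some x y hxy => exact Or.inr (le_of_lt h)

lemma inK1_neg {P : (shortW a b).toAffine.Point} : InK1 V (-P) ↔ InK1 V P := by
  cases P <;> exact Iff.rfl

lemma inE0_neg {P : (shortW a b).toAffine.Point} : InE0 V (-P) ↔ InE0 V P := by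
  cases P <;> exact Iff.rfl

lemma inE0_of_wb (hb : V.w b = 1) (P : (shortW a b).toAffine.Point) : InE0 V P := by
  cases P with
  | zero => trivial
  | some x y h => exact Or.inl hb

lemma inK1_iff_inKer (A : ValuationSubring K) (hV1 : ∀ x, V.w x ≤ 1 ↔ x ∈ A)
    (P : (shortW a b).toAffine.Point) :
    InK1 V P ↔ KerRed.InKer A (shortW a b).toAffine P := by
  cases P with
  | zero => exact Iff.rfl
  | some x y h =>
    change 1 < V.w x ↔ x ∉ A
    rw [← hV1, not_le]

lemma short_integralCoeffs (A : ValuationSubring K) (hV1 : ∀ x, V.w x ≤ 1 ↔ x ∈ A)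
    (ha : V.w a ≤ 1) (hb : V.w b ≤ 1) : KerRed.IntegralCoeffs A (shortW a b).toAffine :=
  ⟨A.zero_mem, (hV1 a).mp ha, A.zero_mem, (hV1 b).mp hb, A.zero_mem⟩

/-- The kernel of reduction is closed under addition. -/
theorem inK1_add (A : ValuationSubring K) (hV1 : ∀ x, V.w x ≤ 1 ↔ x ∈ A)
    (ha : V.w a ≤ 1) (hb : V.w b ≤ 1) {P Q : (shortW a b).toAffine.Point}
    (hP : InK1 V P) (hQ : InK1 V Q) : InK1 V (P + Q) := by
  rw [inK1_iff_inKer A hV1] at hP hQ ⊢
  exact KerRed.InKer_add (short_integralCoeffs A hV1 ha hb) hP hQ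

/-- The points with nonsingular reduction are closed under addition. -/
theorem inE0_add (hS : LpSetting V a b) {P Q : (shortW a b).toAffine.Point}
    (hP : InE0 V P) (hQ : InE0 V Q) : InE0 V (P + Q) := by
  rcases lt_or_eq_of_le hS.wb with hb | hb
  · obtain ⟨α, hM⟩ := hS.mult hb
    cases P with
    | zero => rwa [← Point.zero_def, zero_add]
    | some x₁ y₁ h₁ =>
      cases Q with
      | zero => rwa [← Point.zero_def, add_zero]
      | some x₂ y₂ h₂ =>
        have hx₁ : 1 ≤ V.w x₁ := hP.resolve_left hb.ne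
        have hx₂ : 1 ≤ V.w x₂ := hQ.resolve_left hb.ne
        rcases hM.add_00 h₁ h₂ hx₁ hx₂ with h0 | ⟨x₃, y₃, h₃, hadd, hx₃⟩
        · rw [h0]; trivial
        · rw [hadd]; exact Or.inr hx₃
  · exact inE0_of_wb hb _

/-- The kernel of reduction as a subgroup. -/
def K1sub (V : RVal K) (A : ValuationSubring K) (hV1 : ∀ x, V.w x ≤ 1 ↔ x ∈ A) {a b : K}
    (ha : V.w a ≤ 1) (hb : V.w b ≤ 1) : AddSubgroup (shortW a b).toAffine.Point where
  carrier := {P | InK1 V P}
  add_mem' := fun hP hQ => inK1_add A hV1 ha hb hP hQ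
  zero_mem' := (inK1_zero : InK1 V (0 : (shortW a b).toAffine.Point))
  neg_mem' := fun {P} hP => (inK1_neg (V := V) (P := P)).mpr hP

/-- The points with nonsingular reduction as a subgroup. -/
def E0sub (V : RVal K) {a b : K} (hS : LpSetting V a b) :
    AddSubgroup (shortW a b).toAffine.Point where
  carrier := {P | InE0 V P}
  add_mem' := fun hP hQ => inE0_add hS hP hQ
  zero_mem' := (inE0_zero : InE0 V (0 : (shortW a b).toAffine.Point))
  neg_mem' := fun {P} hP => (inE0_neg (V := V) (P := P)).mpr hP

lemma mem_K1sub (A : ValuationSubring K) (hV1 : ∀ x, V.w x ≤ 1 ↔ x ∈ A)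
    (ha : V.w a ≤ 1) (hb : V.w b ≤ 1) {P : (shortW a b).toAffine.Point} :
    P ∈ K1sub V A hV1 ha hb ↔ InK1 V P := Iff.rfl

lemma mem_E0sub (hS : LpSetting V a b) {P : (shortW a b).toAffine.Point} :
    P ∈ E0sub V hS ↔ InE0 V P := Iff.rfl

end Basic

section Pairs

variable {V : RVal K} {a b : K}

/-- (P3) If `P = (x, y)` has nonsingular reduction (or lies in the kernel of reduction) and
`P' = (x', y')` has the same depth and is congruent to `P` when `P` is integral, then
`P' - P` lies in the kernel of reduction. -/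
theorem cong_inK1 (A : ValuationSubring K) (hV1 : ∀ x, V.w x ≤ 1 ↔ x ∈ A)
    (hS : LpSetting V a b) {x y x' y' : K}
    (h : (shortW a b).toAffine.Nonsingular x y) (h' : (shortW a b).toAffine.Nonsingular x' y')
    (hE : InE0 V (Point.some x y h)) (hw : V.w x' = V.w x)
    (hxx : V.w x ≤ 1 → V.w (x' - x) < 1) (hyy : V.w y ≤ 1 → V.w (y' - y) < 1) :
    InK1 V (Point.some x' y' h' - Point.some x y h) := by
  by_cases hx : V.w x ≤ 1
  · have he := shortW_equation.mp h.1
    have hy : V.w y ≤ 1 := w_y_le_one V hS.wa hS.wb he hx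
    have hns : V.w y = 1 ∨ V.w (3 * x ^ 2 + 2 * a * x + b) = 1 := by
      rcases lt_or_eq_of_le hx with hx1 | hx1
      · rcases hE with hb | hx2
        · exact Or.inr (ns_of_unit_b V hS.wa hb hx1)
        · exact absurd hx2 (not_le.mpr hx1)
      · exact ns_of_unit_x V hS.wa hS.wb hS.w2 hS.wd he hx1
    rcases cong_sub_good V hS.wa hS.wb hS.w2 h h' hx (hxx hx) (hyy hy) hns with
      h0 | ⟨x₃, y₃, h₃, hsub, hx₃⟩
    · rw [h0]; trivial
    · rw [hsub]; exact hx₃
  · have hx1 : 1 < V.w x := not_le.mp hx
    rw [sub_eq_add_neg]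
    refine inK1_add A hV1 hS.wa hS.wb ?_ ?_
    · change 1 < V.w x'
      rw [hw]; exact hx1
    · rw [inK1_neg]; exact hx1

/-- (P4) If `P = (x, y)` is a torsion point of odd order and `P' = (x', y')` has the same depth
and (when `P` reduces to the node) the same tangent direction, then `P' - P` has nonsingular
reduction. -/
theorem torsion_sub_inE0 (hS : LpSetting V a b) {x y x' y' : K}
    (h : (shortW a b).toAffine.Nonsingular x y) (h' : (shortW a b).toAffine.Nonsingular x' y')
    {p : ℕ} (hp : Odd p) (hpt : p • Point.some x y h = 0)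
    (hw : V.w x' = V.w x)
    (hq : V.w b < V.w x → V.w x < 1 → V.w y = V.w x → V.w (y' / x' - y / x) < 1) :
    InE0 V (Point.some x' y' h' - Point.some x y h) := by
  rcases lt_or_eq_of_le hS.wb with hb | hb
  swap
  · exact inE0_of_wb hb _
  obtain ⟨α, hM⟩ := hS.mult hb
  by_cases hx : 1 ≤ V.w x
  · rw [sub_eq_add_neg]
    refine inE0_add hS ?_ ?_
    · exact Or.inr (hw ▸ hx)
    · rw [inE0_neg]; exact Or.inr hx
  have hx1 : V.w x < 1 := not_le.mp hx
  obtain ⟨hbx, -⟩ := mult_torsion_val V hM.hα hM.wα hM.w2 hM.b_ne_zero hb h hp hpt hx1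
  have e := shortW_equation.mp h.1
  have e' := shortW_equation.mp h'.1
  have hbx' : V.w b < V.w x' := hw ▸ hbx
  have hx1' : V.w x' < 1 := hw ▸ hx1
  have hxpos : 0 < V.w x := lt_trans hM.wb_pos hbx
  have hxpos' : 0 < V.w x' := hw ▸ hxpos
  have hx0 : x ≠ 0 := by
    intro h0; rw [h0, V.w_zero] at hxpos; exact lt_irrefl _ hxpos
  have hx0' : x' ≠ 0 := by
    intro h0; rw [h0, V.w_zero] at hxpos'; exact lt_irrefl _ hxpos'
  have hquo := hq hbx hx1 (hM.w_y_of_mid e hbx hx1)
  have key : ∀ c : K, V.w (y - c * x) < V.w x → V.w (y / x - c) < 1 := by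
    intro c h1
    have e1 : y - c * x = x * (y / x - c) := by field_simp
    rw [e1, V.w_mul] at h1
    by_contra hc
    rw [not_lt] at hc
    nlinarith
  have key' : ∀ c : K, V.w (y' - c * x') < V.w x' → V.w (y' / x' - c) < 1 := by
    intro c h1
    have e1 : y' - c * x' = x' * (y' / x' - c) := by field_simp
    rw [e1, V.w_mul] at h1
    by_contra hc
    rw [not_lt] at hc
    nlinarith
  have h2α : V.w (2 * α) = 1 := by rw [V.w_mul, hM.w2, hM.wα, one_mul]
  obtain ⟨hneg, hnegeq⟩ := neg_some_short h
  rw [sub_eq_add_neg, hnegeq]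
  rcases hM.branch_cases e hbx hx1 with hp₀ | hm₀
  · -- `P` on the `+` branch; then so is `P'`
    have hp₀' : V.w (y' - α * x') < V.w x' := by
      rcases hM.branch_cases e' hbx' hx1' with h1 | h1
      · exact h1
      · exfalso
        have a1 := key α hp₀
        have a2 := key' (-α) (by rw [show y' - -α * x' = y' + α * x' by ring]; exact h1)
        have e2 : 2 * α = (y' / x' - -α) - (y / x - α) - (y' / x' - y / x) := by ring
        have h3 : V.w (2 * α) < 1 := by
          rw [e2]; exact V.w_sub_lt (V.w_sub_lt a2 a1) hquo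
        rw [h2α] at h3; exact lt_irrefl _ h3
    have hm : V.w (-y + α * x) < V.w x := by
      rw [show -y + α * x = -(y - α * x) by ring, V.w_neg]; exact hp₀
    rcases hM.add_pm h' hneg hxpos' hp₀' hw.symm hm with h0 | ⟨x₃, y₃, h₃, hadd, hx₃⟩
    · rw [h0]; trivial
    · rw [hadd]; exact Or.inr hx₃
  · -- `P` on the `-` branch; then so is `P'`
    have hm₀' : V.w (y' + α * x') < V.w x' := by
      rcases hM.branch_cases e' hbx' hx1' with h1 | h1
      · exfalso
        have a1 := key (-α) (by rw [show y - -α * x = y + α * x by ring]; exact hm₀)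
        have a2 := key' α h1
        have e2 : 2 * α = (y / x - -α) - (y' / x' - α) + (y' / x' - y / x) := by ring
        have h3 : V.w (2 * α) < 1 := by
          rw [e2]; exact V.w_add_lt (V.w_sub_lt a1 a2) hquo
        rw [h2α] at h3; exact lt_irrefl _ h3
      · exact h1
    have hpl : V.w (-y - α * x) < V.w x := by
      rw [show -y - α * x = -(y + α * x) by ring, V.w_neg]; exact hm₀
    rw [add_comm]
    rcases hM.add_pm hneg h' hxpos hpl hw hm₀' with h0 | ⟨x₃, y₃, h₃, hadd, hx₃⟩
    · rw [h0]; trivial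
    · rw [hadd]; exact Or.inr hx₃

end Pairs

end Fermat.Agent.S13.Lp
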