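import Mathlib
import Fermat.Statements.S05
import Fermat.Agent.S05.Short
import Fermat.Agent.S05.RVal
import Fermat.Agent.S05.RValOfSubring
import Fermat.Agent.S05.Inertia
import Fermat.Agent.S05.Cores
import Fermat.Agent.S05.Glue
import Fermat.Agent.S13.LocalPShort
import Fermat.Agent.S13.LocalPLinear
import Fermat.Agent.S13.LocalPNewton

/-!
# S13, piece (Lp): the Frey curve at the prime `p`

`frey_local_p`: let `A` be a valuation subring of `ℚ̄` above `p = P.p` with absolute value `V`,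
and let `I` be a set of automorphisms of `ℚ̄` which (on an intermediate field `M` containing the
coordinates of the `p`-torsion points of the Frey curve) preserve `V`, move integral elements by
non-units, and whose fixed elements have absolute value in `|p| ^ ℤ`.  If the `p`-torsion is a
plane over `𝔽_p` and `N` is an `I`-stable line, then `I` acts trivially on `N` or on the quotient
by `N`.
-/

set_option autoImplicit false

namespace Fermat.Agent.S13.Lp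

open Fermat.Agent.S05 WeierstrassCurve WeierstrassCurve.Affine

local notation "Qbar" => AlgebraicClosure ℚ

/-- A prime dividing one of two coprime integers does not divide the other. -/
lemma lp_not_dvd_of_gcd_eq_one {q : ℕ} (hq : q.Prime) {m n : ℤ} (hmn : gcd m n = 1)
    (hm : (q : ℤ) ∣ m) : ¬ (q : ℤ) ∣ n := by
  intro hn
  have h1 : (q : ℤ) ∣ gcd m n := dvd_gcd hm hn
  rw [hmn] at h1
  have h2 : q ∣ 1 := by exact_mod_cast h1
  exact hq.one_lt.ne' (Nat.dvd_one.mp h2)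

/-- The short model of the Frey curve attached to a root `ρ` of the 2-division cubic, at an odd
prime `q`. -/
theorem frey_short_of (P : FreyPackage) {q : ℕ} (hq : q.Prime) (hq2 : q ≠ 2) (V : RVal Qbar)
    (hVq : V.w (q : Qbar) < 1) (ρ : ℤ)
    (hρ : ρ ^ 3 + (P.b ^ P.p - P.a ^ P.p) * ρ ^ 2 - P.a ^ P.p * P.b ^ P.p * ρ = 0)
    (as bs : ℤ) (has : as = P.b ^ P.p - P.a ^ P.p + 3 * ρ)
    (hbs : bs = 3 * ρ ^ 2 + 2 * (P.b ^ P.p - P.a ^ P.p) * ρ - P.a ^ P.p * P.b ^ P.p)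
    (hdisc : ¬ (q : ℤ) ∣ as ^ 2 - 4 * bs)
    (hcase : (q : ℤ) ∣ bs → ¬ (q : ℤ) ∣ as ∧ bs ≠ 0) :
    ∃ (φ : (P.freyCurve⁄Qbar).Point →+ (shortW (as : Qbar) (bs : Qbar)).toAffine.Point),
      LpSetting V (as : Qbar) (bs : Qbar) ∧ Function.Injective φ ∧
      ∀ (x y : Qbar) (h : (P.freyCurve⁄Qbar).Nonsingular x y),
        ∃ h', φ (.some x y h) = .some (4 * x - (ρ : Qbar)) (8 * y + 4 * x) h' := by
  have h2 : (2 : Qbar) ≠ 0 := two_ne_zero
  have hr : ((ρ : ℤ) : Qbar) ^ 3 +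
      (4 * (WeierstrassCurve.baseChange P.freyCurve Qbar).a₂ + 1) * ((ρ : ℤ) : Qbar) ^ 2 +
      16 * (WeierstrassCurve.baseChange P.freyCurve Qbar).a₄ * ((ρ : ℤ) : Qbar) = 0 := by
    rw [frey_a₂, frey_a₄]
    have := congrArg (Int.cast (R := Qbar)) hρ
    push_cast at this ⊢
    linear_combination this
  obtain ⟨φ, hinj, hφ⟩ := exists_shortHom' (WeierstrassCurve.baseChange P.freyCurve Qbar) h2
    (frey_a₁ P) (frey_a₃ P) (frey_a₆ P) ((ρ : ℤ) : Qbar) hr ((as : ℤ) : Qbar) ((bs : ℤ) : Qbar)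
    (by rw [frey_a₂, has]; push_cast; ring)
    (by
      have h4 := frey_a₄ P
      rw [frey_a₂, h4, hbs]; push_cast; ring)
  refine ⟨φ, ?_, hinj, hφ⟩
  have hw2 : V.w (2 : Qbar) = 1 := by
    have h := V.w_intCast_eq_one_of_not_dvd hq hVq (n := 2) (by
      intro hc
      have h1 : q ∣ 2 := by exact_mod_cast hc
      exact hq2 ((Nat.prime_dvd_prime_iff_eq hq Nat.prime_two).mp h1))
    simpa using h
  refine ⟨V.w_intCast_le _, V.w_intCast_le _, hw2, ?_, ?_⟩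
  · have h := V.w_intCast_eq_one_of_not_dvd hq hVq hdisc
    have e : (((as ^ 2 - 4 * bs : ℤ)) : Qbar) = ((as : ℤ) : Qbar) ^ 2 - 4 * ((bs : ℤ) : Qbar) := by
      push_cast; ring
    rwa [e] at h
  · intro hb
    have hqb : (q : ℤ) ∣ bs := by
      by_contra hcon
      exact hb.ne (V.w_intCast_eq_one_of_not_dvd hq hVq hcon)
    obtain ⟨has_unit, hbs0⟩ := hcase hqb
    have ha1 := V.w_intCast_eq_one_of_not_dvd hq hVq has_unit
    obtain ⟨α, hα⟩ : ∃ α : Qbar, α ^ 2 = ((as : ℤ) : Qbar) :=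
      IsAlgClosed.exists_pow_nat_eq _ (by norm_num)
    have hα1 : V.w α = 1 := by
      have h1 : V.w α ^ 2 = 1 := by rw [← V.w_pow, hα, ha1]
      have h0 := V.w_nonneg α
      nlinarith
    have hb0 : ((bs : ℤ) : Qbar) ≠ 0 := by exact_mod_cast hbs0
    exact ⟨α, hα, hα1, hw2, V.w_pos _ hb0, hb⟩

/-- The short model of the Frey curve at an odd prime `q`. -/
theorem frey_exists_short (P : FreyPackage) {q : ℕ} (hq : q.Prime) (hq2 : q ≠ 2) (V : RVal Qbar)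
    (hVq : V.w (q : Qbar) < 1) :
    ∃ (ρ : ℤ) (as bs : Qbar)
      (φ : (P.freyCurve⁄Qbar).Point →+ (shortW as bs).toAffine.Point),
      LpSetting V as bs ∧ Function.Injective φ ∧
      ∀ (x y : Qbar) (h : (P.freyCurve⁄Qbar).Nonsingular x y),
        ∃ h', φ (.some x y h) = .some (4 * x - (ρ : Qbar)) (8 * y + 4 * x) h' := by
  have hqi : Prime (q : ℤ) := Nat.prime_iff_prime_int.mp hq
  have hp0 : P.p ≠ 0 := P.hp0
  have hFLT := P.hFLT
  by_cases hc : (q : ℤ) ∣ P.c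
  · -- `q ∣ c`: `ρ = a ^ p`
    have hna : ¬ (q : ℤ) ∣ P.a := by
      have := P.hgcdac
      exact lp_not_dvd_of_gcd_eq_one hq (by rw [gcd_comm]; exact this) hc
    have hnb : ¬ (q : ℤ) ∣ P.b := by
      have := P.hgcdbc
      exact lp_not_dvd_of_gcd_eq_one hq (by rw [gcd_comm]; exact this) hc
    obtain ⟨φ, h1, h2, h3⟩ := frey_short_of P hq hq2 V hVq (P.a ^ P.p) (by ring) _ _ rfl rfl
      (by
        have e : (P.b ^ P.p - P.a ^ P.p + 3 * P.a ^ P.p) ^ 2 -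
            4 * (3 * (P.a ^ P.p) ^ 2 + 2 * (P.b ^ P.p - P.a ^ P.p) * P.a ^ P.p -
              P.a ^ P.p * P.b ^ P.p) = P.b ^ (P.p * 2) := by ring
        rw [e]
        exact fun h => hnb (hqi.dvd_of_dvd_pow h))
      (by
        intro _
        have e1 : P.b ^ P.p - P.a ^ P.p + 3 * P.a ^ P.p = P.c ^ P.p + P.a ^ P.p := by
          rw [← hFLT]; ring
        have e2 : 3 * (P.a ^ P.p) ^ 2 + 2 * (P.b ^ P.p - P.a ^ P.p) * P.a ^ P.p -
            P.a ^ P.p * P.b ^ P.p = (P.a * P.c) ^ P.p := by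
          rw [mul_pow, ← hFLT]; ring
        refine ⟨?_, ?_⟩
        · rw [e1]
          intro h
          have h1 : (q : ℤ) ∣ P.c ^ P.p := dvd_pow hc hp0
          have h2 : (q : ℤ) ∣ P.a ^ P.p := (dvd_add_right h1).mp h
          exact hna (hqi.dvd_of_dvd_pow h2)
        · rw [e2]
          exact pow_ne_zero _ (mul_ne_zero P.ha0 P.hc0))
    exact ⟨_, _, _, φ, h1, h2, h3⟩
  · -- `q ∤ c`: `ρ = 0`
    obtain ⟨φ, h1, h2, h3⟩ := frey_short_of P hq hq2 V hVq 0 (by ring) _ _ rfl rfl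
      (by
        have e : (P.b ^ P.p - P.a ^ P.p + 3 * 0) ^ 2 -
            4 * (3 * (0 : ℤ) ^ 2 + 2 * (P.b ^ P.p - P.a ^ P.p) * 0 - P.a ^ P.p * P.b ^ P.p) =
            P.c ^ (P.p * 2) := by
          rw [pow_mul, ← hFLT]; ring
        rw [e]
        exact fun h => hc (hqi.dvd_of_dvd_pow h))
      (by
        intro hqb
        have e2 : 3 * (0 : ℤ) ^ 2 + 2 * (P.b ^ P.p - P.a ^ P.p) * 0 - P.a ^ P.p * P.b ^ P.p =
            -(P.a * P.b) ^ P.p := by
          rw [mul_pow]; ring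
        have e1 : P.b ^ P.p - P.a ^ P.p + 3 * 0 = P.b ^ P.p - P.a ^ P.p := by ring
        rw [e2] at hqb
        have hab : (q : ℤ) ∣ P.a * P.b := hqi.dvd_of_dvd_pow ((dvd_neg).mp hqb)
        refine ⟨?_, ?_⟩
        · rw [e1]
          intro h
          rcases hqi.dvd_or_dvd hab with ha | hb
          · have hnb : ¬ (q : ℤ) ∣ P.b := lp_not_dvd_of_gcd_eq_one hq P.hgcdab ha
            have h1 : (q : ℤ) ∣ P.a ^ P.p := dvd_pow ha hp0
            have h2 : (q : ℤ) ∣ P.b ^ P.p := (dvd_sub_left h1).mp h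
            exact hnb (hqi.dvd_of_dvd_pow h2)
          · have hna : ¬ (q : ℤ) ∣ P.a :=
              lp_not_dvd_of_gcd_eq_one hq (by rw [gcd_comm]; exact P.hgcdab) hb
            have h1 : (q : ℤ) ∣ P.b ^ P.p := dvd_pow hb hp0
            have h2 : (q : ℤ) ∣ P.a ^ P.p := (dvd_sub_right h1).mp h
            exact hna (hqi.dvd_of_dvd_pow h2)
        · rw [e2]
          exact neg_ne_zero.mpr (pow_ne_zero _ (mul_ne_zero P.ha0 P.hb0)))
    exact ⟨_, _, _, φ, h1, h2, h3⟩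

/-- The discriminant of the Frey curve is nonzero. -/
theorem frey_Δ_ne_zero (P : FreyPackage) : (P.freyCurve⁄Qbar).Δ ≠ 0 := by
  have h1 : (P.freyCurve⁄Qbar).Δ = algebraMap ℚ Qbar P.freyCurve.Δ := by
    change (P.freyCurve.map (algebraMap ℚ Qbar)).Δ = _
    rw [WeierstrassCurve.map_Δ]
  rw [h1]
  have h2 : P.freyCurve.Δ = ((P.a : ℚ) ^ P.p * (P.b : ℚ) ^ P.p * (P.c : ℚ) ^ P.p) ^ 2 / 256 := by
    have hFLT : (P.c : ℚ) ^ P.p = (P.a : ℚ) ^ P.p + (P.b : ℚ) ^ P.p := by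
      have := congrArg (Int.cast (R := ℚ)) P.hFLT
      push_cast at this
      exact this.symm
    rw [hFLT]
    simp only [FreyPackage.freyCurve, WeierstrassCurve.Δ, WeierstrassCurve.b₂, WeierstrassCurve.b₄,
      WeierstrassCurve.b₆, WeierstrassCurve.b₈]
    ring
  rw [h2]
  have ha : (P.a : ℚ) ≠ 0 := by exact_mod_cast P.ha0
  have hb : (P.b : ℚ) ≠ 0 := by exact_mod_cast P.hb0
  have hc : (P.c : ℚ) ≠ 0 := by exact_mod_cast P.hc0
  rw [map_ne_zero]
  positivity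

/-- The coefficients of the Frey curve are integral at an odd prime. -/
theorem frey_coeffs_integral (P : FreyPackage) (V : RVal Qbar) (h2 : V.w (2 : Qbar) = 1) :
    V.w (P.freyCurve⁄Qbar).a₁ ≤ 1 ∧ V.w (P.freyCurve⁄Qbar).a₂ ≤ 1 ∧
      V.w (P.freyCurve⁄Qbar).a₃ ≤ 1 ∧ V.w (P.freyCurve⁄Qbar).a₄ ≤ 1 ∧
      V.w (P.freyCurve⁄Qbar).a₆ ≤ 1 := by
  have h4 : V.w (4 : Qbar) = 1 := by
    rw [show (4 : Qbar) = 2 * 2 by norm_num, V.w_mul, h2, one_mul]
  have h16 : V.w (16 : Qbar) = 1 := by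
    rw [show (16 : Qbar) = 4 * 4 by norm_num, V.w_mul, h4, one_mul]
  refine ⟨?_, ?_, ?_, ?_, ?_⟩
  · change V.w (WeierstrassCurve.baseChange P.freyCurve Qbar).a₁ ≤ 1
    rw [frey_a₁, V.w_one]
  · change V.w (WeierstrassCurve.baseChange P.freyCurve Qbar).a₂ ≤ 1
    have e := frey_a₂ P
    have e' : 4 * (WeierstrassCurve.baseChange P.freyCurve Qbar).a₂ =
        ((P.b ^ P.p - P.a ^ P.p : ℤ) : Qbar) - 1 := by rw [← e]; ring
    have h := V.w_sub_le (V.w_intCast_le (P.b ^ P.p - P.a ^ P.p)) V.w_one.le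
    rw [← e', V.w_mul, h4, one_mul] at h
    exact h
  · change V.w (WeierstrassCurve.baseChange P.freyCurve Qbar).a₃ ≤ 1
    rw [frey_a₃, V.w_zero]
    exact zero_le_one
  · change V.w (WeierstrassCurve.baseChange P.freyCurve Qbar).a₄ ≤ 1
    have h := V.w_intCast_le (K := Qbar) (-(P.a ^ P.p * P.b ^ P.p))
    rw [← frey_a₄, V.w_mul, h16, one_mul] at h
    exact h
  · change V.w (WeierstrassCurve.baseChange P.freyCurve Qbar).a₆ ≤ 1
    rw [frey_a₆, V.w_zero]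
    exact zero_le_one

/-- (Lp) Local analysis at `p`: a set `I` of automorphisms of `ℚ̄` behaving like the inertia
group at a place above `p` acts trivially on an `I`-stable line `N` of the `p`-torsion of the
Frey curve, or trivially on the quotient by `N`. -/
theorem frey_local_p (P : FreyPackage) (A : ValuationSubring Qbar) (V : RVal Qbar)
    (hV1 : ∀ x, V.w x ≤ 1 ↔ x ∈ A) (hVp : V.w (P.p : Qbar) < 1)
    (M : IntermediateField ℚ Qbar) (I : Set (Qbar ≃ₐ[ℚ] Qbar))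
    (hMc : ∀ (x y : Qbar) (h : (P.freyCurve⁄Qbar).Nonsingular x y),
      P.p • Point.some x y h = 0 → x ∈ M ∧ y ∈ M)
    (hw : ∀ σ ∈ I, ∀ z ∈ M, V.w (σ z) = V.w z)
    (hc : ∀ σ ∈ I, ∀ z ∈ M, V.w z ≤ 1 → V.w (σ z - z) < 1)
    (hNP : ∀ z ∈ M, z ≠ 0 → (∀ σ ∈ I, σ z = z) → ∃ m : ℤ, V.w z = V.w (P.p : Qbar) ^ m)
    (hT : ∀ (x y : Qbar) (h : (P.freyCurve⁄Qbar).Nonsingular x y),
      P.p • Point.some x y h = 0 ↔ ((P.freyCurve⁄Qbar).preΨ P.p).eval x = 0)
    (hrank : Module.finrank (ZMod P.p)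
      (Submodule.torsionBy ℤ (P.freyCurve⁄Qbar).Point P.p) = 2)
    (N : Submodule (ZMod P.p) (Submodule.torsionBy ℤ (P.freyCurve⁄Qbar).Point P.p))
    (hN : ∀ σ ∈ I, ∀ x ∈ N, σ • x ∈ N) (hN0 : N ≠ ⊥) (hN1 : N ≠ ⊤) :
    (∀ σ ∈ I, ∀ x ∈ N, σ • x = x) ∨ (∀ σ ∈ I, ∀ x, σ • x - x ∈ N) := by
  haveI : Fact P.p.Prime := ⟨P.pp⟩
  have hp2 : P.p ≠ 2 := by have := P.hp5; omega
  obtain ⟨ρ, as, bs, φ, hS, hinj, hφ⟩ := frey_exists_short P P.pp hp2 V hVp
  have hw4 : V.w (4 : Qbar) = 1 := by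
    rw [show (4 : Qbar) = 2 * 2 by norm_num, V.w_mul, hS.w2, one_mul]
  have hw8 : V.w (8 : Qbar) = 1 := by
    rw [show (8 : Qbar) = 2 * 4 by norm_num, V.w_mul, hS.w2, hw4, one_mul]
  -- the torsion property as a statement on points
  have htors : ∀ t : Submodule.torsionBy ℤ (P.freyCurve⁄Qbar).Point P.p,
      P.p • (t : (P.freyCurve⁄Qbar).Point) = 0 := by
    intro t
    have := t.2
    rw [Submodule.mem_torsionBy_iff] at this
    rw [← this, natCast_zsmul]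
  -- the subspaces `V₀` (nonsingular reduction) and `V₁` (kernel of reduction)
  let ψ : Submodule.torsionBy ℤ (P.freyCurve⁄Qbar).Point P.p →+ (shortW as bs).toAffine.Point :=
    φ.comp (Submodule.torsionBy ℤ (P.freyCurve⁄Qbar).Point P.p).subtype.toAddMonoidHom
  let V0 : Submodule (ZMod P.p) (Submodule.torsionBy ℤ (P.freyCurve⁄Qbar).Point P.p) :=
    AddSubgroup.toZModSubmodule P.p ((E0sub V hS).comap ψ)
  let V1 : Submodule (ZMod P.p) (Submodule.torsionBy ℤ (P.freyCurve⁄Qbar).Point P.p) :=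
    AddSubgroup.toZModSubmodule P.p ((K1sub V A hV1 hS.wa hS.wb).comap ψ)
  have hmem0 : ∀ t : Submodule.torsionBy ℤ (P.freyCurve⁄Qbar).Point P.p,
      t ∈ V0 ↔ InE0 V (φ (t : (P.freyCurve⁄Qbar).Point)) := fun t => Iff.rfl
  have hmem1 : ∀ t : Submodule.torsionBy ℤ (P.freyCurve⁄Qbar).Point P.p,
      t ∈ V1 ↔ InK1 V (φ (t : (P.freyCurve⁄Qbar).Point)) := fun t => Iff.rfl
  have hcoe : ∀ (σ : Qbar ≃ₐ[ℚ] Qbar) (t : Submodule.torsionBy ℤ (P.freyCurve⁄Qbar).Point P.p),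
      φ ((σ • t - t : Submodule.torsionBy ℤ (P.freyCurve⁄Qbar).Point P.p) :
        (P.freyCurve⁄Qbar).Point) =
      φ (σ • (t : (P.freyCurve⁄Qbar).Point)) - φ (t : (P.freyCurve⁄Qbar).Point) := by
    intro σ t
    rw [← map_sub]
    rfl
  -- transport of the Galois action to the short model
  have eX : ∀ (σ : Qbar ≃ₐ[ℚ] Qbar) (x : Qbar),
      4 * σ x - ((ρ : ℤ) : Qbar) = σ (4 * x - ((ρ : ℤ) : Qbar)) := by
    intro σ x
    rw [map_sub, map_mul, map_intCast, map_ofNat]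
  have eY : ∀ (σ : Qbar ≃ₐ[ℚ] Qbar) (x y : Qbar), 8 * σ y + 4 * σ x = σ (8 * y + 4 * x) := by
    intro σ x y
    rw [map_add, map_mul, map_mul, map_ofNat, map_ofNat]
  have hXM : ∀ x : Qbar, x ∈ M → 4 * x - ((ρ : ℤ) : Qbar) ∈ M := by
    intro x hx
    exact M.sub_mem (M.mul_mem (ofNat_mem M 4) hx) (intCast_mem M ρ)
  have hYM : ∀ x y : Qbar, x ∈ M → y ∈ M → 8 * y + 4 * x ∈ M := by
    intro x y hx hy
    exact M.add_mem (M.mul_mem (ofNat_mem M 8) hy) (M.mul_mem (ofNat_mem M 4) hx)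
  -- (a) `σ t - t ∈ V₀`
  have hA : ∀ σ ∈ I, ∀ t : Submodule.torsionBy ℤ (P.freyCurve⁄Qbar).Point P.p,
      σ • t - t ∈ V0 := by
    intro σ hσ t
    rw [hmem0, hcoe]
    have ht := htors t
    generalize (t : (P.freyCurve⁄Qbar).Point) = Pt at ht ⊢
    rcases Pt with _ | ⟨x, y, h⟩
    · have : φ (σ • (Point.zero : (P.freyCurve⁄Qbar).Point)) - φ Point.zero = 0 := sub_self _
      rw [this]
      trivial
    · obtain ⟨h', hσeq⟩ := smul_some (S := ℚ) σ h
      obtain ⟨h1, e1⟩ := hφ x y h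
      obtain ⟨h1', e1'⟩ := hφ (σ x) (σ y) h'
      obtain ⟨hxM, hyM⟩ := hMc x y h ht
      rw [hσeq, e1, e1']
      refine torsion_sub_inE0 hS h1 h1' P.hp_odd ?_ ?_ ?_
      · rw [← e1, ← map_nsmul, ht, map_zero]
      · rw [eX]
        exact hw σ hσ _ (hXM x hxM)
      · intro hbX hX1 hYX
        have hXpos : 0 < V.w (4 * x - ((ρ : ℤ) : Qbar)) := lt_of_le_of_lt (V.w_nonneg _) hbX
        have hq1 : V.w ((8 * y + 4 * x) / (4 * x - ((ρ : ℤ) : Qbar))) ≤ 1 := by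
          rw [V.w_div, hYX, div_self hXpos.ne']
        have := hc σ hσ _ (M.div_mem (hYM x y hxM hyM) (hXM x hxM)) hq1
        rwa [map_div₀, ← eX, ← eY] at this
  -- (b) `σ t - t ∈ V₁` for `t ∈ V₀`
  have hB : ∀ σ ∈ I, ∀ t : Submodule.torsionBy ℤ (P.freyCurve⁄Qbar).Point P.p, t ∈ V0 →
      σ • t - t ∈ V1 := by
    intro σ hσ t ht0
    rw [hmem0] at ht0
    rw [hmem1, hcoe]
    have ht := htors t
    generalize (t : (P.freyCurve⁄Qbar).Point) = Pt at ht ht0 ⊢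
    rcases Pt with _ | ⟨x, y, h⟩
    · have : φ (σ • (Point.zero : (P.freyCurve⁄Qbar).Point)) - φ Point.zero = 0 := sub_self _
      rw [this]
      trivial
    · obtain ⟨h', hσeq⟩ := smul_some (S := ℚ) σ h
      obtain ⟨h1, e1⟩ := hφ x y h
      obtain ⟨h1', e1'⟩ := hφ (σ x) (σ y) h'
      obtain ⟨hxM, hyM⟩ := hMc x y h ht
      rw [e1] at ht0
      rw [hσeq, e1, e1']
      refine cong_inK1 A hV1 hS h1 h1' ht0 ?_ ?_ ?_
      · rw [eX]
        exact hw σ hσ _ (hXM x hxM)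
      · intro hX1
        rw [eX]
        exact hc σ hσ _ (hXM x hxM) hX1
      · intro hY1
        rw [eY]
        exact hc σ hσ _ (hYM x y hxM hyM) hY1
  -- finiteness
  have hfinM : Module.Finite (ZMod P.p) (Submodule.torsionBy ℤ (P.freyCurve⁄Qbar).Point P.p) :=
    Module.finite_of_finrank_pos (by omega)
  have hfin : Finite (Submodule.torsionBy ℤ (P.freyCurve⁄Qbar).Point P.p) :=
    Module.finite_of_finite (ZMod P.p)
  -- (c) `V₁ ≠ ⊤`
  have hV1top : V1 ≠ ⊤ := by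
    intro htop
    have hall : ∀ (x y : Qbar) (h : (P.freyCurve⁄Qbar).Nonsingular x y),
        P.p • Point.some x y h = 0 → 1 < V.w x := by
      intro x y h hn
      have hmem : (Point.some x y h : (P.freyCurve⁄Qbar).Point) ∈
          Submodule.torsionBy ℤ (P.freyCurve⁄Qbar).Point P.p := by
        rw [Submodule.mem_torsionBy_iff, natCast_zsmul]
        exact hn
      have h1 : (⟨Point.some x y h, hmem⟩ :
          Submodule.torsionBy ℤ (P.freyCurve⁄Qbar).Point P.p) ∈ V1 := by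
        rw [htop]; exact Submodule.mem_top
      rw [hmem1] at h1
      obtain ⟨h1', e1⟩ := hφ x y h
      change InK1 V (φ (Point.some x y h)) at h1
      rw [e1] at h1
      have h2 : 1 < V.w (4 * x - ((ρ : ℤ) : Qbar)) := h1
      by_contra hcon
      rw [not_lt] at hcon
      have h3 : V.w (4 * x - ((ρ : ℤ) : Qbar)) ≤ 1 := by
        refine V.w_sub_le ?_ (V.w_intCast_le ρ)
        rw [V.w_mul, hw4, one_mul]
        exact hcon
      exact absurd h2 (not_lt.mpr h3)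
    have hp0 : ((P.p : ℕ) : Qbar) ≠ 0 := by exact_mod_cast P.hp0
    refine newton_no_line (S := ℚ) (W' := P.freyCurve) V P.p P.hp_odd hp0 hVp
      (frey_coeffs_integral P V hS.w2) (frey_Δ_ne_zero P) hT hall I ?_ N hN hN0 hN1
    intro T hT' hT0 hTσ
    refine hNP _ ?_ hT0 hTσ
    refine prod_mem ?_
    intro x hx
    obtain ⟨y, h, hn⟩ := hT' x hx
    exact (hMc x y h hn).1
  -- conclusion
  by_cases h0 : V0 = ⊤
  · have hB' : ∀ σ ∈ I, ∀ t : Submodule.torsionBy ℤ (P.freyCurve⁄Qbar).Point P.p,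
        σ • t - t ∈ V1 := fun σ hσ t => hB σ hσ t (h0 ▸ Submodule.mem_top)
    rcases action_dichotomy hrank N V1 hN0 hN1 hV1top
      (fun (σ : I) (t : Submodule.torsionBy ℤ (P.freyCurve⁄Qbar).Point P.p) =>
        (σ : Qbar ≃ₐ[ℚ] Qbar) • t)
      (fun σ x hx => hN σ.1 σ.2 x hx) (fun σ x => hB' σ.1 σ.2 x) with h | h
    · left; exact fun σ hσ x hx => h ⟨σ, hσ⟩ x hx
    · right; exact fun σ hσ x => h ⟨σ, hσ⟩ x
  · rcases action_dichotomy hrank N V0 hN0 hN1 h0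
      (fun (σ : I) (t : Submodule.torsionBy ℤ (P.freyCurve⁄Qbar).Point P.p) =>
        (σ : Qbar ≃ₐ[ℚ] Qbar) • t)
      (fun σ x hx => hN σ.1 σ.2 x hx) (fun σ x => hA σ.1 σ.2 x) with h | h
    · left; exact fun σ hσ x hx => h ⟨σ, hσ⟩ x hx
    · right; exact fun σ hσ x => h ⟨σ, hσ⟩ x

end Fermat.Agent.S13.Lp
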