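import Mathlib
import Fermat.Statements.S05
import Fermat.Agent.S05.RVal
import Fermat.Agent.S05.RValOfSubring
import Fermat.Agent.S13.RelInertia
import Fermat.Agent.S13.LocalP

/-!
# S13, piece (Lp): the finite-level (`RelInertia`) form of the local analysis at `p`

`frey_local_p_rel`: for a valuation subring `A` of `ℚ̄` above `p = P.p` and an intermediate
field `M` containing the coordinates of the `p`-torsion points of the Frey curve, the relatively
inertial automorphisms (`RelInertia A M σ`) act trivially on a stable line `N` of the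
`p`-torsion, or trivially on the quotient by `N`.

Inputs from the other pieces, stated as hypotheses:
* `hNP` (piece NP2): elements of `M` fixed by relative inertia have valuation in `v(p) ^ ℤ`;
* `hT` (piece T): `p`-torsion is detected by the division polynomial `preΨ' p`;
* `hcard` (piece T): the `p`-torsion has at most `p ^ 2` elements.
-/

set_option autoImplicit false

namespace Fermat.Agent.S13.Lp

open Fermat.Agent.S05 WeierstrassCurve WeierstrassCurve.Affine

local notation "Qbar" => AlgebraicClosure ℚ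

/-- A finite `𝔽_p`-vector space with at most `p ^ 2` elements containing a submodule different
from `⊥` and `⊤` is a plane. -/
theorem finrank_eq_two_of_card_le {p : ℕ} [Fact p.Prime] {V : Type*} [AddCommGroup V]
    [Module (ZMod p) V] [Finite V] (hcard : Nat.card V ≤ p ^ 2) (N : Submodule (ZMod p) V)
    (hN0 : N ≠ ⊥) (hN1 : N ≠ ⊤) : Module.finrank (ZMod p) V = 2 := by
  have hfin : Module.Finite (ZMod p) V := Module.Finite.of_finite
  have h1 : Nat.card V = p ^ Module.finrank (ZMod p) V := by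
    rw [Module.natCard_eq_pow_finrank (K := ZMod p), Nat.card_zmod]
  have h2 : Module.finrank (ZMod p) V ≤ 2 := by
    rw [h1] at hcard
    exact (Nat.pow_le_pow_iff_right (Fact.out : p.Prime).one_lt).mp hcard
  have h3 : 0 < Module.finrank (ZMod p) N := by
    have : Nontrivial N := Submodule.nontrivial_iff_ne_bot.mpr hN0
    exact Module.finrank_pos
  have h4 : Module.finrank (ZMod p) N < Module.finrank (ZMod p) V := Submodule.finrank_lt hN1
  omega

/-- (Lp), finite-level form: relative inertia at `p` acts trivially on a stable line `N` of the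
`p`-torsion of the Frey curve or on the quotient by `N`. -/
theorem frey_local_p_rel (P : FreyPackage) (A : ValuationSubring Qbar)
    (hA : A.LiesOverPrime P.p) (M : IntermediateField ℚ Qbar)
    (hMc : ∀ (x y : Qbar) (h : (P.freyCurve⁄Qbar).Nonsingular x y),
      P.p • (Point.some x y h : (P.freyCurve⁄Qbar).Point) = 0 → x ∈ M ∧ y ∈ M)
    (hNP : ∀ z ∈ M, z ≠ 0 → (∀ σ : Qbar ≃ₐ[ℚ] Qbar, RelInertia A M σ → σ z = z) →
      ∃ k : ℤ, A.valuation z = A.valuation ((P.p : ℕ) : Qbar) ^ k)
    (hT : ∀ (x y : Qbar) (h : (P.freyCurve⁄Qbar).Nonsingular x y),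
      P.p • (Point.some x y h : (P.freyCurve⁄Qbar).Point) = 0 ↔
        ((P.freyCurve⁄Qbar).preΨ' P.p).eval x = 0)
    (hfin : Finite (Submodule.torsionBy ℤ (P.freyCurve⁄Qbar).Point P.p))
    (hcard : Nat.card (Submodule.torsionBy ℤ (P.freyCurve⁄Qbar).Point P.p) ≤ P.p ^ 2)
    (N : Submodule (ZMod P.p) (Submodule.torsionBy ℤ (P.freyCurve⁄Qbar).Point P.p))
    (hN : ∀ σ : Qbar ≃ₐ[ℚ] Qbar, RelInertia A M σ → ∀ x ∈ N, σ • x ∈ N)
    (hN0 : N ≠ ⊥) (hN1 : N ≠ ⊤) :
    (∀ σ : Qbar ≃ₐ[ℚ] Qbar, RelInertia A M σ → ∀ x ∈ N, σ • x = x) ∨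
      (∀ σ : Qbar ≃ₐ[ℚ] Qbar, RelInertia A M σ →
        ∀ x : Submodule.torsionBy ℤ (P.freyCurve⁄Qbar).Point P.p, σ • x - x ∈ N) := by
  haveI : Fact P.p.Prime := ⟨P.pp⟩
  obtain ⟨V, hV1, hV2, hVp, -, -⟩ := exists_rval' A P.pp hA
  have hrank := finrank_eq_two_of_card_le hcard N hN0 hN1
  refine frey_local_p P A V hV1 hVp M {σ | RelInertia A M σ} hMc ?_ ?_ ?_ ?_ hrank N hN hN0 hN1
  · intro σ hσ z hz
    exact RelInertia.w_map V hV1 hV2 hσ P.pp hA hz
  · intro σ hσ z hz hz1
    exact RelInertia.w_sub_lt_one V hV1 hV2 hσ hz hz1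
  · intro z hz hz0 hfix
    obtain ⟨k, hk⟩ := hNP z hz hz0 hfix
    refine ⟨k, ?_⟩
    have h1 : A.valuation z = A.valuation (((P.p : ℕ) : Qbar) ^ k) := by
      rw [hk, map_zpow₀]
    rw [w_eq_of_valuation_eq V hV1 h1, V.w_zpow]
  · intro x y h
    rw [hT x y h, WeierstrassCurve.preΨ_ofNat]

end Fermat.Agent.S13.Lp
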