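import Mathlib
import Fermat.Agent.S05.RValOfSubring

set_option autoImplicit false

/-!
# S13, piece G: a valuation ring over `p` is a localisation of the ring of algebraic integers

For a valuation subring `A` of a field `K` of characteristic zero in which a prime `q` is a
nonunit, every algebraic element of `A` is a quotient `b / s` of integral elements with `s` a
unit of `A` (`exists_integral_frac`).
-/

namespace Fermat.Agent.S13.Mink

open Polynomial

section Horner

variable {K : Type*} [Field K]

/-- Horner partial sums: `hornerSum f x j = ∑_{k ≥ j} f_k x^(k-j)`. -/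
noncomputable def hornerSum (f : ℤ[X]) (x : K) (j : ℕ) : K :=
  ∑ i ∈ Finset.range (f.natDegree + 1 - j), (f.coeff (j + i) : K) * x ^ i

lemma hornerSum_zero (f : ℤ[X]) (x : K) : hornerSum f x 0 = aeval x f := by
  rw [aeval_eq_sum_range]
  unfold hornerSum
  apply Finset.sum_congr rfl
  intro i _
  simp [zsmul_eq_mul]

lemma hornerSum_succ (f : ℤ[X]) (x : K) (j : ℕ) :
    hornerSum f x j = (f.coeff j : K) + x * hornerSum f x (j + 1) := by
  unfold hornerSum
  by_cases hj : j ≤ f.natDegree
  · have h1 : f.natDegree + 1 - j = (f.natDegree + 1 - (j + 1)) + 1 := by omega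
    rw [h1, Finset.sum_range_succ', Finset.mul_sum]
    simp only [add_zero, pow_zero, mul_one]
    rw [add_comm]
    congr 1
    apply Finset.sum_congr rfl
    intro i _
    rw [show j + (i + 1) = j + 1 + i by ring]
    ring
  · have h1 : f.natDegree + 1 - j = 0 := by omega
    have h2 : f.natDegree + 1 - (j + 1) = 0 := by omega
    rw [h1, h2]
    have h3 : f.coeff j = 0 := coeff_eq_zero_of_natDegree_lt (by omega)
    simp [h3]

lemma hornerSum_mul_pow (f : ℤ[X]) (x : K) (hx : aeval x f = 0) (j : ℕ) :
    hornerSum f x j * x ^ j = - ∑ k ∈ Finset.range j, (f.coeff k : K) * x ^ k := by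
  induction j with
  | zero => simp [hornerSum_zero, hx]
  | succ j ih =>
    rw [Finset.sum_range_succ, neg_add, ← ih, hornerSum_succ f x j]
    ring

lemma hornerSum_isIntegral (f : ℤ[X]) (x : K) (hx : aeval x f = 0) {j : ℕ} (hj : 1 ≤ j) :
    IsIntegral ℤ (hornerSum f x j) := by
  by_cases hn : f.natDegree = 0
  · have : hornerSum f x j = 0 := by
      unfold hornerSum
      have h1 : f.natDegree + 1 - j = 0 := by omega
      rw [h1]
      simp
    rw [this]
    exact isIntegral_zero
  set n := f.natDegree with hn_def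
  let N : Submodule ℤ K := Submodule.span ℤ ((fun i : ℕ => x ^ i) '' (Finset.range n : Set ℕ))
  have hgen : ∀ i, i < n → x ^ i ∈ N := fun i hi =>
    Submodule.subset_span ⟨i, by simpa using hi, rfl⟩
  have hN : N ≠ ⊥ := by
    intro h
    have h1 : (1 : K) ∈ N := by
      have := hgen 0 (by omega)
      simpa using this
    rw [h] at h1
    exact one_ne_zero ((Submodule.mem_bot ℤ).1 h1)
  have hN' : N.FG := by
    apply Submodule.fg_span
    exact (Finset.finite_toSet _).image _
  have hterm : ∀ (c : ℤ) (i : ℕ), i < n → (c : K) * x ^ i ∈ N := by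
    intro c i hi
    have := N.smul_mem c (hgen i hi)
    rwa [zsmul_eq_mul] at this
  refine isIntegral_of_smul_mem_submodule N hN hN' (hornerSum f x j) ?_
  intro m hm
  induction hm using Submodule.span_induction with
  | mem m hm =>
    obtain ⟨i, hi, rfl⟩ := hm
    have hi' : i < n := by simpa using hi
    show hornerSum f x j * x ^ i ∈ N
    by_cases hij : i < j
    · unfold hornerSum
      rw [Finset.sum_mul]
      apply Submodule.sum_mem
      intro k hk
      have hk' : k < n + 1 - j := by simpa [hn_def] using hk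
      rw [mul_assoc, ← pow_add]
      exact hterm _ _ (by omega)
    · have h1 : x ^ i = x ^ j * x ^ (i - j) := by
        rw [← pow_add]
        congr 1
        omega
      rw [h1, ← mul_assoc, hornerSum_mul_pow f x hx j, neg_mul, Finset.sum_mul]
      apply Submodule.neg_mem
      apply Submodule.sum_mem
      intro k hk
      have hk' : k < j := by simpa using hk
      rw [mul_assoc, ← pow_add]
      exact hterm _ _ (by omega)
  | zero => simp
  | add a b _ _ ha hb =>
    rw [smul_add]
    exact N.add_mem ha hb
  | smul c a _ ha =>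
    rw [smul_comm]
    exact N.smul_mem c ha

lemma hornerSum_pred_isIntegral (f : ℤ[X]) (x : K) (hx : aeval x f = 0) {j : ℕ} (hj : 1 ≤ j) :
    IsIntegral ℤ (x * hornerSum f x j) := by
  obtain ⟨i, rfl⟩ : ∃ i, j = i + 1 := ⟨j - 1, by omega⟩
  have h1 : x * hornerSum f x (i + 1) = hornerSum f x i - (f.coeff i : K) := by
    rw [hornerSum_succ f x i]
    ring
  rw [h1]
  apply IsIntegral.sub
  · rcases Nat.eq_zero_or_pos i with h0 | h0
    · rw [h0, hornerSum_zero, hx]
      exact isIntegral_zero
    · exact hornerSum_isIntegral f x hx h0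
  · have : (f.coeff i : K) = algebraMap ℤ K (f.coeff i) := by simp
    rw [this]
    exact isIntegral_algebraMap

end Horner

section Frac

variable {K : Type*} [Field K]

lemma integral_mem (A : ValuationSubring K) {b : K} (hb : IsIntegral ℤ b) : b ∈ A := by
  have h1 : IsIntegral A b := hb.tower_top
  obtain ⟨y, hy⟩ := IsIntegrallyClosed.algebraMap_eq_of_integral h1
  rw [← hy]
  exact y.2

lemma valuation_intCast_lt_one_of_dvd (A : ValuationSubring K) {q : ℕ}
    (hA : (q : K) ∈ A.nonunits) {n : ℤ} (hn : (q : ℤ) ∣ n) : A.valuation (n : K) < 1 := by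
  obtain ⟨c, rfl⟩ := hn
  push_cast
  rw [map_mul]
  have h1 : A.valuation (q : K) < 1 := A.mem_nonunits_iff.1 hA
  have h2 : A.valuation (c : K) ≤ 1 := (A.valuation_le_one_iff _).2 (intCast_mem A c)
  calc A.valuation (q : K) * A.valuation (c : K) ≤ A.valuation (q : K) * 1 :=
        mul_le_mul_right h2 _
    _ < 1 := by rwa [mul_one]

/-- Every algebraic element of a valuation ring over a prime `q` is a fraction of algebraic
integers with denominator a unit of the valuation ring. -/
theorem exists_integral_frac [CharZero K] (A : ValuationSubring K) {q : ℕ} (hq : q.Prime)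
    (hA : (q : K) ∈ A.nonunits) {x : K} (hxalg : IsAlgebraic ℤ x) (hx : x ∈ A) :
    ∃ b s : K, IsIntegral ℤ b ∧ IsIntegral ℤ s ∧ A.valuation s = 1 ∧ x * s = b := by
  obtain ⟨f₀, hf₀, hf₀x⟩ := hxalg
  set f := f₀.primPart with hf
  have hprim : f.IsPrimitive := f₀.isPrimitive_primPart
  have hfx : aeval x f = 0 := by
    have h1 : f₀ = C f₀.content * f := f₀.eq_C_content_mul_primPart
    have h2 : aeval x f₀ = (f₀.content : K) * aeval x f := by
      conv_lhs => rw [h1]
      simp
    rw [hf₀x] at h2
    have h3 : (f₀.content : K) ≠ 0 := by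
      exact_mod_cast (Polynomial.content_eq_zero_iff.not.2 hf₀)
    exact (mul_eq_zero.1 h2.symm).resolve_left h3
  have hex : ∃ k, ¬ (q : ℤ) ∣ f.coeff k := by
    by_contra hcon
    have hcon' : ∀ k, (q : ℤ) ∣ f.coeff k := fun k => by_contra fun h => hcon ⟨k, h⟩
    have h1 : C (q : ℤ) ∣ f := (Polynomial.C_dvd_iff_dvd_coeff _ _).2 hcon'
    have h2 : IsUnit (q : ℤ) := hprim _ h1
    have h3 := Int.isUnit_iff.1 h2
    have h4 := hq.two_le
    omega
  obtain ⟨k, hk⟩ := hex
  have hkn : k ≤ f.natDegree := by
    by_contra h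
    rw [coeff_eq_zero_of_natDegree_lt (by omega)] at hk
    exact hk (dvd_zero _)
  let j := Nat.findGreatest (fun k => ¬ (q : ℤ) ∣ f.coeff k) f.natDegree
  have hj : ¬ (q : ℤ) ∣ f.coeff j :=
    Nat.findGreatest_spec (P := fun k => ¬ (q : ℤ) ∣ f.coeff k) hkn hk
  have hgt : ∀ i, j < i → (q : ℤ) ∣ f.coeff i := by
    intro i hi
    by_cases hin : i ≤ f.natDegree
    · by_contra h
      exact Nat.findGreatest_is_greatest (P := fun k => ¬ (q : ℤ) ∣ f.coeff k) hi hin h
    · rw [coeff_eq_zero_of_natDegree_lt (by omega)]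
      exact dvd_zero _
  have hxv : A.valuation x ≤ 1 := (A.valuation_le_one_iff _).2 hx
  have hsmall : A.valuation (x * hornerSum f x (j + 1)) < 1 := by
    rw [map_mul]
    have h1 : A.valuation (hornerSum f x (j + 1)) < 1 := by
      unfold hornerSum
      apply Valuation.map_sum_lt _ one_ne_zero
      intro i _
      rw [map_mul, map_pow]
      have h2 : A.valuation ((f.coeff (j + 1 + i) : ℤ) : K) < 1 :=
        valuation_intCast_lt_one_of_dvd A hA (hgt _ (by omega))
      have h3 : A.valuation x ^ i ≤ 1 := pow_le_one' hxv i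
      calc A.valuation ((f.coeff (j + 1 + i) : ℤ) : K) * A.valuation x ^ i
          ≤ A.valuation ((f.coeff (j + 1 + i) : ℤ) : K) * 1 := mul_le_mul_right h3 _
        _ < 1 := by rwa [mul_one]
    calc A.valuation x * A.valuation (hornerSum f x (j + 1))
        ≤ 1 * A.valuation (hornerSum f x (j + 1)) := mul_le_mul_left hxv _
      _ < 1 := by rwa [one_mul]
  have hcj : A.valuation ((f.coeff j : ℤ) : K) = 1 :=
    Fermat.Agent.S05.valuation_intCast_eq_one_of_not_dvd A hq hA hj
  have hval : A.valuation (hornerSum f x j) = 1 := by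
    rw [hornerSum_succ f x j, Valuation.map_add_eq_of_lt_left, hcj]
    rw [hcj]
    exact hsmall
  have hj1 : 1 ≤ j := by
    by_contra h
    have h0 : j = 0 := by omega
    rw [h0, hornerSum_zero, hfx, map_zero] at hval
    exact zero_ne_one hval
  exact ⟨x * hornerSum f x j, hornerSum f x j, hornerSum_pred_isIntegral f x hfx hj1,
    hornerSum_isIntegral f x hfx hj1, hval, rfl⟩

end Frac

end Fermat.Agent.S13.Mink
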