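import Mathlib
import Fermat.Agent.S13.MinkIntFrac
import Fermat.Prelude.Def_FLTPrelim_Ramification

set_option autoImplicit false

/-!
# S13, piece G: membership in the inertia subgroup can be tested on algebraic integers
-/

namespace Fermat.Agent.S13.Mink

open scoped Pointwise

section Mem

variable {L : Type*} [Field L] [CharZero L]

/-- Auxiliary: an automorphism that is trivial on algebraic integers modulo the maximal ideal
of `A` stabilises `A` and acts trivially on its residue field. -/
theorem inertia_aux [Algebra ℚ L] [Algebra.IsAlgebraic ℚ L] (A : ValuationSubring L) {q : ℕ}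
    (hq : q.Prime) (hA : (q : L) ∈ A.nonunits) (σ : L ≃ₐ[ℚ] L)
    (h : ∀ b : L, IsIntegral ℤ b → σ b - b ∈ A.nonunits) {x : L} (hx : x ∈ A) :
    σ x ∈ A ∧ σ x - x ∈ A.nonunits := by
  have hxalg : IsAlgebraic ℤ x :=
    (IsFractionRing.isAlgebraic_iff ℤ ℚ L).2 (Algebra.IsAlgebraic.isAlgebraic x)
  obtain ⟨b, s, hb, hs, hsv, hxs⟩ := exists_integral_frac A hq hA hxalg hx
  have hσs : A.valuation (σ s) = 1 := by
    have h1 : σ s = s + (σ s - s) := by ring
    rw [h1, Valuation.map_add_eq_of_lt_left, hsv]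
    rw [hsv]
    exact A.mem_nonunits_iff.1 (h s hs)
  have hσs0 : σ s ≠ 0 := by
    intro h0
    rw [h0, map_zero] at hσs
    exact zero_ne_one hσs
  have hσb : σ b ∈ A := by
    apply integral_mem
    exact hb.map σ.toAlgHom.toRingHom.toIntAlgHom
  have h2 : σ x * σ s = σ b := by rw [← map_mul, hxs]
  have hxv : A.valuation x ≤ 1 := (A.valuation_le_one_iff _).2 hx
  constructor
  · rw [← A.valuation_le_one_iff]
    have h3 : A.valuation (σ x) * A.valuation (σ s) = A.valuation (σ b) := by
      rw [← map_mul, h2]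
    rw [hσs, mul_one] at h3
    rw [h3]
    exact (A.valuation_le_one_iff _).2 hσb
  · rw [A.mem_nonunits_iff]
    have h3 : (σ x - x) * σ s = (σ b - b) - x * (σ s - s) := by
      rw [sub_mul, h2, ← hxs]
      ring
    have h4 : A.valuation ((σ x - x) * σ s) < 1 := by
      rw [h3]
      apply Valuation.map_sub_lt
      · exact A.mem_nonunits_iff.1 (h b hb)
      · rw [map_mul]
        have h5 := A.mem_nonunits_iff.1 (h s hs)
        calc A.valuation x * A.valuation (σ s - s) ≤ 1 * A.valuation (σ s - s) :=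
              mul_le_mul_left hxv _
          _ < 1 := by rwa [one_mul]
    rwa [map_mul, hσs, mul_one] at h4

/-- (DL) An automorphism that moves every algebraic integer by an element of the maximal
ideal of `A` lies in the inertia subgroup of `A`. -/
theorem mem_inertia_of_integral [Algebra ℚ L] [Algebra.IsAlgebraic ℚ L]
    (A : ValuationSubring L) {q : ℕ}
    (hq : q.Prime) (hA : (q : L) ∈ A.nonunits) (σ : L ≃ₐ[ℚ] L)
    (h : ∀ b : L, IsIntegral ℤ b → σ b - b ∈ A.nonunits) :
    σ ∈ A.inertiaSubgroupIn ℚ := by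
  have hinv : ∀ b : L, IsIntegral ℤ b → σ⁻¹ b - b ∈ A.nonunits := by
    intro b hb
    have hb' : IsIntegral ℤ (σ⁻¹ b) := hb.map (σ⁻¹).toAlgHom.toRingHom.toIntAlgHom
    have h1 := h _ hb'
    have h2 : σ (σ⁻¹ b) = b := σ.apply_symm_apply b
    rw [h2] at h1
    rw [A.mem_nonunits_iff] at h1 ⊢
    rwa [← Valuation.map_neg, neg_sub]
  have hdec : σ ∈ A.decompositionSubgroup ℚ := by
    rw [MulAction.mem_stabilizer_iff]
    ext x
    rw [ValuationSubring.mem_pointwise_smul_iff_inv_smul_mem]
    constructor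
    · intro hx
      have h1 := (inertia_aux A hq hA σ h hx).1
      have h2 : σ (σ⁻¹ • x) = x := σ.apply_symm_apply x
      rwa [h2] at h1
    · intro hx
      exact (inertia_aux A hq hA σ⁻¹ hinv hx).1
  refine Subgroup.mem_map.2 ⟨⟨σ, hdec⟩, ?_, rfl⟩
  show MulSemiringAction.toRingAut (A.decompositionSubgroup ℚ)
      (IsLocalRing.ResidueField A) ⟨σ, hdec⟩ = 1
  ext r
  obtain ⟨a, rfl⟩ := IsLocalRing.residue_surjective r
  show (⟨σ, hdec⟩ : A.decompositionSubgroup ℚ) • IsLocalRing.residue A a = IsLocalRing.residue A a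
  have h1 : (⟨σ, hdec⟩ : A.decompositionSubgroup ℚ) • IsLocalRing.residue A a =
      IsLocalRing.residue A ((⟨σ, hdec⟩ : A.decompositionSubgroup ℚ) • a) := rfl
  rw [h1]
  have h2 := (inertia_aux A hq hA σ h a.2).2
  rw [ValuationSubring.mem_nonunits_iff_exists_mem_maximalIdeal] at h2
  obtain ⟨ha, ha'⟩ := h2
  rw [← sub_eq_zero, ← map_sub, IsLocalRing.residue_eq_zero_iff]
  exact ha'

end Mem

end Fermat.Agent.S13.Mink
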