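import Mathlib
import Fermat.Statements.S13

set_option autoImplicit false

/-!
# S13, piece G: Galois-theoretic set-up on the ring of algebraic integers of `ℚ̄`

Instances making Mathlib's profinite invariant theory (`RingTheory/Invariant/Profinite`)
applicable to `Gal(ℚ̄/M)` acting on the ring of all algebraic integers.
-/

namespace Fermat.Agent.S13.Mink

open NumberField

/-- The algebraic closure of `ℚ` used throughout. -/
abbrev Qb := AlgebraicClosure ℚ

theorem isAlgClosure_Qb : IsAlgClosure ℚ Qb := by
  have h : @IsAlgClosure ℚ (AlgebraicClosure ℚ) _ _ (AlgebraicClosure.instAlgebra ℚ) _ :=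
    inferInstance
  exact h

attribute [local instance] isAlgClosure_Qb

section Tower

variable (M : IntermediateField ℚ Qb)

theorem isAlgebraic_tower : Algebra.IsAlgebraic M Qb :=
  Algebra.IsAlgebraic.tower_top (K := ℚ) M

attribute [local instance] isAlgebraic_tower

theorem normal_tower : Normal M Qb := Normal.tower_top_of_normal ℚ M Qb

attribute [local instance] normal_tower

theorem isGalois_tower : IsGalois M Qb := ⟨⟩

attribute [local instance] isGalois_tower

/-- The discrete topology on the ring of algebraic integers. -/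
@[reducible] def instTopOQb : TopologicalSpace (𝓞 Qb) := ⊥

attribute [local instance] instTopOQb

theorem instDiscOQb : DiscreteTopology (𝓞 Qb) := ⟨rfl⟩

attribute [local instance] instDiscOQb

theorem continuousSMul_OQb : ContinuousSMul (Qb ≃ₐ[M] Qb) (𝓞 Qb) := by
  rw [continuousSMul_iff_stabilizer_isOpen]
  intro b
  have h := stabilizer_isOpen_of_isIntegral (K := M) (L := Qb) (b : Qb)
  convert h using 2
  ext g
  simp only [MulAction.mem_stabilizer_iff]
  constructor
  · intro hg
    have := congrArg (fun t : 𝓞 Qb => (t : Qb)) hg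
    exact this
  · intro hg
    exact Subtype.ext hg

theorem smulCommClass_OQb : SMulCommClass (Qb ≃ₐ[M] Qb) (𝓞 M) (𝓞 Qb) := by
  refine ⟨fun g a b => ?_⟩
  apply Subtype.ext
  show g ((algebraMap (𝓞 M) (𝓞 Qb) a : 𝓞 Qb) * (b : Qb)) = _
  rw [map_mul]
  congr 1
  exact g.commutes (a : M)

theorem isInvariant_OQb : Algebra.IsInvariant (𝓞 M) (𝓞 Qb) (Qb ≃ₐ[M] Qb) := by
  refine ⟨fun b hb => ?_⟩
  have h1 : (b : Qb) ∈ (⊥ : IntermediateField M Qb) := by
    rw [InfiniteGalois.mem_bot_iff_fixed]
    intro g
    exact congrArg (fun t : 𝓞 Qb => (t : Qb)) (hb g)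
  rw [IntermediateField.mem_bot] at h1
  obtain ⟨m, hm⟩ := h1
  have hint : IsIntegral ℤ m := by
    have hb' : IsIntegral ℤ (b : Qb) := b.2
    rw [← hm] at hb'
    exact (isIntegral_algebraMap_iff (algebraMap M Qb).injective).1 hb'
  exact ⟨⟨m, hint⟩, Subtype.ext hm⟩

end Tower

end Fermat.Agent.S13.Mink
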