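import Mathlib
import Fermat.Agent.S13.MinkSetup
import Fermat.Agent.S13.MinkInertiaMem

set_option autoImplicit false

/-!
# S13, piece G: lifting inertia elements from a finite level to `Gal(ℚ̄/ℚ)`

`exists_inertia_lift`: if `σ₁ ∈ Gal(ℚ̄/ℚ)` acts trivially on the algebraic integers of a normal
subfield `M` modulo the maximal ideal of a valuation subring `A` of `ℚ̄`, then some element of
the inertia subgroup of `A` agrees with `σ₁` on `M`.
-/

namespace Fermat.Agent.S13.Mink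

open NumberField
open scoped Pointwise

attribute [local instance] instTopOQb instDiscOQb isAlgClosure_Qb isAlgebraic_tower normal_tower
  isGalois_tower

section Prof

variable (M : IntermediateField ℚ Qb)

/-- (P1) `Gal(ℚ̄/M)` acts transitively on the primes of `𝓞 ℚ̄` over a given prime of `𝓞 M`. -/
theorem exists_smul_of_under_eq (P Q : Ideal (𝓞 Qb)) [P.IsPrime] [Q.IsPrime]
    (h : P.under (𝓞 M) = Q.under (𝓞 M)) : ∃ g : Qb ≃ₐ[M] Qb, Q = g • P := by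
  have := continuousSMul_OQb M
  have := smulCommClass_OQb M
  have := isInvariant_OQb M
  exact Algebra.IsInvariant.exists_smul_of_under_eq_of_profinite (A := 𝓞 M)
    (G := Qb ≃ₐ[M] Qb) P Q h

/-- (P2) Every ring automorphism of `𝓞 ℚ̄` that stabilises the prime `Q` and is trivial on
`𝓞 M` modulo `Q` agrees modulo `Q` with an element of `Gal(ℚ̄/M)` stabilising `Q`. -/
theorem exists_gal_congr (Q : Ideal (𝓞 Qb)) [Q.IsPrime] (φ : 𝓞 Qb ≃+* 𝓞 Qb)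
    (hφQ : Q = Q.map (φ : 𝓞 Qb →+* 𝓞 Qb))
    (hφM : ∀ a : 𝓞 M, φ (algebraMap (𝓞 M) (𝓞 Qb) a) - algebraMap (𝓞 M) (𝓞 Qb) a ∈ Q) :
    ∃ g : Qb ≃ₐ[M] Qb, g • Q = Q ∧ ∀ b : 𝓞 Qb, g • b - φ b ∈ Q := by
  have := continuousSMul_OQb M
  have := smulCommClass_OQb M
  have := isInvariant_OQb M
  let P : Ideal (𝓞 M) := Q.under (𝓞 M)
  let α : (𝓞 Qb ⧸ Q) ≃ₐ[𝓞 M ⧸ P] (𝓞 Qb ⧸ Q) :=
    { Ideal.quotientEquiv Q Q φ hφQ with
      commutes' := by
        rintro ⟨a⟩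
        show Ideal.Quotient.mk Q (φ (algebraMap (𝓞 M) (𝓞 Qb) a)) =
          Ideal.Quotient.mk Q (algebraMap (𝓞 M) (𝓞 Qb) a)
        rw [Ideal.Quotient.eq]
        exact hφM a }
  obtain ⟨g, hg⟩ := Ideal.Quotient.stabilizerHom_surjective_of_profinite
    (G := Qb ≃ₐ[M] Qb) P Q α
  refine ⟨g.1, g.2, fun b => ?_⟩
  have h1 := congrArg (fun f => f (Ideal.Quotient.mk Q b)) hg
  simp only [Ideal.Quotient.stabilizerHom_apply] at h1
  have h2 : α (Ideal.Quotient.mk Q b) = Ideal.Quotient.mk Q (φ b) := rfl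
  rw [h2] at h1
  rw [← Ideal.Quotient.eq]
  exact h1

end Prof

section Lift

/-- The inclusion of the ring of algebraic integers into a valuation subring. -/
noncomputable def toValSub (A : ValuationSubring Qb) : 𝓞 Qb →+* A where
  toFun b := ⟨(b : Qb), integral_mem A b.2⟩
  map_one' := rfl
  map_mul' _ _ := rfl
  map_zero' := rfl
  map_add' _ _ := rfl

/-- The prime of the ring of algebraic integers cut out by a valuation subring. -/
noncomputable def primeOf (A : ValuationSubring Qb) : Ideal (𝓞 Qb) :=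
  (IsLocalRing.maximalIdeal A).comap (toValSub A)

instance primeOf_isPrime (A : ValuationSubring Qb) : (primeOf A).IsPrime :=
  Ideal.comap_isPrime _ _

theorem mem_primeOf (A : ValuationSubring Qb) (b : 𝓞 Qb) :
    b ∈ primeOf A ↔ (b : Qb) ∈ A.nonunits := by
  rw [ValuationSubring.mem_nonunits_iff_exists_mem_maximalIdeal]
  constructor
  · intro h
    exact ⟨integral_mem A b.2, h⟩
  · rintro ⟨_, h⟩
    exact h

theorem mem_smul_primeOf (A : ValuationSubring Qb) (σ : Qb ≃ₐ[ℚ] Qb) (b : 𝓞 Qb) :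
    b ∈ σ • primeOf A ↔ σ⁻¹ (b : Qb) ∈ A.nonunits := by
  rw [Ideal.mem_pointwise_smul_iff_inv_smul_mem, mem_primeOf]
  rfl

theorem mem_of_normal (M : IntermediateField ℚ Qb) [Normal ℚ M] (σ : Qb ≃ₐ[ℚ] Qb) {a : Qb}
    (ha : a ∈ M) : σ a ∈ M := by
  have h := AlgEquiv.restrictNormal_commutes σ M ⟨a, ha⟩
  have h2 : σ a = ((σ.restrictNormal M ⟨a, ha⟩ : M) : Qb) := h.symm
  rw [h2]
  exact (σ.restrictNormal M ⟨a, ha⟩).2

theorem nonunits_congr (A : ValuationSubring Qb) {x y : Qb} (h : x - y ∈ A.nonunits) :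
    x ∈ A.nonunits ↔ y ∈ A.nonunits := by
  rw [A.mem_nonunits_iff] at h
  rw [A.mem_nonunits_iff, A.mem_nonunits_iff]
  constructor
  · intro hx
    have h1 : y = x - (x - y) := by ring
    rw [h1]
    exact Valuation.map_sub_lt _ hx h
  · intro hy
    have h1 : x = (x - y) + y := by ring
    rw [h1]
    exact Valuation.map_add_lt _ h hy

/-- (LL) Lifting lemma for inertia. -/
theorem exists_inertia_lift (A : ValuationSubring Qb) {q : ℕ} (hq : q.Prime)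
    (hA : (q : Qb) ∈ A.nonunits) (M : IntermediateField ℚ Qb) [Normal ℚ M]
    (σ₁ : Qb ≃ₐ[ℚ] Qb)
    (h : ∀ a : Qb, a ∈ M → IsIntegral ℤ a → σ₁ a - a ∈ A.nonunits) :
    ∃ σ : Qb ≃ₐ[ℚ] Qb, σ ∈ A.inertiaSubgroupIn ℚ ∧ ∀ a : Qb, a ∈ M → σ a = σ₁ a := by
  -- Step A: `σ₁ • 𝔔` and `𝔔` lie over the same prime of `𝓞 M`
  have hA1 : (σ₁ • primeOf A).under (𝓞 M) = (primeOf A).under (𝓞 M) := by
    ext a
    rw [Ideal.under_def, Ideal.under_def, Ideal.mem_comap, Ideal.mem_comap, mem_smul_primeOf,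
      mem_primeOf]
    have ha : ((a : M) : Qb) ∈ M := (a : M).2
    have ha' : σ₁⁻¹ ((a : M) : Qb) ∈ M := mem_of_normal M σ₁⁻¹ ha
    have hint : IsIntegral ℤ (σ₁⁻¹ ((a : M) : Qb)) := by
      have h0 : IsIntegral ℤ ((a : M) : Qb) := (algebraMap (𝓞 M) (𝓞 Qb) a).2
      exact h0.map (σ₁⁻¹).toAlgHom.toRingHom.toIntAlgHom
    have h1 := h _ ha' hint
    have h2 : σ₁ (σ₁⁻¹ ((a : M) : Qb)) = ((a : M) : Qb) := σ₁.apply_symm_apply _
    rw [h2] at h1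
    exact (nonunits_congr A h1).symm
  -- Step B: move `σ₁ • 𝔔` back to `𝔔` by an element of `Gal(ℚ̄/M)`
  obtain ⟨g₁, hg₁⟩ := exists_smul_of_under_eq M (σ₁ • primeOf A) (primeOf A) hA1
  let ρ₁ : Qb ≃ₐ[ℚ] Qb := g₁.restrictScalars ℚ
  let σ₂ : Qb ≃ₐ[ℚ] Qb := ρ₁ * σ₁
  have hσ₂ : σ₂ • primeOf A = primeOf A := by
    have e : σ₂ • primeOf A = g₁ • σ₁ • primeOf A := by
      ext b
      rw [Ideal.mem_pointwise_smul_iff_inv_smul_mem, Ideal.mem_pointwise_smul_iff_inv_smul_mem,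
        Ideal.mem_pointwise_smul_iff_inv_smul_mem]
      rfl
    exact e.trans hg₁.symm
  have hσ₂M : ∀ a : Qb, a ∈ M → σ₂ a = σ₁ a := by
    intro a ha
    have h1 : σ₁ a ∈ M := mem_of_normal M σ₁ ha
    exact g₁.commutes ⟨σ₁ a, h1⟩
  -- Step C: the residual automorphism is induced by an element of `Gal(ℚ̄/M)`
  let φ : 𝓞 Qb ≃+* 𝓞 Qb := MulSemiringAction.toRingEquiv (Qb ≃ₐ[ℚ] Qb) (𝓞 Qb) σ₂
  have hφQ : primeOf A = (primeOf A).map (φ : 𝓞 Qb →+* 𝓞 Qb) := by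
    conv_lhs => rw [← hσ₂]
    rfl
  have hφM : ∀ a : 𝓞 M,
      φ (algebraMap (𝓞 M) (𝓞 Qb) a) - algebraMap (𝓞 M) (𝓞 Qb) a ∈ primeOf A := by
    intro a
    rw [mem_primeOf]
    have ha : ((a : M) : Qb) ∈ M := (a : M).2
    have h0 : IsIntegral ℤ ((a : M) : Qb) := (algebraMap (𝓞 M) (𝓞 Qb) a).2
    have h1 := h _ ha h0
    rw [← hσ₂M _ ha] at h1
    exact h1
  obtain ⟨g, hgQ, hg⟩ := exists_gal_congr M (primeOf A) φ hφQ hφM
  let ρ : Qb ≃ₐ[ℚ] Qb := g.restrictScalars ℚ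
  refine ⟨ρ⁻¹ * σ₂, ?_, ?_⟩
  · apply mem_inertia_of_integral A hq hA
    intro b hb
    let b' : 𝓞 Qb := ⟨b, hb⟩
    have h1 := hg b'
    rw [← hgQ, Ideal.mem_pointwise_smul_iff_inv_smul_mem, mem_primeOf] at h1
    have h2 : (ρ⁻¹ * σ₂) b - b = - ((g⁻¹ • (g • b' - φ b') : 𝓞 Qb) : Qb) := by
      have e1 : ((g⁻¹ • (g • b' - φ b') : 𝓞 Qb) : Qb) = g⁻¹ (g b - σ₂ b) := rfl
      rw [e1, map_sub]
      have e2 : g⁻¹ (g b) = b := g.symm_apply_apply b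
      have e3 : (ρ⁻¹ * σ₂) b = g⁻¹ (σ₂ b) := rfl
      rw [e2, e3]
      ring
    rw [h2, A.mem_nonunits_iff, Valuation.map_neg, ← A.mem_nonunits_iff]
    exact h1
  · intro a ha
    have h1 : σ₁ a ∈ M := mem_of_normal M σ₁ ha
    have e3 : (ρ⁻¹ * σ₂) a = g⁻¹ (σ₂ a) := rfl
    rw [e3, hσ₂M a ha]
    exact (g⁻¹).commutes ⟨σ₁ a, h1⟩

end Lift

end Fermat.Agent.S13.Mink
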