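import Mathlib
import Fermat.Agent.S13.MinkLift
import Fermat.Agent.S13.RelInertia
import Fermat.Agent.S05.Inertia

set_option autoImplicit false

/-!
# S13, piece G: "unramified everywhere implies trivial"

`eq_top_of_relInertia_le`: a normal subgroup of `Gal(ℚ̄/ℚ)` that contains the fixing subgroup of
a number field `M` and, for every rational prime, the (finite-level) inertia at one valuation
subring over that prime, is the whole group (Minkowski, via Mathlib's
`NumberField.exists_not_isUnramifiedAt_int_of_isGalois`).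

`Mink.subgroup_eq_top_of_inertia_le` is the same statement for the absolute inertia subgroups
`A.inertiaSubgroupIn ℚ`.
-/

namespace Fermat.Agent.S13

namespace Mink

open NumberField
open scoped Pointwise

attribute [local instance] isAlgClosure_Qb isAlgebraic_tower normal_tower isGalois_tower

/-- A prime of a ring `R ↪ K` is the centre of some valuation subring of `K`. -/
theorem exists_valuationSubring_of_prime {R K : Type*} [CommRing R] [Field K] (f : R →+* K)
    (hf : Function.Injective f) (P : Ideal R) [P.IsPrime] :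
    ∃ A : ValuationSubring K, ∀ r ∈ P, f r ∈ A.nonunits := by
  let S : Subring K := f.range
  let e : R →+* S := f.rangeRestrict
  have he : Function.Surjective e := f.rangeRestrict_surjective
  have hker : RingHom.ker e ≤ P := by
    intro x hx
    have h1 : e x = 0 := hx
    have h2 : f x = 0 := congrArg Subtype.val h1
    have h3 : x = 0 := hf (by rw [h2, map_zero])
    rw [h3]
    exact P.zero_mem
  have : (P.map e).IsPrime := Ideal.map_isPrime_of_surjective he hker
  obtain ⟨B, hle, hloc⟩ :=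
    LocalSubring.exists_le_valuationSubring (LocalSubring.ofPrime S (P.map e))
  refine ⟨B, fun r hr => ?_⟩
  have h1 : algebraMap S (LocalSubring.ofPrime S (P.map e)).toSubring (e r) ∈
      IsLocalRing.maximalIdeal (LocalSubring.ofPrime S (P.map e)).toSubring :=
    (IsLocalization.AtPrime.to_map_mem_maximal_iff _ (P.map e) (e r)).2
      (Ideal.mem_map_of_mem e hr)
  rw [ValuationSubring.mem_nonunits_iff_exists_mem_maximalIdeal]
  have hmem : f r ∈ B := hle (algebraMap S (LocalSubring.ofPrime S (P.map e)).toSubring (e r)).2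
  refine ⟨hmem, ?_⟩
  rw [IsLocalRing.mem_maximalIdeal, mem_nonunits_iff] at h1 ⊢
  intro hu
  apply h1
  have := hloc.map_nonunit (algebraMap S (LocalSubring.ofPrime S (P.map e)).toSubring (e r))
  exact this hu

/-- (Gal1) Every rational prime lies under some valuation subring of `ℚ̄`. -/
theorem exists_liesOverPrime (q : ℕ) (hq : q.Prime) :
    ∃ A : ValuationSubring Qb, A.LiesOverPrime q := by
  have hpp : (Ideal.span {(q : ℤ)}).IsPrime :=
    (Ideal.span_singleton_prime (by exact_mod_cast hq.ne_zero)).2 (Nat.prime_iff_prime_int.1 hq)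
  obtain ⟨A, hAp⟩ := exists_valuationSubring_of_prime (Int.castRingHom Qb)
    (RingHom.injective_int _) (Ideal.span {(q : ℤ)})
  refine ⟨A, ?_⟩
  have h := hAp q (Ideal.mem_span_singleton_self _)
  simpa [ValuationSubring.LiesOverPrime] using h

/-- A Galois number field `M ≠ ℚ` inside `ℚ̄` has a rational prime `q` such that the inertia
subgroup of EVERY valuation subring over `q` moves `M`. -/
theorem exists_prime_inertia_nontrivial (M : IntermediateField ℚ Qb) [FiniteDimensional ℚ M]
    [Normal ℚ M] (hM : 1 < Module.finrank ℚ M) :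
    ∃ q : ℕ, q.Prime ∧ ∀ A : ValuationSubring Qb, A.LiesOverPrime q →
      ∃ σ ∈ A.inertiaSubgroupIn ℚ, ∃ a ∈ M, σ a ≠ a := by
  have : NumberField M := ⟨⟩
  have : IsGalois ℚ M := ⟨⟩
  obtain ⟨p, hp, hram⟩ :=
    NumberField.exists_not_isUnramifiedAt_int_of_isGalois (K := M) (𝒪 := 𝓞 M) hM
  refine ⟨p, hp, fun A hA => ?_⟩
  have hA : (p : Qb) ∈ A.nonunits := hA
  let P : Ideal (𝓞 M) := (primeOf A).under (𝓞 M)
  have hPmem : ∀ a : 𝓞 M, a ∈ P ↔ (((a : M) : Qb)) ∈ A.nonunits := by
    intro a
    show algebraMap (𝓞 M) (𝓞 Qb) a ∈ primeOf A ↔ _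
    rw [mem_primeOf]
    rfl
  have hPp : ((p : ℕ) : 𝓞 M) ∈ P := by
    rw [hPmem]
    simpa using hA
  have hnr := hram P inferInstance hPp
  have hcard : Nat.card (P.inertia (M ≃ₐ[ℚ] M)) ≠ 1 := by
    have : P.LiesOver (P.under ℤ) := ⟨rfl⟩
    rw [Ideal.card_inertia_eq_ramificationIdxIn (P.under ℤ) P,
      Ideal.ramificationIdxIn_eq_ramificationIdx (P.under ℤ) P (M ≃ₐ[ℚ] M)]
    intro h1
    exact hnr (Ideal.ramificationIdx_eq_one_iff.1 h1)
  obtain ⟨τ, hτ, hτ1⟩ : ∃ τ ∈ P.inertia (M ≃ₐ[ℚ] M), τ ≠ 1 := by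
    by_contra hcon
    have h2 : P.inertia (M ≃ₐ[ℚ] M) = ⊥ := by
      rw [Subgroup.eq_bot_iff_forall]
      intro x hx
      by_contra hx1
      exact hcon ⟨x, hx, hx1⟩
    rw [h2] at hcard
    simp at hcard
  obtain ⟨σ₁, hσ₁⟩ := AlgEquiv.restrictNormalHom_surjective (F := ℚ) (K₁ := M) (E := Qb) τ
  have hres : ∀ a : M, σ₁ (a : Qb) = ((τ a : M) : Qb) := by
    intro a
    rw [← hσ₁]
    exact (AlgEquiv.restrictNormal_commutes σ₁ M a).symm
  have hLL : ∀ a : Qb, a ∈ M → IsIntegral ℤ a → σ₁ a - a ∈ A.nonunits := by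
    intro a ha hint
    have ha' : IsIntegral ℤ (⟨a, ha⟩ : M) :=
      (isIntegral_algebraMap_iff (algebraMap M Qb).injective).1 hint
    let a' : 𝓞 M := ⟨⟨a, ha⟩, ha'⟩
    have h1 : τ • a' - a' ∈ P := hτ a'
    rw [hPmem] at h1
    have h2 := hres ⟨a, ha⟩
    rw [h2]
    exact h1
  obtain ⟨σ, hσI, hσM⟩ := exists_inertia_lift A hp hA M σ₁ hLL
  refine ⟨σ, hσI, ?_⟩
  by_contra hcon
  apply hτ1
  ext a
  have h1 : σ (a : Qb) = (a : Qb) := by
    by_contra h
    exact hcon ⟨_, a.2, h⟩
  rw [hσM _ a.2, hres a] at h1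
  exact_mod_cast h1

/-- (G), absolute form: a normal subgroup of `Gal(ℚ̄/ℚ)` containing the fixing subgroup of a
number field and, for every rational prime, the inertia subgroup of one valuation subring over
it, is everything ("unramified everywhere implies trivial"). -/
theorem subgroup_eq_top_of_inertia_le (H : Subgroup (Qb ≃ₐ[ℚ] Qb)) [hn : H.Normal]
    (M : IntermediateField ℚ Qb) [FiniteDimensional ℚ M] (hM : M.fixingSubgroup ≤ H)
    (hI : ∀ q : ℕ, q.Prime → ∃ A : ValuationSubring Qb, A.LiesOverPrime q ∧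
      A.inertiaSubgroupIn ℚ ≤ H) : H = ⊤ := by
  have hopen : IsOpen (H : Set (Qb ≃ₐ[ℚ] Qb)) :=
    Subgroup.isOpen_mono hM (IntermediateField.fixingSubgroup_isOpen M)
  have hclosed : IsClosed (H : Set (Qb ≃ₐ[ℚ] Qb)) := H.isClosed_of_isOpen hopen
  let Hc : ClosedSubgroup (Qb ≃ₐ[ℚ] Qb) := ⟨H, hclosed⟩
  let F : IntermediateField ℚ Qb := IntermediateField.fixedField H
  have hFH : F.fixingSubgroup = H := InfiniteGalois.fixingSubgroup_fixedField Hc
  have hFM : F ≤ M := by
    rw [← InfiniteGalois.fixedField_fixingSubgroup M]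
    intro x hx
    rw [IntermediateField.mem_fixedField_iff] at hx ⊢
    intro σ hσ
    exact hx σ (hM hσ)
  have hfin : FiniteDimensional ℚ F :=
    Module.Finite.of_injective (IntermediateField.inclusion hFM).toLinearMap
      (IntermediateField.inclusion hFM).injective
  have hgal : IsGalois ℚ F := by
    have h0 : F.fixingSubgroup.Normal := by
      rw [hFH]
      exact hn
    have h1 := (InfiniteGalois.normal_iff_isGalois F).1 h0
    convert h1
    exact Subsingleton.elim _ _
  have hnormal : Normal ℚ F := hgal.to_normal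
  by_cases h1 : Module.finrank ℚ F = 1
  · have h2 : F = ⊥ := IntermediateField.finrank_eq_one_iff.1 h1
    rw [← hFH, h2]
    exact IntermediateField.fixingSubgroup_bot
  · exfalso
    have hpos : 0 < Module.finrank ℚ F := Module.finrank_pos
    obtain ⟨q, hq, hall⟩ := exists_prime_inertia_nontrivial F (by omega)
    obtain ⟨A, hAq, hAH⟩ := hI q hq
    obtain ⟨σ, hσ, a, ha, hne⟩ := hall A hAq
    have hσH : σ ∈ F.fixingSubgroup := by
      rw [hFH]
      exact hAH hσ
    exact hne ((IntermediateField.mem_fixingSubgroup_iff F σ).1 hσH a ha)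

/-- Elements of the absolute inertia subgroup are relatively inertial at every level. -/
theorem relInertia_of_mem_inertia (A : ValuationSubring Qb) (M : IntermediateField ℚ Qb)
    (σ : Qb ≃ₐ[ℚ] Qb) (hσ : σ ∈ A.inertiaSubgroupIn ℚ) : RelInertia A M σ :=
  fun a _ ha => (Fermat.Agent.S05.inertia_unpack A σ hσ).2 a ha

end Mink

/-- (G), finite-level form: a normal subgroup `H` of `Gal(ℚ̄/ℚ)` that contains every automorphism
fixing the number field `M` pointwise and, for every rational prime `q`, every automorphism that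
is relatively inertial on `M` at one valuation subring over `q`, is the whole group. -/
theorem eq_top_of_relInertia_le (M : IntermediateField ℚ (AlgebraicClosure ℚ))
    [FiniteDimensional ℚ M] [Normal ℚ M]
    (H : Subgroup (AlgebraicClosure ℚ ≃ₐ[ℚ] AlgebraicClosure ℚ)) [H.Normal]
    (hM : ∀ σ : AlgebraicClosure ℚ ≃ₐ[ℚ] AlgebraicClosure ℚ, (∀ x ∈ M, σ x = x) → σ ∈ H)
    (hI : ∀ q : ℕ, q.Prime → ∃ A : ValuationSubring (AlgebraicClosure ℚ), A.LiesOverPrime q ∧
      ∀ σ, RelInertia A M σ → σ ∈ H) : H = ⊤ := by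
  refine Mink.subgroup_eq_top_of_inertia_le H M ?_ ?_
  · intro σ hσ
    exact hM σ ((IntermediateField.mem_fixingSubgroup_iff M σ).1 hσ)
  · intro q hq
    obtain ⟨A, hA, h⟩ := hI q hq
    exact ⟨A, hA, fun σ hσ => h σ (Mink.relInertia_of_mem_inertia A M σ hσ)⟩

end Fermat.Agent.S13
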