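import Mathlib
import Fermat.Statements.S13
import Fermat.Agent.S13.Assembly
import Fermat.Agent.S13.GalFin
import Fermat.Agent.S13.Minkowski
import Fermat.Agent.S13.LocalPRel

/-!
# S13: assembly with the landed pieces plugged in

`asm_final`: S13 from (T) torsion facts, (NP2), (L2) and (L2e).
-/

set_option autoImplicit false

namespace Fermat.Agent.S13

open WeierstrassCurve WeierstrassCurve.Affine WeierstrassCurve.Affine.Point Fermat.Agent.S05

local notation "Qbar" => AlgebraicClosure ℚ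

theorem asm_final (P : FreyPackage)
    (hT : ∀ (x y : Qbar) (h : (P.freyCurve⁄Qbar).Nonsingular x y),
      P.p • (Point.some x y h : (P.freyCurve⁄Qbar).Point) = 0 ↔
        ((P.freyCurve⁄Qbar).preΨ' P.p).eval x = 0)
    (hnon : Nontrivial (Submodule.torsionBy ℤ (P.freyCurve⁄Qbar).Point P.p))
    (hfin : Finite (Submodule.torsionBy ℤ (P.freyCurve⁄Qbar).Point P.p))
    (hcard : Nat.card (Submodule.torsionBy ℤ (P.freyCurve⁄Qbar).Point P.p) ≤ P.p ^ 2)
    (hNP : ∀ (M : IntermediateField ℚ Qbar), FiniteDimensional ℚ M → Normal ℚ M →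
      ∀ (A : ValuationSubring Qbar) (q : ℕ), q.Prime → A.LiesOverPrime q →
      ∀ x ∈ M, x ≠ 0 → (∀ σ : Qbar ≃ₐ[ℚ] Qbar, RelInertia A M σ → σ x = x) →
        ∃ k : ℤ, A.valuation x = A.valuation (q : Qbar) ^ k)
    (hL2 : ∃ S₀ : Finset Qbar, ∀ (M : IntermediateField ℚ Qbar) (A : ValuationSubring Qbar),
      (∀ x ∈ S₀, x ∈ M) → TorsCoords P M → A.LiesOverPrime 2 →
      (∀ z ∈ M, z ≠ 0 → (∀ σ : Qbar ≃ₐ[ℚ] Qbar, RelInertia A M σ → σ z = z) →
        ∃ k : ℤ, A.valuation z = A.valuation ((2 : ℕ) : Qbar) ^ k) →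
      Nat.card (Submodule.torsionBy ℤ (P.freyCurve⁄Qbar).Point P.p) ≤ P.p ^ 2 →
      ∀ N : Submodule (ZMod P.p) (Submodule.torsionBy ℤ (P.freyCurve⁄Qbar).Point P.p),
        IsGaloisStable ℚ N → N ≠ ⊥ → N ≠ ⊤ →
        ∀ σ : Qbar ≃ₐ[ℚ] Qbar, RelInertia A M σ →
          (∀ x ∈ N, σ • x = x) ∧ (∀ x, σ • x - x ∈ N))
    (hrat : ∀ (x y : ℚ)
      (h : (P.freyCurve⁄Qbar).Nonsingular (algebraMap ℚ Qbar x) (algebraMap ℚ Qbar y)),
      P.p • (Point.some _ _ h : (P.freyCurve⁄Qbar).Point) ≠ 0)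
    (hred : ¬ GaloisRepIsIrreducible (K := Qbar) ℚ P.freyCurve P.p) :
    HasGaloisStableCofixedLine (K := Qbar) ℚ P.freyCurve P.p := by
  obtain ⟨S2, hS2⟩ := hL2
  refine asm_main P hnon hfin exists_normal_finite Mink.exists_liesOverPrime ?_ ⟨S2, ?_⟩
    ⟨∅, ?_⟩ hrat hred
  · intro M hfd hn H hH h1 h2
    exact eq_top_of_relInertia_le M H h1 h2
  · intro M A hfd hn hS hTC hA2 N hN hN0 hN1 σ hσ
    exact hS2 M A hS hTC hA2
      (fun z hz hz0 hfix => hNP M hfd hn A 2 Nat.prime_two hA2 z hz hz0 hfix) hcard N hN hN0 hN1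
      σ hσ
  · intro M A hfd hn _ hTC hAp N hN hN0 hN1
    exact Lp.frey_local_p_rel P A hAp M hTC
      (fun z hz hz0 hfix => hNP M hfd hn A P.p P.pp hAp z hz hz0 hfix) hT hfin hcard N
      (fun σ _ x hx => hN σ x hx) hN0 hN1

end Fermat.Agent.S13
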