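import Mathlib

/-!
# The inertia field is unramified (S13, piece NP2, finite-level core)

Mathlib (`NumberTheory/RamificationInertia/HilbertTheory.lean`) proves that the prime of the
decomposition field below `P` is unramified over the base.  Here we prove the analogous statement
for the inertia field, following the same pattern.
-/

open MulAction Pointwise Ideal

namespace Fermat.Agent.S13

section

variable (A K L : Type*) {B : Type*} [Field K] [Field L] [Algebra K L] [CommRing A] [CommRing B]
  [Algebra A B] {p : Ideal A} (P : Ideal B) [P.LiesOver p]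
  [Algebra A K] [IsFractionRing A K] [Algebra A L] [IsScalarTower A K L] [Algebra B L]
  [IsScalarTower A B L] [IsFractionRing B L] [MulSemiringAction Gal(L/K) B]
  [SMulDistribClass Gal(L/K) B L]
  (E 𝓞E : Type*) [Field E] [Algebra E L] [IsInertiaField K L P E] [CommRing 𝓞E]
  [Algebra 𝓞E E] [IsFractionRing 𝓞E E] [Algebra 𝓞E B] [Algebra 𝓞E L] [IsScalarTower 𝓞E E L]
  [IsScalarTower 𝓞E B L] (𝓟E : Ideal 𝓞E) [hE : P.LiesOver 𝓟E]
  [IsGalois K L] [IsDedekindDomain A] [IsDedekindDomain B] [Module.Finite A B]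
  [Module.IsTorsionFree A B] [Algebra A 𝓞E] [Module.Finite A 𝓞E] [IsScalarTower A 𝓞E B]
  [IsDedekindDomain 𝓞E] [𝓟E.LiesOver p]
  [FiniteDimensional K L] [Ring.HasFiniteQuotients A] [𝓟E.IsMaximal] [P.IsMaximal]

include K L E P in
/-- The prime of the inertia field below `P` is unramified over the base. -/
theorem inertiaField_ramificationIdx_eq_one (hp : p ≠ ⊥) : 𝓟E.ramificationIdx A = 1 := by
  have inst₁ : Module.Finite 𝓞E B := Module.Finite.right A 𝓞E B
  have inst₂ : Module.IsTorsionFree 𝓞E B := by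
    rw [Module.isTorsionFree_iff_faithfulSMul]
    apply Algebra.IsAlgebraic.faithfulSMul_tower_top A
  have inst₃ : Module.IsTorsionFree A 𝓞E := Module.IsTorsionFree.of_faithfulSMul _ _ B
  have inst₄ : IsGaloisGroup Gal(L/K) A B := .of_isFractionRing _ _ _ K L
  have inst₅ : IsGaloisGroup (inertia Gal(L/K) P) 𝓞E B := .of_isFractionRing _ _ _ E L
  have h𝓟 : 𝓟E ≠ ⊥ := Ideal.ne_bot_of_liesOver_of_ne_bot hp 𝓟E
  have : p.IsMaximal := over_def P p ▸ Ideal.IsMaximal.under A P
  have : Finite (A ⧸ p) := Ring.HasFiniteQuotients.finiteQuotient hp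
  have : Ring.HasFiniteQuotients 𝓞E := Ring.HasFiniteQuotients.of_module_finite A 𝓞E
  have : Finite (𝓞E ⧸ 𝓟E) := Ring.HasFiniteQuotients.finiteQuotient h𝓟
  have h1 : ramificationIdxIn 𝓟E B = p.ramificationIdxIn B := by
    rw [← card_inertia_eq_ramificationIdxIn (G := inertia Gal(L/K) P) 𝓟E P,
      ← card_inertia_eq_ramificationIdxIn (G := Gal(L/K)) p P]
    have htop : inertia (inertia Gal(L/K) P) P = ⊤ := by
      rw [eq_top_iff]
      intro g _
      exact g.2
    rw [htop, Subgroup.card_top]
  have := ramificationIdx_tower (R := A) 𝓟E P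
  rwa [← ramificationIdxIn_eq_ramificationIdx 𝓟E P (inertia Gal(L/K) P), h1,
    ramificationIdxIn_eq_ramificationIdx p P Gal(L/K),
    right_eq_mul₀ <| (ramificationIdx_pos P A).ne'] at this

end

end Fermat.Agent.S13
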