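import Mathlib
import Fermat.Agent.S54.Frobenius

/-!
# Lifting inertia from finite Galois level to `Gal(ℚ̄/ℚ)` (S13, pieces L0/L1)

* `mem_inertiaSubgroupIn_of` : membership criterion for `A.inertiaSubgroupIn ℚ`.
* `exists_inertia_lift` : an automorphism acting trivially modulo `A` on the integers of a finite
  normal subfield `L` agrees on `L` with an element of the inertia subgroup of `A`.
-/

open scoped Pointwise

namespace Fermat.Agent.S13

noncomputable section

local notation "Qb" => AlgebraicClosure ℚ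
local notation "Γ" => (AlgebraicClosure ℚ ≃ₐ[ℚ] AlgebraicClosure ℚ)
local notation "Zb" => integralClosure ℤ (AlgebraicClosure ℚ)

open Fermat.Agent.S54

attribute [local instance] qbar_isAlgebraic qbar_isAlgClosure qbar_isGalois zbar_isInvariant
  zbarTopology zbar_discrete zbar_continuousSMul

/-- (L0) Membership criterion for the inertia subgroup. -/
theorem mem_inertiaSubgroupIn_of (A : ValuationSubring Qb) (σ : Γ) (h1 : σ • A = A)
    (h2 : ∀ a : Qb, a ∈ A → σ a - a ∈ A.nonunits) : σ ∈ A.inertiaSubgroupIn ℚ := by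
  refine Subgroup.mem_map.mpr ⟨⟨σ, h1⟩, ?_, rfl⟩
  show MulSemiringAction.toRingAut (A.decompositionSubgroup ℚ) (IsLocalRing.ResidueField A)
    ⟨σ, h1⟩ = 1
  ext x
  obtain ⟨a, rfl⟩ := IsLocalRing.residue_surjective x
  show (⟨σ, h1⟩ : A.decompositionSubgroup ℚ) • (IsLocalRing.residue A a) = IsLocalRing.residue A a
  rw [← IsLocalRing.ResidueField.residue_smul, ← sub_eq_zero, ← map_sub,
    IsLocalRing.residue_eq_zero_iff, ← ValuationSubring.coe_mem_nonunits_iff]
  exact h2 a a.2

/-- If `σ` fixes the centre of `A` and acts trivially on the residue ring of the algebraic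
integers, then it lies in the inertia subgroup. -/
theorem mem_inertiaSubgroupIn_of_zbar (A : ValuationSubring Qb) (σ : Γ)
    (hσ : σ • centerIdeal A = centerIdeal A)
    (key : ∀ b : Zb, σ • b - b ∈ centerIdeal A) : σ ∈ A.inertiaSubgroupIn ℚ := by
  have hσA : σ • A = A := smul_eq_of_smul_centerIdeal A σ hσ
  refine mem_inertiaSubgroupIn_of A σ hσA ?_
  intro a ha
  obtain ⟨b, s, hs, has⟩ := exists_mul_eq A a ha
  have hq2 : σ (b : Qb) - (b : Qb) ∈ A.nonunits := key b
  have hq1 : σ (s : Qb) - (s : Qb) ∈ A.nonunits := key s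
  have hs' : σ • s ∉ centerIdeal A := by
    intro h
    apply hs
    rw [← hσ] at h
    exact Ideal.smul_mem_pointwise_smul_iff.mp h
  rw [not_mem_centerIdeal_iff_val, coe_smul_zbar] at hs'
  have hprod : (σ a - a) * σ (s : Qb) ∈ A.nonunits := by
    have h1 : σ a * σ (s : Qb) = σ (b : Qb) := by rw [← map_mul, has]
    have h2 : (σ a - a) * σ (s : Qb) =
        (σ (b : Qb) - (b : Qb)) - a * (σ (s : Qb) - (s : Qb)) := by
      linear_combination h1 - has
    rw [h2]
    exact A.nonunits.sub_mem hq2 (val_mul_lt_one A ha hq1)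
  rw [A.mem_nonunits_iff] at hprod ⊢
  rwa [map_mul, hs', mul_one] at hprod

theorem lift_map_mem_of_normal (L : IntermediateField ℚ Qb) [Normal ℚ L] (σ : Γ) {x : Qb}
    (hx : x ∈ L) : σ x ∈ L := by
  have h := AlgEquiv.restrictNormal_commutes σ L ⟨x, hx⟩
  have h' : σ x = ((σ.restrictNormal L) ⟨x, hx⟩ : Qb) := h.symm
  rw [h']
  exact ((σ.restrictNormal L) ⟨x, hx⟩).2

/-- An algebraic integer fixed by the fixing subgroup of `L` lies in `L`. -/
theorem mem_of_fixed (L : IntermediateField ℚ Qb) (b : Qb)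
    (hb : ∀ g : L.fixingSubgroup, (g : Γ) b = b) : b ∈ L := by
  have h := InfiniteGalois.fixedField_fixingSubgroup (k := ℚ) (K := Qb) L
  rw [← h, IntermediateField.mem_fixedField_iff]
  intro f hf
  exact hb ⟨f, hf⟩

set_option synthInstance.maxHeartbeats 400000 in
set_option maxHeartbeats 1600000 in
/-- (L1) Lifting inertia: if `τ` acts trivially modulo `A` on the algebraic integers of the
normal subfield `L`, then some element of the inertia subgroup of `A` agrees with `τ` on `L`. -/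
theorem exists_inertia_lift (A : ValuationSubring Qb) (L : IntermediateField ℚ Qb) [Normal ℚ L]
    (τ : Γ) (hτ : ∀ b : Qb, b ∈ L → IsIntegral ℤ b → τ b - b ∈ A.nonunits) :
    ∃ σ : Γ, σ ∈ A.inertiaSubgroupIn ℚ ∧ ∀ x : Qb, x ∈ L → σ x = τ x := by
  classical
  have hQprime : (centerIdeal A).IsPrime := centerIdeal_isPrime A
  -- the closed subgroup fixing `L`
  have hHclosed : IsClosed (L.fixingSubgroup : Set Γ) :=
    InfiniteGalois.fixingSubgroup_isClosed L
  have : CompactSpace L.fixingSubgroup := isCompact_iff_compactSpace.mp hHclosed.isCompact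
  -- invariants
  have hinv : Algebra.IsInvariant (FixedPoints.subring Zb L.fixingSubgroup) Zb L.fixingSubgroup :=
    ⟨fun b hb => ⟨⟨b, hb⟩, rfl⟩⟩
  -- elements of the fixed subring lie in `L`
  have hfixL : ∀ b : Zb, b ∈ FixedPoints.subring Zb L.fixingSubgroup → (b : Qb) ∈ L := by
    intro b hb
    refine mem_of_fixed L _ fun g => ?_
    exact congrArg (fun z : Zb => (z : Qb)) (hb g)
  -- key congruence on the fixed subring
  have hcong : ∀ b : Zb, b ∈ FixedPoints.subring Zb L.fixingSubgroup →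
      τ • b - b ∈ centerIdeal A := by
    intro b hb
    rw [mem_centerIdeal]
    exact hτ _ (hfixL b hb) b.2
  have hcong' : ∀ b : Zb, b ∈ FixedPoints.subring Zb L.fixingSubgroup →
      τ⁻¹ • b - b ∈ centerIdeal A := by
    intro b hb
    have hmem : (((τ⁻¹ • b : Zb)) : Qb) ∈ L := lift_map_mem_of_normal L τ⁻¹ (hfixL b hb)
    have h1 := hτ _ hmem (τ⁻¹ • b).2
    have h2 : τ ((τ⁻¹ • b : Zb) : Qb) = (b : Qb) := by
      show τ (τ⁻¹ (b : Qb)) = b
      exact τ.apply_symm_apply _
    rw [h2] at h1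
    rw [mem_centerIdeal]
    have h3 : (((τ⁻¹ • b - b : Zb)) : Qb) = -((b : Qb) - ((τ⁻¹ • b : Zb) : Qb)) := by
      push_cast; ring
    rw [h3]
    exact A.nonunits.neg_mem h1
  -- Step 1: `τ • Q` and `Q` have the same restriction
  have hunder : (centerIdeal A).under (FixedPoints.subring Zb L.fixingSubgroup) =
      (τ • centerIdeal A).under (FixedPoints.subring Zb L.fixingSubgroup) := by
    ext ⟨b, hb⟩
    simp only [Ideal.under_def, Ideal.mem_comap]
    show b ∈ centerIdeal A ↔ b ∈ τ • centerIdeal A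
    rw [Ideal.mem_pointwise_smul_iff_inv_smul_mem]
    constructor
    · intro h
      have := (centerIdeal A).add_mem (hcong' b hb) h
      simpa using this
    · intro h
      have := (centerIdeal A).sub_mem h (hcong' b hb)
      simpa using this
  have hτQprime : (τ • centerIdeal A).IsPrime := by
    rw [Ideal.pointwise_smul_eq_comap]
    exact Ideal.comap_isPrime _ _
  obtain ⟨h, hh⟩ := Algebra.IsInvariant.exists_smul_of_under_eq_of_profinite
    (A := FixedPoints.subring Zb L.fixingSubgroup) (G := L.fixingSubgroup)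
    (centerIdeal A) (τ • centerIdeal A) hunder
  -- τ₁ := h⁻¹ τ stabilises Q
  set τ₁ : Γ := (h : Γ)⁻¹ * τ with hτ₁
  have hτ₁Q : τ₁ • centerIdeal A = centerIdeal A := by
    rw [hτ₁, mul_smul, hh]
    show (h : Γ)⁻¹ • ((h : Γ) • centerIdeal A) = centerIdeal A
    rw [inv_smul_smul]
  have hfix : ∀ (g : L.fixingSubgroup) (x : Qb), x ∈ L → (g : Γ) x = x := by
    intro g x hx
    exact (IntermediateField.mem_fixingSubgroup_iff L g).mp g.2 x hx
  have hfix' : ∀ (g : L.fixingSubgroup) (x : Qb), x ∈ L → (g : Γ)⁻¹ x = x := by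
    intro g x hx
    have := hfix g⁻¹ x hx
    simpa using this
  have hτ₁L : ∀ x : Qb, x ∈ L → τ₁ x = τ x := by
    intro x hx
    show (h : Γ)⁻¹ (τ x) = τ x
    exact hfix' h _ (lift_map_mem_of_normal L τ hx)
  -- Step 2: the automorphism induced by τ₁ on the residue ring is linear over the residue
  -- ring of the fixed subring
  have hlies : (centerIdeal A).LiesOver
      ((centerIdeal A).under (FixedPoints.subring Zb L.fixingSubgroup)) := ⟨rfl⟩
  have hliesZ : (centerIdeal A).LiesOver ((centerIdeal A).under ℤ) := ⟨rfl⟩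
  let φ₀ := Ideal.Quotient.stabilizerHom (centerIdeal A) ((centerIdeal A).under ℤ) Γ ⟨τ₁, hτ₁Q⟩
  have hφ₀ : ∀ b : Zb, φ₀ (Ideal.Quotient.mk _ b) = Ideal.Quotient.mk _ (τ₁ • b) := by
    intro b
    exact Ideal.Quotient.stabilizerHom_apply _ _ _ _ _
  let φ : (Zb ⧸ centerIdeal A) ≃ₐ[(FixedPoints.subring Zb L.fixingSubgroup) ⧸
      (centerIdeal A).under (FixedPoints.subring Zb L.fixingSubgroup)] (Zb ⧸ centerIdeal A) :=
    AlgEquiv.ofRingEquiv (f := φ₀.toRingEquiv) (by
      intro r
      obtain ⟨⟨a, ha⟩, rfl⟩ := Ideal.Quotient.mk_surjective r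
      show φ₀ (Ideal.Quotient.mk _ a) = Ideal.Quotient.mk _ a
      rw [hφ₀, Ideal.Quotient.eq]
      have h1 := hcong a ha
      rw [mem_centerIdeal] at h1 ⊢
      have h2 : ((τ₁ • a - a : Zb) : Qb) = τ₁ (a : Qb) - (a : Qb) := rfl
      have h3 : ((τ • a - a : Zb) : Qb) = τ (a : Qb) - (a : Qb) := rfl
      rw [h2, hτ₁L _ (hfixL a ha), ← h3]
      exact h1)
  obtain ⟨⟨h', hh'⟩, hφ⟩ := Ideal.Quotient.stabilizerHom_surjective_of_profinite
    (G := L.fixingSubgroup)
    ((centerIdeal A).under (FixedPoints.subring Zb L.fixingSubgroup)) (centerIdeal A) φ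
  have hh'Q : (h' : Γ) • centerIdeal A = centerIdeal A := hh'
  have hφ' : ∀ b : Zb, Ideal.Quotient.mk (centerIdeal A) ((h' : Γ) • b) =
      Ideal.Quotient.mk (centerIdeal A) (τ₁ • b) := by
    intro b
    have h1 := congrArg (fun f => f (Ideal.Quotient.mk (centerIdeal A) b)) hφ
    simp only [Ideal.Quotient.stabilizerHom_apply] at h1
    rw [← hφ₀ b]
    exact h1
  -- Step 3: σ := h'⁻¹ τ₁
  refine ⟨(h' : Γ)⁻¹ * τ₁, ?_, ?_⟩
  · refine mem_inertiaSubgroupIn_of_zbar A _ ?_ ?_
    · rw [mul_smul, hτ₁Q]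
      conv_lhs => rw [← hh'Q]
      rw [inv_smul_smul]
    · intro b
      have h1 := hφ' (((h' : Γ)⁻¹ * τ₁) • b)
      have h2 : (h' : Γ) • (((h' : Γ)⁻¹ * τ₁) • b) = τ₁ • b := by
        rw [mul_smul, smul_inv_smul]
      have h3 := hφ' b
      rw [h2] at h1
      -- mk (τ₁ b) = mk (τ₁ (σ b)), hence τ₁ (σ b - b) ∈ Q
      have h4 : τ₁ • ((((h' : Γ)⁻¹ * τ₁) • b) - b) ∈ centerIdeal A := by
        rw [smul_sub, ← Ideal.Quotient.eq]
        exact h1.symm
      rw [← hτ₁Q] at h4
      exact Ideal.smul_mem_pointwise_smul_iff.mp h4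
  · intro x hx
    show (h' : Γ)⁻¹ (τ₁ x) = τ x
    rw [hτ₁L x hx]
    exact hfix' h' _ (lift_map_mem_of_normal L τ hx)

end

end Fermat.Agent.S13
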