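import Mathlib
import Fermat.Agent.S05.RVal

namespace Fermat.Agent.S13

open Fermat.Agent.S05

section Uniformizer

variable {R K : Type*} [CommRing R] [IsDedekindDomain R] [Field K] (V : RVal K) (ι : R →+* K)

theorem unif_exists_bound (hle : ∀ x, V.w (ι x) ≤ 1) (P : Ideal R)
    (hP : ∀ x, x ∈ P → V.w (ι x) < 1) :
    ∃ c : ℝ, 0 ≤ c ∧ c < 1 ∧ ∀ x ∈ P, V.w (ι x) ≤ c := by
  classical
  obtain ⟨S, hS⟩ : P.FG := (isNoetherianRing_iff_ideal_fg R).mp inferInstance P
  have hSP : ∀ s ∈ S, s ∈ P := fun s hs => hS ▸ Ideal.subset_span hs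
  have key : ∀ T : Finset R, (∀ s ∈ T, s ∈ P) →
      ∃ c : ℝ, 0 ≤ c ∧ c < 1 ∧ ∀ s ∈ T, V.w (ι s) ≤ c := by
    intro T
    induction T using Finset.induction_on with
    | empty => intro _; exact ⟨0, le_rfl, zero_lt_one, by simp⟩
    | insert a T ha ih =>
      intro h
      obtain ⟨c, hc0, hc1, hc⟩ := ih (fun s hs => h s (Finset.mem_insert_of_mem hs))
      refine ⟨max c (V.w (ι a)), le_max_of_le_left hc0,
        max_lt hc1 (hP a (h a (Finset.mem_insert_self a T))), ?_⟩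
      intro s hs
      rcases Finset.mem_insert.mp hs with rfl | hs
      · exact le_max_right _ _
      · exact (hc s hs).trans (le_max_left _ _)
  obtain ⟨c, hc0, hc1, hc⟩ := key S hSP
  refine ⟨c, hc0, hc1, ?_⟩
  intro x hx
  rw [← hS] at hx
  induction hx using Submodule.span_induction with
  | mem s hs => exact hc s hs
  | zero => simpa [V.w_zero] using hc0
  | add a b _ _ iha ihb =>
    rw [map_add]
    exact V.w_add_le iha ihb
  | smul a b _ ihb =>
    rw [smul_eq_mul, map_mul, V.w_mul]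
    calc V.w (ι a) * V.w (ι b) ≤ 1 * c :=
          mul_le_mul (hle a) ihb (V.w_nonneg _) zero_le_one
      _ = c := one_mul c

theorem unif_pow_bound (hle : ∀ x, V.w (ι x) ≤ 1) (P : Ideal R) {c : ℝ} (hc0 : 0 ≤ c)
    (hc : ∀ x ∈ P, V.w (ι x) ≤ c) (n : ℕ) : ∀ x ∈ P ^ n, V.w (ι x) ≤ c ^ n := by
  induction n with
  | zero => intro x _; simpa using hle x
  | succ n ih =>
    intro x hx
    rw [pow_succ] at hx
    refine Submodule.mul_induction_on hx ?_ ?_
    · intro a ha b hb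
      rw [map_mul, V.w_mul, pow_succ]
      exact mul_le_mul (ih a ha) (hc b hb) (V.w_nonneg _) (pow_nonneg hc0 n)
    · intro a b iha ihb
      rw [map_add]
      exact V.w_add_le iha ihb

variable (P : Ideal R) [P.IsPrime] (π : R)

theorem unif_sup_eq (hP0 : P ≠ ⊥) (hπ : π ∈ P) (hπ2 : π ∉ P ^ 2) :
    Ideal.span {π} ⊔ P ^ 2 = P := by
  have h := Ideal.eq_prime_pow_of_succ_lt_of_le hP0 (i := 1) (I := Ideal.span {π} ⊔ P ^ 2) ?_ ?_
  · simpa using h
  · refine lt_of_le_of_ne le_sup_right ?_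
    intro heq
    apply hπ2
    have : π ∈ Ideal.span {π} ⊔ P ^ 2 := Ideal.mem_sup_left (Ideal.subset_span rfl)
    rw [← heq] at this
    simpa using this
  · rw [pow_one]
    refine sup_le ?_ (Ideal.pow_le_self (by norm_num))
    rw [Ideal.span_le, Set.singleton_subset_iff]
    exact hπ

theorem unif_step (hP0 : P ≠ ⊥) (hπ : π ∈ P) (hπ2 : π ∉ P ^ 2) (k : ℕ) :
    P ^ k ≤ Ideal.span {π ^ k} ⊔ P ^ (k + 1) := by
  have hsup := unif_sup_eq P π hP0 hπ hπ2
  have hspan : ∀ j : ℕ, Ideal.span {π ^ j} ≤ P ^ j := by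
    intro j
    rw [Ideal.span_le, Set.singleton_subset_iff]
    exact Ideal.pow_mem_pow hπ j
  induction k with
  | zero => simp
  | succ k ih =>
    calc P ^ (k + 1) = P ^ k * P := pow_succ P k
      _ ≤ (Ideal.span {π ^ k} ⊔ P ^ (k + 1)) * (Ideal.span {π} ⊔ P ^ 2) := by
          rw [hsup]; exact Ideal.mul_mono_left ih
      _ ≤ Ideal.span {π ^ (k + 1)} ⊔ P ^ (k + 1 + 1) := by
          rw [Ideal.sup_mul, Ideal.mul_sup, Ideal.mul_sup]
          refine sup_le (sup_le ?_ ?_) (sup_le ?_ ?_)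
          · rw [Ideal.span_singleton_mul_span_singleton, ← pow_succ]
            exact le_sup_left
          · refine le_sup_of_le_right ?_
            calc Ideal.span {π ^ k} * P ^ 2 ≤ P ^ k * P ^ 2 := Ideal.mul_mono_left (hspan k)
              _ = P ^ (k + 1 + 1) := by rw [← pow_add]
          · refine le_sup_of_le_right ?_
            calc P ^ (k + 1) * Ideal.span {π} ≤ P ^ (k + 1) * P :=
                  Ideal.mul_mono_right (by simpa using hspan 1)
              _ = P ^ (k + 1 + 1) := by rw [← pow_succ]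
          · refine le_sup_of_le_right ?_
            calc P ^ (k + 1) * P ^ 2 = P ^ (k + 1 + 2) := by rw [← pow_add]
              _ ≤ P ^ (k + 1 + 1) := Ideal.pow_le_pow_right (by omega)

theorem unif_step' (hP0 : P ≠ ⊥) (hπ : π ∈ P) (hπ2 : π ∉ P ^ 2) (k n : ℕ) :
    P ^ k ≤ Ideal.span {π ^ k} ⊔ P ^ (k + n) := by
  induction n with
  | zero => exact le_sup_right
  | succ n ih =>
    refine ih.trans (sup_le le_sup_left ?_)
    refine (unif_step P π hP0 hπ hπ2 (k + n)).trans (sup_le ?_ ?_)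
    · refine le_sup_of_le_left ?_
      rw [Ideal.span_le, Set.singleton_subset_iff, pow_add]
      exact Ideal.mul_mem_right _ _ (Ideal.subset_span rfl)
    · exact le_sup_of_le_right (le_of_eq (by rw [add_assoc]))

theorem unif_le_pow (hle : ∀ x, V.w (ι x) ≤ 1) (hP0 : P ≠ ⊥) (hP : ∀ x, x ∈ P → V.w (ι x) < 1)
    (hπ : π ∈ P) (hπ2 : π ∉ P ^ 2) (hπ0 : ι π ≠ 0) (k : ℕ) :
    ∀ x ∈ P ^ k, V.w (ι x) ≤ V.w (ι π) ^ k := by
  intro x hx
  obtain ⟨c, hc0, hc1, hc⟩ := unif_exists_bound V ι hle P hP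
  have hπpos : 0 < V.w (ι π) ^ k := pow_pos (V.w_pos _ hπ0) k
  obtain ⟨n, hn⟩ := exists_pow_lt_of_lt_one hπpos hc1
  have hx' := unif_step' P π hP0 hπ hπ2 k n hx
  rw [Ideal.mem_span_singleton_sup] at hx'
  obtain ⟨a, z, hz, rfl⟩ := hx'
  have hz' : V.w (ι z) ≤ V.w (ι π) ^ k := by
    have h1 := unif_pow_bound V ι hle P hc0 hc (k + n) z hz
    have h2 : c ^ (k + n) ≤ c ^ n := by
      rw [pow_add]
      calc c ^ k * c ^ n ≤ 1 * c ^ n :=
            mul_le_mul_of_nonneg_right (pow_le_one₀ hc0 hc1.le) (pow_nonneg hc0 n)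
        _ = c ^ n := one_mul _
    linarith
  rw [map_add, map_mul, map_pow]
  refine V.w_add_le ?_ hz'
  rw [V.w_mul, V.w_pow]
  calc V.w (ι a) * V.w (ι π) ^ k ≤ 1 * V.w (ι π) ^ k :=
        mul_le_mul_of_nonneg_right (hle a) hπpos.le
    _ = V.w (ι π) ^ k := one_mul _

/-- If `π ∈ P \ P ^ 2` then every nonzero element has absolute value a power of that of `π`. -/
theorem unif_exists_pow (hι : Function.Injective ι) (hle : ∀ x, V.w (ι x) ≤ 1) (hP0 : P ≠ ⊥)
    (hP : ∀ x, x ∈ P ↔ V.w (ι x) < 1) (hπ : π ∈ P) (hπ2 : π ∉ P ^ 2) (y : R) (hy : y ≠ 0) :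
    ∃ k : ℕ, V.w (ι y) = V.w (ι π) ^ k := by
  classical
  have hπ0 : ι π ≠ 0 := by
    intro h
    have : π = 0 := hι (by rw [h, map_zero])
    rw [this] at hπ2
    exact hπ2 (Ideal.zero_mem _)
  have hπpos : 0 < V.w (ι π) := V.w_pos _ hπ0
  have hπlt : V.w (ι π) < 1 := (hP π).mp hπ
  have hypos : 0 < V.w (ι y) := V.w_pos _ (by
    intro h
    exact hy (hι (by rw [h, map_zero])))
  have hle_pow := unif_le_pow V ι P π hle hP0 (fun x hx => (hP x).mp hx) hπ hπ2 hπ0
  -- there is `k` with `y ∉ P ^ (k + 1)`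
  have hex : ∃ k : ℕ, y ∉ P ^ (k + 1) := by
    by_contra hcon
    push Not at hcon
    obtain ⟨n, hn⟩ := exists_pow_lt_of_lt_one hypos hπlt
    have h1 := hle_pow (n + 1) y (hcon n)
    have h2 : V.w (ι π) ^ (n + 1) ≤ V.w (ι π) ^ n := by
      rw [pow_succ]
      calc V.w (ι π) ^ n * V.w (ι π) ≤ V.w (ι π) ^ n * 1 :=
            mul_le_mul_of_nonneg_left hπlt.le (pow_nonneg hπpos.le n)
        _ = V.w (ι π) ^ n := mul_one _
    linarith
  let k := Nat.find hex
  have hk1 : y ∉ P ^ (k + 1) := Nat.find_spec hex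
  have hk0 : y ∈ P ^ k := by
    rcases Nat.eq_zero_or_pos k with h0 | hpos
    · rw [h0]; simp
    · have := Nat.find_min hex (m := k - 1) (by omega)
      push Not at this
      have e : k - 1 + 1 = k := by omega
      rwa [e] at this
  refine ⟨k, ?_⟩
  have hy' := unif_step P π hP0 hπ hπ2 k hk0
  rw [Ideal.mem_span_singleton_sup] at hy'
  obtain ⟨a, z, hz, hyz⟩ := hy'
  have ha : a ∉ P := by
    intro ha
    apply hk1
    rw [← hyz]
    refine Ideal.add_mem _ ?_ hz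
    rw [pow_succ, mul_comm]
    exact Ideal.mul_mem_mul ha (Ideal.pow_mem_pow hπ k)
  have hwa : V.w (ι a) = 1 := by
    have h1 : ¬ V.w (ι a) < 1 := fun h => ha ((hP a).mpr h)
    exact le_antisymm (hle a) (not_lt.mp h1)
  have hwz : V.w (ι z) ≤ V.w (ι π) ^ (k + 1) := hle_pow (k + 1) z hz
  have hlt : V.w (ι z) < V.w (ι π) ^ k := by
    refine lt_of_le_of_lt hwz ?_
    rw [pow_succ]
    calc V.w (ι π) ^ k * V.w (ι π) < V.w (ι π) ^ k * 1 :=
          mul_lt_mul_of_pos_left hπlt (pow_pos hπpos k)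
      _ = V.w (ι π) ^ k := mul_one _
  have hmain : V.w (ι (a * π ^ k)) = V.w (ι π) ^ k := by
    rw [map_mul, map_pow, V.w_mul, V.w_pow, hwa, one_mul]
  rw [← hyz, map_add, V.w_add_eq_of_lt (by rw [hmain]; exact hlt), hmain]

end Uniformizer


end Fermat.Agent.S13
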