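import Mathlib
import Fermat.Agent.S13.InertiaField
import Fermat.Agent.S13.InertiaLift
import Fermat.Agent.S13.Uniformizer
import Fermat.Agent.S13.RelInertia
import Fermat.Agent.S05.Inertia
import Fermat.Agent.S05.RValOfSubring
/-!
# Elements fixed by inertia have valuation in the value group of `ℚ` (S13, piece NP2)

Main statements (`Qb = AlgebraicClosure ℚ`, `A` a valuation subring of `Qb` lying over `q`):

* `inertia_fixed_valuation` : if `x ≠ 0` is fixed by `A.inertiaSubgroupIn ℚ` then
  `A.valuation x = A.valuation q ^ m` for some `m : ℤ`.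
* `inertia_fixed_w` : the same for a real absolute value `V : S05.RVal Qb` attached to `A`.
* `relInertia_fixed_valuation`, `relInertia_fixed_w` : the finite-level forms (hypothesis for all
  `σ` with `RelInertia A M σ`).
* bridges: `relInertia_of_mem_inertia`, `exists_inertia_of_relInertia`, `relInertia_of_integral`,
  `exists_inertia_of_mem_inertia`.

Route: the inertia field of the centre of `A` on a finite normal `M` is unramified over `ℚ`
(`inertiaField_ramificationIdx_eq_one`), so `q` is a uniformizer there (`unif_exists_pow`);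
elements fixed by the absolute inertia group lie in the inertia field by the lifting theorem
`exists_inertia_lift`.
-/

open scoped Pointwise NumberField
open Ideal IntermediateField
namespace Fermat.Agent.S13
noncomputable section
local notation "Qb" => AlgebraicClosure ℚ
local notation "Γ" => (AlgebraicClosure ℚ ≃ₐ[ℚ] AlgebraicClosure ℚ)
local notation "Zb" => integralClosure ℤ (AlgebraicClosure ℚ)

open Fermat.Agent.S54

theorem nf_of_finite (M : IntermediateField ℚ Qb) [FiniteDimensional ℚ M] : NumberField M :=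
  { to_charZero := inferInstance, to_finiteDimensional := inferInstance }

theorem nf_of_finite' (M : IntermediateField ℚ Qb) [FiniteDimensional ℚ M]
    (E : IntermediateField ℚ M) : NumberField E :=
  { to_charZero := inferInstance, to_finiteDimensional := inferInstance }

theorem galois_of_normal (M : IntermediateField ℚ Qb) [Normal ℚ M] : IsGalois ℚ M := { }

attribute [local instance] nf_of_finite nf_of_finite' galois_of_normal

attribute [local instance] qbar_isAlgebraic qbar_isAlgClosure qbar_isGalois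

section Center

variable (A : ValuationSubring Qb) (M : IntermediateField ℚ Qb) [FiniteDimensional ℚ M]

/-- The embedding of the integers of `M` into the algebraic integers. -/
def intEmb : 𝓞 M →+* Zb :=
  RingHom.codRestrict ((algebraMap M Qb).comp (algebraMap (𝓞 M) M)) (integralClosure ℤ Qb)
    (fun b => by
      have h1 : IsIntegral ℤ (algebraMap (𝓞 M) M b) := NumberField.RingOfIntegers.isIntegral_coe b
      exact h1.map (IsScalarTower.toAlgHom ℤ M Qb))

theorem intEmb_coe (b : 𝓞 M) : ((intEmb M b : Zb) : Qb) = ((b : M) : Qb) := rfl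

/-- The centre of `A` on the ring of integers of `M`. -/
def centerM : Ideal (𝓞 M) := (centerIdeal A).comap (intEmb M)

theorem mem_centerM (b : 𝓞 M) : b ∈ centerM A M ↔ ((b : M) : Qb) ∈ A.nonunits := Iff.rfl

theorem centerM_isPrime : (centerM A M).IsPrime := by
  have := centerIdeal_isPrime A
  exact Ideal.comap_isPrime _ _

end Center

section Ram

variable (A : ValuationSubring Qb) (M : IntermediateField ℚ Qb) [FiniteDimensional ℚ M]
  {q : ℕ}

theorem natCast_mem_centerM (hA : (q : Qb) ∈ A.nonunits) : ((q : ℕ) : 𝓞 M) ∈ centerM A M := by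
  rw [mem_centerM]
  simpa using hA

theorem centerM_under (hq : q.Prime) (hA : (q : Qb) ∈ A.nonunits) :
    (centerM A M).under ℤ = Ideal.span {(q : ℤ)} := by
  have hprime := centerM_isPrime A M
  have hmax : (Ideal.span {(q : ℤ)}).IsMaximal :=
    PrincipalIdealRing.isMaximal_of_irreducible
      (Nat.prime_iff_prime_int.mp hq).irreducible
  refine (hmax.eq_of_le ?_ ?_).symm
  · exact (Ideal.IsPrime.under ℤ (centerM A M)).ne_top
  · rw [Ideal.span_le, Set.singleton_subset_iff]
    show (algebraMap ℤ (𝓞 M) (q : ℤ)) ∈ centerM A M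
    have := natCast_mem_centerM A M hA
    simpa using this

theorem centerM_ne_bot (hq : q.Prime) (hA : (q : Qb) ∈ A.nonunits) : centerM A M ≠ ⊥ := by
  intro h
  have h1 := natCast_mem_centerM A M hA
  rw [h, Ideal.mem_bot] at h1
  have h2 : ((q : ℕ) : 𝓞 M) ≠ 0 := by
    exact_mod_cast hq.ne_zero
  exact h2 h1

end Ram

section Main

variable (A : ValuationSubring Qb) (M : IntermediateField ℚ Qb) [FiniteDimensional ℚ M]
  [Normal ℚ M] {q : ℕ}

/-- The inertia field of the centre of `A` on `M`. -/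
abbrev inertiaFld : IntermediateField ℚ M :=
  FixedPoints.intermediateField (inertia Gal(M/ℚ) (centerM A M))

/-- The centre of `A` on the integers of the inertia field. -/
abbrev centerE : Ideal (𝓞 (inertiaFld A M)) := (centerM A M).under (𝓞 (inertiaFld A M))

theorem natCast_not_mem_centerE_sq (hq : q.Prime) (hA : (q : Qb) ∈ A.nonunits) :
    ((q : ℕ) : 𝓞 (inertiaFld A M)) ∉ (centerE A M) ^ 2 := by
  have hP := centerM_isPrime A M
  have hPmax : (centerM A M).IsMaximal := hP.isMaximal (centerM_ne_bot A M hq hA)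
  have hlies : (centerM A M).LiesOver (Ideal.span {(q : ℤ)}) :=
    ⟨(centerM_under A M hq hA).symm⟩
  have hlies2 : (centerM A M).LiesOver (centerE A M) := ⟨rfl⟩
  have hlies3 : (centerE A M).LiesOver (Ideal.span {(q : ℤ)}) := by
    constructor
    rw [← centerM_under A M hq hA]
    show (centerM A M).under ℤ = ((centerM A M).under (𝓞 (inertiaFld A M))).under ℤ
    rw [Ideal.under_under]
  have hp : Ideal.span {(q : ℤ)} ≠ ⊥ := by
    rw [Ne, Ideal.span_singleton_eq_bot]
    exact_mod_cast hq.ne_zero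
  have hEprime : (centerE A M).IsPrime := Ideal.IsPrime.under _ _
  have hEne : centerE A M ≠ ⊥ := Ideal.ne_bot_of_liesOver_of_ne_bot hp (centerE A M)
  have hEmax : (centerE A M).IsMaximal := hEprime.isMaximal hEne
  have h1 := inertiaField_ramificationIdx_eq_one ℤ ℚ M (centerM A M) (inertiaFld A M)
    (𝓞 (inertiaFld A M)) (centerE A M) hp
  have h2 := Ideal.ramificationIdx'_eq_ramificationIdx (Ideal.span {(q : ℤ)}) (centerE A M) hp
  rw [h1] at h2
  intro hmem
  have h0 : (Ideal.span {(q : ℤ)}).map (algebraMap ℤ (𝓞 (inertiaFld A M))) ≤ centerE A M := by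
    rw [Ideal.map_le_iff_le_comap]
    exact (hlies3.over).le
  have h3 : (Ideal.span {(q : ℤ)}).map (algebraMap ℤ (𝓞 (inertiaFld A M))) ≤
      centerE A M ^ 2 := by
    rw [Ideal.map_span, Ideal.span_le]
    simpa using hmem
  exact ((Ideal.ramificationIdx'_ne_one_iff h0).mpr h3) h2

end Main

section Val

variable (A : ValuationSubring Qb) (M : IntermediateField ℚ Qb) [FiniteDimensional ℚ M]
  [Normal ℚ M] {q : ℕ}

/-- The embedding of the integers of the inertia field into `ℚ̄`. -/
def embE : 𝓞 (inertiaFld A M) →+* Qb :=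
  (algebraMap M Qb).comp ((algebraMap (inertiaFld A M) M).comp
    (algebraMap (𝓞 (inertiaFld A M)) (inertiaFld A M)))

theorem embE_injective : Function.Injective (embE A M) := by
  refine (algebraMap M Qb).injective.comp ((algebraMap (inertiaFld A M) M).injective.comp ?_)
  exact NumberField.RingOfIntegers.coe_injective

theorem embE_isIntegral (y : 𝓞 (inertiaFld A M)) : IsIntegral ℤ (embE A M y) := by
  have h1 : IsIntegral ℤ (algebraMap (𝓞 (inertiaFld A M)) (inertiaFld A M) y) :=
    NumberField.RingOfIntegers.isIntegral_coe y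
  have h2 := h1.map (IsScalarTower.toAlgHom ℤ (inertiaFld A M) M)
  exact h2.map (IsScalarTower.toAlgHom ℤ M Qb)

theorem embE_mem (y : 𝓞 (inertiaFld A M)) : embE A M y ∈ A :=
  zbar_mem A ⟨_, embE_isIntegral A M y⟩

theorem mem_centerE_iff (y : 𝓞 (inertiaFld A M)) :
    y ∈ centerE A M ↔ embE A M y ∈ A.nonunits := Iff.rfl

theorem embE_natCast (n : ℕ) : embE A M (n : 𝓞 (inertiaFld A M)) = (n : Qb) := by
  simp [embE]

open Fermat.Agent.S05 in
/-- Elements of the inertia field have absolute value an integral power of that of `q`. -/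
theorem inertiaFld_val (hq : q.Prime) (hA : (q : Qb) ∈ A.nonunits) (V : RVal Qb)
    (hV1 : ∀ x, V.w x ≤ 1 ↔ x ∈ A) (hV2 : ∀ x, V.w x < 1 ↔ x ∈ A.nonunits)
    (x : inertiaFld A M) (hx : x ≠ 0) :
    ∃ m : ℤ, V.w (((x : M) : Qb)) = V.w (q : Qb) ^ m := by
  have hEprime : (centerE A M).IsPrime := by
    have := centerM_isPrime A M
    exact Ideal.IsPrime.under _ _
  have hp : Ideal.span {(q : ℤ)} ≠ ⊥ := by
    rw [Ne, Ideal.span_singleton_eq_bot]
    exact_mod_cast hq.ne_zero
  have hqE : ((q : ℕ) : 𝓞 (inertiaFld A M)) ∈ centerE A M := by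
    rw [mem_centerE_iff, embE_natCast]
    exact hA
  have hEne : centerE A M ≠ ⊥ := by
    intro h
    rw [h, Ideal.mem_bot] at hqE
    have h2 : ((q : ℕ) : 𝓞 (inertiaFld A M)) ≠ 0 := by exact_mod_cast hq.ne_zero
    exact h2 hqE
  have key : ∀ y : 𝓞 (inertiaFld A M), y ≠ 0 →
      ∃ k : ℕ, V.w (embE A M y) = V.w (q : Qb) ^ k := by
    intro y hy
    have := unif_exists_pow V (embE A M) (centerE A M) ((q : ℕ) : 𝓞 (inertiaFld A M))
      (embE_injective A M) (fun z => (hV1 _).mpr (embE_mem A M z)) hEne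
      (fun z => by rw [mem_centerE_iff, hV2]) hqE (natCast_not_mem_centerE_sq A M hq hA) y hy
    rwa [embE_natCast] at this
  obtain ⟨a, b, hb, rfl⟩ := IsFractionRing.div_surjective (A := 𝓞 (inertiaFld A M)) x
  have hb0 : b ≠ 0 := nonZeroDivisors.ne_zero hb
  have ha0 : a ≠ 0 := by
    rintro rfl
    simp at hx
  obtain ⟨k₁, h₁⟩ := key a ha0
  obtain ⟨k₂, h₂⟩ := key b hb0
  refine ⟨(k₁ : ℤ) - k₂, ?_⟩
  have hq0 : V.w (q : Qb) ≠ 0 := V.w_ne_zero (by exact_mod_cast hq.ne_zero)
  have e : (((algebraMap (𝓞 (inertiaFld A M)) (inertiaFld A M) a /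
      algebraMap (𝓞 (inertiaFld A M)) (inertiaFld A M) b : inertiaFld A M) : M) : Qb) =
      embE A M a / embE A M b := by
    simp [embE]
  rw [e, V.w_div, h₁, h₂, zpow_sub₀ hq0, zpow_natCast, zpow_natCast]

end Val

section Final

variable (A : ValuationSubring Qb) (M : IntermediateField ℚ Qb) [FiniteDimensional ℚ M]
  [Normal ℚ M] {q : ℕ}

/-- Every element of the inertia group of the centre of `A` on `M` is the restriction of an
element of the absolute inertia group of `A`. -/
theorem exists_inertia_of_mem_inertia (g : Gal(M/ℚ))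
    (hg : g ∈ inertia Gal(M/ℚ) (centerM A M)) :
    ∃ σ : Γ, σ ∈ A.inertiaSubgroupIn ℚ ∧ ∀ y : M, σ (y : Qb) = ((g y : M) : Qb) := by
  have hσ : ∀ y : M, (g.liftNormal Qb) (y : Qb) = ((g y : M) : Qb) :=
    fun y => AlgEquiv.liftNormal_commutes g Qb y
  obtain ⟨σ', hσ', hagree⟩ := exists_inertia_lift A M (g.liftNormal Qb) (by
    intro b hbM hbint
    have hint : IsIntegral ℤ (⟨b, hbM⟩ : M) := by
      rw [← isIntegral_algebraMap_iff (algebraMap M Qb).injective]
      exact hbint
    have h1 := hg (⟨⟨b, hbM⟩, hint⟩ : 𝓞 M)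
    have h2 : (g.liftNormal Qb) b = ((g ⟨b, hbM⟩ : M) : Qb) := hσ ⟨b, hbM⟩
    rw [h2]
    exact h1)
  exact ⟨σ', hσ', fun y => by rw [hagree _ y.2, hσ y]⟩

/-- Elements of `M` fixed by the absolute inertia group of `A` lie in the inertia field. -/
theorem mem_inertiaFld_of_fixed (x : M)
    (hfix : ∀ σ ∈ A.inertiaSubgroupIn ℚ, σ (x : Qb) = x) : x ∈ inertiaFld A M := by
  intro g
  obtain ⟨σ, hσ, hagree⟩ := exists_inertia_of_mem_inertia A M g.1 g.2
  have h1 := hfix σ hσ
  rw [hagree x] at h1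
  exact Subtype.ext h1

end Final

section Statements

open Fermat.Agent.S05

variable (A : ValuationSubring Qb) {q : ℕ}

/-- Elements of the absolute inertia group are relatively inertial for every `M`. -/
theorem relInertia_of_mem_inertia (M : IntermediateField ℚ Qb) {σ : Γ}
    (hσ : σ ∈ A.inertiaSubgroupIn ℚ) : RelInertia A M σ :=
  fun a _ ha => (inertia_unpack A σ hσ).2 a ha

/-- A relatively inertial automorphism (it suffices to test integral elements) agrees on `M`
with an element of the absolute inertia group. -/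
theorem exists_inertia_of_relInertia (M : IntermediateField ℚ Qb) [Normal ℚ M] {τ : Γ}
    (hτ : RelInertia A M τ) :
    ∃ σ : Γ, σ ∈ A.inertiaSubgroupIn ℚ ∧ ∀ x : Qb, x ∈ M → σ x = τ x :=
  exists_inertia_lift A M τ (fun b hbM hbint => hτ b hbM (zbar_mem A ⟨b, hbint⟩))

/-- Relative inertia can be tested on integral elements. -/
theorem relInertia_of_integral (M : IntermediateField ℚ Qb) [Normal ℚ M] {τ : Γ}
    (hτ : ∀ b : Qb, b ∈ M → IsIntegral ℤ b → τ b - b ∈ A.nonunits) : RelInertia A M τ := by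
  obtain ⟨σ, hσ, hagree⟩ := exists_inertia_lift A M τ hτ
  intro a haM ha
  rw [← hagree a haM]
  exact (inertia_unpack A σ hσ).2 a ha

/-- (NP2), absolute-value form, for an element of a given finite normal `M`. -/
theorem inertia_fixed_w_of_mem (M : IntermediateField ℚ Qb) [FiniteDimensional ℚ M] [Normal ℚ M]
    (hq : q.Prime) (hA : A.LiesOverPrime q) (V : RVal Qb)
    (hV1 : ∀ x, V.w x ≤ 1 ↔ x ∈ A) (hV2 : ∀ x, V.w x < 1 ↔ x ∈ A.nonunits)
    (x : Qb) (hxM : x ∈ M) (hx : x ≠ 0) (hfix : ∀ σ ∈ A.inertiaSubgroupIn ℚ, σ x = x) :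
    ∃ m : ℤ, V.w x = V.w (q : Qb) ^ m := by
  have hmem := mem_inertiaFld_of_fixed A M ⟨x, hxM⟩ hfix
  have hne : (⟨⟨x, hxM⟩, hmem⟩ : inertiaFld A M) ≠ 0 := by
    intro h
    apply hx
    have := congrArg (fun z : inertiaFld A M => (((z : M)) : Qb)) h
    simpa using this
  exact inertiaFld_val A M hq hA V hV1 hV2 ⟨⟨x, hxM⟩, hmem⟩ hne

/-- (NP2), absolute-value form: an element fixed by the inertia subgroup of `A` has absolute
value an integral power of that of `q`. -/
theorem inertia_fixed_w (hq : q.Prime) (hA : A.LiesOverPrime q) (V : RVal Qb)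
    (hV1 : ∀ x, V.w x ≤ 1 ↔ x ∈ A) (hV2 : ∀ x, V.w x < 1 ↔ x ∈ A.nonunits)
    (x : Qb) (hx : x ≠ 0) (hfix : ∀ σ ∈ A.inertiaSubgroupIn ℚ, σ x = x) :
    ∃ m : ℤ, V.w x = V.w (q : Qb) ^ m := by
  have hfd : FiniteDimensional ℚ ℚ⟮x⟯ :=
    IntermediateField.adjoin.finiteDimensional
      ((AlgebraicClosure.isAlgebraic ℚ).isAlgebraic x).isIntegral
  have hxM : x ∈ IntermediateField.normalClosure ℚ ℚ⟮x⟯ Qb :=
    IntermediateField.le_normalClosure _ (IntermediateField.mem_adjoin_simple_self ℚ x)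
  have hN : Normal ℚ (IntermediateField.normalClosure ℚ ℚ⟮x⟯ Qb) :=
    normalClosure.normal ℚ ℚ⟮x⟯ Qb
  have hF : FiniteDimensional ℚ (IntermediateField.normalClosure ℚ ℚ⟮x⟯ Qb) :=
    normalClosure.is_finiteDimensional ℚ ℚ⟮x⟯ Qb
  exact inertia_fixed_w_of_mem A (IntermediateField.normalClosure ℚ ℚ⟮x⟯ Qb) hq hA V hV1 hV2
    x hxM hx hfix

/-- (NP2) An element of `ℚ̄` fixed by the inertia subgroup of `A` (lying over `q`) has valuation
in the value group of `ℚ`. -/
theorem inertia_fixed_valuation (hq : q.Prime) (hA : A.LiesOverPrime q) (x : Qb) (hx : x ≠ 0)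
    (hfix : ∀ σ ∈ A.inertiaSubgroupIn ℚ, σ x = x) :
    ∃ m : ℤ, A.valuation x = A.valuation (q : Qb) ^ m := by
  obtain ⟨V, hV1, hV2⟩ := exists_rval A hq hA
  obtain ⟨m, hm⟩ := inertia_fixed_w A hq hA V hV1 hV2 x hx hfix
  refine ⟨m, ?_⟩
  have hq0 : (q : Qb) ≠ 0 := by exact_mod_cast hq.ne_zero
  have hqm : (q : Qb) ^ m ≠ 0 := zpow_ne_zero _ hq0
  have hu : V.w (x / (q : Qb) ^ m) = 1 := by
    rw [V.w_div, V.w_zpow, hm]
    exact div_self (zpow_ne_zero _ (V.w_ne_zero hq0))
  have hu' : V.w ((x / (q : Qb) ^ m)⁻¹) = 1 := by rw [V.w_inv, hu, inv_one]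
  have h1 : A.valuation (x / (q : Qb) ^ m) ≤ 1 :=
    (A.valuation_le_one_iff _).mpr ((hV1 _).mp hu.le)
  have h2 : A.valuation ((x / (q : Qb) ^ m)⁻¹) ≤ 1 :=
    (A.valuation_le_one_iff _).mpr ((hV1 _).mp hu'.le)
  have hne : A.valuation (x / (q : Qb) ^ m) ≠ 0 :=
    (Valuation.ne_zero_iff _).mpr (div_ne_zero hx hqm)
  have h3 : A.valuation (x / (q : Qb) ^ m) = 1 := by
    refine le_antisymm h1 ?_
    rw [map_inv₀] at h2
    exact (inv_le_one₀ (lt_of_le_of_ne zero_le hne.symm)).mp h2
  rw [map_div₀, map_zpow₀] at h3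
  have hvq : A.valuation (q : Qb) ^ m ≠ 0 :=
    zpow_ne_zero _ ((Valuation.ne_zero_iff _).mpr hq0)
  exact (div_eq_one_iff_eq hvq).mp h3

/-- (NP2), finite-level form: an element of `M` fixed by all relatively inertial automorphisms
has valuation in the value group of `ℚ`. -/
theorem relInertia_fixed_valuation (M : IntermediateField ℚ Qb) (hq : q.Prime)
    (hA : A.LiesOverPrime q) {x : Qb} (hx0 : x ≠ 0)
    (hfix : ∀ σ : Γ, RelInertia A M σ → σ x = x) :
    ∃ k : ℤ, A.valuation x = A.valuation (q : Qb) ^ k :=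
  inertia_fixed_valuation A hq hA x hx0
    (fun σ hσ => hfix σ (relInertia_of_mem_inertia A M hσ))

/-- (NP2), finite-level absolute-value form. -/
theorem relInertia_fixed_w (M : IntermediateField ℚ Qb) (hq : q.Prime)
    (hA : A.LiesOverPrime q) (V : RVal Qb)
    (hV1 : ∀ x, V.w x ≤ 1 ↔ x ∈ A) (hV2 : ∀ x, V.w x < 1 ↔ x ∈ A.nonunits) {x : Qb}
    (hx0 : x ≠ 0) (hfix : ∀ σ : Γ, RelInertia A M σ → σ x = x) :
    ∃ k : ℤ, V.w x = V.w (q : Qb) ^ k :=
  inertia_fixed_w A hq hA V hV1 hV2 x hx0
    (fun σ hσ => hfix σ (relInertia_of_mem_inertia A M hσ))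

end Statements
end
end Fermat.Agent.S13
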