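import Mathlib
import Fermat.Agent.S05.RVal
import Fermat.Agent.S05.KerRed

/-!
# S13 helper: congruent points with nonsingular reduction on a general integral Weierstrass model

Two points `(x, y)`, `(x', y')` with integral coordinates on a Weierstrass curve with integral
coefficients, congruent modulo the maximal ideal and whose common reduction is a nonsingular
point, differ by a point of the kernel of reduction.
-/

set_option autoImplicit false

namespace Fermat.Agent.S13.Nodal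

open WeierstrassCurve WeierstrassCurve.Affine
open Fermat.Agent.S05

variable {K : Type*} [Field K]

/-- Integrality of the `y`-coordinate of a point with integral `x`-coordinate. -/
lemma w_y_le_one_gen (V : RVal K) {W : WeierstrassCurve.Affine K} (ha₁ : V.w W.a₁ ≤ 1)
    (ha₂ : V.w W.a₂ ≤ 1) (ha₃ : V.w W.a₃ ≤ 1) (ha₄ : V.w W.a₄ ≤ 1) (ha₆ : V.w W.a₆ ≤ 1)
    {x y : K} (h : W.Equation x y) (hx : V.w x ≤ 1) : V.w y ≤ 1 := by
  by_contra hy
  rw [not_le] at hy
  rw [equation_iff] at h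
  have h0 := V.w_nonneg x
  have hy0 : 0 < V.w y := lt_trans one_pos hy
  have hyy : V.w y < V.w y ^ 2 := by
    rw [pow_two]; exact lt_mul_of_one_lt_left hy0 hy
  have h1 : V.w (W.a₁ * x * y + W.a₃ * y) < V.w (y ^ 2) := by
    rw [V.w_pow]
    apply V.w_add_lt
    · rw [V.w_mul, V.w_mul]
      have : V.w W.a₁ * V.w x ≤ 1 := mul_le_one₀ ha₁ h0 hx
      exact lt_of_le_of_lt (mul_le_of_le_one_left hy0.le this) hyy
    · rw [V.w_mul]
      exact lt_of_le_of_lt (mul_le_of_le_one_left hy0.le ha₃) hyy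
  have h2 : V.w (y ^ 2 + W.a₁ * x * y + W.a₃ * y) = V.w y ^ 2 := by
    rw [add_assoc, V.w_add_eq_of_lt h1, V.w_pow]
  have h3 : V.w (x ^ 3 + W.a₂ * x ^ 2 + W.a₄ * x + W.a₆) ≤ 1 := by
    refine V.w_add_le (V.w_add_le (V.w_add_le ?_ ?_) ?_) ha₆
    · rw [V.w_pow]; exact pow_le_one₀ h0 hx
    · rw [V.w_mul, V.w_pow]; exact mul_le_one₀ ha₂ (by positivity) (pow_le_one₀ h0 hx)
    · rw [V.w_mul]; exact mul_le_one₀ ha₄ h0 hx
  rw [h, ] at h2
  have : (1 : ℝ) < V.w y ^ 2 := one_lt_pow₀ hy two_ne_zero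
  linarith

/-- Two congruent integral points whose common reduction is nonsingular differ by a point of
the kernel of reduction. -/
theorem cong_sub_gen [DecidableEq K] (V : RVal K) {W : WeierstrassCurve.Affine K}
    (ha₁ : V.w W.a₁ ≤ 1) (ha₂ : V.w W.a₂ ≤ 1) {x y x' y' : K}
    (h : W.Nonsingular x y) (h' : W.Nonsingular x' y') (hx : V.w x ≤ 1)
    (hxx : V.w (x' - x) < 1) (hyy : V.w (y' - y) < 1)
    (hns : V.w (2 * y + W.a₁ * x + W.a₃) = 1 ∨
      V.w (3 * x ^ 2 + 2 * W.a₂ * x + W.a₄ - W.a₁ * y) = 1) :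
    Point.some x' y' h' - Point.some x y h = 0 ∨
      ∃ (x₃ y₃ : K) (h₃ : W.Nonsingular x₃ y₃),
        Point.some x' y' h' - Point.some x y h = Point.some x₃ y₃ h₃ ∧ 1 < V.w x₃ := by
  by_cases heq : x' = x ∧ y' = y
  · left
    obtain ⟨rfl, rfl⟩ := heq
    exact sub_self _
  right
  have hxy : ¬(x' = x ∧ y' = W.negY x (W.negY x y)) := by rwa [negY_negY]
  rw [sub_eq_add_neg, Point.neg_some, Point.add_some hxy]
  refine ⟨_, _, _, rfl, ?_⟩
  have hw0 : ∀ z, 0 ≤ V.w z := V.w_nonneg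
  have hx' : V.w x' ≤ 1 := by
    have : x' = (x' - x) + x := by ring
    rw [this]
    exact V.w_add_le hxx.le hx
  have h2 := V.w_two_le
  -- the slope has absolute value `> 1`
  have hl : 1 < V.w (W.slope x' x y' (W.negY x y)) := by
    by_cases hxe : x' = x
    · have hyne : y' ≠ y := fun hy' => heq ⟨hxe, hy'⟩
      have hy'' : y' = W.negY x y := (Y_eq_of_X_eq h'.1 h.1 hxe).resolve_left hyne
      have hyneg : y' ≠ W.negY x (W.negY x y) := by rwa [negY_negY]
      rw [slope_of_Y_ne hxe hyneg, hxe]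
      have hden : y' - W.negY x y' = y' - y := by rw [hy'', negY_negY]
      have hden0 : y' - y ≠ 0 := sub_ne_zero.mpr hyne
      have h1 : V.w (2 * y + W.a₁ * x + W.a₃) < 1 := by
        have : 2 * y + W.a₁ * x + W.a₃ = -(y' - y) := by
          rw [hy'']; simp only [negY]; ring
        rw [this, V.w_neg]; exact hyy
      have hns' : V.w (3 * x ^ 2 + 2 * W.a₂ * x + W.a₄ - W.a₁ * y) = 1 := by
        rcases hns with hns | hns
        · exact absurd hns h1.ne
        · exact hns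
      have hnum : V.w (3 * x ^ 2 + 2 * W.a₂ * x + W.a₄ - W.a₁ * y') = 1 := by
        have : 3 * x ^ 2 + 2 * W.a₂ * x + W.a₄ - W.a₁ * y' =
            (3 * x ^ 2 + 2 * W.a₂ * x + W.a₄ - W.a₁ * y) - W.a₁ * (y' - y) := by ring
        rw [this, V.w_sub_eq_of_lt, hns']
        rw [hns', V.w_mul]
        exact lt_of_le_of_lt (mul_le_of_le_one_left (hw0 _) ha₁) hyy
      rw [hden, V.w_div, hnum, one_div]
      exact (one_lt_inv₀ (V.w_pos _ hden0)).mpr hyy
    · rw [slope_of_X_ne hxe]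
      have hd : x' - x ≠ 0 := sub_ne_zero.mpr hxe
      by_contra hl
      have hl : V.w ((y' - W.negY x y) / (x' - x)) ≤ 1 := not_lt.mp hl
      set l := (y' - W.negY x y) / (x' - x) with hldef
      have hT : l * (x' - x) = y' + y + W.a₁ * x + W.a₃ := by
        rw [hldef, div_mul_cancel₀ _ hd]; simp only [negY]; ring
      have h1 : V.w (y' + y + W.a₁ * x + W.a₃) < 1 := by
        rw [← hT, V.w_mul]
        exact lt_of_le_of_lt (mul_le_of_le_one_left (hw0 _) hl) hxx
      have h3 : V.w (2 * y + W.a₁ * x + W.a₃) < 1 := by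
        have : 2 * y + W.a₁ * x + W.a₃ = (y' + y + W.a₁ * x + W.a₃) - (y' - y) := by ring
        rw [this]
        exact V.w_sub_lt h1 hyy
      have e1 := h'.1
      have e2 := h.1
      rw [equation_iff] at e1 e2
      have hS : (x' - x) * (x' ^ 2 + x' * x + x ^ 2 + W.a₂ * (x' + x) + W.a₄ - W.a₁ * y) =
          (x' - x) * ((y' - y) * (l + W.a₁)) := by
        have : (x' - x) * ((y' - y) * (l + W.a₁)) =
            (y' - y) * (l * (x' - x) + W.a₁ * (x' - x)) := by ring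
        rw [this, hT]
        linear_combination e2 - e1
      have hG := mul_left_cancel₀ hd hS
      have h4 : V.w (x' ^ 2 + x' * x + x ^ 2 + W.a₂ * (x' + x) + W.a₄ - W.a₁ * y) < 1 := by
        rw [hG, V.w_mul]
        have : V.w (l + W.a₁) ≤ 1 := V.w_add_le hl ha₁
        exact lt_of_le_of_lt (mul_le_of_le_one_right (hw0 _) this) hyy
      have h5 : V.w (3 * x ^ 2 + 2 * W.a₂ * x + W.a₄ - W.a₁ * y) < 1 := by
        have : 3 * x ^ 2 + 2 * W.a₂ * x + W.a₄ - W.a₁ * y =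
            (x' ^ 2 + x' * x + x ^ 2 + W.a₂ * (x' + x) + W.a₄ - W.a₁ * y) -
              (x' - x) * (x' + 2 * x + W.a₂) := by ring
        rw [this]
        refine V.w_sub_lt h4 ?_
        rw [V.w_mul]
        have h6 : V.w (x' + 2 * x + W.a₂) ≤ 1 := by
          refine V.w_add_le (V.w_add_le hx' ?_) ha₂
          rw [V.w_mul]
          exact mul_le_one₀ h2 (hw0 _) hx
        exact lt_of_le_of_lt (mul_le_of_le_one_right (hw0 _) h6) hxx
      rcases hns with hns | hns
      · exact absurd hns h3.ne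
      · exact absurd hns h5.ne
  set l := W.slope x' x y' (W.negY x y) with hldef
  have hlpos : 0 < V.w l := lt_trans one_pos hl
  have hl2 : V.w l < V.w (l ^ 2) := by
    rw [V.w_pow, pow_two]; exact lt_mul_of_one_lt_left hlpos hl
  have hrest : V.w (W.a₁ * l - W.a₂ - x' - x) < V.w (l ^ 2) := by
    refine V.w_sub_lt (V.w_sub_lt (V.w_sub_lt ?_ ?_) ?_) ?_
    · rw [V.w_mul]
      exact lt_of_le_of_lt (mul_le_of_le_one_left hlpos.le ha₁) hl2
    · exact lt_of_le_of_lt ha₂ (hl.trans hl2)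
    · exact lt_of_le_of_lt hx' (hl.trans hl2)
    · exact lt_of_le_of_lt hx (hl.trans hl2)
  have e : W.addX x' x l = l ^ 2 + (W.a₁ * l - W.a₂ - x' - x) := by
    simp only [addX]; ring
  rw [e, V.w_add_eq_of_lt hrest]
  exact hl.trans hl2

/-- Two `n`-torsion points (integral coefficients, `n` a unit) whose difference is zero or lies
in the kernel of reduction are equal. -/
theorem eq_of_sub_eq_zero_or_ker_gen [DecidableEq K] (A : ValuationSubring K) (V : RVal K)
    (hV1 : ∀ x, V.w x ≤ 1 ↔ x ∈ A) (hV2 : ∀ x, V.w x < 1 ↔ x ∈ A.nonunits)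
    {W : WeierstrassCurve.Affine K} (ha₁ : V.w W.a₁ ≤ 1) (ha₂ : V.w W.a₂ ≤ 1)
    (ha₃ : V.w W.a₃ ≤ 1) (ha₄ : V.w W.a₄ ≤ 1) (ha₆ : V.w W.a₆ ≤ 1) (n : ℕ)
    (hn : V.w (n : K) = 1) {Q Q' : W.Point} (hQ : n • Q = 0) (hQ' : n • Q' = 0)
    (H : Q' - Q = 0 ∨ ∃ (x₃ y₃ : K) (h₃ : W.Nonsingular x₃ y₃),
      Q' - Q = Point.some x₃ y₃ h₃ ∧ 1 < V.w x₃) : Q' = Q := by
  rcases H with H | ⟨x₃, y₃, h₃, H, hx₃⟩
  · exact sub_eq_zero.mp H
  · exfalso
    have h0 : n • (Q' - Q) = 0 := by rw [smul_sub, hQ, hQ', sub_zero]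
    rw [H] at h0
    refine nsmul_ne_zero_of_X_notMem A W ((hV1 _).mp ha₁) ((hV1 _).mp ha₂) ((hV1 _).mp ha₃)
      ((hV1 _).mp ha₄) ((hV1 _).mp ha₆) h₃ ?_ n ?_ h0
    · intro hc
      exact absurd ((hV1 x₃).mpr hc) (not_le.mpr hx₃)
    · intro hc
      exact absurd ((hV2 _).mpr hc) (by rw [hn]; exact lt_irrefl _)

end Fermat.Agent.S13.Nodal
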