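import Mathlib
import Fermat.Agent.S05.RVal
import Fermat.Agent.S05.KerRed

/-!
# S13 helper: the `x`-only tropical lemma on a nodal Weierstrass model

Let `K` be a field with a real valued ultrametric absolute value `V`, and `W` a Weierstrass curve
over `K` with `a₃ = a₆ = 0`, `|b₂| = 1`, `0 < |a₄| < 1` (so the origin reduces to a node).
Put `B = |a₄|` and `cb P = 1` for `P = 0`, `cb P = max B (min 1 |x(P)|)` otherwise.  Then for all
points `P`, `Q` the unordered pair `{cb (P + Q), cb (P - Q)}` is `{α, β}` with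
`α ∈ {s / t, t / s}` and `β ∈ {s t, B² / (s t)}` where `s = cb P`, `t = cb Q`.
-/

set_option autoImplicit false

namespace Fermat.Agent.S13.Nodal

open WeierstrassCurve WeierstrassCurve.Affine
open Fermat.Agent.S05

/-! ### Newton polygon lemmas for a pair with given sum and product -/

section NP

variable {K : Type*} [Field K] (V : RVal K)

lemma np_eq {u v : K} {r : ℝ} (hr : 0 < r) (hS : V.w (u + v) ≤ r)
    (hP : V.w (u * v) = r ^ 2) : V.w u = r ∧ V.w v = r := by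
  rw [V.w_mul] at hP
  have hu := V.w_nonneg u
  have hv := V.w_nonneg v
  rcases lt_trichotomy (V.w u) r with h | h | h
  · have hv' : r < V.w v := by nlinarith
    have : V.w (u + v) = V.w v := V.w_add_eq_of_lt' (h.trans hv')
    linarith
  · refine ⟨h, ?_⟩
    rw [h] at hP
    nlinarith
  · have hv' : V.w v < r := by nlinarith
    have : V.w (u + v) = V.w u := V.w_add_eq_of_lt (hv'.trans h)
    linarith

lemma np_le {u v : K} {r : ℝ} (hr : 0 < r) (hS : V.w (u + v) ≤ r)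
    (hP : V.w (u * v) ≤ r ^ 2) : V.w u ≤ r ∧ V.w v ≤ r := by
  rw [V.w_mul] at hP
  have hu := V.w_nonneg u
  have hv := V.w_nonneg v
  constructor
  · by_contra h
    rw [not_le] at h
    have hv' : V.w v < r := by nlinarith
    have : V.w (u + v) = V.w u := V.w_add_eq_of_lt (hv'.trans h)
    linarith
  · by_contra h
    rw [not_le] at h
    have hu' : V.w u < r := by nlinarith
    have : V.w (u + v) = V.w v := V.w_add_eq_of_lt' (hu'.trans h)
    linarith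

lemma np_ge {u v : K} {r : ℝ} (hr : 0 < r) (hP : r ^ 2 ≤ V.w (u * v))
    (hS : V.w (u + v) * r ≤ V.w (u * v)) : r ≤ V.w u ∧ r ≤ V.w v := by
  rw [V.w_mul] at hP hS
  have hu := V.w_nonneg u
  have hv := V.w_nonneg v
  constructor
  · by_contra h
    rw [not_le] at h
    have hv' : r < V.w v := by nlinarith
    have h1 : V.w (u + v) = V.w v := V.w_add_eq_of_lt' (h.trans hv')
    rw [h1] at hS
    nlinarith
  · by_contra h
    rw [not_le] at h
    have hu' : r < V.w u := by nlinarith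
    have h1 : V.w (u + v) = V.w u := V.w_add_eq_of_lt (h.trans hu')
    rw [h1] at hS
    nlinarith

lemma np_split {u v : K} (h : V.w (u * v) < V.w (u + v) ^ 2) :
    (V.w u = V.w (u + v) ∧ V.w v * V.w (u + v) = V.w (u * v)) ∨
      (V.w v = V.w (u + v) ∧ V.w u * V.w (u + v) = V.w (u * v)) := by
  have hu := V.w_nonneg u
  have hv := V.w_nonneg v
  rcases lt_trichotomy (V.w u) (V.w v) with h1 | h1 | h1
  · right
    have h2 : V.w (u + v) = V.w v := V.w_add_eq_of_lt' h1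
    refine ⟨h2.symm, ?_⟩
    rw [h2, V.w_mul]
  · exfalso
    have h2 : V.w (u + v) ≤ V.w u := V.w_add_le le_rfl h1.ge
    rw [V.w_mul, ← h1] at h
    have h3 := V.w_nonneg (u + v)
    nlinarith
  · left
    have h2 : V.w (u + v) = V.w u := V.w_add_eq_of_lt h1
    refine ⟨h2.symm, ?_⟩
    rw [h2, V.w_mul, mul_comm]

end NP


/-! ### Clamping to `[B, 1]` -/

/-- Clamp a real number to the interval `[B, 1]`. -/
noncomputable def clampB (B ξ : ℝ) : ℝ := max B (min 1 ξ)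

lemma clampB_of_le {B ξ : ℝ} (hB : B ≤ 1) (h : ξ ≤ B) : clampB B ξ = B := by
  unfold clampB
  rw [min_eq_right (h.trans hB), max_eq_left h]

lemma clampB_of_ge {B ξ : ℝ} (hB : B ≤ 1) (h : 1 ≤ ξ) : clampB B ξ = 1 := by
  unfold clampB
  rw [min_eq_left h, max_eq_right hB]

lemma clampB_of_mem {B ξ : ℝ} (h1 : B ≤ ξ) (h2 : ξ ≤ 1) : clampB B ξ = ξ := by
  unfold clampB
  rw [min_eq_right h2, max_eq_right h1]

lemma le_clampB (B ξ : ℝ) : B ≤ clampB B ξ := le_max_left _ _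

lemma clampB_eq_self {B ξ : ℝ} (hB : B ≤ 1) (h1 : B < clampB B ξ) (h2 : clampB B ξ < 1) :
    clampB B ξ = ξ := by
  rcases le_or_gt 1 ξ with h | h
  · rw [clampB_of_ge hB h] at h2; exact absurd h2 (lt_irrefl _)
  · rcases le_or_gt ξ B with h' | h'
    · rw [clampB_of_le hB h'] at h1; exact absurd h1 (lt_irrefl _)
    · exact clampB_of_mem h'.le h.le

lemma clampB_le_one {B : ℝ} (hB : B ≤ 1) (ξ : ℝ) : clampB B ξ ≤ 1 :=
  max_le hB (min_le_left _ _)

/-- The unordered pair `{c₊, c₋}` is `{α, β}` with `α ∈ {s/t, t/s}`, `β ∈ {s t, B²/(s t)}`. -/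
def PairConcl (B s t cp cm : ℝ) : Prop :=
  ∃ α β : ℝ, ((cp = α ∧ cm = β) ∨ (cp = β ∧ cm = α)) ∧ (α = s / t ∨ α = t / s) ∧
    (β = s * t ∨ β = B ^ 2 / (s * t))

lemma PairConcl.symm_st {B s t cp cm : ℝ} (h : PairConcl B s t cp cm) :
    PairConcl B t s cp cm := by
  obtain ⟨α, β, h1, h2, h3⟩ := h
  refine ⟨α, β, h1, h2.symm, ?_⟩
  rwa [mul_comm t s]

lemma PairConcl.symm_c {B s t cp cm : ℝ} (h : PairConcl B s t cp cm) :
    PairConcl B s t cm cp := by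
  obtain ⟨α, β, h1, h2, h3⟩ := h
  refine ⟨α, β, ?_, h2, h3⟩
  rcases h1 with ⟨h, h'⟩ | ⟨h, h'⟩
  · exact Or.inr ⟨h', h⟩
  · exact Or.inl ⟨h', h⟩

/-! ### The core computation for two distinct `x`-coordinates -/

section Core

variable {K : Type*} [Field K] (V : RVal K)

/-- Case `|x₁| < |x₂|`. -/
theorem pair_core_lt {a₄ b₂ x₁ x₂ u v : K} (hb₂ : V.w b₂ = 1) (ha₄0 : a₄ ≠ 0)
    (ha₄ : V.w a₄ < 1) (hlt : V.w x₁ < V.w x₂)
    (hsum : (u + v) * (x₁ - x₂) ^ 2 = 2 * (x₁ + x₂) * (x₁ * x₂ + a₄) + b₂ * (x₁ * x₂))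
    (hprod : u * v * (x₁ - x₂) ^ 2 = (x₁ * x₂ - a₄) ^ 2) :
    PairConcl (V.w a₄) (clampB (V.w a₄) (V.w x₁)) (clampB (V.w a₄) (V.w x₂))
      (clampB (V.w a₄) (V.w u)) (clampB (V.w a₄) (V.w v)) := by
  have hB0 : 0 < V.w a₄ := V.w_pos _ ha₄0
  have h2 := V.w_two_le
  have h20 := V.w_nonneg (2 : K)
  have hξ₁0 := V.w_nonneg x₁
  have hξ₂pos : 0 < V.w x₂ := lt_of_le_of_lt hξ₁0 hlt
  have hδ : V.w (x₁ - x₂) = V.w x₂ := V.w_sub_eq_of_lt' hlt
  have hadd : V.w (x₁ + x₂) = V.w x₂ := V.w_add_eq_of_lt' hlt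
  have hSg : V.w (u + v) * V.w x₂ ^ 2 =
      V.w (2 * (x₁ + x₂) * (x₁ * x₂ + a₄) + b₂ * (x₁ * x₂)) := by
    rw [← hsum, V.w_mul, V.w_pow, hδ]
  have hPr : V.w (u * v) * V.w x₂ ^ 2 = V.w (x₁ * x₂ - a₄) ^ 2 := by
    have := congrArg V.w hprod
    rw [V.w_mul, V.w_pow, V.w_pow, hδ] at this
    exact this
  have hT1 : V.w (2 * (x₁ + x₂) * (x₁ * x₂ + a₄)) ≤ V.w x₂ * V.w (x₁ * x₂ + a₄) := by
    rw [V.w_mul, V.w_mul, hadd]
    have h3 := V.w_nonneg (x₁ * x₂ + a₄)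
    have h4 : V.w 2 * V.w x₂ ≤ 1 * V.w x₂ := mul_le_mul_of_nonneg_right h2 hξ₂pos.le
    rw [one_mul] at h4
    exact mul_le_mul_of_nonneg_right h4 h3
  have hT2 : V.w (b₂ * (x₁ * x₂)) = V.w x₁ * V.w x₂ := by
    rw [V.w_mul, hb₂, one_mul, V.w_mul]
  have hu0 := V.w_nonneg u
  have hv0 := V.w_nonneg v
  have hμ0 := V.w_nonneg (x₁ * x₂ - a₄)
  set B := V.w a₄ with hBdef
  set ξ₁ := V.w x₁ with hξ₁def
  set ξ₂ := V.w x₂ with hξ₂def
  have hx12 : V.w (x₁ * x₂) = ξ₁ * ξ₂ := V.w_mul _ _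
  have hξ₂sq : 0 < ξ₂ ^ 2 := by positivity
  rcases le_or_gt 1 ξ₂ with h1ξ₂ | hξ₂1
  · -- `1 ≤ ξ₂`
    rw [clampB_of_ge ha₄.le h1ξ₂]
    rcases lt_or_ge B ξ₁ with hBξ₁ | hξ₁B
    · -- L1
      have hlt' : V.w a₄ < V.w (x₁ * x₂) := by
        rw [hx12]
        exact lt_of_lt_of_le hBξ₁ (le_mul_of_one_le_right hξ₁0 h1ξ₂)
      have hμ : V.w (x₁ * x₂ - a₄) = ξ₁ * ξ₂ := by
        rw [V.w_sub_eq_of_lt hlt', hx12]
      have hν : V.w (x₁ * x₂ + a₄) = ξ₁ * ξ₂ := by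
        rw [V.w_add_eq_of_lt hlt', hx12]
      have hSn : V.w (2 * (x₁ + x₂) * (x₁ * x₂ + a₄) + b₂ * (x₁ * x₂)) ≤ ξ₁ * ξ₂ ^ 2 := by
        apply V.w_add_le
        · rw [hν] at hT1
          exact hT1.trans (le_of_eq (by ring))
        · rw [hT2]
          have := mul_le_mul_of_nonneg_left h1ξ₂ (mul_nonneg hξ₁0 hξ₂pos.le)
          linarith
      have hξ₁pos : 0 < ξ₁ := hB0.trans hBξ₁
      have h1 : V.w (u + v) ≤ ξ₁ := by
        have : V.w (u + v) * ξ₂ ^ 2 ≤ ξ₁ * ξ₂ ^ 2 := hSg ▸ hSn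
        exact le_of_mul_le_mul_right this hξ₂sq
      have h2 : V.w (u * v) = ξ₁ ^ 2 := by
        have : V.w (u * v) * ξ₂ ^ 2 = ξ₁ ^ 2 * ξ₂ ^ 2 := by rw [hPr, hμ]; ring
        exact mul_right_cancel₀ hξ₂sq.ne' this
      obtain ⟨hu, hv⟩ := np_eq V hξ₁pos h1 h2
      rw [hu, hv]
      exact ⟨_, _, Or.inl ⟨rfl, rfl⟩, Or.inl (by rw [div_one]), Or.inl (by rw [mul_one])⟩
    · -- L2
      have h5 : ξ₁ * ξ₂ ≤ B * ξ₂ := mul_le_mul_of_nonneg_right hξ₁B hξ₂pos.le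
      have h6 : B ≤ B * ξ₂ := le_mul_of_one_le_right hB0.le h1ξ₂
      have hμ : V.w (x₁ * x₂ - a₄) ≤ B * ξ₂ := by
        apply V.w_sub_le
        · rw [hx12]; exact h5
        · exact h6
      have hν : V.w (x₁ * x₂ + a₄) ≤ B * ξ₂ := by
        apply V.w_add_le
        · rw [hx12]; exact h5
        · exact h6
      have hSn : V.w (2 * (x₁ + x₂) * (x₁ * x₂ + a₄) + b₂ * (x₁ * x₂)) ≤ B * ξ₂ ^ 2 := by
        apply V.w_add_le
        · exact (hT1.trans (mul_le_mul_of_nonneg_left hν hξ₂pos.le)).trans (le_of_eq (by ring))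
        · rw [hT2]
          have := mul_le_mul_of_nonneg_left h1ξ₂ (mul_nonneg hB0.le hξ₂pos.le)
          linarith
      have h1 : V.w (u + v) ≤ B := by
        have : V.w (u + v) * ξ₂ ^ 2 ≤ B * ξ₂ ^ 2 := hSg ▸ hSn
        exact le_of_mul_le_mul_right this hξ₂sq
      have h2 : V.w (u * v) ≤ B ^ 2 := by
        have h3 : V.w (x₁ * x₂ - a₄) ^ 2 ≤ (B * ξ₂) ^ 2 := pow_le_pow_left₀ hμ0 hμ 2
        have : V.w (u * v) * ξ₂ ^ 2 ≤ B ^ 2 * ξ₂ ^ 2 := by
          rw [hPr]; exact h3.trans (le_of_eq (by ring))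
        exact le_of_mul_le_mul_right this hξ₂sq
      obtain ⟨hu, hv⟩ := np_le V hB0 h1 h2
      rw [clampB_of_le ha₄.le hu, clampB_of_le ha₄.le hv, clampB_of_le ha₄.le hξ₁B]
      exact ⟨_, _, Or.inl ⟨rfl, rfl⟩, Or.inl (by rw [div_one]), Or.inl (by rw [mul_one])⟩
  · -- `ξ₂ < 1`
    rcases le_or_gt ξ₁ B with hξ₁B | hBξ₁
    · -- L4 / L5
      have h5 : ξ₁ * ξ₂ ≤ B * ξ₂ := mul_le_mul_of_nonneg_right hξ₁B hξ₂pos.le
      have hlt' : V.w (x₁ * x₂) < V.w a₄ := by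
        rw [hx12]
        exact lt_of_le_of_lt h5 (mul_lt_of_lt_one_right hB0 hξ₂1)
      have hμ : V.w (x₁ * x₂ - a₄) = B := V.w_sub_eq_of_lt' hlt'
      have hν : V.w (x₁ * x₂ + a₄) = B := V.w_add_eq_of_lt' hlt'
      have hSn : V.w (2 * (x₁ + x₂) * (x₁ * x₂ + a₄) + b₂ * (x₁ * x₂)) ≤ B * ξ₂ := by
        apply V.w_add_le
        · rw [hν] at hT1
          exact hT1.trans (le_of_eq (mul_comm _ _))
        · rw [hT2]
          exact h5
      have hr : 0 < B / ξ₂ := div_pos hB0 hξ₂pos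
      have h1 : V.w (u + v) ≤ B / ξ₂ := by
        have : V.w (u + v) * ξ₂ ^ 2 ≤ B / ξ₂ * ξ₂ ^ 2 := by
          rw [hSg]
          have : B / ξ₂ * ξ₂ ^ 2 = B * ξ₂ := by field_simp
          rw [this]; exact hSn
        exact le_of_mul_le_mul_right this hξ₂sq
      have h2 : V.w (u * v) = (B / ξ₂) ^ 2 := by
        have : V.w (u * v) * ξ₂ ^ 2 = (B / ξ₂) ^ 2 * ξ₂ ^ 2 := by
          rw [hPr, hμ]; field_simp
        exact mul_right_cancel₀ hξ₂sq.ne' this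
      obtain ⟨hu, hv⟩ := np_eq V hr h1 h2
      rw [hu, hv, clampB_of_le ha₄.le hξ₁B]
      rcases le_or_gt ξ₂ B with hξ₂B | hBξ₂
      · have h3 : 1 ≤ B / ξ₂ := by rw [le_div_iff₀ hξ₂pos, one_mul]; exact hξ₂B
        rw [clampB_of_ge ha₄.le h3, clampB_of_le ha₄.le hξ₂B]
        refine ⟨_, _, Or.inl ⟨rfl, rfl⟩, Or.inl ?_, Or.inr ?_⟩
        · rw [div_self hB0.ne']
        · field_simp
      · have h3 : B / ξ₂ ≤ 1 := by rw [div_le_one hξ₂pos]; exact hBξ₂.le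
        have h4 : B ≤ B / ξ₂ := by
          rw [le_div_iff₀ hξ₂pos]
          exact mul_le_of_le_one_right hB0.le hξ₂1.le
        rw [clampB_of_mem h4 h3, clampB_of_mem hBξ₂.le hξ₂1.le]
        refine ⟨_, _, Or.inl ⟨rfl, rfl⟩, Or.inl rfl, Or.inr ?_⟩
        field_simp
    · -- L6
      have hξ₁pos : 0 < ξ₁ := hB0.trans hBξ₁
      have hBξ₂ : B < ξ₂ := hBξ₁.trans hlt
      have h5 : ξ₁ * ξ₂ < ξ₁ := mul_lt_of_lt_one_right hξ₁pos hξ₂1
      have hξ₁₂pos : 0 < ξ₁ * ξ₂ := mul_pos hξ₁pos hξ₂pos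
      have hν : V.w (x₁ * x₂ + a₄) < ξ₁ := by
        apply V.w_add_lt
        · rw [hx12]; exact h5
        · exact hBξ₁
      have hμ : V.w (x₁ * x₂ - a₄) < ξ₁ := by
        apply V.w_sub_lt
        · rw [hx12]; exact h5
        · exact hBξ₁
      have hSn : V.w (2 * (x₁ + x₂) * (x₁ * x₂ + a₄) + b₂ * (x₁ * x₂)) = ξ₁ * ξ₂ := by
        rw [V.w_add_eq_of_lt' (by
          rw [hT2]
          exact lt_of_le_of_lt hT1 (by
            rw [mul_comm ξ₁ ξ₂]; exact mul_lt_mul_of_pos_left hν hξ₂pos)), hT2]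
      have hS' : V.w (u + v) = ξ₁ / ξ₂ := by
        have : V.w (u + v) * ξ₂ ^ 2 = ξ₁ / ξ₂ * ξ₂ ^ 2 := by
          rw [hSg, hSn]; field_simp
        exact mul_right_cancel₀ hξ₂sq.ne' this
      have hsplit : V.w (u * v) < V.w (u + v) ^ 2 := by
        have : V.w (u * v) * ξ₂ ^ 2 < V.w (u + v) ^ 2 * ξ₂ ^ 2 := by
          rw [hPr, hS']
          have : (ξ₁ / ξ₂) ^ 2 * ξ₂ ^ 2 = ξ₁ ^ 2 := by field_simp
          rw [this]
          exact pow_lt_pow_left₀ hμ hμ0 two_ne_zero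
        exact lt_of_mul_lt_mul_right this hξ₂sq.le
      have hs : clampB B ξ₁ = ξ₁ := clampB_of_mem hBξ₁.le (hlt.trans hξ₂1).le
      have ht : clampB B ξ₂ = ξ₂ := clampB_of_mem hBξ₂.le hξ₂1.le
      have hρ : clampB B (ξ₁ / ξ₂) = ξ₁ / ξ₂ := by
        apply clampB_of_mem
        · rw [le_div_iff₀ hξ₂pos]
          exact (mul_le_of_le_one_right hB0.le hξ₂1.le).trans hBξ₁.le
        · rw [div_le_one hξ₂pos]; exact hlt.le
      have key : ∀ ω : ℝ, 0 ≤ ω → ω * V.w (u + v) = V.w (u * v) →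
          clampB B ω = ξ₁ * ξ₂ ∨ clampB B ω = B ^ 2 / (ξ₁ * ξ₂) := by
        intro ω hω0 hω
        have hω' : ω * (ξ₁ * ξ₂) = V.w (x₁ * x₂ - a₄) ^ 2 := by
          rw [← hPr, ← hω, hS']; field_simp
        rcases lt_trichotomy (ξ₁ * ξ₂) B with h | h | h
        · right
          have hμ' : V.w (x₁ * x₂ - a₄) = B :=
            V.w_sub_eq_of_lt' (by rw [hx12]; exact h)
          have hω2 : ω = B ^ 2 / (ξ₁ * ξ₂) := by
            rw [eq_div_iff hξ₁₂pos.ne', hω', hμ']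
          rw [hω2]
          apply clampB_of_mem
          · rw [le_div_iff₀ hξ₁₂pos, pow_two]
            exact mul_le_mul_of_nonneg_left h.le hB0.le
          · rw [div_le_one hξ₁₂pos, pow_two]
            exact mul_le_mul hBξ₁.le hBξ₂.le hB0.le hξ₁pos.le
        · left
          have hμ' : V.w (x₁ * x₂ - a₄) ≤ B :=
            V.w_sub_le (by rw [hx12]; exact h.le) le_rfl
          have : ω ≤ B := by
            have h3 : V.w (x₁ * x₂ - a₄) ^ 2 ≤ B ^ 2 := pow_le_pow_left₀ hμ0 hμ' 2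
            rw [h] at hω'
            have h4 : ω * B ≤ B * B := by rw [hω', ← pow_two]; exact h3
            exact le_of_mul_le_mul_right h4 hB0
          rw [clampB_of_le ha₄.le this, h]
        · left
          have hμ' : V.w (x₁ * x₂ - a₄) = ξ₁ * ξ₂ := by
            rw [V.w_sub_eq_of_lt (by rw [hx12]; exact h), hx12]
          have hω2 : ω = ξ₁ * ξ₂ := by
            rw [hμ', pow_two] at hω'
            exact mul_right_cancel₀ hξ₁₂pos.ne' hω'
          rw [hω2]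
          apply clampB_of_mem h.le
          exact (h5.trans (hlt.trans hξ₂1)).le
      rw [hs, ht]
      rcases np_split V hsplit with ⟨hu, hv⟩ | ⟨hv, hu⟩
      · rw [hu, hS', hρ]
        exact ⟨_, _, Or.inl ⟨rfl, rfl⟩, Or.inl rfl, key _ hv0 hv⟩
      · rw [hv, hS', hρ]
        exact ⟨_, _, Or.inr ⟨rfl, rfl⟩, Or.inl rfl, key _ hu0 hu⟩

/-- Case `|x₁| = |x₂|`, `x₁ ≠ x₂`. -/
theorem pair_core_eq {a₄ b₂ x₁ x₂ u v : K} (hb₂ : V.w b₂ = 1) (ha₄0 : a₄ ≠ 0)
    (ha₄ : V.w a₄ < 1) (heq : V.w x₁ = V.w x₂) (hne : x₁ ≠ x₂)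
    (hsum : (u + v) * (x₁ - x₂) ^ 2 = 2 * (x₁ + x₂) * (x₁ * x₂ + a₄) + b₂ * (x₁ * x₂))
    (hprod : u * v * (x₁ - x₂) ^ 2 = (x₁ * x₂ - a₄) ^ 2) :
    PairConcl (V.w a₄) (clampB (V.w a₄) (V.w x₁)) (clampB (V.w a₄) (V.w x₂))
      (clampB (V.w a₄) (V.w u)) (clampB (V.w a₄) (V.w v)) := by
  have hB0 : 0 < V.w a₄ := V.w_pos _ ha₄0
  have h2 := V.w_two_le
  have h20 := V.w_nonneg (2 : K)
  have hδpos : 0 < V.w (x₁ - x₂) := V.w_pos _ (sub_ne_zero.mpr hne)
  have hδle : V.w (x₁ - x₂) ≤ V.w x₁ := V.w_sub_le le_rfl heq.ge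
  have hξpos : 0 < V.w x₁ := lt_of_lt_of_le hδpos hδle
  have hadd : V.w (x₁ + x₂) ≤ V.w x₁ := V.w_add_le le_rfl heq.ge
  have hSg : V.w (u + v) * V.w (x₁ - x₂) ^ 2 =
      V.w (2 * (x₁ + x₂) * (x₁ * x₂ + a₄) + b₂ * (x₁ * x₂)) := by
    rw [← hsum, V.w_mul, V.w_pow]
  have hPr : V.w (u * v) * V.w (x₁ - x₂) ^ 2 = V.w (x₁ * x₂ - a₄) ^ 2 := by
    have := congrArg V.w hprod
    rw [V.w_mul, V.w_pow, V.w_pow] at this
    exact this
  have hT1 : V.w (2 * (x₁ + x₂) * (x₁ * x₂ + a₄)) ≤ V.w x₁ * V.w (x₁ * x₂ + a₄) := by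
    rw [V.w_mul, V.w_mul]
    have h3 := V.w_nonneg (x₁ * x₂ + a₄)
    have h4 : V.w 2 * V.w (x₁ + x₂) ≤ 1 * V.w x₁ :=
      mul_le_mul h2 hadd (V.w_nonneg _) zero_le_one
    rw [one_mul] at h4
    exact mul_le_mul_of_nonneg_right h4 h3
  have hT2 : V.w (b₂ * (x₁ * x₂)) = V.w x₁ * V.w x₁ := by
    rw [V.w_mul, hb₂, one_mul, V.w_mul, heq]
  have hx12 : V.w (x₁ * x₂) = V.w x₁ * V.w x₁ := by rw [V.w_mul, heq]
  have hu0 := V.w_nonneg u
  have hv0 := V.w_nonneg v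
  have hμ0 := V.w_nonneg (x₁ * x₂ - a₄)
  rw [← heq]
  set B := V.w a₄ with hBdef
  set ξ := V.w x₁ with hξdef
  set δ := V.w (x₁ - x₂) with hδdef
  have hδsq : 0 < δ ^ 2 := by positivity
  have hδξsq : δ ^ 2 ≤ ξ ^ 2 := pow_le_pow_left₀ hδpos.le hδle 2
  have hξξpos : 0 < ξ * ξ := mul_pos hξpos hξpos
  rcases le_or_gt 1 ξ with h1ξ | hξ1
  · -- L3
    have h1ξξ : 1 ≤ ξ * ξ := one_le_mul_of_one_le_of_one_le h1ξ h1ξ
    have hlt' : V.w a₄ < V.w (x₁ * x₂) := by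
      rw [hx12]
      exact lt_of_lt_of_le ha₄ h1ξξ
    have hμ : V.w (x₁ * x₂ - a₄) = ξ * ξ := by
      rw [V.w_sub_eq_of_lt hlt', hx12]
    have hν : V.w (x₁ * x₂ + a₄) = ξ * ξ := by
      rw [V.w_add_eq_of_lt hlt', hx12]
    have hSn : V.w (2 * (x₁ + x₂) * (x₁ * x₂ + a₄) + b₂ * (x₁ * x₂)) ≤ ξ * (ξ * ξ) := by
      apply V.w_add_le
      · rw [hν] at hT1
        exact hT1
      · rw [hT2]
        exact le_mul_of_one_le_left hξξpos.le h1ξ
    have h3 : ξ * (ξ * ξ) ≤ (ξ * ξ) ^ 2 := by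
      rw [pow_two]
      exact mul_le_mul_of_nonneg_right (le_mul_of_one_le_left hξpos.le h1ξ) hξξpos.le
    have h4 : δ ^ 2 ≤ (ξ * ξ) ^ 2 := by
      refine hδξsq.trans ?_
      rw [pow_two, pow_two]
      exact le_mul_of_one_le_left hξξpos.le h1ξξ
    have hP1 : (1 : ℝ) ^ 2 ≤ V.w (u * v) := by
      have : 1 ^ 2 * δ ^ 2 ≤ V.w (u * v) * δ ^ 2 := by
        rw [hPr, hμ, one_pow, one_mul]; exact h4
      exact le_of_mul_le_mul_right this hδsq
    have hS1 : V.w (u + v) * 1 ≤ V.w (u * v) := by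
      have : V.w (u + v) * 1 * δ ^ 2 ≤ V.w (u * v) * δ ^ 2 := by
        rw [mul_one, hSg, hPr, hμ]; exact hSn.trans h3
      exact le_of_mul_le_mul_right this hδsq
    obtain ⟨hu, hv⟩ := np_ge V one_pos hP1 hS1
    rw [clampB_of_ge ha₄.le hu, clampB_of_ge ha₄.le hv, clampB_of_ge ha₄.le h1ξ]
    exact ⟨_, _, Or.inl ⟨rfl, rfl⟩, Or.inl (by rw [div_one]), Or.inl (by rw [mul_one])⟩
  · rcases le_or_gt ξ B with hξB | hBξ
    · -- L7
      have h5 : ξ * ξ ≤ ξ * B := mul_le_mul_of_nonneg_left hξB hξpos.le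
      have h6 : ξ * B ≤ B * B := mul_le_mul_of_nonneg_right hξB hB0.le
      have hlt' : V.w (x₁ * x₂) < V.w a₄ := by
        rw [hx12]
        exact lt_of_le_of_lt (h5.trans h6) (mul_lt_of_lt_one_right hB0 ha₄)
      have hμ : V.w (x₁ * x₂ - a₄) = B := V.w_sub_eq_of_lt' hlt'
      have hν : V.w (x₁ * x₂ + a₄) = B := V.w_add_eq_of_lt' hlt'
      have hSn : V.w (2 * (x₁ + x₂) * (x₁ * x₂ + a₄) + b₂ * (x₁ * x₂)) ≤ ξ * B := by
        apply V.w_add_le
        · rw [hν] at hT1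
          exact hT1
        · rw [hT2]
          exact h5
      have h4 : δ ^ 2 ≤ B ^ 2 := pow_le_pow_left₀ hδpos.le (hδle.trans hξB) 2
      have hP1 : (1 : ℝ) ^ 2 ≤ V.w (u * v) := by
        have : 1 ^ 2 * δ ^ 2 ≤ V.w (u * v) * δ ^ 2 := by
          rw [hPr, hμ, one_pow, one_mul]; exact h4
        exact le_of_mul_le_mul_right this hδsq
      have hS1 : V.w (u + v) * 1 ≤ V.w (u * v) := by
        have : V.w (u + v) * 1 * δ ^ 2 ≤ V.w (u * v) * δ ^ 2 := by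
          rw [mul_one, hSg, hPr, hμ, pow_two]; exact hSn.trans h6
        exact le_of_mul_le_mul_right this hδsq
      obtain ⟨hu, hv⟩ := np_ge V one_pos hP1 hS1
      rw [clampB_of_ge ha₄.le hu, clampB_of_ge ha₄.le hv, clampB_of_le ha₄.le hξB]
      refine ⟨_, _, Or.inl ⟨rfl, rfl⟩, Or.inl ?_, Or.inr ?_⟩
      · rw [div_self hB0.ne']
      · field_simp
    · -- L8
      have h5 : ξ * ξ < ξ := mul_lt_of_lt_one_right hξpos hξ1
      have hν : V.w (x₁ * x₂ + a₄) < ξ := by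
        apply V.w_add_lt
        · rw [hx12]; exact h5
        · exact hBξ
      have hμ : V.w (x₁ * x₂ - a₄) < ξ := by
        apply V.w_sub_lt
        · rw [hx12]; exact h5
        · exact hBξ
      have hSn : V.w (2 * (x₁ + x₂) * (x₁ * x₂ + a₄) + b₂ * (x₁ * x₂)) = ξ * ξ := by
        rw [V.w_add_eq_of_lt' (by
          rw [hT2]
          exact lt_of_le_of_lt hT1 (mul_lt_mul_of_pos_left hν hξpos)), hT2]
      have hS' : V.w (u + v) * δ ^ 2 = ξ * ξ := by rw [hSg, hSn]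
      have hS1 : 1 ≤ V.w (u + v) := by
        have : 1 * δ ^ 2 ≤ V.w (u + v) * δ ^ 2 := by
          rw [hS', one_mul, ← pow_two]; exact hδξsq
        exact le_of_mul_le_mul_right this hδsq
      have hsplit : V.w (u * v) < V.w (u + v) ^ 2 := by
        have h6 : V.w (x₁ * x₂ - a₄) ^ 2 < ξ ^ 2 := pow_lt_pow_left₀ hμ hμ0 two_ne_zero
        have h7 : V.w (x₁ * x₂ - a₄) ^ 2 * δ ^ 2 < ξ ^ 2 * ξ ^ 2 :=
          lt_of_le_of_lt (mul_le_mul_of_nonneg_left hδξsq (sq_nonneg _))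
            (mul_lt_mul_of_pos_right h6 (by positivity))
        have : V.w (u * v) * (δ ^ 2 * δ ^ 2) < V.w (u + v) ^ 2 * (δ ^ 2 * δ ^ 2) := by
          have e1 : V.w (u * v) * (δ ^ 2 * δ ^ 2) = V.w (x₁ * x₂ - a₄) ^ 2 * δ ^ 2 := by
            rw [← hPr]; ring
          have e2 : V.w (u + v) ^ 2 * (δ ^ 2 * δ ^ 2) = ξ ^ 2 * ξ ^ 2 := by
            have : V.w (u + v) ^ 2 * (δ ^ 2 * δ ^ 2) = (V.w (u + v) * δ ^ 2) ^ 2 := by ring
            rw [this, hS']; ring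
          rw [e1, e2]; exact h7
        exact lt_of_mul_lt_mul_right this (by positivity)
      have hs : clampB B ξ = ξ := clampB_of_mem hBξ.le hξ1.le
      have key : ∀ ω : ℝ, 0 ≤ ω → ω * V.w (u + v) = V.w (u * v) →
          clampB B ω = ξ * ξ ∨ clampB B ω = B ^ 2 / (ξ * ξ) := by
        intro ω hω0 hω
        have hω' : ω * (ξ * ξ) = V.w (x₁ * x₂ - a₄) ^ 2 := by
          rw [← hPr, ← hω, ← hS']; ring
        rcases lt_trichotomy (ξ * ξ) B with h | h | h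
        · right
          have hμ' : V.w (x₁ * x₂ - a₄) = B :=
            V.w_sub_eq_of_lt' (by rw [hx12]; exact h)
          have hω2 : ω = B ^ 2 / (ξ * ξ) := by
            rw [eq_div_iff hξξpos.ne', hω', hμ']
          rw [hω2]
          apply clampB_of_mem
          · rw [le_div_iff₀ hξξpos, pow_two]
            exact mul_le_mul_of_nonneg_left h.le hB0.le
          · rw [div_le_one hξξpos, pow_two]
            exact mul_le_mul hBξ.le hBξ.le hB0.le hξpos.le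
        · left
          have hμ' : V.w (x₁ * x₂ - a₄) ≤ B :=
            V.w_sub_le (by rw [hx12]; exact h.le) le_rfl
          have : ω ≤ B := by
            have h3 : V.w (x₁ * x₂ - a₄) ^ 2 ≤ B ^ 2 := pow_le_pow_left₀ hμ0 hμ' 2
            rw [h] at hω'
            have h4 : ω * B ≤ B * B := by rw [hω', ← pow_two]; exact h3
            exact le_of_mul_le_mul_right h4 hB0
          rw [clampB_of_le ha₄.le this, h]
        · left
          have hμ' : V.w (x₁ * x₂ - a₄) = ξ * ξ := by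
            rw [V.w_sub_eq_of_lt (by rw [hx12]; exact h), hx12]
          have hω2 : ω = ξ * ξ := by
            rw [hμ', pow_two] at hω'
            exact mul_right_cancel₀ hξξpos.ne' hω'
          rw [hω2]
          apply clampB_of_mem h.le
          exact (h5.trans hξ1).le
      rw [hs]
      rcases np_split V hsplit with ⟨hu, hv⟩ | ⟨hv, hu⟩
      · rw [hu, clampB_of_ge ha₄.le hS1]
        exact ⟨_, _, Or.inl ⟨rfl, rfl⟩, Or.inl (div_self hξpos.ne').symm, key _ hv0 hv⟩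
      · rw [hv, clampB_of_ge ha₄.le hS1]
        exact ⟨_, _, Or.inr ⟨rfl, rfl⟩, Or.inl (div_self hξpos.ne').symm, key _ hu0 hu⟩

/-- The core computation for two distinct `x`-coordinates. -/
theorem pair_core {a₄ b₂ x₁ x₂ u v : K} (hb₂ : V.w b₂ = 1) (ha₄0 : a₄ ≠ 0)
    (ha₄ : V.w a₄ < 1) (hne : x₁ ≠ x₂)
    (hsum : (u + v) * (x₁ - x₂) ^ 2 = 2 * (x₁ + x₂) * (x₁ * x₂ + a₄) + b₂ * (x₁ * x₂))
    (hprod : u * v * (x₁ - x₂) ^ 2 = (x₁ * x₂ - a₄) ^ 2) :
    PairConcl (V.w a₄) (clampB (V.w a₄) (V.w x₁)) (clampB (V.w a₄) (V.w x₂))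
      (clampB (V.w a₄) (V.w u)) (clampB (V.w a₄) (V.w v)) := by
  rcases lt_trichotomy (V.w x₁) (V.w x₂) with h | h | h
  · exact pair_core_lt V hb₂ ha₄0 ha₄ h hsum hprod
  · exact pair_core_eq V hb₂ ha₄0 ha₄ h hne hsum hprod
  · refine (pair_core_lt V hb₂ ha₄0 ha₄ h (x₁ := x₂) (x₂ := x₁) (u := u) (v := v) ?_ ?_).symm_st
    · rw [show (x₂ - x₁) ^ 2 = (x₁ - x₂) ^ 2 by ring, hsum]; ring
    · rw [show (x₂ - x₁) ^ 2 = (x₁ - x₂) ^ 2 by ring, hprod]; ring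

/-- The core computation for doubling. -/
theorem dbl_core {a₄ b₂ x x' : K} (hb₂ : V.w b₂ = 1) (ha₄0 : a₄ ≠ 0)
    (ha₄ : V.w a₄ < 1) (hE : 4 * x ^ 3 + b₂ * x ^ 2 + 4 * a₄ * x ≠ 0)
    (hnum : x' * (4 * x ^ 3 + b₂ * x ^ 2 + 4 * a₄ * x) = (x ^ 2 - a₄) ^ 2) :
    clampB (V.w a₄) (V.w x') = clampB (V.w a₄) (V.w x) ^ 2 ∨
      clampB (V.w a₄) (V.w x') = V.w a₄ ^ 2 / clampB (V.w a₄) (V.w x) ^ 2 := by
  have hB0 : 0 < V.w a₄ := V.w_pos _ ha₄0
  have h4 : V.w (4 : K) ≤ 1 := by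
    have := V.w_natCast_le 4
    simpa using this
  have h40 := V.w_nonneg (4 : K)
  have hEpos : 0 < V.w (4 * x ^ 3 + b₂ * x ^ 2 + 4 * a₄ * x) := V.w_pos _ hE
  have hN : V.w x' * V.w (4 * x ^ 3 + b₂ * x ^ 2 + 4 * a₄ * x) = V.w (x ^ 2 - a₄) ^ 2 := by
    rw [← V.w_mul, hnum, V.w_pow]
  have hξ0 := V.w_nonneg x
  have hT1 : V.w (4 * x ^ 3) ≤ V.w x ^ 3 := by
    rw [V.w_mul, V.w_pow]
    exact mul_le_of_le_one_left (by positivity) h4
  have hT2 : V.w (b₂ * x ^ 2) = V.w x ^ 2 := by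
    rw [V.w_mul, hb₂, one_mul, V.w_pow]
  have hT3 : V.w (4 * a₄ * x) ≤ V.w a₄ * V.w x := by
    rw [V.w_mul, V.w_mul]
    exact mul_le_mul_of_nonneg_right (mul_le_of_le_one_left hB0.le h4) hξ0
  have hxx : V.w (x ^ 2) = V.w x ^ 2 := V.w_pow _ _
  have hμ0 := V.w_nonneg (x ^ 2 - a₄)
  set B := V.w a₄ with hBdef
  set ξ := V.w x with hξdef
  set E := V.w (4 * x ^ 3 + b₂ * x ^ 2 + 4 * a₄ * x) with hEdef
  rcases le_or_gt 1 ξ with h1ξ | hξ1
  · -- `1 ≤ ξ`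
    left
    have hξpos : 0 < ξ := lt_of_lt_of_le one_pos h1ξ
    have h1 : ξ ^ 2 ≤ ξ ^ 3 := by
      rw [pow_succ ξ 2]; exact le_mul_of_one_le_right (by positivity) h1ξ
    have h1' : (1 : ℝ) ≤ ξ ^ 2 := one_le_pow₀ h1ξ
    have hEle : E ≤ ξ ^ 3 := by
      apply V.w_add_le (V.w_add_le hT1 (hT2.le.trans h1))
      refine hT3.trans ?_
      calc B * ξ ≤ 1 * ξ := mul_le_mul_of_nonneg_right ha₄.le hξ0
        _ = ξ := one_mul _
        _ ≤ ξ ^ 3 := by
          calc ξ = ξ * 1 := (mul_one _).symm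
            _ ≤ ξ * ξ ^ 2 := mul_le_mul_of_nonneg_left h1' hξ0
            _ = ξ ^ 3 := by ring
    have hμ : V.w (x ^ 2 - a₄) = ξ ^ 2 := by
      rw [V.w_sub_eq_of_lt (by rw [hxx]; exact lt_of_lt_of_le ha₄ h1'), hxx]
    have hx' : 1 ≤ V.w x' := by
      have : 1 * E ≤ V.w x' * E := by
        rw [hN, hμ, one_mul]
        refine hEle.trans ?_
        calc ξ ^ 3 = ξ ^ 3 * 1 := (mul_one _).symm
          _ ≤ ξ ^ 3 * ξ := mul_le_mul_of_nonneg_left h1ξ (by positivity)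
          _ = (ξ ^ 2) ^ 2 := by ring
      exact le_of_mul_le_mul_right this hEpos
    rw [clampB_of_ge ha₄.le hx', clampB_of_ge ha₄.le h1ξ, one_pow]
  · rcases le_or_gt ξ B with hξB | hBξ
    · -- `ξ ≤ B`
      right
      have h1 : ξ ^ 2 ≤ B * ξ := by
        rw [pow_two]; exact mul_le_mul_of_nonneg_right hξB hξ0
      have h3 : ξ ^ 3 ≤ B * ξ := by
        calc ξ ^ 3 = ξ ^ 2 * ξ := by ring
          _ ≤ ξ ^ 2 * 1 := mul_le_mul_of_nonneg_left hξ1.le (sq_nonneg _)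
          _ = ξ ^ 2 := mul_one _
          _ ≤ B * ξ := h1
      have hEle : E ≤ B * ξ := V.w_add_le (V.w_add_le (hT1.trans h3) (hT2.le.trans h1)) hT3
      have h5 : B * ξ ≤ B * B := mul_le_mul_of_nonneg_left hξB hB0.le
      have hμ : V.w (x ^ 2 - a₄) = B := by
        apply V.w_sub_eq_of_lt'
        rw [hxx]
        exact lt_of_le_of_lt (h1.trans h5) (mul_lt_of_lt_one_right hB0 ha₄)
      have hx' : 1 ≤ V.w x' := by
        have : 1 * E ≤ V.w x' * E := by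
          rw [hN, hμ, one_mul, pow_two]
          exact hEle.trans h5
        exact le_of_mul_le_mul_right this hEpos
      rw [clampB_of_ge ha₄.le hx', clampB_of_le ha₄.le hξB, div_self (pow_ne_zero 2 hB0.ne')]
    · -- `B < ξ < 1`
      have hξpos : 0 < ξ := hB0.trans hBξ
      have hξsq : 0 < ξ ^ 2 := by positivity
      have h1 : ξ ^ 3 < ξ ^ 2 := by
        calc ξ ^ 3 = ξ ^ 2 * ξ := by ring
          _ < ξ ^ 2 * 1 := mul_lt_mul_of_pos_left hξ1 hξsq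
          _ = ξ ^ 2 := mul_one _
      have h3 : B * ξ < ξ ^ 2 := by
        rw [pow_two]; exact mul_lt_mul_of_pos_right hBξ hξpos
      have hE2 : E = ξ ^ 2 := by
        have e1 : V.w (4 * x ^ 3 + b₂ * x ^ 2) = ξ ^ 2 := by
          rw [V.w_add_eq_of_lt' (by rw [hT2]; exact lt_of_le_of_lt hT1 h1), hT2]
        rw [hEdef, V.w_add_eq_of_lt (by rw [e1]; exact lt_of_le_of_lt hT3 h3), e1]
      rw [hE2] at hN
      rw [clampB_of_mem hBξ.le hξ1.le]
      rcases lt_trichotomy (ξ ^ 2) B with h | h | h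
      · right
        have hμ : V.w (x ^ 2 - a₄) = B := V.w_sub_eq_of_lt' (by rw [hxx]; exact h)
        have hx' : V.w x' = B ^ 2 / ξ ^ 2 := by
          rw [eq_div_iff hξsq.ne', hN, hμ]
        rw [hx']
        apply clampB_of_mem
        · rw [le_div_iff₀ hξsq, pow_two B]
          exact mul_le_mul_of_nonneg_left h.le hB0.le
        · rw [div_le_one hξsq]
          exact pow_le_pow_left₀ hB0.le hBξ.le 2
      · left
        have hμ : V.w (x ^ 2 - a₄) ≤ B := V.w_sub_le (by rw [hxx]; exact h.le) le_rfl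
        have hx' : V.w x' ≤ B := by
          have h5 : V.w (x ^ 2 - a₄) ^ 2 ≤ B ^ 2 := pow_le_pow_left₀ hμ0 hμ 2
          rw [h] at hN
          have h6 : V.w x' * B ≤ B * B := by rw [hN, ← pow_two]; exact h5
          exact le_of_mul_le_mul_right h6 hB0
        rw [clampB_of_le ha₄.le hx', h]
      · left
        have hμ : V.w (x ^ 2 - a₄) = ξ ^ 2 := by
          rw [V.w_sub_eq_of_lt (by rw [hxx]; exact h), hxx]
        have hx' : V.w x' = ξ ^ 2 := by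
          rw [hμ, pow_two (ξ ^ 2)] at hN
          exact mul_right_cancel₀ hξsq.ne' hN
        rw [hx']
        exact clampB_of_mem h.le (pow_le_one₀ hξ0 hξ1.le)

/-- Doubling, two-torsion case: the clamped value of `x` is `1` or `B`. -/
theorem dbl_core_zero {a₄ b₂ x : K} (hb₂ : V.w b₂ = 1) (ha₄0 : a₄ ≠ 0)
    (ha₄ : V.w a₄ < 1) (hE : 4 * x ^ 3 + b₂ * x ^ 2 + 4 * a₄ * x = 0) :
    clampB (V.w a₄) (V.w x) = 1 ∨ clampB (V.w a₄) (V.w x) = V.w a₄ := by
  have hB0 : 0 < V.w a₄ := V.w_pos _ ha₄0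
  have h4 : V.w (4 : K) ≤ 1 := by
    have := V.w_natCast_le 4
    simpa using this
  have hξ0 := V.w_nonneg x
  rcases le_or_gt 1 (V.w x) with h1ξ | hξ1
  · left; exact clampB_of_ge ha₄.le h1ξ
  · rcases le_or_gt (V.w x) (V.w a₄) with hξB | hBξ
    · right; exact clampB_of_le ha₄.le hξB
    · exfalso
      have hT1 : V.w (4 * x ^ 3) ≤ V.w x ^ 3 := by
        rw [V.w_mul, V.w_pow]
        exact mul_le_of_le_one_left (by positivity) h4
      have hT2 : V.w (b₂ * x ^ 2) = V.w x ^ 2 := by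
        rw [V.w_mul, hb₂, one_mul, V.w_pow]
      have hT3 : V.w (4 * a₄ * x) ≤ V.w a₄ * V.w x := by
        rw [V.w_mul, V.w_mul]
        exact mul_le_mul_of_nonneg_right (mul_le_of_le_one_left hB0.le h4) hξ0
      have hξpos : 0 < V.w x := hB0.trans hBξ
      have hξsq : 0 < V.w x ^ 2 := by positivity
      have h1 : V.w x ^ 3 < V.w x ^ 2 := by
        calc V.w x ^ 3 = V.w x ^ 2 * V.w x := by ring
          _ < V.w x ^ 2 * 1 := mul_lt_mul_of_pos_left hξ1 hξsq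
          _ = V.w x ^ 2 := mul_one _
      have h3 : V.w a₄ * V.w x < V.w x ^ 2 := by
        rw [pow_two]; exact mul_lt_mul_of_pos_right hBξ hξpos
      have e1 : V.w (4 * x ^ 3 + b₂ * x ^ 2) = V.w x ^ 2 := by
        rw [V.w_add_eq_of_lt' (by rw [hT2]; exact lt_of_le_of_lt hT1 h1), hT2]
      have e2 : V.w (4 * x ^ 3 + b₂ * x ^ 2 + 4 * a₄ * x) = V.w x ^ 2 := by
        rw [V.w_add_eq_of_lt (by rw [e1]; exact lt_of_le_of_lt hT3 h3), e1]
      rw [hE, V.w_zero] at e2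
      exact hξsq.ne e2

end Core

/-! ### The relation `a ~ b` iff `a = b B^(2k)` or `a b = B^(2k)` -/

/-- `a ~ b` iff `a = b * B ^ (2 k)` or `a * b = B ^ (2 k)` for some integer `k`. -/
def RelB (B a b : ℝ) : Prop := ∃ k : ℤ, a = b * B ^ (2 * k) ∨ a * b = B ^ (2 * k)

namespace RelB

variable {B a b c : ℝ}

lemma refl (a : ℝ) : RelB B a a := ⟨0, Or.inl (by simp)⟩

lemma symm (hB : 0 < B) (h : RelB B a b) : RelB B b a := by
  obtain ⟨k, h | h⟩ := h
  · refine ⟨-k, Or.inl ?_⟩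
    rw [h, mul_assoc, ← zpow_add₀ hB.ne']
    simp
  · exact ⟨k, Or.inr (by rw [mul_comm]; exact h)⟩

lemma trans (hB : 0 < B) (hb : b ≠ 0) (h₁ : RelB B a b) (h₂ : RelB B b c) : RelB B a c := by
  obtain ⟨k, h₁ | h₁⟩ := h₁ <;> obtain ⟨l, h₂ | h₂⟩ := h₂
  · refine ⟨k + l, Or.inl ?_⟩
    rw [h₁, h₂, mul_assoc, ← zpow_add₀ hB.ne']
    congr 2; ring
  · refine ⟨k + l, Or.inr ?_⟩
    rw [h₁, mul_right_comm, h₂, ← zpow_add₀ hB.ne']
    congr 1; ring
  · refine ⟨k - l, Or.inr ?_⟩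
    rw [h₂, ← mul_assoc] at h₁
    have h3 : B ^ (2 * (k - l)) = B ^ (2 * k) / B ^ (2 * l) := by
      rw [← zpow_sub₀ hB.ne']; congr 1; ring
    rw [h3, ← h₁, mul_div_assoc, div_self (zpow_ne_zero _ hB.ne'), mul_one]
  · refine ⟨k - l, Or.inl ?_⟩
    have h3 : B ^ (2 * (k - l)) = B ^ (2 * k) / B ^ (2 * l) := by
      rw [← zpow_sub₀ hB.ne']; congr 1; ring
    have hc : c ≠ 0 := by
      rintro rfl
      rw [mul_zero] at h₂
      exact zpow_ne_zero _ hB.ne' h₂.symm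
    rw [h3, ← h₁, ← h₂]
    field_simp

/-- The induction step: from `c ~ s^(m+1)`, the pair `{c/s or s/c, c s or B²/(c s)}` is
`~ {s^m, s^(m+2)}`. -/
lemma step (hB : 0 < B) {s : ℝ} (hs : 0 < s) {m : ℕ} (h : RelB B c (s ^ (m + 1)))
    {α β : ℝ} (hα : α = c / s ∨ α = s / c) (hβ : β = c * s ∨ β = B ^ 2 / (c * s)) :
    (RelB B α (s ^ m) ∧ RelB B β (s ^ (m + 2))) ∨
      (RelB B α (s ^ (m + 2)) ∧ RelB B β (s ^ m)) := by
  have hB2 : B ^ 2 = B ^ (2 * (1 : ℤ)) := by norm_num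
  have hBk : ∀ k : ℤ, B ^ (2 * k) ≠ 0 := fun k => zpow_ne_zero _ hB.ne'
  have hBneg : ∀ k : ℤ, B ^ (2 * -k) = (B ^ (2 * k))⁻¹ := by
    intro k
    rw [mul_neg, zpow_neg]
  have hB1k : ∀ k : ℤ, B ^ (2 * (1 - k)) = B ^ 2 / B ^ (2 * k) := by
    intro k
    rw [hB2, ← zpow_sub₀ hB.ne']; congr 1; ring
  have hsm : 0 < s ^ m := pow_pos hs m
  obtain ⟨k, h | h⟩ := h
  · left
    constructor
    · rcases hα with rfl | rfl
      · refine ⟨k, Or.inl ?_⟩
        rw [h, pow_succ]; field_simp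
      · refine ⟨-k, Or.inr ?_⟩
        rw [h, hBneg, pow_succ]
        have := hBk k
        field_simp
    · rcases hβ with rfl | rfl
      · refine ⟨k, Or.inl ?_⟩
        rw [h]; ring
      · refine ⟨1 - k, Or.inr ?_⟩
        rw [h, hB1k]
        have := hBk k
        field_simp
        ring
  · right
    have hc' : c = B ^ (2 * k) / s ^ (m + 1) := by
      rw [eq_div_iff (pow_pos hs _).ne']; exact h
    constructor
    · rcases hα with rfl | rfl
      · refine ⟨k, Or.inr ?_⟩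
        rw [hc']; field_simp; ring
      · refine ⟨-k, Or.inl ?_⟩
        rw [hc', hBneg]
        have := hBk k
        field_simp; ring
    · rcases hβ with rfl | rfl
      · refine ⟨k, Or.inr ?_⟩
        rw [hc', pow_succ]; field_simp
      · refine ⟨1 - k, Or.inl ?_⟩
        rw [hc', hB1k, pow_succ]
        have := hBk k
        field_simp; ring

end RelB

/-! ### Points on a nodal model -/

section Points

variable {K : Type*} [Field K] [DecidableEq K] (V : RVal K) (W : WeierstrassCurve.Affine K)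

/-- The hypotheses on the nodal model: `a₃ = a₆ = 0`, `|b₂| = 1`, `0 < |a₄| < 1`, and `a₁`, `a₂`
integral. -/
structure NodalModel : Prop where
  a₃ : W.a₃ = 0
  a₆ : W.a₆ = 0
  a₁ : V.w W.a₁ ≤ 1
  a₂ : V.w W.a₂ ≤ 1
  b₂ : V.w W.b₂ = 1
  a₄_ne : W.a₄ ≠ 0
  a₄_lt : V.w W.a₄ < 1

/-- The clamped absolute value of the `x`-coordinate (`1` for the zero point). -/
noncomputable def cb : W.Point → ℝ
  | .zero => 1
  | .some x _ _ => clampB (V.w W.a₄) (V.w x)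

omit [DecidableEq K] in
@[simp] lemma cb_zero : cb V W 0 = 1 := rfl

omit [DecidableEq K] in
@[simp] lemma cb_some {x y : K} (h : W.Nonsingular x y) :
    cb V W (Point.some x y h) = clampB (V.w W.a₄) (V.w x) := rfl

omit [DecidableEq K] in
lemma cb_neg (P : W.Point) : cb V W (-P) = cb V W P := by
  cases P <;> rfl

variable {V W}

omit [DecidableEq K] in
lemma NodalModel.B_pos (h : NodalModel V W) : 0 < V.w W.a₄ := V.w_pos _ h.a₄_ne

omit [DecidableEq K] in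
lemma NodalModel.b₄ (h : NodalModel V W) : W.b₄ = 2 * W.a₄ := by
  simp only [WeierstrassCurve.b₄, h.a₃]; ring

omit [DecidableEq K] in
lemma NodalModel.b₆ (h : NodalModel V W) : W.b₆ = 0 := by
  simp only [WeierstrassCurve.b₆, h.a₃, h.a₆]; ring

omit [DecidableEq K] in
lemma NodalModel.b₈ (h : NodalModel V W) : W.b₈ = -W.a₄ ^ 2 := by
  simp only [WeierstrassCurve.b₈, h.a₃, h.a₆]; ring

omit [DecidableEq K] in
lemma le_cb (h : NodalModel V W) (P : W.Point) : V.w W.a₄ ≤ cb V W P := by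
  cases P with
  | zero => exact h.a₄_lt.le
  | some x y hxy => exact le_clampB _ _

omit [DecidableEq K] in
lemma cb_le_one (h : NodalModel V W) (P : W.Point) : cb V W P ≤ 1 := by
  cases P with
  | zero => exact le_rfl
  | some x y hxy => exact clampB_le_one h.a₄_lt.le _

omit [DecidableEq K] in
lemma cb_pos (h : NodalModel V W) (P : W.Point) : 0 < cb V W P :=
  lt_of_lt_of_le h.B_pos (le_cb h P)

/-- Doubling: `cb (2P)` is `s²` or `B²/s²`. -/
theorem cb_dbl (h : NodalModel V W) (P : W.Point) :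
    cb V W (P + P) = cb V W P * cb V W P ∨
      cb V W (P + P) = V.w W.a₄ ^ 2 / (cb V W P * cb V W P) := by
  cases P with
  | zero =>
    left
    rw [← Point.zero_def, add_zero, cb_zero, mul_one]
  | some x y hxy =>
    by_cases hy : y = W.negY x y
    · rw [Point.add_self_of_Y_eq hy, cb_zero, cb_some]
      have hD2 := KerRed.dbl_den W hxy.1
      rw [sub_eq_zero.mpr hy, zero_pow two_ne_zero, h.b₄, h.b₆] at hD2
      have hE : 4 * x ^ 3 + W.b₂ * x ^ 2 + 4 * W.a₄ * x = 0 := by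
        rw [hD2]; ring
      rcases dbl_core_zero V h.b₂ h.a₄_ne h.a₄_lt hE with h1 | h1
      · left; rw [h1, mul_one]
      · right
        rw [h1, ← pow_two, div_self (pow_ne_zero 2 h.B_pos.ne')]
    · rw [Point.add_self_of_Y_ne hy, cb_some, cb_some]
      have hD2 := KerRed.dbl_den W hxy.1
      have hD1 := KerRed.dbl_num W hxy.1 hy
      rw [h.b₄, h.b₆] at hD2
      rw [h.b₄, h.b₆, h.b₈, hD2] at hD1
      have hE : 4 * x ^ 3 + W.b₂ * x ^ 2 + 4 * W.a₄ * x ≠ 0 := by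
        have : (y - W.negY x y) ^ 2 ≠ 0 := pow_ne_zero 2 (sub_ne_zero.mpr hy)
        rw [hD2] at this
        intro h0; apply this; linear_combination h0
      have hnum : W.addX x x (W.slope x x y y) * (4 * x ^ 3 + W.b₂ * x ^ 2 + 4 * W.a₄ * x) =
          (x ^ 2 - W.a₄) ^ 2 := by
        have e : 4 * x ^ 3 + W.b₂ * x ^ 2 + 4 * W.a₄ * x =
            4 * x ^ 3 + W.b₂ * x ^ 2 + 2 * (2 * W.a₄) * x + 0 := by ring
        rw [e, hD1]; ring
      have := dbl_core V h.b₂ h.a₄_ne h.a₄_lt hE hnum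
      rw [← pow_two]
      exact this

/-- **The pair theorem**: the unordered pair `{cb (P + Q), cb (P - Q)}`. -/
theorem cb_pair (h : NodalModel V W) (P Q : W.Point) :
    PairConcl (V.w W.a₄) (cb V W P) (cb V W Q) (cb V W (P + Q)) (cb V W (P - Q)) := by
  cases P with
  | zero =>
    rw [← Point.zero_def, zero_add, zero_sub, cb_neg, cb_zero]
    exact ⟨_, _, Or.inl ⟨rfl, rfl⟩, Or.inr (by rw [div_one]), Or.inl (by rw [one_mul])⟩
  | some x₁ y₁ h₁ =>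
    cases Q with
    | zero =>
      rw [← Point.zero_def, add_zero, sub_zero, cb_zero]
      exact ⟨_, _, Or.inl ⟨rfl, rfl⟩, Or.inl (by rw [div_one]), Or.inl (by rw [mul_one])⟩
    | some x₂ y₂ h₂ =>
      by_cases hx : x₁ = x₂
      · have hd := cb_dbl h (Point.some x₁ y₁ h₁)
        have hs := cb_pos h (Point.some x₁ y₁ h₁)
        rcases (Point.X_eq_iff (h₁ := h₁) (h₂ := h₂)).mp hx with hPQ | hPQ
        · rw [← hPQ, sub_self, cb_zero]
          exact ⟨_, _, Or.inr ⟨rfl, rfl⟩, Or.inl (div_self hs.ne').symm, hd⟩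
        · have hQ' : Point.some x₂ y₂ h₂ = -Point.some x₁ y₁ h₁ := by rw [hPQ, neg_neg]
          rw [hQ', add_neg_cancel, sub_neg_eq_add, cb_neg, cb_zero]
          exact ⟨_, _, Or.inl ⟨rfl, rfl⟩, Or.inl (div_self hs.ne').symm, hd⟩
      · have hsum := KerRed.addX_add_addX W h₁.1 h₂.1 hx
        have hprod := KerRed.addX_mul_addX W h₁.1 h₂.1 hx
        rw [h.b₄, h.b₆] at hsum
        rw [h.b₄, h.b₆, h.b₈] at hprod
        rw [sub_eq_add_neg, Point.neg_some, Point.add_of_X_ne hx, Point.add_of_X_ne hx]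
        simp only [cb_some]
        refine pair_core V h.b₂ h.a₄_ne h.a₄_lt hx ?_ ?_
        · rw [hsum]; ring
        · rw [hprod]; ring

/-- The points with `cb = 1` form a subgroup. -/
theorem cb_add_sub_of_one (h : NodalModel V W) {P Q : W.Point} (hP : cb V W P = 1)
    (hQ : cb V W Q = 1) : cb V W (P + Q) = 1 ∧ cb V W (P - Q) = 1 := by
  obtain ⟨α, β, h1, h2, h3⟩ := cb_pair h P Q
  rw [hP, hQ] at h2 h3
  have hα : α = 1 := by rcases h2 with h2 | h2 <;> rw [h2, div_one]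
  have hB := h.B_pos
  have hB1 := h.a₄_lt
  have hBsq : V.w W.a₄ ^ 2 < V.w W.a₄ := by
    rw [pow_two]; exact mul_lt_of_lt_one_right hB hB1
  have hβ : β = 1 := by
    rcases h3 with h3 | h3
    · rw [h3, mul_one]
    · exfalso
      rw [mul_one, div_one] at h3
      have h4 : V.w W.a₄ ≤ β := by
        rcases h1 with ⟨-, h1⟩ | ⟨h1, -⟩
        · rw [← h1]; exact le_cb h _
        · rw [← h1]; exact le_cb h _
      rw [h3] at h4
      exact absurd h4 (not_le.mpr hBsq)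
  rcases h1 with ⟨h1, h1'⟩ | ⟨h1, h1'⟩
  · exact ⟨h1.trans hα, h1'.trans hβ⟩
  · exact ⟨h1.trans hβ, h1'.trans hα⟩

/-- `cb (m • P) ~ (cb P)^m`. -/
theorem cb_nsmul_rel (h : NodalModel V W) (P : W.Point) (m : ℕ) :
    RelB (V.w W.a₄) (cb V W (m • P)) (cb V W P ^ m) := by
  have hB := h.B_pos
  have hs := cb_pos h P
  induction m using Nat.twoStepInduction with
  | zero => rw [zero_smul, cb_zero, pow_zero]; exact RelB.refl _
  | one => rw [one_smul, pow_one]; exact RelB.refl _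
  | more m ih0 ih1 =>
    have e1 : (m + 1) • P + P = (m + 2) • P := (succ_nsmul P (m + 1)).symm
    have e2 : (m + 1) • P - P = m • P := by rw [succ_nsmul, add_sub_cancel_right]
    obtain ⟨α, β, h1, h2, h3⟩ := cb_pair h ((m + 1) • P) P
    rw [e1, e2] at h1
    have hm0 : cb V W P ^ m ≠ 0 := (pow_pos hs m).ne'
    have hm2 : cb V W P ^ (m + 2) ≠ 0 := (pow_pos hs _).ne'
    have hmP : cb V W (m • P) ≠ 0 := (cb_pos h _).ne'
    rcases RelB.step hB hs ih1 h2 h3 with ⟨ha, hb⟩ | ⟨ha, hb⟩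
    · rcases h1 with ⟨h1, h1'⟩ | ⟨h1, h1'⟩
      · -- c₊ = α ~ s^m ~ c₋ = β ~ s^(m+2)
        rw [h1]
        rw [h1'] at ih0 hmP
        exact RelB.trans hB hm0 ha (RelB.trans hB hmP (RelB.symm hB ih0) hb)
      · rw [h1]; exact hb
    · rcases h1 with ⟨h1, h1'⟩ | ⟨h1, h1'⟩
      · rw [h1]; exact ha
      · rw [h1]
        rw [h1'] at ih0 hmP
        exact RelB.trans hB hm0 hb (RelB.trans hB hmP (RelB.symm hB ih0) ha)

/-- If `n • P = 0` then `(cb P)^n = B^(2k)` for some integer `k`. -/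
theorem cb_pow_eq_of_nsmul_eq_zero (h : NodalModel V W) {P : W.Point} {n : ℕ}
    (hn : n • P = 0) : ∃ k : ℤ, cb V W P ^ n = V.w W.a₄ ^ (2 * k) := by
  have hB := h.B_pos
  obtain ⟨k, hk | hk⟩ := cb_nsmul_rel h P n
  · rw [hn, cb_zero] at hk
    refine ⟨-k, ?_⟩
    rw [mul_neg, zpow_neg]
    exact eq_inv_of_mul_eq_one_left hk.symm
  · rw [hn, cb_zero, one_mul] at hk
    exact ⟨k, hk⟩

/-- A point of odd order `p` with `cb P < 1` has `B < cb P` and `(cb P)^p = B^(2k)` with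
`0 < 2k < p`. -/
theorem cb_lt_one_spec (h : NodalModel V W) {P : W.Point} {p : ℕ} (hp : Odd p)
    (hpP : p • P = 0) (hs : cb V W P < 1) :
    V.w W.a₄ < cb V W P ∧
      ∃ k : ℤ, 0 < k ∧ 2 * k < p ∧ cb V W P ^ p = V.w W.a₄ ^ (2 * k) := by
  have hB := h.B_pos
  have hB1 := h.a₄_lt
  have hp0 : p ≠ 0 := by
    obtain ⟨t, ht⟩ := hp; omega
  obtain ⟨k, hk⟩ := cb_pow_eq_of_nsmul_eq_zero h hpP
  have hne : cb V W P ≠ V.w W.a₄ := by
    intro he
    rw [he, ← zpow_natCast] at hk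
    have h1 := zpow_right_injective₀ hB hB1.ne hk
    obtain ⟨t, ht⟩ := hp
    omega
  have hlt : V.w W.a₄ < cb V W P := lt_of_le_of_ne (le_cb h P) (Ne.symm hne)
  refine ⟨hlt, k, ?_, ?_, hk⟩
  · have h1 : cb V W P ^ p < 1 := pow_lt_one₀ (cb_pos h P).le hs hp0
    rw [hk, ← zpow_zero (V.w W.a₄)] at h1
    have := (zpow_lt_zpow_iff_right_of_lt_one₀ hB hB1).mp h1
    omega
  · have h1 : V.w W.a₄ ^ p < cb V W P ^ p := pow_lt_pow_left₀ hlt hB.le hp0
    rw [hk, ← zpow_natCast] at h1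
    exact (zpow_lt_zpow_iff_right_of_lt_one₀ hB hB1).mp h1

omit [DecidableEq K] in
/-- For an affine point with `B < cb P < 1`, `cb P` is the absolute value of `x(P)`. -/
lemma w_x_eq_cb (h : NodalModel V W) {x y : K} (hxy : W.Nonsingular x y)
    (h1 : V.w W.a₄ < cb V W (Point.some x y hxy)) (h2 : cb V W (Point.some x y hxy) < 1) :
    V.w x = cb V W (Point.some x y hxy) :=
  (clampB_eq_self h.a₄_lt.le h1 h2).symm

/-- If `P` has odd prime order `p`, `cb P < 1` and `cb (m • P) = cb P`, then `m • P = ± P`. -/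
theorem nsmul_eq_or_neg_of_cb_eq (h : NodalModel V W) {P : W.Point} {p : ℕ} (hp : p.Prime)
    (hp2 : p ≠ 2) (hpP : p • P = 0) (hs : cb V W P < 1) (m : ℕ)
    (hm : cb V W (m • P) = cb V W P) : m • P = P ∨ m • P = -P := by
  have hB := h.B_pos
  have hB1 := h.a₄_lt
  have hodd : Odd p := hp.odd_of_ne_two hp2
  obtain ⟨hlt, k, hk0, hkp, hk⟩ := cb_lt_one_spec h hodd hpP hs
  have hspos := cb_pos h P
  have hpk : ¬ (p : ℤ) ∣ k := by
    intro hd
    have := Int.le_of_dvd hk0 hd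
    omega
  have hprime : Prime (p : ℤ) := Nat.prime_iff_prime_int.mp hp
  have hzP : ∀ t : ℤ, (t * (p : ℤ)) • P = 0 := by
    intro t
    rw [mul_smul, natCast_zsmul, hpP, smul_zero]
  have hdvd : (p : ℤ) ∣ (m : ℤ) - 1 ∨ (p : ℤ) ∣ (m : ℤ) + 1 := by
    obtain ⟨j, hj | hj⟩ := cb_nsmul_rel h P m
    · left
      rw [hm] at hj
      have h1 : cb V W P ^ p = (cb V W P ^ p) ^ m * (V.w W.a₄ ^ (2 * j)) ^ p := by
        conv_lhs => rw [hj]
        rw [mul_pow, ← pow_mul, ← pow_mul, mul_comm m p]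
      rw [hk, ← zpow_natCast (V.w W.a₄ ^ (2 * k)) m, ← zpow_natCast (V.w W.a₄ ^ (2 * j)) p,
        ← zpow_mul, ← zpow_mul, ← zpow_add₀ hB.ne'] at h1
      have h2 := zpow_right_injective₀ hB hB1.ne h1
      have h3 : (p : ℤ) ∣ k * ((m : ℤ) - 1) := ⟨-j, by linarith⟩
      exact (hprime.dvd_or_dvd h3).resolve_left hpk
    · right
      rw [hm] at hj
      have h1 : (cb V W P ^ p) ^ (m + 1) = (V.w W.a₄ ^ (2 * j)) ^ p := by
        rw [← hj, mul_pow, ← pow_mul, ← pow_mul, ← pow_add]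
        congr 1; ring
      rw [hk, ← zpow_natCast (V.w W.a₄ ^ (2 * k)) (m + 1),
        ← zpow_natCast (V.w W.a₄ ^ (2 * j)) p, ← zpow_mul, ← zpow_mul] at h1
      have h2 := zpow_right_injective₀ hB hB1.ne h1
      have h3 : (p : ℤ) ∣ k * ((m : ℤ) + 1) := ⟨j, by push_cast at h2; linarith⟩
      exact (hprime.dvd_or_dvd h3).resolve_left hpk
  rcases hdvd with ⟨t, ht⟩ | ⟨t, ht⟩
  · left
    have h1 : ((m : ℤ) - 1) • P = 0 := by rw [ht, mul_comm]; exact hzP t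
    rw [sub_smul, one_smul, natCast_zsmul, sub_eq_zero] at h1
    exact h1
  · right
    have h1 : ((m : ℤ) + 1) • P = 0 := by rw [ht, mul_comm]; exact hzP t
    rw [add_smul, one_smul, natCast_zsmul] at h1
    exact eq_neg_of_add_eq_zero_left h1

end Points

end Fermat.Agent.S13.Nodal
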