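import Mathlib
import Fermat.Agent.S13.XOnly

/-!
# S13 helper: the sign lemma on a nodal Weierstrass model

Setting of `XOnly.lean`.  Let `α`, `α'` be the two tangent slopes at the node, i.e.
`α + α' = -a₁`, `α α' = -a₂`.  Then `(y - α x)(y - α' x) = x³ + a₄ x` on the curve, and for a
point with `B < |x| < 1` exactly one of `|y - α x|`, `|y - α' x|` is `< |x|`.  If two points
`P`, `P'` with the same `|x| ∈ (B, 1)` both satisfy `|y - α x| < |x|`, then `cb (P' - P) = 1`.
-/

set_option autoImplicit false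

namespace Fermat.Agent.S13.Nodal

open WeierstrassCurve WeierstrassCurve.Affine
open Fermat.Agent.S05

section

variable {K : Type*} [Field K] {V : RVal K} {W : WeierstrassCurve.Affine K}

/-- The tangent slopes at the node are integral. -/
lemma w_slope_le_one (h : NodalModel V W) {α α' : K} (hs : α + α' = -W.a₁)
    (hp : α * α' = -W.a₂) : V.w α ≤ 1 ∧ V.w α' ≤ 1 := by
  apply np_le V one_pos
  · rw [hs, V.w_neg]; exact h.a₁
  · rw [hp, V.w_neg, one_pow]; exact h.a₂

/-- The difference of the tangent slopes is a unit. -/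
lemma w_slope_sub (h : NodalModel V W) {α α' : K} (hs : α + α' = -W.a₁)
    (hp : α * α' = -W.a₂) : V.w (α - α') = 1 := by
  have h1 : (α - α') ^ 2 = W.b₂ := by
    simp only [WeierstrassCurve.b₂]
    linear_combination (α + α' - W.a₁) * hs - 4 * hp
  have h2 : V.w (α - α') ^ 2 = 1 := by rw [← V.w_pow, h1, h.b₂]
  have h3 := V.w_nonneg (α - α')
  nlinarith

/-- The factorisation of the Weierstrass equation along the tangent directions. -/
lemma slope_factor (h : NodalModel V W) {α α' : K} (hs : α + α' = -W.a₁)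
    (hp : α * α' = -W.a₂) {x y : K} (hxy : W.Equation x y) :
    (y - α * x) * (y - α' * x) = x * (x ^ 2 + W.a₄) := by
  rw [equation_iff, h.a₃, h.a₆] at hxy
  linear_combination hxy - x * y * hs + x ^ 2 * hp

/-- For `B < |x| < 1`, one of `|y - α x|`, `|y - α' x|` is `< |x|`. -/
theorem sign_dichotomy (h : NodalModel V W) {α α' : K} (hs : α + α' = -W.a₁)
    (hp : α * α' = -W.a₂) {x y : K} (hxy : W.Equation x y) (hB : V.w W.a₄ < V.w x)
    (h1 : V.w x < 1) : V.w (y - α * x) < V.w x ∨ V.w (y - α' * x) < V.w x := by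
  by_contra hcon
  push Not at hcon
  obtain ⟨hc1, hc2⟩ := hcon
  have hxpos : 0 < V.w x := lt_of_le_of_lt (V.w_nonneg _) hB
  have hf := congrArg V.w (slope_factor h hs hp hxy)
  rw [V.w_mul, V.w_mul] at hf
  have h2 : V.w (x ^ 2 + W.a₄) < V.w x := by
    apply V.w_add_lt
    · rw [V.w_pow, pow_two]; exact mul_lt_of_lt_one_right hxpos h1
    · exact hB
  have h3 : V.w x * V.w (x ^ 2 + W.a₄) < V.w x * V.w x := mul_lt_mul_of_pos_left h2 hxpos
  have h4 : V.w x * V.w x ≤ V.w (y - α * x) * V.w (y - α' * x) :=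
    mul_le_mul hc1 hc2 hxpos.le (V.w_nonneg _)
  linarith

/-- If `|y - α x| < |x|` then `|y - α' x| = |x|`. -/
lemma w_other_eq (h : NodalModel V W) {α α' : K} (hs : α + α' = -W.a₁)
    (hp : α * α' = -W.a₂) {x y : K} (hsign : V.w (y - α * x) < V.w x) :
    V.w (y - α' * x) = V.w x := by
  have e : y - α' * x = (α - α') * x + (y - α * x) := by ring
  have h1 : V.w ((α - α') * x) = V.w x := by
    rw [V.w_mul, w_slope_sub h hs hp, one_mul]
  rw [e, V.w_add_eq_of_lt (by rw [h1]; exact hsign), h1]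

variable [DecidableEq K]

/-- **The sign lemma.** -/
theorem cb_sub_of_same_sign (h : NodalModel V W) {α α' : K} (hs : α + α' = -W.a₁)
    (hp : α * α' = -W.a₂) {x y x' y' : K} (hxy : W.Nonsingular x y)
    (hxy' : W.Nonsingular x' y') (hB : V.w W.a₄ < V.w x) (h1 : V.w x < 1)
    (hxx' : V.w x' = V.w x) (hsign : V.w (y - α * x) < V.w x)
    (hsign' : V.w (y' - α * x') < V.w x') :
    cb V W (Point.some x' y' hxy' - Point.some x y hxy) = 1 := by
  have hxpos : 0 < V.w x := lt_of_le_of_lt (V.w_nonneg _) hB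
  have ho : V.w (y - α' * x) = V.w x := w_other_eq h hs hp hsign
  have ho' : V.w (y' - α' * x') = V.w x' := w_other_eq h hs hp hsign'
  by_cases hx : x' = x
  · rcases (Point.X_eq_iff (h₁ := hxy') (h₂ := hxy)).mp hx with hPQ | hPQ
    · rw [hPQ, sub_self, cb_zero]
    · exfalso
      rw [Point.neg_some] at hPQ
      have hy' : y' = W.negY x y := by
        have := hPQ
        simp only [Point.some.injEq] at this
        exact this.2
      have e : y' - α * x' = -(y - α' * x) := by
        rw [hy', hx]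
        simp only [negY, h.a₃]
        linear_combination (-x) * hs
      rw [e, V.w_neg, ho, hx] at hsign'
      exact lt_irrefl _ hsign'
  · rw [sub_eq_add_neg, Point.neg_some, Point.add_of_X_ne hx, cb_some]
    apply clampB_of_ge h.a₄_lt.le
    have hd : x' - x ≠ 0 := sub_ne_zero.mpr hx
    have hδpos : 0 < V.w (x' - x) := V.w_pos _ hd
    have hδle : V.w (x' - x) ≤ V.w x := V.w_sub_le hxx'.le le_rfl
    rw [slope_of_X_ne hx]
    set N₁ := (y' - α * x') + (y - α' * x) with hN₁
    set N₂ := (y' - α' * x') + (y - α * x) with hN₂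
    have hwN₁ : V.w N₁ = V.w x := by
      rw [hN₁, V.w_add_eq_of_lt' (by rw [ho, ← hxx']; exact hsign'), ho]
    have hwN₂ : V.w N₂ = V.w x := by
      rw [hN₂, V.w_add_eq_of_lt (by rw [ho', hxx']; exact hsign), ho', hxx']
    have key : W.addX x' x ((y' - W.negY x y) / (x' - x)) * (x' - x) ^ 2 =
        N₁ * N₂ - (x' + x) * (x' - x) ^ 2 := by
      have hl : (y' - W.negY x y) / (x' - x) * (x' - x) = y' - W.negY x y :=
        div_mul_cancel₀ _ hd
      have e1 : W.addX x' x ((y' - W.negY x y) / (x' - x)) * (x' - x) ^ 2 =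
          ((y' - W.negY x y) / (x' - x) * (x' - x)) ^ 2 +
            W.a₁ * ((y' - W.negY x y) / (x' - x) * (x' - x)) * (x' - x) - W.a₂ * (x' - x) ^ 2 -
            (x' + x) * (x' - x) ^ 2 := by
        simp only [addX]; ring
      rw [e1, hl]
      simp only [negY, h.a₃, hN₁, hN₂]
      linear_combination ((y' + y + W.a₁ * x) * (x' - x) +
        x * (2 * (y' + y + W.a₁ * x) - (α + α') * (x' - x)) - x ^ 2 * (W.a₁ + α + α')) * hs -
        (x' - x) ^ 2 * hp
    have hk := congrArg V.w key
    have hδsq : V.w (x' - x) ^ 2 ≤ V.w x ^ 2 := pow_le_pow_left₀ hδpos.le hδle 2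
    have hsmall : V.w ((x' + x) * (x' - x) ^ 2) < V.w (N₁ * N₂) := by
      rw [V.w_mul, V.w_mul, V.w_pow, hwN₁, hwN₂]
      have h2 : V.w (x' + x) ≤ V.w x := V.w_add_le hxx'.le le_rfl
      calc V.w (x' + x) * V.w (x' - x) ^ 2 ≤ V.w x * V.w x ^ 2 :=
            mul_le_mul h2 hδsq (by positivity) hxpos.le
        _ < 1 * V.w x ^ 2 := mul_lt_mul_of_pos_right h1 (by positivity)
        _ = V.w x * V.w x := by ring
    rw [V.w_sub_eq_of_lt hsmall, V.w_mul, V.w_mul, V.w_pow, hwN₁, hwN₂] at hk
    have : 1 * V.w (x' - x) ^ 2 ≤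
        V.w (W.addX x' x ((y' - W.negY x y) / (x' - x))) * V.w (x' - x) ^ 2 := by
      rw [hk, one_mul, ← pow_two]; exact hδsq
    exact le_of_mul_le_mul_right this (by positivity)

end

end Fermat.Agent.S13.Nodal
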