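import Mathlib
import Fermat.Statements.S13
import Fermat.Agent.S05.Glue
import Fermat.Agent.S05.RValOfSubring
import Fermat.Agent.S13.RelInertia
import Fermat.Agent.S13.XOnly
import Fermat.Agent.S13.Sign
import Fermat.Agent.S13.CongGen

/-!
# S13, piece L2: the Frey curve at the prime `2`
-/

set_option autoImplicit false

namespace Fermat.Agent.S13.Nodal

open WeierstrassCurve WeierstrassCurve.Affine
open Fermat.Agent.S05

local notation "Qbar" => AlgebraicClosure ℚ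

/-! ### A valuation subring over a given prime -/

/-- There is a valuation subring of `ℚ̄` in which the prime `q` is a nonunit. -/
theorem exists_valuationSubring_over (q : ℕ) (hq : q.Prime) :
    ∃ A : ValuationSubring Qbar, (q : Qbar) ∈ A.nonunits := by
  let A₀ : Subring Qbar := (Int.castRingHom Qbar).range
  have hqA : (q : Qbar) ∈ A₀ := ⟨(q : ℤ), by simp⟩
  let I : Ideal A₀ := Ideal.span {⟨(q : Qbar), hqA⟩}
  have hI : I ≠ ⊤ := by
    intro h
    rw [Ideal.eq_top_iff_one, Ideal.mem_span_singleton'] at h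
    obtain ⟨⟨c, n, rfl⟩, hc⟩ := h
    have h1 := congrArg Subtype.val hc
    simp only [MulMemClass.mk_mul_mk, OneMemClass.coe_one, eq_intCast] at h1
    have h2 : (n * (q : ℤ) : ℤ) = 1 := by exact_mod_cast h1
    have h3 : (q : ℤ) ∣ 1 := ⟨n, by linarith⟩
    have h4 : q ∣ 1 := by exact_mod_cast h3
    exact hq.one_lt.ne' (Nat.dvd_one.mp h4)
  obtain ⟨B, -, hB⟩ := Ideal.image_subset_nonunits_valuationSubring I hI
  exact ⟨B, hB ⟨⟨(q : Qbar), hqA⟩, Ideal.subset_span rfl, rfl⟩⟩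

/-! ### The Frey curve at `2` -/

section FreyTwo

variable (P : FreyPackage)

lemma frey_two_dvd_b : (2 : ℤ) ∣ P.b :=
  (ZMod.intCast_zmod_eq_zero_iff_dvd P.b 2).1 P.hb2

lemma frey_not_two_dvd_a : ¬ (2 : ℤ) ∣ P.a := by
  intro h
  have h4 := P.ha4
  obtain ⟨k, hk⟩ := h
  have h1 : ((P.a : ℤ) : ZMod 4) = ((2 * k : ℤ) : ZMod 4) := by rw [hk]
  rw [h4] at h1
  push_cast at h1
  have h2 : ∀ z : ZMod 4, (3 : ZMod 4) ≠ 2 * z := by decide
  exact h2 _ h1

lemma frey_four_dvd : (4 : ℤ) ∣ P.b ^ P.p - P.a ^ P.p - 1 := by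
  apply (ZMod.intCast_zmod_eq_zero_iff_dvd _ 4).1
  push_cast
  rw [P.ha4]
  obtain ⟨k, hk⟩ := frey_two_dvd_b P
  have hb : ((P.b : ℤ) : ZMod 4) ^ P.p = 0 := by
    rw [hk]
    push_cast
    have hp : P.p = 2 + (P.p - 2) := by have := P.hp5; omega
    rw [hp, pow_add, mul_pow]
    have : (2 : ZMod 4) ^ 2 = 0 := by decide
    rw [this, zero_mul, zero_mul]
  rw [hb]
  have h3 : (3 : ZMod 4) = -1 := by decide
  rw [h3, P.hp_odd.neg_one_pow]
  ring

lemma frey_not_two_dvd_sub : ¬ (2 : ℤ) ∣ P.b ^ P.p - P.a ^ P.p := by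
  intro h
  have hb : (2 : ℤ) ∣ P.b ^ P.p := dvd_pow (frey_two_dvd_b P) P.hp0
  have ha : (2 : ℤ) ∣ P.a ^ P.p := by
    have := dvd_sub hb h
    simpa using this
  exact frey_not_two_dvd_a P (Int.prime_two.dvd_of_dvd_pow ha)

/-- The Frey model at `2` is a nodal model, and `|a₄| = |2|^(p v - 4)` with `v ≥ 1`. -/
theorem frey_nodal (V : RVal Qbar) (hV2 : V.w (2 : Qbar) < 1)
    (hodd : ∀ n : ℤ, ¬ (2 : ℤ) ∣ n → V.w (n : Qbar) = 1) :
    NodalModel V (P.freyCurve⁄Qbar) ∧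
      ∃ v : ℕ, 0 < v ∧
        V.w (P.freyCurve⁄Qbar).a₄ = V.w (2 : Qbar) ^ ((P.p : ℤ) * v - 4) := by
  have h2pos : 0 < V.w (2 : Qbar) := V.w_pos _ two_ne_zero
  have ha₁ := frey_a₁ P
  have ha₃ := frey_a₃ P
  have ha₆ := frey_a₆ P
  have ha₂ := frey_a₂ P
  have ha₄ := frey_a₄ P
  -- `a₂` is an integer
  obtain ⟨n₂, hn₂⟩ := frey_four_dvd P
  have ha₂' : (WeierstrassCurve.baseChange P.freyCurve Qbar).a₂ = ((n₂ : ℤ) : Qbar) := by
    have h4 : (4 : Qbar) ≠ 0 := by norm_num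
    have e : ((P.b ^ P.p - P.a ^ P.p : ℤ) : Qbar) = 4 * ((n₂ : ℤ) : Qbar) + 1 := by
      have : P.b ^ P.p - P.a ^ P.p = 4 * n₂ + 1 := by linarith
      rw [this]; push_cast; ring
    rw [e] at ha₂
    have : 4 * (WeierstrassCurve.baseChange P.freyCurve Qbar).a₂ = 4 * ((n₂ : ℤ) : Qbar) := by
      linear_combination ha₂
    exact mul_left_cancel₀ h4 this
  -- `b₂` is an odd integer
  have hb₂ : (WeierstrassCurve.baseChange P.freyCurve Qbar).b₂ =
      ((P.b ^ P.p - P.a ^ P.p : ℤ) : Qbar) := by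
    simp only [WeierstrassCurve.b₂]
    rw [ha₁, ← ha₂]; ring
  -- the valuation of `a₄`
  obtain ⟨v, b₀, hb₀, hbv⟩ : ∃ (v : ℕ) (b₀ : ℤ), ¬ (2 : ℤ) ∣ b₀ ∧ P.b = 2 ^ v * b₀ := by
    have hfin : FiniteMultiplicity (2 : ℤ) P.b :=
      Int.finiteMultiplicity_iff.mpr ⟨by norm_num, P.hb0⟩
    obtain ⟨c, hc1, hc2⟩ := hfin.exists_eq_pow_mul_and_not_dvd
    exact ⟨_, c, hc2, hc1⟩
  have hv : 0 < v := by
    rcases Nat.eq_zero_or_pos v with h0 | h0
    · exfalso
      rw [h0, pow_zero, one_mul] at hbv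
      exact hb₀ (hbv ▸ frey_two_dvd_b P)
    · exact h0
  have hwa : V.w ((P.a ^ P.p : ℤ) : Qbar) = 1 :=
    hodd _ (fun h => frey_not_two_dvd_a P (Int.prime_two.dvd_of_dvd_pow h))
  have hwb₀ : V.w ((b₀ ^ P.p : ℤ) : Qbar) = 1 :=
    hodd _ (fun h => hb₀ (Int.prime_two.dvd_of_dvd_pow h))
  have hw16 : V.w (16 * (WeierstrassCurve.baseChange P.freyCurve Qbar).a₄) =
      V.w (2 : Qbar) ^ (P.p * v) := by
    rw [ha₄]
    have e : ((-(P.a ^ P.p * P.b ^ P.p) : ℤ) : Qbar) =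
        -(((P.a ^ P.p : ℤ) : Qbar) * ((2 : Qbar) ^ (P.p * v) * ((b₀ ^ P.p : ℤ) : Qbar))) := by
      rw [hbv]; push_cast; ring
    rw [e, V.w_neg, V.w_mul, V.w_mul, hwa, hwb₀, V.w_pow, one_mul, mul_one]
  have hw4 : V.w (P.freyCurve⁄Qbar).a₄ = V.w (2 : Qbar) ^ ((P.p : ℤ) * v - 4) := by
    have e16 : V.w (16 : Qbar) = V.w (2 : Qbar) ^ 4 := by
      rw [← V.w_pow]; norm_num
    rw [V.w_mul, e16] at hw16
    rw [zpow_sub₀ h2pos.ne', eq_div_iff (zpow_ne_zero _ h2pos.ne')]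
    rw [mul_comm, show ((4 : ℤ)) = ((4 : ℕ) : ℤ) by norm_num, zpow_natCast, hw16]
    rw [← zpow_natCast]; push_cast; rfl
  refine ⟨⟨ha₃, ha₆, ?_, ?_, ?_, ?_, ?_⟩, v, hv, hw4⟩
  · rw [ha₁, V.w_one]
  · rw [ha₂']; exact V.w_intCast_le _
  · rw [hb₂]; exact hodd _ (frey_not_two_dvd_sub P)
  · intro h0
    rw [h0, mul_zero] at ha₄
    have : (-(P.a ^ P.p * P.b ^ P.p) : ℤ) = 0 := by exact_mod_cast ha₄.symm
    have h1 : P.a ^ P.p * P.b ^ P.p = 0 := by linarith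
    rcases mul_eq_zero.mp h1 with h | h
    · exact P.ha0 (pow_eq_zero_iff P.hp0 |>.mp h)
    · exact P.hb0 (pow_eq_zero_iff P.hp0 |>.mp h)
  · rw [hw4]
    have hexp : (0 : ℤ) < (P.p : ℤ) * v - 4 := by
      have h5 : (5 : ℤ) ≤ P.p := by exact_mod_cast P.hp5
      have hv1 : (1 : ℤ) ≤ v := by exact_mod_cast hv
      nlinarith
    exact zpow_lt_one₀ h2pos hV2 hexp

end FreyTwo

/-! ### General lemmas on nodal models -/

section General

variable {K : Type*} [Field K] {V : RVal K} {W : WeierstrassCurve.Affine K}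

lemma one_le_of_clampB_eq_one {B ξ : ℝ} (hB : B < 1) (h : clampB B ξ = 1) : 1 ≤ ξ := by
  by_contra hc
  rw [not_le] at hc
  rcases le_or_gt ξ B with h' | h'
  · rw [clampB_of_le hB.le h'] at h; exact hB.ne h
  · rw [clampB_of_mem h'.le hc.le] at h; exact hc.ne h

/-- An integral point of a nodal model with `|x| = 1` has nonsingular reduction. -/
lemma ns_of_unit_x_nodal (h : NodalModel V W) {x y : K} (hxy : W.Equation x y)
    (hx : V.w x = 1) (hy : V.w y ≤ 1) :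
    V.w (2 * y + W.a₁ * x + W.a₃) = 1 ∨
      V.w (3 * x ^ 2 + 2 * W.a₂ * x + W.a₄ - W.a₁ * y) = 1 := by
  by_contra hcon
  push Not at hcon
  obtain ⟨hc1, hc2⟩ := hcon
  have h2 := V.w_two_le
  have hw0 : ∀ z, 0 ≤ V.w z := V.w_nonneg
  have hη : V.w (2 * y + W.a₁ * x + W.a₃) < 1 := by
    refine lt_of_le_of_ne (V.w_add_le (V.w_add_le ?_ ?_) ?_) hc1
    · rw [V.w_mul]; exact mul_le_one₀ h2 (hw0 _) hy
    · rw [V.w_mul, hx, mul_one]; exact h.a₁
    · rw [h.a₃, V.w_zero]; exact zero_le_one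
  have hg : V.w (3 * x ^ 2 + 2 * W.a₂ * x + W.a₄ - W.a₁ * y) < 1 := by
    refine lt_of_le_of_ne (V.w_sub_le (V.w_add_le (V.w_add_le ?_ ?_) h.a₄_lt.le) ?_) hc2
    · rw [V.w_mul, V.w_pow, hx, one_pow, mul_one]
      have := V.w_natCast_le 3
      simpa using this
    · rw [V.w_mul, V.w_mul, hx, mul_one]; exact mul_le_one₀ h2 (hw0 _) h.a₂
    · rw [V.w_mul]; exact mul_le_one₀ h.a₁ (hw0 _) hy
  have h4 : V.w (4 : K) ≤ 1 := by
    have := V.w_natCast_le 4
    simpa using this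
  have hD := KerRed.dbl_den W hxy
  rw [h.b₄, h.b₆] at hD
  have hyn : y - W.negY x y = 2 * y + W.a₁ * x + W.a₃ := by simp only [negY]; ring
  rw [hyn] at hD
  -- `|4x + b₂| < 1`
  have h1 : V.w (4 * x + W.b₂) < 1 := by
    have e : x ^ 2 * (4 * x + W.b₂) = (2 * y + W.a₁ * x + W.a₃) ^ 2 - 4 * W.a₄ * x := by
      rw [hD]; ring
    have h5 : V.w (x ^ 2 * (4 * x + W.b₂)) < 1 := by
      rw [e]
      apply V.w_sub_lt
      · rw [V.w_pow]; exact pow_lt_one₀ (hw0 _) hη two_ne_zero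
      · rw [V.w_mul, V.w_mul, hx, mul_one]
        exact lt_of_le_of_lt (mul_le_of_le_one_left (hw0 _) h4) h.a₄_lt
    rwa [V.w_mul, V.w_pow, hx, one_pow, one_mul] at h5
  -- `|6x + b₂| < 1`
  have h6 : V.w (6 * x + W.b₂) < 1 := by
    have e : x * (6 * x + W.b₂) = W.a₁ * (2 * y + W.a₁ * x + W.a₃) +
        2 * (3 * x ^ 2 + 2 * W.a₂ * x + W.a₄ - W.a₁ * y) - 2 * W.a₄ := by
      simp only [WeierstrassCurve.b₂, h.a₃]; ring
    have h5 : V.w (x * (6 * x + W.b₂)) < 1 := by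
      rw [e]
      refine V.w_sub_lt (V.w_add_lt ?_ ?_) ?_
      · rw [V.w_mul]; exact lt_of_le_of_lt (mul_le_of_le_one_left (hw0 _) h.a₁) hη
      · rw [V.w_mul]; exact lt_of_le_of_lt (mul_le_of_le_one_left (hw0 _) h2) hg
      · rw [V.w_mul]; exact lt_of_le_of_lt (mul_le_of_le_one_left (hw0 _) h2) h.a₄_lt
    rwa [V.w_mul, hx, one_mul] at h5
  have h7 : V.w (2 : K) < 1 := by
    have e : 2 * x = (6 * x + W.b₂) - (4 * x + W.b₂) := by ring
    have h5 : V.w (2 * x) < 1 := by rw [e]; exact V.w_sub_lt h6 h1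
    rwa [V.w_mul, hx, mul_one] at h5
  have h8 : V.w W.b₂ < 1 := by
    have e : W.b₂ = (4 * x + W.b₂) - 2 * (2 * x) := by ring
    rw [e]
    refine V.w_sub_lt h1 ?_
    rw [V.w_mul, V.w_mul, hx, mul_one]
    exact lt_of_le_of_lt (mul_le_of_le_one_left (hw0 _) h2) h7
  rw [h.b₂] at h8
  exact lt_irrefl _ h8

variable [DecidableEq K]

/-- A torsion point of order prime to the residue characteristic in `E₀` is an integral point
with `|x| = 1`. -/
lemma w_x_eq_one_of_cb_one (A : ValuationSubring K) (hV1 : ∀ x, V.w x ≤ 1 ↔ x ∈ A)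
    (hV2 : ∀ x, V.w x < 1 ↔ x ∈ A.nonunits) (h : NodalModel V W) {n : ℕ}
    (hn : V.w (n : K) = 1) {x y : K} (hxy : W.Nonsingular x y)
    (hnP : n • Point.some x y hxy = 0) (hcb : cb V W (Point.some x y hxy) = 1) :
    V.w x = 1 := by
  refine le_antisymm ?_ (one_le_of_clampB_eq_one h.a₄_lt hcb)
  by_contra hc
  refine nsmul_ne_zero_of_X_notMem A W ((hV1 _).mp h.a₁) ((hV1 _).mp h.a₂) ?_
    ((hV1 _).mp h.a₄_lt.le) ?_ hxy ?_ n ?_ hnP
  · rw [h.a₃]; exact A.zero_mem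
  · rw [h.a₆]; exact A.zero_mem
  · intro hc'
    exact hc ((hV1 x).mpr hc')
  · intro hc'
    exact absurd ((hV2 _).mpr hc') (by rw [hn]; exact lt_irrefl _)

/-- The multiples of a point of `E₀` are in `E₀`. -/
lemma cb_nsmul_of_one (h : NodalModel V W) {Q : W.Point} (hQ : cb V W Q = 1) (m : ℕ) :
    cb V W (m • Q) = 1 := by
  induction m with
  | zero => rw [zero_smul, cb_zero]
  | succ m ih => rw [succ_nsmul]; exact (cb_add_sub_of_one h ih hQ).1

/-- A `p`-torsion point outside `E₀` cannot have `|x| ∈ π^ℤ` when `B = π^(p v - 4)`. -/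
theorem not_cb_lt_one_of_w_zpow (h : NodalModel V W) {π : ℝ} (hπ0 : 0 < π) (hπ1 : π < 1)
    {p : ℕ} (hp : p.Prime) (hp5 : 5 ≤ p) {v : ℕ} (hB : V.w W.a₄ = π ^ ((p : ℤ) * v - 4))
    {x y : K} (hxy : W.Nonsingular x y) (hpP : p • Point.some x y hxy = 0)
    (hs : cb V W (Point.some x y hxy) < 1) (j : ℤ) (hj : V.w x = π ^ j) : False := by
  have hodd : Odd p := hp.odd_of_ne_two (by omega)
  obtain ⟨hlt, k, hk0, hkp, hk⟩ := cb_lt_one_spec h hodd hpP hs
  have hwx := w_x_eq_cb h hxy hlt hs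
  rw [← hwx, hj, hB, ← zpow_natCast, ← zpow_mul, ← zpow_mul] at hk
  have h1 := zpow_right_injective₀ hπ0 hπ1.ne hk
  have h2 : (p : ℤ) ∣ 2 ^ 3 * k := ⟨(v : ℤ) * (2 * k) - j, by linarith⟩
  have hprime : Prime (p : ℤ) := Nat.prime_iff_prime_int.mp hp
  rcases hprime.dvd_or_dvd h2 with h3 | h3
  · have h4 := hprime.dvd_of_dvd_pow h3
    have := Int.le_of_dvd (by norm_num) h4
    omega
  · have := Int.le_of_dvd hk0 h3
    omega

omit [DecidableEq K] in
/-- A point killed by a prime `p` and by some `0 < m < p` is zero. -/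
lemma eq_zero_of_nsmul_eq_zero_of_lt {G : Type*} [AddGroup G] {Q : G} {p : ℕ} (hp : p.Prime)
    (hpQ : p • Q = 0) {m : ℕ} (hm0 : 0 < m) (hmp : m < p) (hmQ : m • Q = 0) : Q = 0 := by
  have h1 := addOrderOf_dvd_of_nsmul_eq_zero hpQ
  have h2 := addOrderOf_dvd_of_nsmul_eq_zero hmQ
  have hcop : Nat.Coprime p m := (Nat.Prime.coprime_iff_not_dvd hp).2
    (Nat.not_dvd_of_pos_of_lt hm0 hmp)
  have h3 : addOrderOf Q ∣ 1 := by
    have := Nat.dvd_gcd h1 h2
    rwa [hcop] at this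
  exact AddMonoid.addOrderOf_eq_one_iff.mp (Nat.dvd_one.mp h3)

end General

/-! ### Linear algebra over `ZMod p` -/

section Rank

variable {p : ℕ} [Fact p.Prime] {G : Type*} [AddCommGroup G] [Module (ZMod p) G] [Finite G]

lemma finrank_le_two_of_card (hcard : Nat.card G ≤ p ^ 2) : Module.finrank (ZMod p) G ≤ 2 := by
  have h := Module.natCard_eq_pow_finrank (K := ZMod p) (V := G)
  rw [Nat.card_zmod] at h
  rw [h] at hcard
  exact (Nat.pow_le_pow_iff_right (Fact.out : p.Prime).one_lt).mp hcard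

lemma exists_smul_eq_of_line (hcard : Nat.card G ≤ p ^ 2) {N : Submodule (ZMod p) G}
    (hN1 : N ≠ ⊤) {x y : G} (hx : x ∈ N) (hx0 : x ≠ 0) (hy : y ∈ N) :
    ∃ c : ZMod p, y = c • x := by
  have h1 := Submodule.finrank_lt hN1
  have h2 := finrank_le_two_of_card (p := p) (G := G) hcard
  have hx0' : (⟨x, hx⟩ : N) ≠ 0 := fun h => hx0 (congrArg Subtype.val h)
  have h3 : 0 < Module.finrank (ZMod p) N :=
    Module.finrank_pos_iff_exists_ne_zero.mpr ⟨⟨x, hx⟩, hx0'⟩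
  have h4 : Module.finrank (ZMod p) N = 1 := by omega
  obtain ⟨c, hc⟩ := (finrank_eq_one_iff_of_nonzero' (⟨x, hx⟩ : N) hx0').mp h4 ⟨y, hy⟩
  exact ⟨c, (congrArg Subtype.val hc).symm⟩

lemma eq_of_le_of_ne_top (hcard : Nat.card G ≤ p ^ 2) {N N' : Submodule (ZMod p) G}
    (hN0 : N ≠ ⊥) (hle : N ≤ N') (hN' : N' ≠ ⊤) : N' = N := by
  have h1 := Submodule.finrank_lt hN'
  have h2 := finrank_le_two_of_card (p := p) (G := G) hcard
  have h3 : 1 ≤ Module.finrank (ZMod p) N := Submodule.one_le_finrank_iff.mpr hN0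
  exact (Submodule.eq_of_le_of_finrank_le hle (by omega)).symm

end Rank

/-! ### Rational numbers at `2` -/

section Rational

/-- `p` is a unit at `2`. -/
lemma frey_w_p (P : FreyPackage) (V : RVal Qbar)
    (hodd : ∀ n : ℤ, ¬ (2 : ℤ) ∣ n → V.w (n : Qbar) = 1) : V.w (P.p : Qbar) = 1 := by
  have h1 : ¬ (2 : ℤ) ∣ (P.p : ℤ) := by
    intro h
    have h2 : 2 ∣ P.p := by exact_mod_cast h
    have h3 := (Nat.prime_dvd_prime_iff_eq Nat.prime_two P.pp).mp h2
    have := P.hp5; omega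
  have := hodd (P.p : ℤ) h1
  simpa using this

/-- A `2`-integral rational number is congruent to `0` or `1` modulo `2`. -/
lemma w_algebraMap_class (V : RVal Qbar)
    (hodd : ∀ n : ℤ, ¬ (2 : ℤ) ∣ n → V.w (n : Qbar) = 1)
    (heven : ∀ n : ℤ, (2 : ℤ) ∣ n → V.w (n : Qbar) < 1) (r : ℚ)
    (hr : V.w (algebraMap ℚ Qbar r) ≤ 1) :
    V.w (algebraMap ℚ Qbar r) < 1 ∨ V.w (algebraMap ℚ Qbar r - 1) < 1 := by
  rw [eq_ratCast] at hr ⊢
  have e : (r : Qbar) = ((r.num : ℤ) : Qbar) / (((r.den : ℤ)) : Qbar) := by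
    rw [Int.cast_natCast]; exact Rat.cast_def r
  have hden0 : (((r.den : ℤ)) : Qbar) ≠ 0 := by
    rw [Int.cast_natCast]; exact_mod_cast r.den_ne_zero
  by_cases hd : (2 : ℤ) ∣ (r.den : ℤ)
  · exfalso
    have hn : ¬ (2 : ℤ) ∣ r.num := by
      intro hn
      have h1 : 2 ∣ r.num.natAbs := by
        have := Int.natAbs_dvd_natAbs.mpr hn
        simpa using this
      have h2 : 2 ∣ r.den := by exact_mod_cast hd
      have h3 := Nat.dvd_gcd h1 h2
      rw [r.reduced] at h3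
      omega
    have h1 := hodd _ hn
    have h2 := heven _ hd
    rw [e, V.w_div, h1] at hr
    have h3 : 0 < V.w (((r.den : ℤ)) : Qbar) := V.w_pos _ hden0
    rw [div_le_one h3] at hr
    linarith
  · have h1 := hodd _ hd
    by_cases hn : (2 : ℤ) ∣ r.num
    · left
      rw [e, V.w_div, h1, div_one]
      exact heven _ hn
    · right
      have h2 : (2 : ℤ) ∣ r.num - (r.den : ℤ) := by omega
      have e2 : (r : Qbar) - 1 = ((r.num - (r.den : ℤ) : ℤ) : Qbar) / (((r.den : ℤ)) : Qbar) := by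
        rw [e]; push_cast; field_simp
      rw [e2, V.w_div, h1, div_one]
      exact heven _ h2

/-- Multiples of a rational point are rational. -/
lemma frey_nsmul_rational (P : FreyPackage) (x y : ℚ)
    (h : (P.freyCurve⁄Qbar).Nonsingular (algebraMap ℚ Qbar x) (algebraMap ℚ Qbar y)) (m : ℕ) :
    m • (Point.some _ _ h : (P.freyCurve⁄Qbar).Point) = 0 ∨
      ∃ (x' y' : ℚ) (h' : (P.freyCurve⁄Qbar).Nonsingular (algebraMap ℚ Qbar x')
        (algebraMap ℚ Qbar y')),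
        m • (Point.some _ _ h : (P.freyCurve⁄Qbar).Point) = Point.some _ _ h' := by
  let f : ℚ →ₐ[ℚ] Qbar := Algebra.ofId ℚ Qbar
  have hq : (P.freyCurve⁄ℚ).Nonsingular x y :=
    (WeierstrassCurve.Affine.baseChange_nonsingular (W := P.freyCurve) f.injective x y).mp h
  have e : (Point.some _ _ h : (P.freyCurve⁄Qbar).Point) =
      Point.map f (Point.some x y hq : (P.freyCurve⁄ℚ).Point) := rfl
  rw [e, ← map_nsmul]
  rcases m • (Point.some x y hq : (P.freyCurve⁄ℚ).Point) with _ | ⟨x', y', h'⟩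
  · left; rfl
  · right
    exact ⟨x', y', (WeierstrassCurve.Affine.baseChange_nonsingular (W := P.freyCurve)
      f.injective x' y').mpr h', rfl⟩

end Rational

/-! ### The Galois action on the Frey curve at `2` -/

section FreyGalois

variable (P : FreyPackage)

/-- A relatively inertial automorphism fixes the `p`-torsion points of `E₀`. -/
theorem frey_smul_eq_of_cb_one (A : ValuationSubring Qbar) (V : RVal Qbar)
    (hV1 : ∀ x, V.w x ≤ 1 ↔ x ∈ A) (hV2 : ∀ x, V.w x < 1 ↔ x ∈ A.nonunits)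
    (h : NodalModel V (P.freyCurve⁄Qbar)) (hp : V.w (P.p : Qbar) = 1)
    (M : IntermediateField ℚ Qbar) (σ : Qbar ≃ₐ[ℚ] Qbar) (hσ : RelInertia A M σ)
    {x y : Qbar} (hxy : (P.freyCurve⁄Qbar).Nonsingular x y) (hxM : x ∈ M) (hyM : y ∈ M)
    (hpP : P.p • (Point.some x y hxy : (P.freyCurve⁄Qbar).Point) = 0)
    (hcb : cb V (P.freyCurve⁄Qbar) (Point.some x y hxy) = 1) :
    σ • (Point.some x y hxy : (P.freyCurve⁄Qbar).Point) = Point.some x y hxy := by
  obtain ⟨h', hσP⟩ := smul_some (S := ℚ) σ hxy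
  rw [hσP]
  have hpP' : P.p • (Point.some (σ x) (σ y) h' : (P.freyCurve⁄Qbar).Point) = 0 := by
    rw [← hσP, ← smul_nsmul_comm_point, hpP, smul_zero]
  have hx1 := w_x_eq_one_of_cb_one A hV1 hV2 h hp hxy hpP hcb
  have h3 : V.w (P.freyCurve⁄Qbar).a₃ ≤ 1 := by rw [h.a₃, V.w_zero]; exact zero_le_one
  have h6 : V.w (P.freyCurve⁄Qbar).a₆ ≤ 1 := by rw [h.a₆, V.w_zero]; exact zero_le_one
  have hy1 : V.w y ≤ 1 := w_y_le_one_gen V h.a₁ h.a₂ h3 h.a₄_lt.le h6 hxy.1 hx1.le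
  exact eq_of_sub_eq_zero_or_ker_gen A V hV1 hV2 h.a₁ h.a₂ h3 h.a₄_lt.le h6 P.p hp hpP hpP'
    (cong_sub_gen V h.a₁ h.a₂ hxy h' hx1.le (hσ.w_sub_lt_one V hV1 hV2 hxM hx1.le)
      (hσ.w_sub_lt_one V hV1 hV2 hyM hy1) (ns_of_unit_x_nodal h hxy.1 hx1 hy1))

/-- A relatively inertial automorphism fixes the tangent slopes at the node. -/
lemma frey_sigma_slope (A : ValuationSubring Qbar) (V : RVal Qbar)
    (hV1 : ∀ x, V.w x ≤ 1 ↔ x ∈ A) (hV2 : ∀ x, V.w x < 1 ↔ x ∈ A.nonunits)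
    (h : NodalModel V (P.freyCurve⁄Qbar))
    (M : IntermediateField ℚ Qbar) (σ : Qbar ≃ₐ[ℚ] Qbar) (hσ : RelInertia A M σ)
    {β β' : Qbar} (hs : β + β' = -(P.freyCurve⁄Qbar).a₁)
    (hp : β * β' = -(P.freyCurve⁄Qbar).a₂) (hβM : β ∈ M) : σ β = β := by
  have ha₁ : σ (P.freyCurve⁄Qbar).a₁ = (P.freyCurve⁄Qbar).a₁ := by
    simp only [WeierstrassCurve.baseChange, WeierstrassCurve.map_a₁]
    exact σ.commutes _
  have ha₂ : σ (P.freyCurve⁄Qbar).a₂ = (P.freyCurve⁄Qbar).a₂ := by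
    simp only [WeierstrassCurve.baseChange, WeierstrassCurve.map_a₂]
    exact σ.commutes _
  have h0 : β ^ 2 + (P.freyCurve⁄Qbar).a₁ * β - (P.freyCurve⁄Qbar).a₂ = 0 := by
    linear_combination β * hs - hp
  have h1 := congrArg σ h0
  rw [map_zero, map_sub, map_add, map_pow, map_mul, ha₁, ha₂] at h1
  have h2 : (σ β - β) * (σ β - β') = 0 := by
    linear_combination h1 - (σ β) * hs + hp
  rcases mul_eq_zero.mp h2 with h3 | h3
  · exact sub_eq_zero.mp h3
  · exfalso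
    have hw := (w_slope_le_one h hs hp).1
    have h4 := hσ.w_sub_lt_one V hV1 hV2 hβM hw
    rw [sub_eq_zero.mp h3, V.w_sub_comm, w_slope_sub h hs hp] at h4
    exact lt_irrefl _ h4

/-- For a `p`-torsion point `Q` of the Frey curve and a relatively inertial `σ`, the point
`σ Q - Q` lies in `E₀`. -/
theorem frey_cb_smul_sub (A : ValuationSubring Qbar) (V : RVal Qbar)
    (hV1 : ∀ x, V.w x ≤ 1 ↔ x ∈ A) (hV2 : ∀ x, V.w x < 1 ↔ x ∈ A.nonunits)
    (hA : ((2 : ℕ) : Qbar) ∈ A.nonunits)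
    (h : NodalModel V (P.freyCurve⁄Qbar)) (hp : V.w (P.p : Qbar) = 1)
    {α α' : Qbar} (hs : α + α' = -(P.freyCurve⁄Qbar).a₁)
    (hpr : α * α' = -(P.freyCurve⁄Qbar).a₂)
    (M : IntermediateField ℚ Qbar) (hαM : α ∈ M) (hα'M : α' ∈ M)
    (σ : Qbar ≃ₐ[ℚ] Qbar) (hσ : RelInertia A M σ)
    {x y : Qbar} (hxy : (P.freyCurve⁄Qbar).Nonsingular x y) (hxM : x ∈ M) (hyM : y ∈ M)
    (hpP : P.p • (Point.some x y hxy : (P.freyCurve⁄Qbar).Point) = 0) :
    cb V (P.freyCurve⁄Qbar)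
      (σ • (Point.some x y hxy : (P.freyCurve⁄Qbar).Point) - Point.some x y hxy) = 1 := by
  rcases lt_or_eq_of_le (cb_le_one h (Point.some x y hxy)) with hlt | heq
  · -- outside `E₀`: sign lemma
    obtain ⟨h', hσP⟩ := smul_some (S := ℚ) σ hxy
    rw [hσP]
    have hodd : Odd P.p := P.hp_odd
    obtain ⟨hB, -⟩ := cb_lt_one_spec h hodd hpP hlt
    have hwx := w_x_eq_cb h hxy hB hlt
    rw [← hwx] at hB hlt
    have hwσx : V.w (σ x) = V.w x := hσ.w_map V hV1 hV2 Nat.prime_two hA hxM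
    -- the common part of the argument for a slope `β` fixed by `σ`
    have key : ∀ β β' : Qbar, β + β' = -(P.freyCurve⁄Qbar).a₁ →
        β * β' = -(P.freyCurve⁄Qbar).a₂ → β ∈ M → V.w (y - β * x) < V.w x →
        cb V (P.freyCurve⁄Qbar) (Point.some (σ x) (σ y) h' - Point.some x y hxy) = 1 := by
      intro β β' hs' hp' hβM hsign
      have hσβ := frey_sigma_slope P A V hV1 hV2 h M σ hσ hs' hp' hβM
      have hmem : y - β * x ∈ M := M.sub_mem hyM (M.mul_mem hβM hxM)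
      have hsign' : V.w (σ y - β * σ x) < V.w (σ x) := by
        have e : σ y - β * σ x = σ (y - β * x) := by rw [map_sub, map_mul, hσβ]
        rw [e, hσ.w_map V hV1 hV2 Nat.prime_two hA hmem, hwσx]
        exact hsign
      exact cb_sub_of_same_sign h hs' hp' hxy h' hB hlt hwσx hsign hsign'
    rcases sign_dichotomy h hs hpr hxy.1 hB hlt with hsign | hsign
    · exact key α α' hs hpr hαM hsign
    · exact key α' α (by rw [add_comm]; exact hs) (by rw [mul_comm]; exact hpr) hα'M hsign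
  · rw [frey_smul_eq_of_cb_one P A V hV1 hV2 h hp M σ hσ hxy hxM hyM hpP heq, sub_self, cb_zero]

/-- Core of piece L2, with the tangent slopes `α`, `α'` given. -/
theorem frey_local_two_core {α α' : Qbar}
    (hs : α + α' = -(P.freyCurve⁄Qbar).a₁) (hpr : α * α' = -(P.freyCurve⁄Qbar).a₂)
    (M : IntermediateField ℚ Qbar) (A : ValuationSubring Qbar) (hαM : α ∈ M) (hα'M : α' ∈ M)
    (hM : ∀ (x y : Qbar) (h : (P.freyCurve⁄Qbar).Nonsingular x y),
      P.p • (Point.some x y h : (P.freyCurve⁄Qbar).Point) = 0 → x ∈ M ∧ y ∈ M)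
    (hA : A.LiesOverPrime 2)
    (hNP : ∀ z ∈ M, z ≠ 0 → (∀ σ : Qbar ≃ₐ[ℚ] Qbar, RelInertia A M σ → σ z = z) →
      ∃ k : ℤ, A.valuation z = A.valuation ((2 : ℕ) : Qbar) ^ k)
    (hfin : Finite (Submodule.torsionBy ℤ (P.freyCurve⁄Qbar).Point P.p)) (hcard : Nat.card (Submodule.torsionBy ℤ (P.freyCurve⁄Qbar).Point P.p) ≤ P.p ^ 2)
    (N : Submodule (ZMod P.p) (Submodule.torsionBy ℤ (P.freyCurve⁄Qbar).Point P.p))
    (hN : WeierstrassCurve.Affine.Point.IsGaloisStable ℚ N) (hN0 : N ≠ ⊥) (hN1 : N ≠ ⊤)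
    (σ : Qbar ≃ₐ[ℚ] Qbar) (hσ : RelInertia A M σ) :
    (∀ x ∈ N, σ • x = x) ∧ (∀ x, σ • x - x ∈ N) := by
  have : Fact P.p.Prime := ⟨P.pp⟩
  obtain ⟨V, hV1, hV2, hVq, hodd, -⟩ := exists_rval' A Nat.prime_two hA
  have hV2' : V.w (2 : Qbar) < 1 := by simpa using hVq
  obtain ⟨hnod, v, hv, hB⟩ := frey_nodal P V hV2' (fun n hn => hodd n (by simpa using hn))
  have hodd' : ∀ n : ℤ, ¬ (2 : ℤ) ∣ n → V.w (n : Qbar) = 1 :=
    fun n hn => hodd n (by simpa using hn)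
  have hp1 : V.w (P.p : Qbar) = 1 := frey_w_p P V hodd'
  have hA' : ((2 : ℕ) : Qbar) ∈ A.nonunits := hA
  have htors : ∀ x : (Submodule.torsionBy ℤ (P.freyCurve⁄Qbar).Point P.p), P.p • (x : (P.freyCurve⁄Qbar).Point) = 0 := by
    intro x
    have := x.2
    rw [Submodule.mem_torsionBy_iff] at this
    rw [← this, natCast_zsmul]
  -- relatively inertial automorphisms fix `V ∩ E₀` pointwise
  have hfix : ∀ τ : Qbar ≃ₐ[ℚ] Qbar, RelInertia A M τ → ∀ x : (Submodule.torsionBy ℤ (P.freyCurve⁄Qbar).Point P.p),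
      cb V (P.freyCurve⁄Qbar) (x : (P.freyCurve⁄Qbar).Point) = 1 → τ • x = x := by
    intro τ hτ x hx
    apply Subtype.ext
    rw [coe_smul_torsionBy]
    have hx0 := htors x
    generalize (x : (P.freyCurve⁄Qbar).Point) = Pt at hx hx0 ⊢
    rcases Pt with _ | ⟨x₀, y₀, h₀⟩
    · rfl
    · obtain ⟨hx₀M, hy₀M⟩ := hM x₀ y₀ h₀ hx0
      exact frey_smul_eq_of_cb_one P A V hV1 hV2 hnod hp1 M τ hτ h₀ hx₀M hy₀M hx0 hx
  -- `σ x - x ∈ E₀`
  have hsub : ∀ x : (Submodule.torsionBy ℤ (P.freyCurve⁄Qbar).Point P.p), cb V (P.freyCurve⁄Qbar) ((σ • x - x : (Submodule.torsionBy ℤ (P.freyCurve⁄Qbar).Point P.p)) : (P.freyCurve⁄Qbar).Point) = 1 := by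
    intro x
    rw [Submodule.coe_sub, coe_smul_torsionBy]
    have hx0 := htors x
    generalize (x : (P.freyCurve⁄Qbar).Point) = Pt at hx0 ⊢
    rcases Pt with _ | ⟨x₀, y₀, h₀⟩
    · change cb V (P.freyCurve⁄Qbar) (σ • (0 : (P.freyCurve⁄Qbar).Point) - 0) = 1
      rw [smul_zero_point (S := ℚ) σ, sub_zero, cb_zero]
    · obtain ⟨hx₀M, hy₀M⟩ := hM x₀ y₀ h₀ hx0
      exact frey_cb_smul_sub P A V hV1 hV2 hA' hnod hp1 hs hpr M hαM hα'M σ hσ h₀ hx₀M hy₀M
        hx0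
  -- the stable line lies in `E₀`
  have hNE : ∀ x ∈ N, cb V (P.freyCurve⁄Qbar) (x : (P.freyCurve⁄Qbar).Point) = 1 := by
    intro x hxN
    by_contra hne
    have hlt : cb V (P.freyCurve⁄Qbar) (x : (P.freyCurve⁄Qbar).Point) < 1 := lt_of_le_of_ne (cb_le_one hnod _) hne
    have hx0 := htors x
    have hxne : x ≠ 0 := by
      rintro rfl
      exact hne (by simp)
    generalize hPt : (x : (P.freyCurve⁄Qbar).Point) = Pt at hlt hx0
    rcases Pt with _ | ⟨x₀, y₀, h₀⟩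
    · exact absurd hlt (by simp [← Point.zero_def])
    · obtain ⟨hx₀M, hy₀M⟩ := hM x₀ y₀ h₀ hx0
      obtain ⟨hBlt, -⟩ := cb_lt_one_spec hnod P.hp_odd hx0 hlt
      have hwx := w_x_eq_cb hnod h₀ hBlt hlt
      have hx₀ne : x₀ ≠ 0 := by
        rintro rfl
        rw [V.w_zero] at hwx
        have := hnod.B_pos; linarith
      have hfixx : ∀ τ : Qbar ≃ₐ[ℚ] Qbar, RelInertia A M τ → τ x₀ = x₀ := by
        intro τ hτ
        have h1 : τ • x ∈ N := hN τ x hxN
        obtain ⟨c, hc⟩ := exists_smul_eq_of_line hcard hN1 hxN hxne h1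
        have hc' : (τ • x : (Submodule.torsionBy ℤ (P.freyCurve⁄Qbar).Point P.p)) = c.val • x := by
          rw [hc]
          conv_lhs => rw [← ZMod.natCast_zmod_val c]
          exact Nat.cast_smul_eq_nsmul _ _ _
        have h2 := congrArg (Subtype.val) hc'
        rw [coe_smul_torsionBy, Submodule.coe_smul_of_tower, hPt] at h2
        obtain ⟨h', hτP⟩ := smul_some (S := ℚ) τ h₀
        rw [hτP] at h2
        have hcb : cb V (P.freyCurve⁄Qbar) (c.val • Point.some x₀ y₀ h₀) = cb V (P.freyCurve⁄Qbar) (Point.some x₀ y₀ h₀) := by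
          rw [← h2, cb_some, cb_some, hτ.w_map V hV1 hV2 Nat.prime_two hA' hx₀M]
        rcases nsmul_eq_or_neg_of_cb_eq hnod P.pp (by have := P.hp5; omega) hx0 hlt c.val hcb
          with h3 | h3
        · rw [h3] at h2
          simp only [Point.some.injEq] at h2
          exact h2.1
        · rw [h3, Point.neg_some] at h2
          simp only [Point.some.injEq] at h2
          exact h2.1
      obtain ⟨k, hk⟩ := hNP x₀ hx₀M hx₀ne hfixx
      have hk' : V.w x₀ = V.w (2 : Qbar) ^ k := by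
        have h1 : A.valuation x₀ = A.valuation ((2 : Qbar) ^ k) := by
          rw [map_zpow₀, hk]; simp
        rw [w_eq_of_valuation_eq V hV1 h1, V.w_zpow]
      exact not_cb_lt_one_of_w_zpow hnod (V.w_pos _ two_ne_zero) hV2' P.pp P.hp5 hB h₀ hx0 hlt
        k hk'
  -- the subgroup `V ∩ E₀`
  let V0g : AddSubgroup (Submodule.torsionBy ℤ (P.freyCurve⁄Qbar).Point P.p) :=
    { carrier := {x | cb V (P.freyCurve⁄Qbar) (x : (P.freyCurve⁄Qbar).Point) = 1}
      zero_mem' := by simp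
      add_mem' := fun {a b} ha hb => by
        simp only [Set.mem_ofPred_eq] at ha hb ⊢
        rw [Submodule.coe_add]
        exact (cb_add_sub_of_one hnod ha hb).1
      neg_mem' := fun {a} ha => by
        simp only [Set.mem_ofPred_eq] at ha ⊢
        rw [Submodule.coe_neg, cb_neg]
        exact ha }
  let V0 : Submodule (ZMod P.p) (Submodule.torsionBy ℤ (P.freyCurve⁄Qbar).Point P.p) := AddSubgroup.toZModSubmodule P.p V0g
  have hle : N ≤ V0 := fun x hx => hNE x hx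
  by_cases htop : V0 = ⊤
  · have hall : ∀ x : (Submodule.torsionBy ℤ (P.freyCurve⁄Qbar).Point P.p), cb V (P.freyCurve⁄Qbar) (x : (P.freyCurve⁄Qbar).Point) = 1 := fun x => by
      have : x ∈ V0 := by rw [htop]; trivial
      exact this
    refine ⟨fun x _ => hfix σ hσ x (hall x), fun x => ?_⟩
    rw [hfix σ hσ x (hall x), sub_self]; exact N.zero_mem
  · have hV0N : V0 = N := eq_of_le_of_ne_top hcard hN0 hle htop
    refine ⟨fun x hx => hfix σ hσ x (hNE x hx), fun x => ?_⟩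
    rw [← hV0N]
    exact hsub x

end FreyGalois

end Fermat.Agent.S13.Nodal

namespace Fermat.Agent.S13

open WeierstrassCurve WeierstrassCurve.Affine
open Fermat.Agent.S05 Fermat.Agent.S13.Nodal

local notation "Qbar" => AlgebraicClosure ℚ

/-- **Piece L2** (local analysis at `2`).  There is a finite set `S₀` of auxiliary elements such
that for every intermediate field `M` containing `S₀` and the coordinates of the `p`-torsion
points, every valuation subring `A` over `2` for which relatively inertial invariants of `M` have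
valuation in `|2|^ℤ`, and every Galois stable line `N` of the `p`-torsion of the Frey curve:
every relatively inertial `σ` acts trivially on `N` and on the quotient by `N`. -/
theorem frey_local_two (P : FreyPackage) :
    ∃ S₀ : Finset Qbar, ∀ (M : IntermediateField ℚ Qbar) (A : ValuationSubring Qbar),
      (∀ x ∈ S₀, x ∈ M) →
      (∀ (x y : Qbar) (h : (P.freyCurve⁄Qbar).Nonsingular x y),
        P.p • (Point.some x y h : (P.freyCurve⁄Qbar).Point) = 0 → x ∈ M ∧ y ∈ M) →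
      A.LiesOverPrime 2 →
      (∀ z ∈ M, z ≠ 0 → (∀ σ : Qbar ≃ₐ[ℚ] Qbar, RelInertia A M σ → σ z = z) →
        ∃ k : ℤ, A.valuation z = A.valuation ((2 : ℕ) : Qbar) ^ k) →
      Finite (Submodule.torsionBy ℤ (P.freyCurve⁄Qbar).Point P.p) →
      Nat.card (Submodule.torsionBy ℤ (P.freyCurve⁄Qbar).Point P.p) ≤ P.p ^ 2 →
      ∀ N : Submodule (ZMod P.p) (Submodule.torsionBy ℤ (P.freyCurve⁄Qbar).Point P.p),
        WeierstrassCurve.Affine.Point.IsGaloisStable ℚ N → N ≠ ⊥ → N ≠ ⊤ →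
        ∀ σ : Qbar ≃ₐ[ℚ] Qbar, RelInertia A M σ →
          (∀ x ∈ N, σ • x = x) ∧ (∀ x, σ • x - x ∈ N) := by
  obtain ⟨z, hz⟩ := IsAlgClosed.exists_eq_mul_self (P.freyCurve⁄Qbar).b₂
  set α : Qbar := (-(P.freyCurve⁄Qbar).a₁ + z) / 2 with hα
  set α' : Qbar := (-(P.freyCurve⁄Qbar).a₁ - z) / 2 with hα'
  have hs : α + α' = -(P.freyCurve⁄Qbar).a₁ := by rw [hα, hα']; ring
  have hpr : α * α' = -(P.freyCurve⁄Qbar).a₂ := by
    have h1 : z * z = (P.freyCurve⁄Qbar).a₁ ^ 2 + 4 * (P.freyCurve⁄Qbar).a₂ := by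
      rw [← hz]; simp only [WeierstrassCurve.b₂]
    rw [hα, hα']
    linear_combination (-1 / 4 : Qbar) * h1
  refine ⟨{α, α'}, ?_⟩
  intro M A hS hM hA hNP hfin hcard N hN hN0 hN1 σ hσ
  exact frey_local_two_core P hs hpr M A (hS α (by simp)) (hS α' (by simp)) hM hA hNP hfin
    hcard N hN hN0 hN1 σ hσ

end Fermat.Agent.S13
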