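import Mathlib
import Fermat.Statements.S05
import Fermat.Agent.S05.RVal
import Fermat.Agent.S05.RValOfSubring
import Fermat.Agent.S05.Glue
import Fermat.Agent.S13.XOnly

/-!
# S13: the Frey curve at the prime `2`

Let `V` be a real absolute value on `ℚ̄` with `|2| < 1`.

* `frey_a₂_int`, `frey_a₄_int`: the coefficients `a₂`, `a₄` of the Frey curve are integers, and
  `a₄` is even and nonzero;
* `nodalModel_two`: the Frey curve is a `Nodal.NodalModel` at `2`;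
* `w_a₄_two`: `|a₄| · |2|⁴ = |2| ^ (p β)` for some `β`;
* `w_int_eq_pow`, `w_rat_eq_zpow`: absolute values of nonzero rational numbers are powers of
  `|2|`;
* `w_rat_cases`: a `2`-integral rational number is congruent to `0` or `1` modulo `2`.
-/

set_option autoImplicit false

namespace Fermat.Agent.S13.FreyTwo

open Fermat.Agent.S05 WeierstrassCurve WeierstrassCurve.Affine

local notation "Qbar" => AlgebraicClosure ℚ

section Arith

/-- `b` is even. -/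
lemma two_dvd_b (P : FreyPackage) : (2 : ℤ) ∣ P.b :=
  (ZMod.intCast_zmod_eq_zero_iff_dvd P.b 2).1 P.hb2

/-- `a` is odd. -/
lemma not_two_dvd_a (P : FreyPackage) : ¬ (2 : ℤ) ∣ P.a := by
  intro h
  have h1 : (2 : ℤ) ∣ gcd P.a P.b := dvd_gcd h (two_dvd_b P)
  rw [P.hgcdab] at h1
  have : (2 : ℤ) ≤ 1 := Int.le_of_dvd one_pos h1
  omega

/-- `a ^ p ≡ 3 mod 4`. -/
lemma a_pow_mod_four (P : FreyPackage) : (4 : ℤ) ∣ P.a ^ P.p + 1 := by
  have h1 : ((P.a : ZMod 4)) = 3 := P.ha4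
  have h2 : ((P.a ^ P.p + 1 : ℤ) : ZMod 4) = 0 := by
    push_cast
    rw [h1]
    have h3 : (3 : ZMod 4) = -1 := by decide
    rw [h3, P.hp_odd.neg_one_pow]
    ring
  exact (ZMod.intCast_zmod_eq_zero_iff_dvd _ 4).1 h2

/-- `32 ∣ b ^ p`. -/
lemma thirtytwo_dvd_b_pow (P : FreyPackage) : (32 : ℤ) ∣ P.b ^ P.p := by
  have h1 : (2 : ℤ) ^ P.p ∣ P.b ^ P.p := pow_dvd_pow_of_dvd (two_dvd_b P) P.p
  have h2 : (2 : ℤ) ^ 5 ∣ (2 : ℤ) ^ P.p := pow_dvd_pow 2 P.hp5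
  have h3 : (32 : ℤ) = 2 ^ 5 := by norm_num
  rw [h3]
  exact h2.trans h1

end Arith

section Coeffs

/-- `a₂` of the Frey curve is an integer. -/
theorem frey_a₂_int (P : FreyPackage) :
    ∃ n : ℤ, (P.freyCurve⁄Qbar).a₂ = (n : Qbar) ∧ 4 * n + 1 = P.b ^ P.p - P.a ^ P.p := by
  obtain ⟨s, hs⟩ := a_pow_mod_four P
  obtain ⟨t, ht⟩ := thirtytwo_dvd_b_pow P
  refine ⟨8 * t - s, ?_, by rw [ht]; linarith⟩
  have e := frey_a₂ P
  have e1 : ((P.b ^ P.p - P.a ^ P.p : ℤ) : Qbar) = 4 * ((8 * t - s : ℤ) : Qbar) + 1 := by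
    have : P.b ^ P.p - P.a ^ P.p = 4 * (8 * t - s) + 1 := by rw [ht]; linarith
    rw [this]; push_cast; ring
  rw [e1] at e
  have h4 : (4 : Qbar) ≠ 0 := by norm_num
  change (WeierstrassCurve.baseChange P.freyCurve Qbar).a₂ = _
  exact mul_left_cancel₀ h4 (by linear_combination e)

/-- `a₄` of the Frey curve is an even nonzero integer. -/
theorem frey_a₄_int (P : FreyPackage) :
    ∃ n : ℤ, (P.freyCurve⁄Qbar).a₄ = (n : Qbar) ∧ (2 : ℤ) ∣ n ∧ n ≠ 0 ∧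
      16 * n = -(P.a ^ P.p * P.b ^ P.p) := by
  obtain ⟨t, ht⟩ := thirtytwo_dvd_b_pow P
  have ht0 : t ≠ 0 := by
    intro h0
    rw [h0, mul_zero] at ht
    exact P.hb0 (pow_eq_zero_iff P.hp0 |>.mp ht)
  refine ⟨-(2 * (P.a ^ P.p * t)), ?_, ⟨-(P.a ^ P.p * t), by ring⟩, ?_, by rw [ht]; ring⟩
  · have e := frey_a₄ P
    have e1 : ((-(P.a ^ P.p * P.b ^ P.p) : ℤ) : Qbar) =
        16 * ((-(2 * (P.a ^ P.p * t)) : ℤ) : Qbar) := by
      rw [ht]; push_cast; ring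
    rw [e1] at e
    have h16 : (16 : Qbar) ≠ 0 := by norm_num
    change (WeierstrassCurve.baseChange P.freyCurve Qbar).a₄ = _
    exact mul_left_cancel₀ h16 e
  · exact neg_ne_zero.mpr (mul_ne_zero two_ne_zero (mul_ne_zero (pow_ne_zero _ P.ha0) ht0))

variable (V : RVal Qbar)

/-- The Frey curve is a nodal model at `2`. -/
theorem nodalModel_two (P : FreyPackage) (hV2 : V.w (2 : Qbar) < 1) :
    Nodal.NodalModel V (P.freyCurve⁄Qbar) := by
  have hV2' : V.w ((2 : ℕ) : Qbar) < 1 := by simpa using hV2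
  obtain ⟨n₂, hn₂, hn₂'⟩ := frey_a₂_int P
  obtain ⟨n₄, hn₄, hn₄2, hn₄0, -⟩ := frey_a₄_int P
  have h1 : (P.freyCurve⁄Qbar).a₁ = 1 := frey_a₁ P
  have h3 : (P.freyCurve⁄Qbar).a₃ = 0 := frey_a₃ P
  have h6 : (P.freyCurve⁄Qbar).a₆ = 0 := frey_a₆ P
  refine ⟨h3, h6, ?_, ?_, ?_, ?_, ?_⟩
  · rw [h1, V.w_one]
  · rw [hn₂]; exact V.w_intCast_le _
  · have hb₂ : (P.freyCurve⁄Qbar).b₂ = ((P.b ^ P.p - P.a ^ P.p : ℤ) : Qbar) := by
      rw [WeierstrassCurve.b₂, h1, hn₂, ← hn₂']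
      push_cast; ring
    rw [hb₂]
    refine V.w_intCast_eq_one_of_not_dvd Nat.prime_two hV2' ?_
    intro hdvd
    have hb : (2 : ℤ) ∣ P.b ^ P.p := dvd_pow (two_dvd_b P) P.hp0
    have ha : (2 : ℤ) ∣ P.a ^ P.p := (dvd_sub_right hb).mp (by exact_mod_cast hdvd)
    exact not_two_dvd_a P (Int.prime_two.dvd_of_dvd_pow ha)
  · rw [hn₄]
    exact_mod_cast hn₄0
  · rw [hn₄]
    exact V.w_intCast_lt_one_of_dvd hV2' (by exact_mod_cast hn₄2)

/-- The absolute value of a nonzero integer is a power of `|2|`. -/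
theorem w_int_eq_pow (hV2 : V.w (2 : Qbar) < 1) (n : ℤ) (hn : n ≠ 0) :
    ∃ m : ℕ, V.w (n : Qbar) = V.w (2 : Qbar) ^ m := by
  have hV2' : V.w ((2 : ℕ) : Qbar) < 1 := by simpa using hV2
  obtain ⟨k, m, hm, hkm⟩ := Nat.exists_eq_two_pow_mul_odd (Int.natAbs_ne_zero.mpr hn)
  refine ⟨k, ?_⟩
  have hmodd : ¬ ((2 : ℕ) : ℤ) ∣ (m : ℤ) := by
    intro h
    have h2 : 2 ∣ m := by exact_mod_cast h
    exact (Nat.not_even_iff_odd.mpr hm) (even_iff_two_dvd.mpr h2)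
  have hm1 : V.w ((m : ℤ) : Qbar) = 1 := V.w_intCast_eq_one_of_not_dvd Nat.prime_two hV2' hmodd
  have habs : V.w (n : Qbar) = V.w ((n.natAbs : ℤ) : Qbar) := by
    rcases Int.natAbs_eq n with h | h
    · rw [← h]
    · conv_lhs => rw [h]
      rw [Int.cast_neg, V.w_neg]
  rw [habs, hkm]
  push_cast
  rw [V.w_mul, V.w_pow]
  have : V.w ((m : ℕ) : Qbar) = 1 := by simpa using hm1
  rw [this, mul_one]

/-- The absolute value of a nonzero rational number is an integral power of `|2|`. -/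
theorem w_rat_eq_zpow (hV2 : V.w (2 : Qbar) < 1) (z : ℚ) (hz : z ≠ 0) :
    ∃ m : ℤ, V.w (algebraMap ℚ Qbar z) = V.w (2 : Qbar) ^ m := by
  obtain ⟨m₁, h₁⟩ := w_int_eq_pow V hV2 z.num (Rat.num_ne_zero.mpr hz)
  obtain ⟨m₂, h₂⟩ := w_int_eq_pow V hV2 (z.den : ℤ) (by exact_mod_cast z.den_nz)
  refine ⟨(m₁ : ℤ) - m₂, ?_⟩
  have hz' : algebraMap ℚ Qbar z = (z.num : Qbar) / ((z.den : ℤ) : Qbar) := by
    conv_lhs => rw [← Rat.num_div_den z]
    rw [map_div₀, map_intCast, map_natCast, Int.cast_natCast]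
  have h2pos : 0 < V.w (2 : Qbar) := V.w_pos _ two_ne_zero
  rw [hz', V.w_div, h₁, h₂, zpow_sub₀ h2pos.ne', zpow_natCast, zpow_natCast]

/-- A `2`-integral rational number is congruent to `0` or `1` modulo `2`. -/
theorem w_rat_cases (hV2 : V.w (2 : Qbar) < 1) (z : ℚ) (hz : V.w (algebraMap ℚ Qbar z) ≤ 1) :
    V.w (algebraMap ℚ Qbar z) < 1 ∨ V.w (algebraMap ℚ Qbar z - 1) < 1 := by
  have hV2' : V.w ((2 : ℕ) : Qbar) < 1 := by simpa using hV2
  have hz' : algebraMap ℚ Qbar z = (z.num : Qbar) / ((z.den : ℤ) : Qbar) := by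
    conv_lhs => rw [← Rat.num_div_den z]
    rw [map_div₀, map_intCast, map_natCast, Int.cast_natCast]
  have hden0 : ((z.den : ℤ) : Qbar) ≠ 0 := by exact_mod_cast z.den_nz
  -- the denominator is odd
  have hdodd : ¬ ((2 : ℕ) : ℤ) ∣ (z.den : ℤ) := by
    intro hd
    have hd' : 2 ∣ z.den := by exact_mod_cast hd
    have hnodd : ¬ ((2 : ℕ) : ℤ) ∣ z.num := by
      intro hn
      have hn' : 2 ∣ z.num.natAbs := by
        have : (2 : ℤ) ∣ z.num := by exact_mod_cast hn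
        exact Int.natCast_dvd.mp this
      have := Nat.dvd_gcd hn' hd'
      rw [z.reduced] at this
      omega
    have h1 : V.w (z.num : Qbar) = 1 := V.w_intCast_eq_one_of_not_dvd Nat.prime_two hV2' hnodd
    have h2 : V.w ((z.den : ℤ) : Qbar) < 1 := V.w_intCast_lt_one_of_dvd hV2' hd
    rw [hz', V.w_div, h1] at hz
    have h3 : 0 < V.w ((z.den : ℤ) : Qbar) := V.w_pos _ hden0
    rw [div_le_one h3] at hz
    linarith
  have hd1 : V.w ((z.den : ℤ) : Qbar) = 1 :=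
    V.w_intCast_eq_one_of_not_dvd Nat.prime_two hV2' hdodd
  by_cases hn : ((2 : ℕ) : ℤ) ∣ z.num
  · left
    rw [hz', V.w_div, hd1, div_one]
    exact V.w_intCast_lt_one_of_dvd hV2' hn
  · right
    have e : algebraMap ℚ Qbar z - 1 = ((z.num - (z.den : ℤ) : ℤ) : Qbar) / ((z.den : ℤ) : Qbar) := by
      rw [hz']
      push_cast
      field_simp
    rw [e, V.w_div, hd1, div_one]
    refine V.w_intCast_lt_one_of_dvd hV2' ?_
    have h1 : z.num % 2 = 1 := by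
      have : ¬ (2 : ℤ) ∣ z.num := by exact_mod_cast hn
      omega
    have h2 : (z.den : ℤ) % 2 = 1 := by
      have : ¬ (2 : ℤ) ∣ (z.den : ℤ) := by exact_mod_cast hdodd
      omega
    have : (2 : ℤ) ∣ z.num - (z.den : ℤ) := by omega
    exact_mod_cast this

/-- `|a₄| · |2|⁴ = |2| ^ (p β)` with `β ≥ 1` the `2`-adic valuation of `b`. -/
theorem w_a₄_two (P : FreyPackage) (hV2 : V.w (2 : Qbar) < 1) :
    ∃ β : ℕ, V.w (P.freyCurve⁄Qbar).a₄ * V.w (2 : Qbar) ^ 4 = V.w (2 : Qbar) ^ (P.p * β) := by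
  have hV2' : V.w ((2 : ℕ) : Qbar) < 1 := by simpa using hV2
  obtain ⟨β, hβ⟩ := w_int_eq_pow V hV2 P.b P.hb0
  refine ⟨β, ?_⟩
  have ha : V.w ((P.a : ℤ) : Qbar) = 1 :=
    V.w_intCast_eq_one_of_not_dvd Nat.prime_two hV2' (by exact_mod_cast not_two_dvd_a P)
  have e := frey_a₄ P
  have h16 : V.w (16 : Qbar) = V.w (2 : Qbar) ^ 4 := by
    rw [show (16 : Qbar) = 2 ^ 4 by norm_num, V.w_pow]
  have h1 := congrArg V.w e
  rw [V.w_mul, h16] at h1
  push_cast at h1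
  rw [V.w_neg, V.w_mul, V.w_pow, V.w_pow, ha, one_pow, one_mul, hβ, ← pow_mul] at h1
  change V.w (2 : Qbar) ^ 4 * V.w (P.freyCurve⁄Qbar).a₄ = _ at h1
  rw [mul_comm, h1, mul_comm]

end Coeffs

end Fermat.Agent.S13.FreyTwo
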