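import Mathlib
import Fermat.Statements.S05
import Fermat.Agent.S05.RVal
import Fermat.Agent.S05.RValOfSubring
import Fermat.Agent.S05.KerRed
import Fermat.Agent.S05.Glue
import Fermat.Agent.S13.XOnly
import Fermat.Agent.S13.CongGen
import Fermat.Agent.S13.FreyTwo
import Fermat.Agent.S13.Minkowski

/-!
# S13, piece [L2e]: the Frey curve has no rational point of order `p`

`frey_no_rational_torsion`: an affine point of the Frey curve with rational coordinates is not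
killed by `p = P.p`.

Proof at a place above `2` (multiplicative reduction, nodal model).  Let `Q` be a rational point
of order `p`.  The absolute values of the `x`-coordinates of the multiples of `Q` lie in `|2|^ℤ`,
which forces them to have nonsingular reduction (`Nodal.cb_lt_one_spec`), hence to be `2`-adic
units (the kernel of reduction has no `p`-torsion).  So the multiples `Q, 2Q, 3Q` reduce to
points `(1, 0)` or `(1, 1)` modulo `2`; two of them are congruent, so they differ by an element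
of the kernel of reduction and are equal: contradiction.
-/

set_option autoImplicit false

namespace Fermat.Agent.S13.NoRat

open Fermat.Agent.S05 WeierstrassCurve WeierstrassCurve.Affine Fermat.Agent.S13.FreyTwo

local notation "Qbar" => AlgebraicClosure ℚ

section Local

variable (P : FreyPackage) (A : ValuationSubring Qbar) (V : RVal Qbar)
  (hV1 : ∀ x, V.w x ≤ 1 ↔ x ∈ A) (hV2 : ∀ x, V.w x < 1 ↔ x ∈ A.nonunits)
  (h2 : V.w (2 : Qbar) < 1)

include hV1 hV2 h2

/-- `p` is a unit at `2`. -/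
lemma w_p_eq_one : V.w ((P.p : ℕ) : Qbar) = 1 := by
  have hV2' : V.w ((2 : ℕ) : Qbar) < 1 := by simpa using h2
  refine V.w_natCast_eq_one_of_not_dvd Nat.prime_two hV2' ?_
  intro h
  have := (Nat.prime_dvd_prime_iff_eq Nat.prime_two P.pp).mp h
  have := P.hp5
  omega

/-- A `p`-torsion point of the Frey curve with rational `x`-coordinate has `|x| = 1` at `2`. -/
theorem w_x_eq_one_of_rat {x : ℚ} {y : Qbar}
    (h : (P.freyCurve⁄Qbar).Nonsingular (algebraMap ℚ Qbar x) y)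
    (hp : P.p • (Point.some _ _ h : (P.freyCurve⁄Qbar).Point) = 0) :
    V.w (algebraMap ℚ Qbar x) = 1 := by
  have hNod := nodalModel_two V P h2
  have hpu := w_p_eq_one P A V hV1 hV2 h2
  apply le_antisymm
  · -- the kernel of reduction has no `p`-torsion
    by_contra hcon
    refine nsmul_ne_zero_of_X_notMem A (P.freyCurve⁄Qbar) ((hV1 _).mp hNod.a₁)
      ((hV1 _).mp hNod.a₂) ?_ ((hV1 _).mp hNod.a₄_lt.le) ?_ h ?_ P.p ?_ hp
    · rw [hNod.a₃]; exact A.zero_mem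
    · rw [hNod.a₆]; exact A.zero_mem
    · intro hc
      exact hcon ((hV1 _).mpr hc)
    · intro hc
      have := (hV2 _).mpr hc
      rw [hpu] at this
      exact lt_irrefl _ this
  · -- a point reducing to the node would have `|x| ∉ |2|^ℤ`
    by_contra hcon
    rw [not_le] at hcon
    have hB1 := hNod.a₄_lt
    have hs : Nodal.cb V (P.freyCurve⁄Qbar) (Point.some _ _ h) < 1 := by
      rw [Nodal.cb_some]
      exact max_lt hB1 (lt_of_le_of_lt (min_le_right _ _) hcon)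
    obtain ⟨hB, k, hk0, hkp, hk⟩ := Nodal.cb_lt_one_spec hNod P.hp_odd hp hs
    have hxcb := Nodal.w_x_eq_cb hNod h hB hs
    have hx0 : x ≠ 0 := by
      intro h0
      have hz : V.w (algebraMap ℚ Qbar x) = 0 := by rw [h0, map_zero, V.w_zero]
      rw [← hxcb, hz] at hB
      exact absurd hB (not_lt.mpr (V.w_nonneg _))
    have hw2pos : 0 < V.w (2 : Qbar) := V.w_pos _ two_ne_zero
    obtain ⟨m, hm⟩ := w_rat_eq_zpow V h2 x hx0
    obtain ⟨β, hβ⟩ := w_a₄_two V P h2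
    have e1 : V.w (2 : Qbar) ^ (m * (P.p : ℤ)) = V.w (P.freyCurve⁄Qbar).a₄ ^ (2 * k) := by
      rw [← hk, ← hxcb, hm, zpow_mul, zpow_natCast]
    have key : ((P.p * β : ℕ) : ℤ) * (2 * k) = m * (P.p : ℤ) + 4 * (2 * k) := by
      apply zpow_right_injective₀ hw2pos h2.ne
      change V.w (2 : Qbar) ^ (((P.p * β : ℕ) : ℤ) * (2 * k)) =
        V.w (2 : Qbar) ^ (m * (P.p : ℤ) + 4 * (2 * k))
      calc V.w (2 : Qbar) ^ (((P.p * β : ℕ) : ℤ) * (2 * k))
          = (V.w (2 : Qbar) ^ (P.p * β)) ^ (2 * k) := by rw [zpow_mul, zpow_natCast]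
        _ = (V.w (P.freyCurve⁄Qbar).a₄ * V.w (2 : Qbar) ^ 4) ^ (2 * k) := by rw [hβ]
        _ = V.w (P.freyCurve⁄Qbar).a₄ ^ (2 * k) * (V.w (2 : Qbar) ^ 4) ^ (2 * k) :=
            mul_zpow _ _ _
        _ = V.w (2 : Qbar) ^ (m * (P.p : ℤ)) * V.w (2 : Qbar) ^ (4 * (2 * k)) := by
            rw [← e1, zpow_mul (V.w (2 : Qbar)) 4 (2 * k)]
            norm_cast
        _ = V.w (2 : Qbar) ^ (m * (P.p : ℤ) + 4 * (2 * k)) := (zpow_add₀ hw2pos.ne' _ _).symm
    have hdvd : (P.p : ℤ) ∣ 8 * k := ⟨(β : ℤ) * (2 * k) - m, by push_cast at key; linarith⟩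
    have hpi : Prime (P.p : ℤ) := Nat.prime_iff_prime_int.mp P.pp
    rcases hpi.dvd_or_dvd hdvd with h8 | hk'
    · have h8' : P.p ∣ 2 ^ 3 := by
        have : (P.p : ℤ) ∣ ((8 : ℕ) : ℤ) := by exact_mod_cast h8
        exact Int.natCast_dvd_natCast.mp this
      have := Nat.le_of_dvd (by norm_num) (P.pp.dvd_of_dvd_pow h8')
      have := P.hp5
      omega
    · have := Int.le_of_dvd hk0 hk'
      omega

/-- Two `p`-torsion points with rational coordinates whose `y`-coordinates are congruent modulo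
`2` are equal. -/
theorem eq_of_same_class {x y x' y' : ℚ}
    (h : (P.freyCurve⁄Qbar).Nonsingular (algebraMap ℚ Qbar x) (algebraMap ℚ Qbar y))
    (h' : (P.freyCurve⁄Qbar).Nonsingular (algebraMap ℚ Qbar x') (algebraMap ℚ Qbar y'))
    (hp : P.p • (Point.some _ _ h : (P.freyCurve⁄Qbar).Point) = 0)
    (hp' : P.p • (Point.some _ _ h' : (P.freyCurve⁄Qbar).Point) = 0)
    (hc : (V.w (algebraMap ℚ Qbar y) < 1 ∧ V.w (algebraMap ℚ Qbar y') < 1) ∨
      (V.w (algebraMap ℚ Qbar y - 1) < 1 ∧ V.w (algebraMap ℚ Qbar y' - 1) < 1)) :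
    (Point.some _ _ h' : (P.freyCurve⁄Qbar).Point) = Point.some _ _ h := by
  have hNod := nodalModel_two V P h2
  have hpu := w_p_eq_one P A V hV1 hV2 h2
  have hx1 := w_x_eq_one_of_rat P A V hV1 hV2 h2 h hp
  have hx1' := w_x_eq_one_of_rat P A V hV1 hV2 h2 h' hp'
  have hxs : V.w (algebraMap ℚ Qbar x - 1) < 1 := by
    rcases w_rat_cases V h2 x hx1.le with h0 | h0
    · rw [hx1] at h0; exact absurd h0 (lt_irrefl _)
    · exact h0
  have hxs' : V.w (algebraMap ℚ Qbar x' - 1) < 1 := by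
    rcases w_rat_cases V h2 x' hx1'.le with h0 | h0
    · rw [hx1'] at h0; exact absurd h0 (lt_irrefl _)
    · exact h0
  have hxx : V.w (algebraMap ℚ Qbar x' - algebraMap ℚ Qbar x) < 1 := by
    have e : algebraMap ℚ Qbar x' - algebraMap ℚ Qbar x =
        (algebraMap ℚ Qbar x' - 1) - (algebraMap ℚ Qbar x - 1) := by ring
    rw [e]; exact V.w_sub_lt hxs' hxs
  have hyy : V.w (algebraMap ℚ Qbar y' - algebraMap ℚ Qbar y) < 1 := by
    rcases hc with ⟨c1, c2⟩ | ⟨c1, c2⟩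
    · exact V.w_sub_lt c2 c1
    · have e : algebraMap ℚ Qbar y' - algebraMap ℚ Qbar y =
          (algebraMap ℚ Qbar y' - 1) - (algebraMap ℚ Qbar y - 1) := by ring
      rw [e]; exact V.w_sub_lt c2 c1
  have hy1 : V.w (algebraMap ℚ Qbar y) ≤ 1 := by
    rcases hc with ⟨c1, -⟩ | ⟨c1, -⟩
    · exact c1.le
    · have e : algebraMap ℚ Qbar y = (algebraMap ℚ Qbar y - 1) + 1 := by ring
      rw [e]; exact V.w_add_le c1.le V.w_one.le
  have hns : V.w (2 * algebraMap ℚ Qbar y + (P.freyCurve⁄Qbar).a₁ * algebraMap ℚ Qbar x +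
      (P.freyCurve⁄Qbar).a₃) = 1 := by
    rw [show (P.freyCurve⁄Qbar).a₁ = 1 from frey_a₁ P, hNod.a₃, one_mul, add_zero]
    have h2y : V.w (2 * algebraMap ℚ Qbar y) < V.w (algebraMap ℚ Qbar x) := by
      rw [V.w_mul, hx1]
      have := V.w_nonneg (algebraMap ℚ Qbar y)
      have := V.w_nonneg (2 : Qbar)
      nlinarith
    rw [V.w_add_eq_of_lt' h2y, hx1]
  have H := Nodal.cong_sub_gen V hNod.a₁ hNod.a₂ h h' hx1.le hxx hyy (Or.inl hns)
  refine Nodal.eq_of_sub_eq_zero_or_ker_gen A V hV1 hV2 hNod.a₁ hNod.a₂ ?_ hNod.a₄_lt.le ?_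
    P.p hpu hp hp' H
  · rw [hNod.a₃, V.w_zero]; exact zero_le_one
  · rw [hNod.a₆, V.w_zero]; exact zero_le_one

/-- The data attached to a nonzero rational `p`-torsion point. -/
theorem rat_data (R : (P.freyCurve⁄ℚ).Point) (hR0 : R ≠ 0) (hR : P.p • R = 0) :
    ∃ (x y : ℚ) (h : (P.freyCurve⁄Qbar).Nonsingular (algebraMap ℚ Qbar x) (algebraMap ℚ Qbar y)),
      Point.baseChange ℚ Qbar R = Point.some _ _ h ∧
      P.p • (Point.some _ _ h : (P.freyCurve⁄Qbar).Point) = 0 ∧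
      (V.w (algebraMap ℚ Qbar y) < 1 ∨ V.w (algebraMap ℚ Qbar y - 1) < 1) := by
  have hNod := nodalModel_two V P h2
  rcases R with _ | ⟨x, y, hxy⟩
  · exact absurd rfl hR0
  · have h : (P.freyCurve⁄Qbar).Nonsingular (algebraMap ℚ Qbar x) (algebraMap ℚ Qbar y) :=
      (P.freyCurve.toAffine.baseChange_nonsingular (f := Algebra.ofId ℚ Qbar)
        (Algebra.ofId ℚ Qbar).injective x y).mpr hxy
    have hβ : Point.baseChange ℚ Qbar (Point.some x y hxy : (P.freyCurve⁄ℚ).Point) =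
        (Point.some _ _ h : (P.freyCurve⁄Qbar).Point) := rfl
    have hp : P.p • (Point.some _ _ h : (P.freyCurve⁄Qbar).Point) = 0 := by
      rw [← hβ, ← map_nsmul, hR, map_zero]
    refine ⟨x, y, h, hβ, hp, ?_⟩
    have hx1 := w_x_eq_one_of_rat P A V hV1 hV2 h2 h hp
    have hy1 : V.w (algebraMap ℚ Qbar y) ≤ 1 := by
      refine Nodal.w_y_le_one_gen V hNod.a₁ hNod.a₂ ?_ hNod.a₄_lt.le ?_ h.1 hx1.le
      · rw [hNod.a₃, V.w_zero]; exact zero_le_one
      · rw [hNod.a₆, V.w_zero]; exact zero_le_one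
    exact w_rat_cases V h2 y hy1

/-- No nonzero rational point of the Frey curve is killed by `p`. -/
theorem no_rat_tors_aux (Q : (P.freyCurve⁄ℚ).Point) (hQ0 : Q ≠ 0) (hQ : P.p • Q = 0) : False := by
  have hp5 := P.hp5
  -- the multiples `2Q`, `3Q` are nonzero
  have h2Q : (2 : ℕ) • Q ≠ 0 := by
    intro h0
    obtain ⟨k, hk⟩ := P.hp_odd
    have : P.p • Q = k • ((2 : ℕ) • Q) + Q := by
      rw [hk, add_smul, one_smul, mul_comm, mul_smul]
    rw [hQ, h0, nsmul_zero, zero_add] at this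
    exact hQ0 this.symm
  have h3Q : (3 : ℕ) • Q ≠ 0 := by
    intro h0
    have hord : addOrderOf Q ∣ Nat.gcd 3 P.p :=
      Nat.dvd_gcd (addOrderOf_dvd_of_nsmul_eq_zero h0) (addOrderOf_dvd_of_nsmul_eq_zero hQ)
    have hgcd : Nat.gcd 3 P.p = 1 := by
      rw [Nat.gcd_comm]
      refine (Nat.Prime.coprime_iff_not_dvd P.pp).mpr ?_
      intro h
      have := Nat.le_of_dvd (by norm_num) h
      omega
    rw [hgcd, Nat.dvd_one, AddMonoid.addOrderOf_eq_one_iff] at hord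
    exact hQ0 hord
  have hp2 : P.p • ((2 : ℕ) • Q) = 0 := by rw [smul_comm, hQ, nsmul_zero]
  have hp3 : P.p • ((3 : ℕ) • Q) = 0 := by rw [smul_comm, hQ, nsmul_zero]
  obtain ⟨x₁, y₁, h₁, e₁, t₁, c₁⟩ := rat_data P A V hV1 hV2 h2 Q hQ0 hQ
  obtain ⟨x₂, y₂, h₂, e₂, t₂, c₂⟩ := rat_data P A V hV1 hV2 h2 _ h2Q hp2
  obtain ⟨x₃, y₃, h₃, e₃, t₃, c₃⟩ := rat_data P A V hV1 hV2 h2 _ h3Q hp3
  have hinj : Function.Injective (Point.baseChange (W' := P.freyCurve) ℚ Qbar) :=
    Point.map_injective _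
  -- the three possible coincidences
  have k12 : (Point.some _ _ h₂ : (P.freyCurve⁄Qbar).Point) = Point.some _ _ h₁ → False := by
    intro he
    rw [← e₁, ← e₂] at he
    have h5 := hinj he
    have : Q = (2 : ℕ) • Q - Q := by rw [two_smul, add_sub_cancel_right]
    rw [h5, sub_self] at this
    exact hQ0 this
  have k13 : (Point.some _ _ h₃ : (P.freyCurve⁄Qbar).Point) = Point.some _ _ h₁ → False := by
    intro he
    rw [← e₁, ← e₃] at he
    have h5 := hinj he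
    have : (2 : ℕ) • Q = (3 : ℕ) • Q - Q := by
      rw [show (3 : ℕ) = 2 + 1 from rfl, add_smul, one_smul, add_sub_cancel_right]
    rw [h5, sub_self] at this
    exact h2Q this
  have k23 : (Point.some _ _ h₃ : (P.freyCurve⁄Qbar).Point) = Point.some _ _ h₂ → False := by
    intro he
    rw [← e₂, ← e₃] at he
    have h5 := hinj he
    have : Q = (3 : ℕ) • Q - (2 : ℕ) • Q := by
      rw [show (3 : ℕ) = 2 + 1 from rfl, add_smul, one_smul, add_sub_cancel_left]
    rw [h5, sub_self] at this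
    exact hQ0 this
  rcases c₁ with c₁ | c₁ <;> rcases c₂ with c₂ | c₂ <;> rcases c₃ with c₃ | c₃
  · exact k12 (eq_of_same_class P A V hV1 hV2 h2 h₁ h₂ t₁ t₂ (Or.inl ⟨c₁, c₂⟩))
  · exact k12 (eq_of_same_class P A V hV1 hV2 h2 h₁ h₂ t₁ t₂ (Or.inl ⟨c₁, c₂⟩))
  · exact k13 (eq_of_same_class P A V hV1 hV2 h2 h₁ h₃ t₁ t₃ (Or.inl ⟨c₁, c₃⟩))
  · exact k23 (eq_of_same_class P A V hV1 hV2 h2 h₂ h₃ t₂ t₃ (Or.inr ⟨c₂, c₃⟩))
  · exact k23 (eq_of_same_class P A V hV1 hV2 h2 h₂ h₃ t₂ t₃ (Or.inl ⟨c₂, c₃⟩))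
  · exact k13 (eq_of_same_class P A V hV1 hV2 h2 h₁ h₃ t₁ t₃ (Or.inr ⟨c₁, c₃⟩))
  · exact k12 (eq_of_same_class P A V hV1 hV2 h2 h₁ h₂ t₁ t₂ (Or.inr ⟨c₁, c₂⟩))
  · exact k12 (eq_of_same_class P A V hV1 hV2 h2 h₁ h₂ t₁ t₂ (Or.inr ⟨c₁, c₂⟩))

end Local

end Fermat.Agent.S13.NoRat

namespace Fermat.Agent.S13

open Fermat.Agent.S05 WeierstrassCurve WeierstrassCurve.Affine

local notation "Qbar" => AlgebraicClosure ℚ

/-- [L2e] The Frey curve has no rational point of order `p`. -/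
theorem frey_no_rational_torsion (P : FreyPackage) (x y : ℚ)
    (h : (P.freyCurve⁄Qbar).Nonsingular (algebraMap ℚ Qbar x) (algebraMap ℚ Qbar y)) :
    P.p • (Point.some _ _ h : (P.freyCurve⁄Qbar).Point) ≠ 0 := by
  intro hp
  obtain ⟨A, hA⟩ := Mink.exists_liesOverPrime 2 Nat.prime_two
  obtain ⟨V, hV1, hV2, hV2lt, -, -⟩ := exists_rval' A Nat.prime_two hA
  have h2 : V.w (2 : Qbar) < 1 := by simpa using hV2lt
  have hxy : (P.freyCurve⁄ℚ).Nonsingular x y :=
    (P.freyCurve.toAffine.baseChange_nonsingular (f := Algebra.ofId ℚ Qbar)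
      (Algebra.ofId ℚ Qbar).injective x y).mp h
  refine NoRat.no_rat_tors_aux P A V hV1 hV2 h2 (Point.some x y hxy) (Point.some_ne_zero _) ?_
  apply Point.map_injective (W' := P.freyCurve) (Algebra.ofId ℚ Qbar)
  rw [map_nsmul, map_zero]
  exact hp

end Fermat.Agent.S13
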