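import Mathlib
import Fermat.Agent.S05.KerRed

/-!
# S13 piece (T1): coordinates of points, two-point identities, values of division polynomials
-/

set_option autoImplicit false

open WeierstrassCurve WeierstrassCurve.Affine Polynomial

namespace Fermat.Agent.S13

section T1

variable {K : Type*} [Field K] (W : Affine K)

/-- `x`-coordinate of a point (`0` at infinity). -/
def torX : W.Point → K
  | .zero => 0
  | .some x _ _ => x

/-- `ψ₂(P) = 2y + a₁x + a₃` (`0` at infinity). -/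
def torP2 : W.Point → K
  | .zero => 0
  | .some x y _ => 2 * y + W.a₁ * x + W.a₃

/-- value of the `n`-th division polynomial `ψ_n` at `(x, y)`. -/
noncomputable def torVal (W : WeierstrassCurve K) (x y : K) (n : ℕ) : K :=
  (W.ψ (n : ℤ)).evalEval x y

variable {W}

@[simp] theorem torX_some {x y : K} (h : W.Nonsingular x y) : torX W (Point.some x y h) = x := rfl

@[simp] theorem torP2_some {x y : K} (h : W.Nonsingular x y) :
    torP2 W (Point.some x y h) = 2 * y + W.a₁ * x + W.a₃ := rfl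

theorem torX_neg (P : W.Point) : torX W (-P) = torX W P := by
  cases P <;> rfl

theorem torP2_neg (P : W.Point) : torP2 W (-P) = -torP2 W P := by
  cases P with
  | zero => simp [torP2, ← Point.zero_def]
  | some x y h =>
    rw [Point.neg_some]
    simp only [torP2_some, negY]
    ring

theorem tor_Ψ₂Sq_eval (t : K) :
    W.Ψ₂Sq.eval t = 4 * t ^ 3 + W.b₂ * t ^ 2 + 2 * W.b₄ * t + W.b₆ := by
  simp [Ψ₂Sq]

theorem tor_Ψ₃_eval (t : K) :
    W.Ψ₃.eval t = 3 * t ^ 4 + W.b₂ * t ^ 3 + 3 * W.b₄ * t ^ 2 + 3 * W.b₆ * t + W.b₈ := by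
  simp [Ψ₃]

theorem tor_preΨ₄_eval (t : K) :
    W.preΨ₄.eval t = 2 * t ^ 6 + W.b₂ * t ^ 5 + 5 * W.b₄ * t ^ 4 + 10 * W.b₆ * t ^ 3 +
      10 * W.b₈ * t ^ 2 + (W.b₂ * W.b₈ - W.b₄ * W.b₆) * t + (W.b₄ * W.b₈ - W.b₆ ^ 2) := by
  simp [preΨ₄]

theorem torP2_sq {P : W.Point} (hP : P ≠ 0) : torP2 W P ^ 2 = W.Ψ₂Sq.eval (torX W P) := by
  cases P with
  | zero => exact absurd rfl hP
  | some x y h =>
    have h' := (W.equation_iff x y).mp h.1
    rw [tor_Ψ₂Sq_eval]
    simp only [torP2_some, torX_some, b₂, b₄, b₆]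
    linear_combination 4 * h'

theorem tor_eq_or_eq_neg {P Q : W.Point} (hP : P ≠ 0) (hQ : Q ≠ 0) (h : torX W P = torX W Q) :
    P = Q ∨ P = -Q := by
  cases P with
  | zero => exact absurd rfl hP
  | some x₁ y₁ h₁ =>
    cases Q with
    | zero => exact absurd rfl hQ
    | some x₂ y₂ h₂ => exact Point.X_eq_iff.mp h

/-- Two-point identities (I) and (II). -/
theorem tor_two_point [DecidableEq K] {U V : W.Point} (hU : U ≠ 0) (hV : V ≠ 0)
    (hx : torX W U ≠ torX W V) :
    U + V ≠ 0 ∧ U - V ≠ 0 ∧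
    (torX W (U + V) - torX W V) * (torX W (U - V) - torX W V) * (torX W U - torX W V) ^ 2 =
      (torX W V ^ 4 - W.b₄ * torX W V ^ 2 - 2 * W.b₆ * torX W V - W.b₈)
        - torX W U * W.Ψ₂Sq.eval (torX W V) ∧
    (torX W (U + V) - torX W (U - V)) * (torX W U - torX W V) ^ 2 = -(torP2 W U * torP2 W V) := by
  cases U with
  | zero => exact absurd rfl hU
  | some x₁ y₁ h₁ =>
    cases V with
    | zero => exact absurd rfl hV
    | some x₂ y₂ h₂ =>
      simp only [torX_some] at hx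
      have hadd : Point.some x₁ y₁ h₁ + Point.some x₂ y₂ h₂ = _ := Point.add_of_X_ne hx
      have hsub : Point.some x₁ y₁ h₁ - Point.some x₂ y₂ h₂ =
          Point.some x₁ y₁ h₁ + Point.some x₂ (W.negY x₂ y₂) ((nonsingular_neg ..).mpr h₂) := by
        rw [sub_eq_add_neg, Point.neg_some]
      have hsub2 : Point.some x₁ y₁ h₁ + Point.some x₂ (W.negY x₂ y₂) ((nonsingular_neg ..).mpr h₂)
          = _ := Point.add_of_X_ne hx
      rw [hsub, hadd, hsub2]
      refine ⟨Point.some_ne_zero _, Point.some_ne_zero _, ?_, ?_⟩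
      · have hs := Fermat.Agent.S05.KerRed.addX_add_addX W h₁.1 h₂.1 hx
        have hp := Fermat.Agent.S05.KerRed.addX_mul_addX W h₁.1 h₂.1 hx
        simp only [torX_some, tor_Ψ₂Sq_eval]
        linear_combination hp - x₂ * hs
      · simp only [torX_some, torP2_some]
        rw [slope_of_X_ne hx, slope_of_X_ne hx]
        have hd : x₁ - x₂ ≠ 0 := sub_ne_zero.mpr hx
        simp only [addX, negY]
        field_simp
        ring

theorem tor_dbl_eq_zero_iff [DecidableEq K] {U : W.Point} (hU : U ≠ 0) :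
    U + U = 0 ↔ torP2 W U = 0 := by
  cases U with
  | zero => exact absurd rfl hU
  | some x y h =>
    simp only [torP2_some]
    constructor
    · intro h0
      by_contra hne
      have hy : y ≠ W.negY x y := by
        intro hy
        apply hne
        simp only [negY] at hy
        linear_combination hy
      rw [Point.add_self_of_Y_ne hy] at h0
      exact Point.some_ne_zero _ h0
    · intro h0
      have hy : y = W.negY x y := by
        simp only [negY]
        linear_combination h0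
      exact Point.add_self_of_Y_eq hy

theorem tor_phi2_identity (t : K) :
    t ^ 4 - W.b₄ * t ^ 2 - 2 * W.b₆ * t - W.b₈ - t * W.Ψ₂Sq.eval t = -W.Ψ₃.eval t := by
  rw [tor_Ψ₂Sq_eval, tor_Ψ₃_eval]
  ring

/-- small case `n = 4`. -/
theorem tor_small4 (t : K) :
    W.preΨ₄.eval t = W.Ψ₃.eval t * (6 * t ^ 2 + W.b₂ * t + W.b₄) - W.Ψ₂Sq.eval t ^ 2 := by
  rw [tor_Ψ₂Sq_eval, tor_Ψ₃_eval, tor_preΨ₄_eval]
  linear_combination (t ^ 2) * W.b_relation

/-- Duplication formulas. -/
theorem tor_dbl [DecidableEq K] {U : W.Point} (hU : U ≠ 0) (h2 : torP2 W U ≠ 0) :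
    U + U ≠ 0 ∧ (torX W (U + U) - torX W U) * torP2 W U ^ 2 = -W.Ψ₃.eval (torX W U) ∧
    torP2 W (U + U) * torP2 W U ^ 3 = W.preΨ₄.eval (torX W U) := by
  cases U with
  | zero => exact absurd rfl hU
  | some x y h =>
    simp only [torP2_some] at h2
    have hη : y - W.negY x y = 2 * y + W.a₁ * x + W.a₃ := by
      simp only [negY]; ring
    have hy : y ≠ W.negY x y := by
      intro hy
      apply h2
      rw [← hη, sub_eq_zero]
      exact hy
    rw [Point.add_self_of_Y_ne hy]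
    have hnum := Fermat.Agent.S05.KerRed.dbl_num W h.1 hy
    have hden := Fermat.Agent.S05.KerRed.dbl_den W h.1
    rw [hη] at hnum hden
    have hx' : (W.addX x x (W.slope x x y y) - x) * (2 * y + W.a₁ * x + W.a₃) ^ 2 =
        -W.Ψ₃.eval x := by
      rw [← tor_phi2_identity, tor_Ψ₂Sq_eval]
      linear_combination hnum - x * hden
    refine ⟨Point.some_ne_zero _, ?_, ?_⟩
    · simpa only [torX_some, torP2_some] using hx'
    · simp only [torX_some, torP2_some]
      rw [tor_small4]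
      have hden' : W.Ψ₂Sq.eval x = (2 * y + W.a₁ * x + W.a₃) ^ 2 := by
        rw [tor_Ψ₂Sq_eval]; exact hden.symm
      rw [hden']
      have hL : W.slope x x y y * (2 * y + W.a₁ * x + W.a₃) =
          3 * x ^ 2 + 2 * W.a₂ * x + W.a₄ - W.a₁ * y := by
        rw [slope_of_Y_ne rfl hy, hη]
        exact div_mul_cancel₀ _ h2
      generalize W.Ψ₃.eval x = P3 at hx' ⊢
      generalize W.slope x x y y = L at hL hx' ⊢
      simp only [addY, negAddY, negY, b₂, b₄]
      generalize W.addX x x L = x' at hx' ⊢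
      linear_combination (-(2 * (x' - x) * (2 * y + W.a₁ * x + W.a₃) ^ 2)) * hL -
        (6 * x ^ 2 + (W.a₁ ^ 2 + 4 * W.a₂) * x + (2 * W.a₄ + W.a₁ * W.a₃)) * hx'

/-- small case `n = 3`: a nonsingular `2`-torsion point is not a zero of `Ψ₃`. -/
theorem tor_small3 {x y : K} (h : W.Nonsingular x y) (h2 : 2 * y + W.a₁ * x + W.a₃ = 0) :
    W.Ψ₃.eval x ≠ 0 := by
  have hE := (W.equation_iff x y).mp h.1
  have hns := ((W.nonsingular_iff x y).mp h).2
  have hG : 3 * x ^ 2 + 2 * W.a₂ * x + W.a₄ - W.a₁ * y ≠ 0 := by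
    rcases hns with hns | hns
    · intro h0
      apply hns
      linear_combination -h0
    · exfalso
      apply hns
      linear_combination h2
  have key : W.Ψ₃.eval x = -(3 * x ^ 2 + 2 * W.a₂ * x + W.a₄ - W.a₁ * y) ^ 2 := by
    rw [tor_Ψ₃_eval]
    simp only [b₂, b₄, b₆, b₈]
    linear_combination (-(W.a₁ * (3 * x ^ 2 + 2 * W.a₂ * x + W.a₄ - W.a₁ * y)) +
      (W.a₂ + 3 * x) * (2 * y + W.a₁ * x + W.a₃)) * h2 - (W.a₁ ^ 2 + 4 * W.a₂ + 12 * x) * hE
  rw [key]
  exact neg_ne_zero.mpr (pow_ne_zero 2 hG)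

/-! ### values of division polynomials -/

variable {W : WeierstrassCurve K}

theorem torVal_zero (x y : K) : torVal W x y 0 = 0 := by
  simp [torVal]

theorem torVal_one (x y : K) : torVal W x y 1 = 1 := by
  simp [torVal]

theorem torVal_two (x y : K) : torVal W x y 2 = 2 * y + W.a₁ * x + W.a₃ := by
  have : W.ψ ((2 : ℕ) : ℤ) = W.ψ₂ := by exact_mod_cast W.ψ_two
  rw [torVal, this, ψ₂, Affine.evalEval_polynomialY]

theorem torVal_three (x y : K) : torVal W x y 3 = W.Ψ₃.eval x := by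
  have : W.ψ ((3 : ℕ) : ℤ) = C W.Ψ₃ := by exact_mod_cast W.ψ_three
  rw [torVal, this, evalEval_C]

theorem torVal_four (x y : K) : torVal W x y 4 = W.preΨ₄.eval x * torVal W x y 2 := by
  have : W.ψ ((4 : ℕ) : ℤ) = C W.preΨ₄ * W.ψ₂ := by exact_mod_cast W.ψ_four
  rw [torVal_two, torVal, this, ψ₂]
  have := (evalEvalRingHom x y).map_mul (C W.preΨ₄) W.toAffine.polynomialY
  simp only [coe_evalEvalRingHom] at this
  rw [this, evalEval_C, Affine.evalEval_polynomialY]

theorem torVal_odd (x y : K) (m : ℕ) :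
    torVal W x y (2 * (m + 1) + 1) =
      torVal W x y (m + 3) * torVal W x y (m + 1) ^ 3 - torVal W x y m * torVal W x y (m + 2) ^ 3 := by
  have h := W.ψ_odd ((m : ℤ) + 1)
  have e1 : ((2 * (m + 1) + 1 : ℕ) : ℤ) = 2 * ((m : ℤ) + 1) + 1 := by push_cast; ring
  have e2 : ((m + 3 : ℕ) : ℤ) = (m : ℤ) + 1 + 2 := by push_cast; ring
  have e3 : ((m + 1 : ℕ) : ℤ) = (m : ℤ) + 1 := by push_cast; ring
  have e4 : ((m : ℕ) : ℤ) = (m : ℤ) + 1 - 1 := by ring
  have e5 : ((m + 2 : ℕ) : ℤ) = (m : ℤ) + 1 + 1 := by push_cast; ring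
  simp only [torVal]
  rw [e1, e2, e3, e5, h]
  have := congrArg (evalEvalRingHom x y) h
  simp only [map_sub, map_mul, map_pow, coe_evalEvalRingHom] at this
  rw [← h, this]
  congr 2
  rw [← e4]

theorem torVal_even (x y : K) (m : ℕ) :
    torVal W x y (2 * (m + 2)) * torVal W x y 2 =
      torVal W x y (m + 1) ^ 2 * torVal W x y (m + 2) * torVal W x y (m + 4)
        - torVal W x y m * torVal W x y (m + 2) * torVal W x y (m + 3) ^ 2 := by
  have h := W.ψ_even ((m : ℤ) + 2)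
  have h' := congrArg (evalEvalRingHom x y) h
  simp only [map_sub, map_mul, map_pow, coe_evalEvalRingHom] at h'
  have e1 : ((2 * (m + 2) : ℕ) : ℤ) = 2 * ((m : ℤ) + 2) := by push_cast; ring
  have e2 : ((m + 1 : ℕ) : ℤ) = (m : ℤ) + 2 - 1 := by push_cast; ring
  have e3 : ((m + 2 : ℕ) : ℤ) = (m : ℤ) + 2 := by push_cast; ring
  have e4 : ((m + 4 : ℕ) : ℤ) = (m : ℤ) + 2 + 2 := by push_cast; ring
  have e5 : ((m : ℕ) : ℤ) = (m : ℤ) + 2 - 2 := by ring
  have e6 : ((m + 3 : ℕ) : ℤ) = (m : ℤ) + 2 + 1 := by push_cast; ring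
  have e7 : torVal W x y 2 = W.ψ₂.evalEval x y := by
    rw [torVal_two, ψ₂, Affine.evalEval_polynomialY]
  rw [e7]
  simp only [torVal]
  rw [e1, e2, e3, e4, e6, h']
  congr 3
  rw [← e5]

/-- On the curve, `ψ_n(x,y) = preΨ'_n(x) · (ψ₂(x,y) if n even)`. -/
theorem torVal_eq {x y : K} (h : W.toAffine.Equation x y) (n : ℕ) :
    torVal W x y n = (W.preΨ' n).eval x * if Even n then 2 * y + W.a₁ * x + W.a₃ else 1 := by
  have h1 := Affine.CoordinateRing.mk_ψ W (n : ℤ)
  rw [Affine.CoordinateRing.mk, AdjoinRoot.mk_eq_mk] at h1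
  obtain ⟨r, hr⟩ := h1
  have h2 := congrArg (evalEvalRingHom x y) hr
  simp only [map_sub, map_mul, coe_evalEvalRingHom] at h2
  have h3 : W.toAffine.polynomial.evalEval x y = 0 := h
  rw [h3, zero_mul, sub_eq_zero] at h2
  rw [torVal, h2, Ψ_ofNat]
  have h4 := (evalEvalRingHom x y).map_mul (C (W.preΨ' n)) (if Even n then W.ψ₂ else 1)
  simp only [coe_evalEvalRingHom] at h4
  rw [h4, evalEval_C]
  split_ifs
  · rw [ψ₂, Affine.evalEval_polynomialY]
  · simp

theorem torVal_map {L : Type*} [Field L] (f : K →+* L) (x y : K) (n : ℕ) :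
    torVal (W.map f) (f x) (f y) n = f (torVal W x y n) := by
  rw [torVal, torVal, map_ψ, map_mapRingHom_evalEval]

end T1

end Fermat.Agent.S13
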