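import Mathlib
import Fermat.Agent.S13.TorAlg

/-!
# S13 piece (T2): the multiplication formula at a point where no division polynomial vanishes
-/

set_option autoImplicit false

open WeierstrassCurve WeierstrassCurve.Affine Polynomial

namespace Fermat.Agent.S13

/-! ### Pure field identities -/

section Alg

variable {K : Type*} [Field K]

theorem torR1_alg (x x1 x2 x3 t a2 A0 A1 A2 A3 A4 B : K)
    (h1 : (x1 - x) * A1 ^ 2 = -(A2 * A0))
    (h2 : (x2 - x) * A2 ^ 2 = -(A3 * A1))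
    (h3 : (x3 - x) * A3 ^ 2 = -(A4 * A2))
    (hII : (x3 - x1) * (x2 - x) ^ 2 = -(t * a2))
    (hE : B * a2 = A1 ^ 2 * A2 * A4 - A0 * A2 * A3 ^ 2) :
    t * A2 ^ 4 * (a2 * (A1 ^ 2 * A3 ^ 2)) = B * (a2 * (A1 ^ 2 * A3 ^ 2)) := by
  have hq : (x2 - x) ^ 2 * A2 ^ 4 = A3 ^ 2 * A1 ^ 2 := by
    linear_combination ((x2 - x) * A2 ^ 2 - A3 * A1) * h2
  have hd : (x3 - x1) * (A1 ^ 2 * A3 ^ 2) = -(B * a2) := by
    linear_combination A1 ^ 2 * h3 - A3 ^ 2 * h1 + hE
  linear_combination (A2 ^ 4 * A1 ^ 2 * A3 ^ 2) * hII - ((x3 - x1) * A1 ^ 2 * A3 ^ 2) * hq -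
    (A1 ^ 2 * A3 ^ 2) * hd

/-- difference of consecutive `x`-coordinates. -/
theorem torDiff_alg (x xV xU A0 A1 A2 A3 C : K)
    (hX1 : (xV - x) * A1 ^ 2 = -(A2 * A0))
    (hX2 : (xU - x) * A2 ^ 2 = -(A3 * A1))
    (hO : C = A3 * A1 ^ 3 - A0 * A2 ^ 3) :
    (xU - xV) * (A1 ^ 2 * A2 ^ 2) = -C := by
  linear_combination A1 ^ 2 * hX2 - A2 ^ 2 * hX1 + hO

theorem torR2_alg (x xV xU X' tU tV A1 A2 C D1 D2 : K)
    (hd : (xU - xV) * (A1 ^ 2 * A2 ^ 2) = -C)
    (hII : (X' - x) * (xU - xV) ^ 2 = -(tU * tV))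
    (hY1 : tV * A1 ^ 4 = D1) (hY2 : tU * A2 ^ 4 = D2) :
    (X' - x) * C ^ 2 = -(D2 * D1) := by
  linear_combination (A1 ^ 4 * A2 ^ 4) * hII - (tV * A1 ^ 4) * hY2 - D2 * hY1 -
    ((X' - x) * ((xU - xV) * A1 ^ 2 * A2 ^ 2 - C)) * hd

theorem torR3_alg (x xq xm xp X2 t A0 A1 A2 A3 A4 B Cp Cm Φ S P3 : K)
    (hX1 : (xq - x) * A1 ^ 2 = -(A2 * A0))
    (hX2 : (xm - x) * A2 ^ 2 = -(A3 * A1))
    (hX3 : (xp - x) * A3 ^ 2 = -(A4 * A2))
    (hY : t * A2 ^ 4 = B)
    (hO2 : Cp = A4 * A2 ^ 3 - A1 * A3 ^ 3)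
    (hO1 : Cm = A3 * A1 ^ 3 - A0 * A2 ^ 3)
    (hI : (xp - xm) * (xq - xm) * (x - xm) ^ 2 = Φ - x * S)
    (hdup : (X2 - xm) * t ^ 2 = -P3)
    (hsq : t ^ 2 = S)
    (hphi : Φ - xm * S = -P3) :
    (X2 - x) * B ^ 2 * (A3 ^ 2 * A1 ^ 2) = -(Cp * Cm) * (A3 ^ 2 * A1 ^ 2) := by
  have hkey : (X2 - x) * t ^ 2 = (xp - xm) * (xq - xm) * (x - xm) ^ 2 := by
    linear_combination hdup + (xm - x) * hsq - hI - hphi
  have hp : (xp - xm) * (A3 ^ 2 * A2 ^ 2) = -Cp := by
    linear_combination A2 ^ 2 * hX3 - A3 ^ 2 * hX2 + hO2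
  have hq : (xq - xm) * (A1 ^ 2 * A2 ^ 2) = Cm := by
    linear_combination A2 ^ 2 * hX1 - A1 ^ 2 * hX2 - hO1
  have hs : (x - xm) ^ 2 * A2 ^ 4 = A3 ^ 2 * A1 ^ 2 := by
    linear_combination ((xm - x) * A2 ^ 2 - A3 * A1) * hX2
  linear_combination (A2 ^ 8 * A3 ^ 2 * A1 ^ 2) * hkey +
    (((xq - xm) * A1 ^ 2 * A2 ^ 2) * ((x - xm) ^ 2 * A2 ^ 4)) * hp -
    (Cp * ((x - xm) ^ 2 * A2 ^ 4)) * hq - (Cp * Cm) * hs -
    ((X2 - x) * A3 ^ 2 * A1 ^ 2 * (t * A2 ^ 4 + B)) * hY

end Alg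

section T2

variable {K : Type*} [Field K] [DecidableEq K] {W : Affine K}

/-- `X(n)`: `n • P` is affine and `(x(nP) − x) ψ_n² = −ψ_{n+1} ψ_{n−1}`. -/
def TorXF (W : Affine K) (x y : K) (P : W.Point) (n : ℕ) : Prop :=
  n • P ≠ 0 ∧
    (torX W (n • P) - x) * torVal W x y n ^ 2 = -(torVal W x y (n + 1) * torVal W x y (n - 1))

/-- `Y(n)`: `ψ₂(nP) ψ_n⁴ = ψ_{2n}`. -/
def TorYF (W : Affine K) (x y : K) (P : W.Point) (n : ℕ) : Prop :=
  torP2 W (n • P) * torVal W x y n ^ 4 = torVal W x y (2 * n)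

variable {x y : K} (h : W.Nonsingular x y)

theorem torXF_one : TorXF W x y (Point.some x y h) 1 := by
  refine ⟨?_, ?_⟩
  · rw [one_nsmul]; exact Point.some_ne_zero _
  · simp [torVal_zero]

theorem torYF_one : TorYF W x y (Point.some x y h) 1 := by
  unfold TorYF
  rw [one_nsmul, torVal_one, mul_one, torVal_two]
  simp

theorem torXF_two (h2 : torVal W x y 2 ≠ 0) : TorXF W x y (Point.some x y h) 2 := by
  have hP : Point.some x y h ≠ 0 := Point.some_ne_zero _
  have h2' : torP2 W (Point.some x y h) ≠ 0 := by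
    rw [torP2_some, ← torVal_two]; exact h2
  obtain ⟨hne, hx, -⟩ := tor_dbl hP h2'
  refine ⟨?_, ?_⟩
  · rw [two_nsmul]; exact hne
  · rw [two_nsmul]
    rw [torP2_some, ← torVal_two, torX_some] at hx
    rw [hx]
    simp [torVal_three, torVal_one]

theorem torYF_two (h2 : torVal W x y 2 ≠ 0) : TorYF W x y (Point.some x y h) 2 := by
  have hP : Point.some x y h ≠ 0 := Point.some_ne_zero _
  have h2' : torP2 W (Point.some x y h) ≠ 0 := by
    rw [torP2_some, ← torVal_two]; exact h2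
  obtain ⟨-, -, hp⟩ := tor_dbl hP h2'
  unfold TorYF
  rw [two_nsmul]
  rw [torP2_some, ← torVal_two, torX_some] at hp
  have e : (2 * 2 : ℕ) = 4 := rfl
  rw [e, torVal_four, ← hp]
  ring

variable (hne : ∀ k : ℕ, k ≠ 0 → torVal W x y k ≠ 0)

include hne in
theorem torYF_of_XF (j : ℕ) (h1 : TorXF W x y (Point.some x y h) (j + 1))
    (h2 : TorXF W x y (Point.some x y h) (j + 2)) (h3 : TorXF W x y (Point.some x y h) (j + 3)) :
    TorYF W x y (Point.some x y h) (j + 2) := by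
  set P := Point.some x y h with hPdef
  have hP : P ≠ 0 := Point.some_ne_zero _
  obtain ⟨-, e1⟩ := h1
  obtain ⟨hU, e2⟩ := h2
  obtain ⟨-, e3⟩ := h3
  simp only [Nat.add_sub_cancel] at e1 e2 e3
  have hA1 := hne (j + 1) (by omega)
  have hA2 := hne (j + 2) (by omega)
  have hA3 := hne (j + 3) (by omega)
  have ha2 := hne 2 (by omega)
  have hxP : torX W P = x := rfl
  have hx : torX W ((j + 2) • P) ≠ torX W P := by
    rw [hxP]
    intro hx
    rw [hx, sub_self, zero_mul] at e2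
    have : torVal W x y (j + 3) * torVal W x y (j + 1) = 0 := by
      have := e2.symm; rwa [neg_eq_zero] at this
    exact mul_ne_zero hA3 hA1 this
  obtain ⟨-, -, -, hII⟩ := tor_two_point hU hP hx
  have hadd : (j + 2) • P + P = (j + 3) • P := (succ_nsmul P (j + 2)).symm
  have hsub : (j + 2) • P - P = (j + 1) • P := by
    rw [succ_nsmul P (j + 1)]; abel
  rw [hadd, hsub, hxP] at hII
  have hP2 : torP2 W P = torVal W x y 2 := by
    rw [torVal_two]; rfl
  rw [hP2] at hII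
  have hE := torVal_even (W := W) x y j
  unfold TorYF
  have hmul : torVal W x y 2 * (torVal W x y (j + 1) ^ 2 * torVal W x y (j + 3) ^ 2) ≠ 0 :=
    mul_ne_zero ha2 (mul_ne_zero (pow_ne_zero 2 hA1) (pow_ne_zero 2 hA3))
  apply mul_right_cancel₀ hmul
  exact torR1_alg x _ _ _ _ _ _ _ _ _ _ _ e1 e2 e3 hII hE

include hne in
theorem torXF_odd (k : ℕ) (h1 : TorXF W x y (Point.some x y h) (k + 1))
    (h2 : TorXF W x y (Point.some x y h) (k + 2))
    (hY1 : TorYF W x y (Point.some x y h) (k + 1))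
    (hY2 : TorYF W x y (Point.some x y h) (k + 2)) :
    TorXF W x y (Point.some x y h) (2 * (k + 1) + 1) := by
  set P := Point.some x y h with hPdef
  have hP : P ≠ 0 := Point.some_ne_zero _
  obtain ⟨hV, e1⟩ := h1
  obtain ⟨hU, e2⟩ := h2
  simp only [Nat.add_sub_cancel] at e1 e2
  have hA1 := hne (k + 1) (by omega)
  have hA2 := hne (k + 2) (by omega)
  have hC := hne (2 * (k + 1) + 1) (by omega)
  have hO := torVal_odd (W := W) x y k
  have hd := torDiff_alg x _ _ _ _ _ _ _ e1 e2 hO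
  have hx : torX W ((k + 2) • P) ≠ torX W ((k + 1) • P) := by
    intro hx
    rw [hx, sub_self, zero_mul] at hd
    exact hC (neg_eq_zero.mp hd.symm)
  obtain ⟨hne', -, -, hII⟩ := tor_two_point hU hV hx
  have hadd : (k + 2) • P + (k + 1) • P = (2 * (k + 1) + 1) • P := by
    rw [← add_nsmul]; congr 1; ring
  have hsub : (k + 2) • P - (k + 1) • P = P := by
    rw [succ_nsmul P (k + 1)]; abel
  rw [hadd, hsub] at hII
  rw [hadd] at hne'
  have hxP : torX W P = x := rfl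
  rw [hxP] at hII
  refine ⟨hne', ?_⟩
  unfold TorYF at hY1 hY2
  have en1 : 2 * (k + 1) + 1 + 1 = 2 * (k + 2) := by ring
  have en2 : 2 * (k + 1) + 1 - 1 = 2 * (k + 1) := by omega
  rw [en1, en2]
  exact torR2_alg x _ _ _ _ _ _ _ _ _ _ hd hII hY1 hY2

include hne in
theorem torXF_even (k : ℕ) (h1 : TorXF W x y (Point.some x y h) (k + 1))
    (h2 : TorXF W x y (Point.some x y h) (k + 2)) (h3 : TorXF W x y (Point.some x y h) (k + 3))
    (hY : TorYF W x y (Point.some x y h) (k + 2)) :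
    TorXF W x y (Point.some x y h) (2 * (k + 2)) := by
  set P := Point.some x y h with hPdef
  have hP : P ≠ 0 := Point.some_ne_zero _
  obtain ⟨-, e1⟩ := h1
  obtain ⟨hV, e2⟩ := h2
  obtain ⟨-, e3⟩ := h3
  simp only [Nat.add_sub_cancel] at e1 e2 e3
  have hA1 := hne (k + 1) (by omega)
  have hA2 := hne (k + 2) (by omega)
  have hA3 := hne (k + 3) (by omega)
  have hB := hne (2 * (k + 2)) (by omega)
  unfold TorYF at hY
  have hxP : torX W P = x := rfl
  have hx : torX W P ≠ torX W ((k + 2) • P) := by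
    rw [hxP]
    intro hx
    rw [← hx, sub_self, zero_mul] at e2
    have : torVal W x y (k + 3) * torVal W x y (k + 1) = 0 := by
      have := e2.symm; rwa [neg_eq_zero] at this
    exact mul_ne_zero hA3 hA1 this
  obtain ⟨-, -, hI, -⟩ := tor_two_point hP hV hx
  have hadd : P + (k + 2) • P = (k + 3) • P := (succ_nsmul' P (k + 2)).symm
  have hsub : P - (k + 2) • P = -((k + 1) • P) := by
    rw [succ_nsmul P (k + 1)]; abel
  rw [hadd, hsub, torX_neg, hxP] at hI
  -- duplication at `V = (k+2) • P`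
  have ht : torP2 W ((k + 2) • P) ≠ 0 := by
    intro ht
    rw [ht, zero_mul] at hY
    exact hB hY.symm
  obtain ⟨hne2, hdup, -⟩ := tor_dbl hV ht
  have hdbl : (k + 2) • P + (k + 2) • P = (2 * (k + 2)) • P := by
    rw [← add_nsmul]; congr 1; ring
  rw [hdbl] at hne2 hdup
  have hsq := torP2_sq hV
  have hphi := tor_phi2_identity (W := W) (torX W ((k + 2) • P))
  have hO2 := torVal_odd (W := W) x y (k + 1)
  have hO1 := torVal_odd (W := W) x y k
  refine ⟨hne2, ?_⟩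
  have en2 : 2 * (k + 2) - 1 = 2 * (k + 1) + 1 := by omega
  rw [en2]
  have hmul : torVal W x y (k + 3) ^ 2 * torVal W x y (k + 1) ^ 2 ≠ 0 :=
    mul_ne_zero (pow_ne_zero 2 hA3) (pow_ne_zero 2 hA1)
  apply mul_right_cancel₀ hmul
  exact torR3_alg x _ _ _ _ _ _ _ _ _ _ _ _ _ _ _ _ e1 e2 e3 hY hO2 hO1 hI hdup hsq hphi

include hne in
/-- (GF) If `ψ_k(P) ≠ 0` for all `k ≥ 1`, then `n • P` is affine and
`(x(nP) − x(P)) ψ_n² = −ψ_{n+1} ψ_{n−1}`. -/
theorem tor_generic (n : ℕ) (hn : n ≠ 0) :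
    n • Point.some x y h ≠ 0 ∧
      (torX W (n • Point.some x y h) - x) * torVal W x y n ^ 2 =
        -(torVal W x y (n + 1) * torVal W x y (n - 1)) := by
  have key : ∀ n : ℕ, n ≠ 0 → TorXF W x y (Point.some x y h) n := by
    intro n
    induction n using Nat.strong_induction_on with
    | _ n ih =>
      intro hn
      obtain ⟨m, rfl | rfl⟩ := Nat.even_or_odd' n
      · -- n = 2 m
        match m, ih, hn with
        | 0, _, hn => exact absurd rfl hn
        | 1, _, _ => exact torXF_two h (hne 2 (by omega))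
        | k + 2, ih, _ =>
          have h1 := ih (k + 1) (by omega) (by omega)
          have h2 := ih (k + 2) (by omega) (by omega)
          have h3 := ih (k + 3) (by omega) (by omega)
          exact torXF_even h hne k h1 h2 h3 (torYF_of_XF h hne k h1 h2 h3)
      · -- n = 2 m + 1
        match m, ih, hn with
        | 0, _, _ => exact torXF_one h
        | 1, ih, _ =>
          exact torXF_odd h hne 0 (torXF_one h) (torXF_two h (hne 2 (by omega))) (torYF_one h)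
            (torYF_two h (hne 2 (by omega)))
        | k + 2, ih, _ =>
          have h1 := ih (k + 1) (by omega) (by omega)
          have h2 := ih (k + 2) (by omega) (by omega)
          have h3 := ih (k + 3) (by omega) (by omega)
          have h4 := ih (k + 4) (by omega) (by omega)
          exact torXF_odd h hne (k + 1) h2 h3 (torYF_of_XF h hne k h1 h2 h3)
            (torYF_of_XF h hne (k + 1) h2 h3 h4)
  exact key n hn

end T2

end Fermat.Agent.S13
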