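import Mathlib
import Fermat.Agent.S05.KerRed
import Fermat.Agent.S13.TorAlg

/-!
# S13 piece (T3): the generic point of a Weierstrass curve and its specialisation

`K = W.FunctionField`, generic point `Pg = (X, Y)`.  For a point `P₀ = (x₀, y₀)` of the curve we
choose a valuation subring `A` of `K` centred at `P₀` and compare the multiples of `Pg` with the
multiples of `P₀`.
-/

set_option autoImplicit false

open WeierstrassCurve WeierstrassCurve.Affine Polynomial

namespace Fermat.Agent.S13

/-! ### Valuation subring lemmas for points of an integral Weierstrass curve -/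

section Val

open Fermat.Agent.S05.KerRed

variable {K : Type*} [Field K] (A : ValuationSubring K)

lemma tor_trans_sum_identity {b₂ b₄ b₆ t q u x₃ x₄ : K} (e : q * u = 1)
    (hsum : (x₃ + x₄) * (t - q) ^ 2 = 2 * (t + q) * (t * q) + b₂ * (t * q) + b₄ * (t + q) + b₆) :
    (x₃ + x₄ - 2 * t) * (1 - u * t) ^ 2 =
      u * (6 * t ^ 2 - 2 * t ^ 3 * u + b₂ * t + b₄ * (t * u + 1) + b₆ * u) := by
  grind

lemma tor_trans_prod_identity {b₄ b₆ b₈ t q u x₃ x₄ : K} (e : q * u = 1)
    (hprod : x₃ * x₄ * (t - q) ^ 2 = (t * q) ^ 2 - b₄ * (t * q) - b₆ * (t + q) - b₈) :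
    (x₃ * x₄ - t ^ 2) * (1 - u * t) ^ 2 =
      u * (-b₄ * t - b₆ * (t * u + 1) - b₈ * u + 2 * t ^ 3 - u * t ^ 4) := by
  grind

/-- If `α + β` and `α β` are nonunits then so is `α`. -/
lemma tor_mem_nonunits_of_sum_prod {α β : K} (hs : α + β ∈ A.nonunits)
    (hp : α * β ∈ A.nonunits) : α ∈ A.nonunits := by
  rw [ValuationSubring.mem_nonunits_iff] at hs hp ⊢
  by_contra hc
  push Not at hc
  have h1 : A.valuation β = A.valuation α := by
    have e : β = (α + β) - α := by ring
    rw [e, Valuation.map_sub_eq_of_lt_right]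
    exact lt_of_lt_of_le hs hc
  rw [map_mul, h1] at hp
  have h2 : (1 : A.ValueGroup) ≤ A.valuation α * A.valuation α := one_le_mul_of_one_le_of_one_le hc hc
  exact absurd hp (not_lt.mpr h2)

/-- Core of the translation lemma: from the sum and product of `x(T+Q)`, `x(T-Q)` for `T`
integral and `Q` in the kernel of reduction. -/
lemma tor_trans_core {b₂ b₄ b₆ b₈ t q x₃ x₄ : K}
    (hb₂ : b₂ ∈ A) (hb₄ : b₄ ∈ A) (hb₆ : b₆ ∈ A) (hb₈ : b₈ ∈ A)
    (ht : t ∈ A) (hq : q ∉ A)
    (hsum : (x₃ + x₄) * (t - q) ^ 2 = 2 * (t + q) * (t * q) + b₂ * (t * q) + b₄ * (t + q) + b₆)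
    (hprod : x₃ * x₄ * (t - q) ^ 2 = (t * q) ^ 2 - b₄ * (t * q) - b₆ * (t + q) - b₈) :
    x₃ ∈ A ∧ x₃ - t ∈ A.nonunits := by
  have hq0 : q ≠ 0 := fun h => hq (h ▸ A.zero_mem)
  have hu : q⁻¹ ∈ A.nonunits := A.inv_mem_nonunits_iff.mpr (Or.inr hq)
  have huA : q⁻¹ ∈ A := nonunits_mem A hu
  have e : q * q⁻¹ = 1 := mul_inv_cancel₀ hq0
  have h2A : (2 : K) ∈ A := two_mem
  have h6A : (6 : K) ∈ A := by
    have : (6 : K) = 2 * (2 + 1) := by norm_num
    rw [this]
    exact A.mul_mem _ _ h2A (A.add_mem _ _ h2A A.one_mem)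
  set u := q⁻¹ with hudef
  have hD0 : 1 - u * t ≠ 0 := one_sub_mul_ne_zero A hu ht
  have hDinv : (1 - u * t)⁻¹ ∈ A := inv_one_sub_mul_mem A hu ht
  have hS := tor_trans_sum_identity (b₂ := b₂) (b₄ := b₄) (b₆ := b₆) e hsum
  have hP := tor_trans_prod_identity (b₄ := b₄) (b₆ := b₆) (b₈ := b₈) e hprod
  set c₂ := 6 * t ^ 2 - 2 * t ^ 3 * u + b₂ * t + b₄ * (t * u + 1) + b₆ * u with hc₂
  set c₃ := -b₄ * t - b₆ * (t * u + 1) - b₈ * u + 2 * t ^ 3 - u * t ^ 4 with hc₃
  have hc₂A : c₂ ∈ A := by
    rw [hc₂]
    exact A.add_mem _ _ (A.add_mem _ _ (A.add_mem _ _ (sub_mem (A.mul_mem _ _ h6A (pow_mem ht 2))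
      (A.mul_mem _ _ (A.mul_mem _ _ h2A (pow_mem ht 3)) huA)) (A.mul_mem _ _ hb₂ ht))
      (A.mul_mem _ _ hb₄ (A.add_mem _ _ (A.mul_mem _ _ ht huA) A.one_mem))) (A.mul_mem _ _ hb₆ huA)
  have hc₃A : c₃ ∈ A := by
    rw [hc₃]
    exact sub_mem (A.add_mem _ _ (sub_mem (sub_mem (A.mul_mem _ _ (neg_mem hb₄) ht)
      (A.mul_mem _ _ hb₆ (A.add_mem _ _ (A.mul_mem _ _ ht huA) A.one_mem))) (A.mul_mem _ _ hb₈ huA))
      (A.mul_mem _ _ h2A (pow_mem ht 3))) (A.mul_mem _ _ huA (pow_mem ht 4))
  have hDD : (1 - u * t) ^ 2 * ((1 - u * t)⁻¹) ^ 2 = 1 := by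
    rw [← mul_pow, mul_inv_cancel₀ hD0, one_pow]
  have hs : (x₃ - t) + (x₄ - t) = u * (c₂ * ((1 - u * t)⁻¹) ^ 2) := by
    have h1 : (x₃ - t) + (x₄ - t) =
        (x₃ + x₄ - 2 * t) * ((1 - u * t) ^ 2 * ((1 - u * t)⁻¹) ^ 2) := by
      rw [hDD]; ring
    rw [h1, ← mul_assoc, hS]
    ring
  have hp : (x₃ - t) * (x₄ - t) = u * ((c₃ - t * c₂) * ((1 - u * t)⁻¹) ^ 2) := by
    have h1 : (x₃ - t) * (x₄ - t) =
        ((x₃ * x₄ - t ^ 2) * (1 - u * t) ^ 2 - t * ((x₃ + x₄ - 2 * t) * (1 - u * t) ^ 2)) *
          ((1 - u * t)⁻¹) ^ 2 := by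
      have h2 : ((x₃ * x₄ - t ^ 2) * (1 - u * t) ^ 2 -
          t * ((x₃ + x₄ - 2 * t) * (1 - u * t) ^ 2)) * ((1 - u * t)⁻¹) ^ 2 =
          ((x₃ * x₄ - t ^ 2) - t * (x₃ + x₄ - 2 * t)) *
            ((1 - u * t) ^ 2 * ((1 - u * t)⁻¹) ^ 2) := by ring
      rw [h2, hDD]
      ring
    rw [h1, hS, hP]
    ring
  have hs' : (x₃ - t) + (x₄ - t) ∈ A.nonunits := by
    rw [hs]
    exact mul_mem_nonunits_of_mem A (A.mul_mem _ _ hc₂A (pow_mem hDinv 2)) hu
  have hp' : (x₃ - t) * (x₄ - t) ∈ A.nonunits := by
    rw [hp]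
    exact mul_mem_nonunits_of_mem A
      (A.mul_mem _ _ (sub_mem hc₃A (A.mul_mem _ _ ht hc₂A)) (pow_mem hDinv 2)) hu
  have hα := tor_mem_nonunits_of_sum_prod A hs' hp'
  refine ⟨?_, hα⟩
  have : x₃ = (x₃ - t) + t := by ring
  rw [this]
  exact A.add_mem _ _ (nonunits_mem A hα) ht

end Val

section Points

open Fermat.Agent.S05.KerRed

variable {K : Type*} [Field K] [DecidableEq K] {A : ValuationSubring K} {W : Affine K}

/-- Translation lemma: adding a point of the kernel of reduction to an affine point with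
integral `x`-coordinate does not change the `x`-coordinate modulo the maximal ideal. -/
theorem tor_add_inKer (hW : IntegralCoeffs A W) {t yt : K} (hT : W.Nonsingular t yt)
    (ht : t ∈ A) (Q : W.Point) (hQ : InKer A W Q) :
    ∃ (x₃ y₃ : K) (h₃ : W.Nonsingular x₃ y₃),
      Point.some t yt hT + Q = Point.some x₃ y₃ h₃ ∧ x₃ ∈ A ∧ x₃ - t ∈ A.nonunits := by
  cases Q with
  | zero =>
    refine ⟨t, yt, hT, by rw [← Point.zero_def, add_zero], ht, ?_⟩
    rw [sub_self, ValuationSubring.mem_nonunits_iff, map_zero]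
    exact zero_lt_one
  | some q yq hq =>
    have hqA : q ∉ A := hQ
    have hx : t ≠ q := fun h => hqA (h ▸ ht)
    rw [Point.add_of_X_ne hx]
    obtain ⟨h1, h2⟩ := tor_trans_core A hW.b₂_mem hW.b₄_mem hW.b₆_mem hW.b₈_mem ht hqA
      (addX_add_addX W hT.1 hq.1 hx) (addX_mul_addX W hT.1 hq.1 hx)
    exact ⟨_, _, _, rfl, h1, h2⟩

/-- Two congruent affine points, the first one integral with nonsingular reduction, differ by
an element of the kernel of reduction. -/
theorem tor_cong_inKer (hW : IntegralCoeffs A W) {x y x' y' : K} (h : W.Nonsingular x y)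
    (h' : W.Nonsingular x' y') (hx : x ∈ A) (hy : y ∈ A) (hxx : x' - x ∈ A.nonunits)
    (hyy : y' - y ∈ A.nonunits) (hne : x' ≠ x)
    (hns : W.a₁ * y - (3 * x ^ 2 + 2 * W.a₂ * x + W.a₄) ∉ A.nonunits ∨
      2 * y + W.a₁ * x + W.a₃ ∉ A.nonunits) :
    InKer A W (Point.some x' y' h' - Point.some x y h) := by
  obtain ⟨h₁, h₂, h₃, h₄, h₆⟩ := hW
  rw [sub_eq_add_neg, Point.neg_some, Point.add_of_X_ne hne]
  show W.addX x' x (W.slope x' x y' (W.negY x y)) ∉ A
  rw [slope_of_X_ne hne]
  have hD0 : x' - x ≠ 0 := sub_ne_zero.mpr hne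
  have hx' : x' ∈ A := by
    have : x' = (x' - x) + x := by ring
    rw [this]
    exact A.add_mem _ _ (nonunits_mem A hxx) hx
  have h2A : (2 : K) ∈ A := two_mem
  have hvD : A.valuation (x' - x) < 1 := A.mem_nonunits_iff.mp hxx
  have hvy : A.valuation (y' - y) < 1 := A.mem_nonunits_iff.mp hyy
  -- the slope has valuation `> 1`
  have hℓ : 1 < A.valuation ((y' - W.negY x y) / (x' - x)) := by
    rcases hns with hX | hY
    · -- `W_X` is a unit
      have heq := (equation_iff x y).mp h.1
      have heq' := (equation_iff x' y').mp h'.1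
      set G := x' ^ 2 + x' * x + x ^ 2 + W.a₂ * (x' + x) + W.a₄ - W.a₁ * y' with hG
      have hkey : (y' - y) * (y' - W.negY x y) = (x' - x) * G := by
        simp only [negY, hG]
        linear_combination heq' - heq
      have hGv : A.valuation G = 1 := by
        have e : G = -(W.a₁ * y - (3 * x ^ 2 + 2 * W.a₂ * x + W.a₄)) +
            ((x' - x) * (x' + 2 * x + W.a₂) - W.a₁ * (y' - y)) := by
          rw [hG]; ring
        have hu : A.valuation (W.a₁ * y - (3 * x ^ 2 + 2 * W.a₂ * x + W.a₄)) = 1 := by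
          have hmem : W.a₁ * y - (3 * x ^ 2 + 2 * W.a₂ * x + W.a₄) ∈ A := by
            have h3A : (3 : K) ∈ A := by
              have : (3 : K) = 2 + 1 := by norm_num
              rw [this]
              exact A.add_mem _ _ h2A A.one_mem
            exact sub_mem (A.mul_mem _ _ h₁ hy) (A.add_mem _ _ (A.add_mem _ _
              (A.mul_mem _ _ h3A (pow_mem hx 2)) (A.mul_mem _ _ (A.mul_mem _ _ h2A h₂) hx)) h₄)
          have hle := (A.valuation_le_one_iff _).mpr hmem
          have hnlt : ¬ A.valuation (W.a₁ * y - (3 * x ^ 2 + 2 * W.a₂ * x + W.a₄)) < 1 :=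
            fun hc => hX (A.mem_nonunits_iff.mpr hc)
          exact le_antisymm hle (not_lt.mp hnlt)
        have hsmall : A.valuation ((x' - x) * (x' + 2 * x + W.a₂) - W.a₁ * (y' - y)) < 1 := by
          have hm1 : (x' - x) * (x' + 2 * x + W.a₂) ∈ A.nonunits := by
            rw [mul_comm]
            exact mul_mem_nonunits_of_mem A
              (A.add_mem _ _ (A.add_mem _ _ hx' (A.mul_mem _ _ h2A hx)) h₂) hxx |> fun h => by
                rwa [mul_comm] at h
          have hm2 : W.a₁ * (y' - y) ∈ A.nonunits := by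
            rw [mul_comm]
            exact mul_mem_nonunits_of_mem A h₁ hyy
          rw [ValuationSubring.mem_nonunits_iff] at hm1 hm2
          exact lt_of_le_of_lt (Valuation.map_sub _ _ _) (max_lt hm1 hm2)
        rw [e, Valuation.map_add_eq_of_lt_left, Valuation.map_neg, hu]
        rw [Valuation.map_neg, hu]
        exact hsmall
      have hG0 : G ≠ 0 := by
        intro h0
        rw [h0, map_zero] at hGv
        exact zero_ne_one hGv
      have hy0 : y' - y ≠ 0 := by
        intro h0
        rw [h0, zero_mul] at hkey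
        exact (mul_ne_zero hD0 hG0) hkey.symm
      have e2 : (y' - W.negY x y) / (x' - x) = G / (y' - y) := by
        rw [div_eq_div_iff hD0 hy0]
        linear_combination hkey
      rw [e2, map_div₀, hGv, one_div]
      exact (one_lt_inv₀ ((Valuation.pos_iff _).mpr hy0)).mpr hvy
    · -- `W_Y` is a unit
      have hu : A.valuation (2 * y + W.a₁ * x + W.a₃) = 1 := by
        have hmem : 2 * y + W.a₁ * x + W.a₃ ∈ A :=
          A.add_mem _ _ (A.add_mem _ _ (A.mul_mem _ _ h2A hy) (A.mul_mem _ _ h₁ hx)) h₃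
        have hle := (A.valuation_le_one_iff _).mpr hmem
        have hnlt : ¬ A.valuation (2 * y + W.a₁ * x + W.a₃) < 1 :=
          fun hc => hY (A.mem_nonunits_iff.mpr hc)
        exact le_antisymm hle (not_lt.mp hnlt)
      have e : y' - W.negY x y = (2 * y + W.a₁ * x + W.a₃) + (y' - y) := by
        simp only [negY]; ring
      have hN : A.valuation (y' - W.negY x y) = 1 := by
        rw [e, Valuation.map_add_eq_of_lt_left, hu]
        rw [hu]; exact hvy
      rw [map_div₀, hN, one_div]
      exact (one_lt_inv₀ ((Valuation.pos_iff _).mpr hD0)).mpr hvD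
  -- hence the `x`-coordinate of the difference is not integral
  set ℓ := (y' - W.negY x y) / (x' - x) with hℓdef
  intro hmem
  have hrest : A.valuation (W.a₁ * ℓ - W.a₂ - x' - x) ≤ A.valuation ℓ := by
    have h1 : A.valuation (W.a₁ * ℓ) ≤ A.valuation ℓ := by
      rw [map_mul]
      calc A.valuation W.a₁ * A.valuation ℓ ≤ 1 * A.valuation ℓ := by
            gcongr
            exact (A.valuation_le_one_iff _).mpr h₁
        _ = A.valuation ℓ := one_mul _
    have h2 : A.valuation W.a₂ ≤ A.valuation ℓ :=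
      ((A.valuation_le_one_iff _).mpr h₂).trans hℓ.le
    have h3 : A.valuation x' ≤ A.valuation ℓ :=
      ((A.valuation_le_one_iff _).mpr hx').trans hℓ.le
    have h4 : A.valuation x ≤ A.valuation ℓ :=
      ((A.valuation_le_one_iff _).mpr hx).trans hℓ.le
    exact (Valuation.map_sub _ _ _).trans (max_le ((Valuation.map_sub _ _ _).trans
      (max_le ((Valuation.map_sub _ _ _).trans (max_le h1 h2)) h3)) h4)
  have hsq : A.valuation ℓ < A.valuation (ℓ ^ 2) := by
    rw [map_pow, sq]
    have hpos : 0 < A.valuation ℓ := lt_trans zero_lt_one hℓ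
    calc A.valuation ℓ = A.valuation ℓ * 1 := (mul_one _).symm
      _ < A.valuation ℓ * A.valuation ℓ := by
          exact mul_lt_mul_of_pos_left hℓ hpos
  have e : W.addX x' x ℓ = ℓ ^ 2 + (W.a₁ * ℓ - W.a₂ - x' - x) := by
    simp only [addX]; ring
  rw [e, ← A.valuation_le_one_iff, Valuation.map_add_eq_of_lt_left _ (lt_of_le_of_lt hrest hsq)]
    at hmem
  exact absurd (lt_trans hℓ hsq) (not_lt.mpr hmem)

/-- The kernel of reduction is stable under multiplication by natural numbers. -/
theorem tor_inKer_nsmul (hW : IntegralCoeffs A W) {P : W.Point} (hP : InKer A W P) (n : ℕ) :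
    InKer A W (n • P) := by
  induction n with
  | zero => rw [zero_smul]; exact InKer_zero
  | succ n ih => rw [succ_nsmul]; exact InKer_add hW ih hP

end Points

section MapPoint

variable {F K : Type*} [Field F] [Field K] [DecidableEq F] [DecidableEq K] (W : Affine F)
  (f : F →+* K)

/-- The group homomorphism on points induced by a field homomorphism. -/
noncomputable def torMapPoint : W.Point →+ (W.map f).toAffine.Point where
  toFun P := match P with
    | .zero => 0
    | .some x y h => .some (f x) (f y) ((W.map_nonsingular f.injective x y).mpr h)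
  map_zero' := rfl
  map_add' := by
    rintro (_ | ⟨x₁, y₁, h₁⟩) (_ | ⟨x₂, y₂, h₂⟩)
    any_goals rfl
    by_cases hxy : x₁ = x₂ ∧ y₁ = W.negY x₂ y₂
    · rw [Point.add_of_Y_eq hxy.left hxy.right,
        Point.add_of_Y_eq (congr_arg _ hxy.left) <| by rw [hxy.right, map_negY]]
    · simpa only [Point.add_some hxy, ← map_addX, ← map_addY, ← map_slope] using
        (Point.add_some fun h ↦ hxy ⟨f.injective h.1, f.injective (W.map_negY f .. ▸ h).2⟩).symm

theorem torMapPoint_some {x y : F} (h : W.Nonsingular x y) :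
    torMapPoint W f (Point.some x y h) =
      Point.some (f x) (f y) ((W.map_nonsingular f.injective x y).mpr h) := rfl

theorem torMapPoint_nsmul_eq_zero {x y : F} (h : W.Nonsingular x y)
    (h' : (W.map f).toAffine.Nonsingular (f x) (f y)) {n : ℕ}
    (hn : n • Point.some x y h = 0) : n • Point.some (f x) (f y) h' = 0 := by
  have := congrArg (torMapPoint W f) hn
  rw [map_nsmul, map_zero] at this
  exact this

theorem torMapPoint_nsmul_eq_some {x y ξ η : F} (h : W.Nonsingular x y)
    (hξ : W.Nonsingular ξ η) (h' : (W.map f).toAffine.Nonsingular (f x) (f y))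
    (hξ' : (W.map f).toAffine.Nonsingular (f ξ) (f η)) {n : ℕ}
    (hn : n • Point.some x y h = Point.some ξ η hξ) :
    n • Point.some (f x) (f y) h' = Point.some (f ξ) (f η) hξ' := by
  have := congrArg (torMapPoint W f) hn
  rw [map_nsmul] at this
  exact this

end MapPoint

section T3

variable {F : Type*} [Field F] (W : Affine F)

/-- The `x`-coordinate of the generic point, in the function field. -/
noncomputable def torGenX : W.FunctionField :=
  algebraMap W.CoordinateRing W.FunctionField (CoordinateRing.mk W (C X))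

/-- The `y`-coordinate of the generic point, in the function field. -/
noncomputable def torGenY : W.FunctionField :=
  algebraMap W.CoordinateRing W.FunctionField (CoordinateRing.mk W X)

/-- Evaluation of a bivariate polynomial at the generic point. -/
noncomputable def torGenEval : F[X][X] →+* W.FunctionField :=
  (algebraMap W.CoordinateRing W.FunctionField).comp (CoordinateRing.mk W)

theorem torGenEval_apply (p : F[X][X]) :
    torGenEval W p = algebraMap W.CoordinateRing W.FunctionField (CoordinateRing.mk W p) := rfl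

theorem torGenEval_CC (c : F) :
    torGenEval W (C (C c)) = algebraMap F W.FunctionField c := by
  rw [torGenEval_apply]
  rw [IsScalarTower.algebraMap_apply F W.CoordinateRing W.FunctionField]
  rfl

/-- Evaluating the base change of a bivariate polynomial at the generic point gives its class. -/
theorem torGen_evalEval (p : F[X][X]) :
    (p.map (mapRingHom (algebraMap F W.FunctionField))).evalEval (torGenX W) (torGenY W) =
      torGenEval W p := by
  have key : (evalEvalRingHom (torGenX W) (torGenY W)).comp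
      (mapRingHom (mapRingHom (algebraMap F W.FunctionField))) = torGenEval W := by
    apply Polynomial.ringHom_ext
    · intro a
      have key2 : ((evalEvalRingHom (torGenX W) (torGenY W)).comp
          (mapRingHom (mapRingHom (algebraMap F W.FunctionField)))).comp C =
          (torGenEval W).comp C := by
        apply Polynomial.ringHom_ext
        · intro c
          simp only [RingHom.comp_apply, coe_mapRingHom, map_C, coe_evalRingHom, eval_C]
          rw [torGenEval_CC]
        · simp only [RingHom.comp_apply, coe_mapRingHom, map_C, map_X, coe_evalRingHom,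
            eval_C, eval_X]
          rfl
      exact congrArg (fun g => g a) key2
    · simp only [RingHom.comp_apply, coe_mapRingHom, map_X, coe_evalRingHom, eval_X, eval_C]
      rfl
  exact congrArg (fun g => g p) key

theorem torGenEval_polynomial : torGenEval W W.polynomial = 0 := by
  rw [torGenEval_apply, CoordinateRing.mk, AdjoinRoot.mk_self, map_zero]

theorem torGenEval_ne_zero {p : F[X][X]} (hp : p ≠ 0) (hdeg : p.natDegree < 2) :
    torGenEval W p ≠ 0 := by
  rw [torGenEval_apply]
  intro h
  have h1 : CoordinateRing.mk W p = 0 :=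
    (IsFractionRing.injective W.CoordinateRing W.FunctionField) (by rw [h, map_zero])
  exact AdjoinRoot.mk_ne_zero_of_natDegree_lt monic_polynomial hp
    (by rw [natDegree_polynomial]; exact hdeg) h1

theorem tor_polynomialY_ne_zero [CharZero F] : W.polynomialY ≠ 0 := by
  intro h
  have h1 : W.polynomialY.coeff 1 = C 2 := by
    simp only [polynomialY]
    rw [coeff_add, coeff_C_mul, coeff_X_one, mul_one, coeff_C]
    simp
  rw [h, coeff_zero] at h1
  have h2 : (2 : F) = 0 := by
    have := congrArg (fun q : F[X] => q.coeff 0) h1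
    simpa using this.symm
  exact two_ne_zero h2

theorem tor_natDegree_polynomialY_lt : W.polynomialY.natDegree < 2 := by
  have : W.polynomialY.natDegree ≤ 1 := by
    simp only [polynomialY]
    exact natDegree_linear_le
  omega

theorem torGen_nonsingular [CharZero F] :
    (W⁄W.FunctionField).toAffine.Nonsingular (torGenX W) (torGenY W) := by
  refine ⟨?_, Or.inr ?_⟩
  · show (W.map (algebraMap F W.FunctionField)).toAffine.polynomial.evalEval _ _ = 0
    rw [map_polynomial, torGen_evalEval, torGenEval_polynomial]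
  · show (W.map (algebraMap F W.FunctionField)).toAffine.polynomialY.evalEval _ _ ≠ 0
    rw [map_polynomialY, torGen_evalEval]
    exact torGenEval_ne_zero W (tor_polynomialY_ne_zero W) (tor_natDegree_polynomialY_lt W)

theorem torVal_gen (n : ℕ) :
    torVal (W⁄W.FunctionField) (torGenX W) (torGenY W) n = torGenEval W (W.ψ (n : ℤ)) := by
  show ((W.map (algebraMap F W.FunctionField)).ψ (n : ℤ)).evalEval _ _ = _
  rw [map_ψ, torGen_evalEval]

theorem torGen_val_ne_zero [CharZero F] (n : ℕ) (hn : n ≠ 0) :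
    torVal (W⁄W.FunctionField) (torGenX W) (torGenY W) n ≠ 0 := by
  rw [torVal_gen, torGenEval_apply, CoordinateRing.mk_ψ, Ψ_ofNat, map_mul, map_mul]
  have hn' : ((n : ℕ) : F) ≠ 0 := by exact_mod_cast hn
  have h1 : algebraMap W.CoordinateRing W.FunctionField (CoordinateRing.mk W (C (W.preΨ' n))) ≠
      0 := by
    refine torGenEval_ne_zero W (C_ne_zero.mpr (W.preΨ'_ne_zero hn')) ?_
    rw [natDegree_C]
    norm_num
  refine mul_ne_zero h1 ?_
  split_ifs
  · exact torGenEval_ne_zero W (tor_polynomialY_ne_zero W) (tor_natDegree_polynomialY_lt W)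
  · rw [map_one, map_one]
    exact one_ne_zero

/-- A valuation subring of the function field centred at a point `(x₀, y₀)` of the curve:
it contains the coordinate ring, and `p(X, Y) - p(x₀, y₀)` is a nonunit for every polynomial
`p`. -/
theorem tor_exists_center {x₀ y₀ : F} (h₀ : W.Equation x₀ y₀) :
    ∃ A : ValuationSubring W.FunctionField,
      (∀ p : F[X][X], torGenEval W p ∈ A) ∧
      (∀ p : F[X][X], torGenEval W p - algebraMap F W.FunctionField (p.evalEval x₀ y₀) ∈
        A.nonunits) := by
  classical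
  let f : W.CoordinateRing →+* W.FunctionField := algebraMap W.CoordinateRing W.FunctionField
  have hf : Function.Injective f := IsFractionRing.injective W.CoordinateRing W.FunctionField
  have h₀' : W.polynomial.evalEval x₀ y₀ = 0 := h₀
  let ev : W.CoordinateRing →+* F := AdjoinRoot.evalEval h₀'
  let e : W.CoordinateRing ≃+* f.range := RingEquiv.ofBijective f.rangeRestrict
    ⟨(RingHom.injective_iff_ker_eq_bot _).mpr (by
      rw [RingHom.ker_rangeRestrict]; exact (RingHom.injective_iff_ker_eq_bot f).mp hf),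
     f.rangeRestrict_surjective⟩
  let I : Ideal f.range := Ideal.comap (e.symm : f.range →+* W.CoordinateRing) (RingHom.ker ev)
  have hI : I ≠ ⊤ := Ideal.comap_ne_top _ (RingHom.ker_ne_top ev)
  obtain ⟨A, hA1, hA2⟩ := Ideal.image_subset_nonunits_valuationSubring I hI
  have hmem : ∀ r : W.CoordinateRing, f r ∈ A := fun r => hA1 ⟨r, rfl⟩
  have hker : ∀ r : W.CoordinateRing, ev r = 0 → f r ∈ A.nonunits := by
    intro r hr
    apply hA2
    refine ⟨e r, ?_, rfl⟩
    show e.symm (e r) ∈ RingHom.ker ev
    rw [RingEquiv.symm_apply_apply]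
    exact hr
  refine ⟨A, fun p => hmem _, fun p => ?_⟩
  have h1 : torGenEval W p - algebraMap F W.FunctionField (p.evalEval x₀ y₀) =
      f (CoordinateRing.mk W (p - C (C (p.evalEval x₀ y₀)))) := by
    rw [map_sub, map_sub, ← torGenEval_CC]
    rfl
  rw [h1]
  apply hker
  show AdjoinRoot.evalEval h₀' (AdjoinRoot.mk _ _) = 0
  rw [AdjoinRoot.evalEval_mk]
  simp

/-- A difference of nonunits of a valuation subring is a nonunit. -/
theorem tor_sub_mem_nonunits {K : Type*} [Field K] (A : ValuationSubring K) {a b : K}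
    (ha : a ∈ A.nonunits) (hb : b ∈ A.nonunits) : a - b ∈ A.nonunits := by
  rw [A.mem_nonunits_iff] at ha hb ⊢
  exact lt_of_le_of_lt (Valuation.map_sub _ _ _) (max_lt ha hb)

/-- Specialisation at a nonsingular point `P₀ = (x₀, y₀)`: a valuation subring `A` of the
function field centred at `P₀`. -/
theorem tor_spec [CharZero F] [DecidableEq F] [DecidableEq W.FunctionField] {x₀ y₀ : F}
    (h₀ : W.Nonsingular x₀ y₀) :
    ∃ A : ValuationSubring W.FunctionField,
      (∀ c : F, algebraMap F W.FunctionField c ∈ A) ∧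
      torGenX W ∈ A ∧
      (∀ n : ℕ, torVal (W⁄W.FunctionField) (torGenX W) (torGenY W) n ∈ A ∧
        (torVal (W⁄W.FunctionField) (torGenX W) (torGenY W) n ∈ A.nonunits ↔
          torVal W x₀ y₀ n = 0)) ∧
      (∀ n : ℕ, n • Point.some x₀ y₀ h₀ = 0 →
        Fermat.Agent.S05.KerRed.InKer A (W⁄W.FunctionField).toAffine
          (n • Point.some (torGenX W) (torGenY W) (torGen_nonsingular W))) ∧
      (∀ (n : ℕ) (ξ η : F) (hξ : W.Nonsingular ξ η), n • Point.some x₀ y₀ h₀ = Point.some ξ η hξ →
        ∃ (xn yn : W.FunctionField) (hn : (W⁄W.FunctionField).toAffine.Nonsingular xn yn),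
          n • Point.some (torGenX W) (torGenY W) (torGen_nonsingular W) = Point.some xn yn hn ∧
          xn ∈ A ∧ xn - algebraMap F W.FunctionField ξ ∈ A.nonunits) := by
  obtain ⟨A, hA1, hA2⟩ := tor_exists_center W h₀.1
  have hconst : ∀ c : F, algebraMap F W.FunctionField c ∈ A := fun c => by
    rw [← torGenEval_CC]; exact hA1 _
  have hconst_unit : ∀ c : F, c ≠ 0 → algebraMap F W.FunctionField c ∉ A.nonunits := by
    intro c hc hmem
    have h1 := hconst c⁻¹
    rw [A.mem_nonunits_iff] at hmem
    have h2 := (A.valuation_le_one_iff _).mpr h1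
    rw [map_inv₀, map_inv₀] at h2
    have hc' : algebraMap F W.FunctionField c ≠ 0 := by
      rwa [Ne, map_eq_zero]
    have hpos : 0 < A.valuation (algebraMap F W.FunctionField c) := (Valuation.pos_iff _).mpr hc'
    exact absurd h2 (not_le.mpr ((one_lt_inv₀ hpos).mpr hmem))
  have hX : torGenX W ∈ A := hA1 (C X)
  have hXsub : torGenX W - algebraMap F W.FunctionField x₀ ∈ A.nonunits := by
    have := hA2 (C X)
    rw [evalEval_C, eval_X] at this
    exact this
  have hYsub : torGenY W - algebraMap F W.FunctionField y₀ ∈ A.nonunits := by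
    have := hA2 X
    rw [evalEval_X] at this
    exact this
  have hW : Fermat.Agent.S05.KerRed.IntegralCoeffs A (W⁄W.FunctionField).toAffine :=
    ⟨hconst _, hconst _, hconst _, hconst _, hconst _⟩
  refine ⟨A, hconst, hX, ?_, ?_, ?_⟩
  · intro n
    rw [torVal_gen]
    refine ⟨hA1 _, ?_⟩
    have hsub := hA2 (W.ψ (n : ℤ))
    constructor
    · intro hmem
      by_contra hne
      have e : algebraMap F W.FunctionField (torVal W x₀ y₀ n) =
          torGenEval W (W.ψ (n : ℤ)) - (torGenEval W (W.ψ (n : ℤ)) -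
            algebraMap F W.FunctionField ((W.ψ (n : ℤ)).evalEval x₀ y₀)) := by
        rw [sub_sub_cancel]; rfl
      exact hconst_unit _ hne (e ▸ tor_sub_mem_nonunits A hmem hsub)
    · intro h0
      have e : torGenEval W (W.ψ (n : ℤ)) = torGenEval W (W.ψ (n : ℤ)) -
          algebraMap F W.FunctionField ((W.ψ (n : ℤ)).evalEval x₀ y₀) := by
        rw [show (W.ψ (n : ℤ)).evalEval x₀ y₀ = torVal W x₀ y₀ n from rfl, h0, map_zero, sub_zero]
      rw [e]
      exact hsub
  all_goals
    have hne : torGenX W ≠ algebraMap F W.FunctionField x₀ := by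
      intro h
      have h1 : torGenEval W (C (X - C x₀)) = 0 := by
        rw [map_sub, map_sub, torGenEval_CC]
        exact sub_eq_zero.mpr h
      refine torGenEval_ne_zero W (p := C (X - C x₀)) (C_ne_zero.mpr (X_sub_C_ne_zero x₀)) ?_ h1
      rw [natDegree_C]
      norm_num
    have hns : (W⁄W.FunctionField).toAffine.a₁ * algebraMap F W.FunctionField y₀ -
        (3 * algebraMap F W.FunctionField x₀ ^ 2 +
          2 * (W⁄W.FunctionField).toAffine.a₂ * algebraMap F W.FunctionField x₀ +
          (W⁄W.FunctionField).toAffine.a₄) ∉ A.nonunits ∨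
        2 * algebraMap F W.FunctionField y₀ +
          (W⁄W.FunctionField).toAffine.a₁ * algebraMap F W.FunctionField x₀ +
          (W⁄W.FunctionField).toAffine.a₃ ∉ A.nonunits := by
      rcases ((nonsingular_iff' x₀ y₀).mp h₀).2 with h1 | h1
      · left
        have := hconst_unit _ h1
        simp only [map_sub, map_add, map_mul, map_pow, map_ofNat] at this
        exact this
      · right
        have := hconst_unit _ h1
        simp only [map_add, map_mul, map_ofNat] at this
        exact this
    have hbase : (W⁄W.FunctionField).toAffine.Nonsingular (algebraMap F W.FunctionField x₀)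
        (algebraMap F W.FunctionField y₀) :=
      (W.map_nonsingular (algebraMap F W.FunctionField).injective x₀ y₀).mpr h₀
    have hdiff := tor_cong_inKer hW hbase
      (torGen_nonsingular W) (hconst x₀) (hconst y₀) hXsub hYsub hne hns
    have hn : ∀ n : ℕ, Fermat.Agent.S05.KerRed.InKer A (W⁄W.FunctionField).toAffine
        (n • Point.some (torGenX W) (torGenY W) (torGen_nonsingular W) -
          n • Point.some (algebraMap F W.FunctionField x₀) (algebraMap F W.FunctionField y₀)
            hbase) := by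
      intro n
      have := tor_inKer_nsmul hW hdiff n
      rwa [smul_sub] at this
  · intro n hn0
    have h1 := hn n
    have h2 : n • Point.some (algebraMap F W.FunctionField x₀) (algebraMap F W.FunctionField y₀)
        hbase = 0 := torMapPoint_nsmul_eq_zero W (algebraMap F W.FunctionField) h₀ hbase hn0
    rwa [h2, sub_zero] at h1
  · intro n ξ η hξ hnξ
    have h1 := hn n
    have hξ' : (W⁄W.FunctionField).toAffine.Nonsingular (algebraMap F W.FunctionField ξ)
        (algebraMap F W.FunctionField η) :=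
      (W.map_nonsingular (algebraMap F W.FunctionField).injective ξ η).mpr hξ
    have h2 : n • Point.some (algebraMap F W.FunctionField x₀) (algebraMap F W.FunctionField y₀)
        hbase = Point.some (algebraMap F W.FunctionField ξ) (algebraMap F W.FunctionField η) hξ' :=
      torMapPoint_nsmul_eq_some W (algebraMap F W.FunctionField) h₀ hξ hbase hξ' hnξ
    rw [h2] at h1
    obtain ⟨x₃, y₃, h₃, hadd, hx₃, hx₃'⟩ := tor_add_inKer hW hξ' (hconst ξ) _ h1
    refine ⟨x₃, y₃, h₃, ?_, hx₃, hx₃'⟩
    rw [← hadd]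
    abel

end T3

end Fermat.Agent.S13
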