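import Mathlib
import Fermat.Agent.S51.Common
import Fermat.Agent.S13.TorAlg
import Fermat.Agent.S13.TorGeneric
import Fermat.Agent.S13.TorSpec

/-!
# S13 piece (T4 + T5): `n • P = 0 ↔ ψ_n(P) = 0` and consequences
-/

set_option autoImplicit false

open WeierstrassCurve WeierstrassCurve.Affine Polynomial

namespace Fermat.Agent.S13

/-! ### additive group helpers -/

theorem tor_ns_pred {G : Type*} [AddCommGroup G] (P : G) (k : ℕ) (h : (k + 1) • P = 0) :
    k • P = -P := by
  rw [succ_nsmul] at h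
  exact eq_neg_of_add_eq_zero_left h

theorem tor_ns_succ {G : Type*} [AddCommGroup G] (P : G) (k : ℕ) (h : (k + 1) • P = 0) :
    (k + 2) • P = P := by
  rw [succ_nsmul, h, zero_add]

/-! ### valuation helpers -/

theorem torv_mul_eq_one {Γ : Type*} [LinearOrderedCommGroupWithZero Γ] {a b : Γ}
    (ha : a ≤ 1) (hb : b ≤ 1) (hab : a * b = 1) : a = 1 := by
  apply le_antisymm ha
  by_contra h
  rw [not_le] at h
  have : a * b < 1 := by
    calc a * b ≤ a * 1 := mul_le_mul_right hb a
      _ = a := mul_one a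
      _ < 1 := h
  exact absurd hab this.ne

/-- The data produced by `tor_spec` and `tor_generic`, abstractly: a field `K ⊇ F` with a
valuation subring `A`, a "generic" point `(gX, gY)` of `Wk` specialising to `(x₀, y₀)`. -/
structure TorData {K F : Type*} [Field K] [DecidableEq K] [Field F] [DecidableEq F]
    (ι : F →+* K) (W : Affine F) (Wk : Affine K) (A : ValuationSubring K)
    (x₀ y₀ : F) (h₀ : W.Nonsingular x₀ y₀) (gX gY : K) (hg : Wk.Nonsingular gX gY) : Prop where
  gen : ∀ n : ℕ, n ≠ 0 → n • Point.some gX gY hg ≠ 0 ∧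
    (torX Wk (n • Point.some gX gY hg) - gX) * torVal Wk gX gY n ^ 2 =
      -(torVal Wk gX gY (n + 1) * torVal Wk gX gY (n - 1))
  const_mem : ∀ c : F, ι c ∈ A
  genX_mem : gX ∈ A
  val : ∀ n : ℕ, torVal Wk gX gY n ∈ A ∧
    (torVal Wk gX gY n ∈ A.nonunits ↔ torVal W x₀ y₀ n = 0)
  ker : ∀ n : ℕ, n • Point.some x₀ y₀ h₀ = 0 →
    Fermat.Agent.S05.KerRed.InKer A Wk (n • Point.some gX gY hg)
  int : ∀ (n : ℕ) (ξ η : F) (hξ : W.Nonsingular ξ η),
    n • Point.some x₀ y₀ h₀ = Point.some ξ η hξ →
    ∃ (xn yn : K) (hn : Wk.Nonsingular xn yn),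
      n • Point.some gX gY hg = Point.some xn yn hn ∧ xn ∈ A ∧ xn - ι ξ ∈ A.nonunits

namespace TorData

variable {K F : Type*} [Field K] [DecidableEq K] [Field F] [DecidableEq F]
  {ι : F →+* K} {W : Affine F} {Wk : Affine K} {A : ValuationSubring K}
  {x₀ y₀ : F} {h₀ : W.Nonsingular x₀ y₀} {gX gY : K} {hg : Wk.Nonsingular gX gY}
  (D : TorData ι W Wk A x₀ y₀ h₀ gX gY hg)

include D

theorem unit_iff (n : ℕ) : A.valuation (torVal Wk gX gY n) = 1 ↔ torVal W x₀ y₀ n ≠ 0 := by
  obtain ⟨h1, h2⟩ := D.val n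
  rw [← A.valuation_le_one_iff] at h1
  rw [A.mem_nonunits_iff] at h2
  constructor
  · intro hv h0
    have := h2.mpr h0
    rw [hv] at this
    exact lt_irrefl _ this
  · intro hne
    apply le_antisymm h1
    by_contra hlt
    rw [not_le] at hlt
    exact hne (h2.mp hlt)

theorem val_le (n : ℕ) : A.valuation (torVal Wk gX gY n) ≤ 1 :=
  (A.valuation_le_one_iff _).mpr (D.val n).1

theorem v_const {c : F} (hc : c ≠ 0) : A.valuation (ι c) = 1 := by
  have h1 : A.valuation (ι c) ≤ 1 := (A.valuation_le_one_iff _).mpr (D.const_mem c)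
  have h2 : A.valuation (ι c⁻¹) ≤ 1 := (A.valuation_le_one_iff _).mpr (D.const_mem c⁻¹)
  have h3 : A.valuation (ι c) * A.valuation (ι c⁻¹) = 1 := by
    rw [← map_mul, ← map_mul, mul_inv_cancel₀ hc, map_one, map_one]
  exact torv_mul_eq_one h1 h2 h3

/-- (D1) if `n • P₀ = 0` then `x(n • Pg) ∉ A`. -/
theorem d1 {n : ℕ} (hn : n ≠ 0) (h0 : n • Point.some x₀ y₀ h₀ = 0) :
    1 < A.valuation (torX Wk (n • Point.some gX gY hg)) := by
  have h1 := (D.gen n hn).1
  have h2 := D.ker n h0
  rcases hP : n • Point.some gX gY hg with _ | ⟨xn, yn, hxn⟩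
  · exact absurd hP h1
  · rw [hP] at h2
    have h3 : xn ∉ A := h2
    rw [← A.valuation_le_one_iff, not_le] at h3
    exact h3

/-- (D2) if `n • P₀ ≠ 0` then `x(n • Pg) ≡ x(n • P₀)` modulo the maximal ideal. -/
theorem d2 {n : ℕ} (h0 : n • Point.some x₀ y₀ h₀ ≠ 0) :
    A.valuation (torX Wk (n • Point.some gX gY hg) -
      ι (torX W (n • Point.some x₀ y₀ h₀))) < 1 := by
  rcases hP : n • Point.some x₀ y₀ h₀ with _ | ⟨ξ, η, hξ⟩
  · exact absurd hP h0
  · obtain ⟨xn, yn, hn, e, -, hlt⟩ := D.int n ξ η hξ hP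
    rw [e]
    exact (A.mem_nonunits_iff).mp hlt

theorem d2' {n : ℕ} (h0 : n • Point.some x₀ y₀ h₀ ≠ 0) :
    A.valuation (torX Wk (n • Point.some gX gY hg)) ≤ 1 := by
  have h1 := D.d2 h0
  have h2 : A.valuation (ι (torX W (n • Point.some x₀ y₀ h₀))) ≤ 1 :=
    (A.valuation_le_one_iff _).mpr (D.const_mem _)
  have : torX Wk (n • Point.some gX gY hg) =
      (torX Wk (n • Point.some gX gY hg) - ι (torX W (n • Point.some x₀ y₀ h₀))) +
        ι (torX W (n • Point.some x₀ y₀ h₀)) := by ring
  rw [this]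
  exact Valuation.map_add_le _ h1.le h2

theorem sub_genX {n : ℕ} (hn : n ≠ 0) (h0 : n • Point.some x₀ y₀ h₀ = 0) :
    A.valuation (torX Wk (n • Point.some gX gY hg) - gX) =
      A.valuation (torX Wk (n • Point.some gX gY hg)) := by
  have hbig := D.d1 hn h0
  have hXle : A.valuation gX ≤ 1 := (A.valuation_le_one_iff _).mpr D.genX_mem
  exact Valuation.map_sub_eq_of_lt_left _ (lt_of_le_of_lt hXle hbig)

/-- (B) `n • P₀ = 0 ⟹ ψ_n(P₀) = 0`. -/
theorem dirB {n : ℕ} (hn : n ≠ 0) (h0 : n • Point.some x₀ y₀ h₀ = 0) :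
    torVal W x₀ y₀ n = 0 := by
  by_contra hne
  have hU := (D.unit_iff n).mpr hne
  have hbig := D.d1 hn h0
  have h1 := congrArg A.valuation (D.gen n hn).2
  rw [map_mul, map_pow, hU, one_pow, mul_one, D.sub_genX hn h0, Valuation.map_neg, map_mul] at h1
  have h4 : A.valuation (torVal Wk gX gY (n + 1)) * A.valuation (torVal Wk gX gY (n - 1)) ≤ 1 :=
    mul_le_one' (D.val_le _) (D.val_le _)
  rw [← h1] at h4
  exact absurd hbig (not_lt.mpr h4)

/-- (V1) if `(j+1) • P₀ = 0` and `ψ_{j+2}`, `ψ_j` are units then `x((j+1)Pg) ψ_{j+1}²` is a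
unit. -/
theorem v1 (j : ℕ) (h0 : (j + 1) • Point.some x₀ y₀ h₀ = 0)
    (hU2 : A.valuation (torVal Wk gX gY (j + 2)) = 1)
    (hU0 : A.valuation (torVal Wk gX gY j) = 1) :
    A.valuation (torX Wk ((j + 1) • Point.some gX gY hg)) *
      A.valuation (torVal Wk gX gY (j + 1)) ^ 2 = 1 := by
  have e : (torX Wk ((j + 1) • Point.some gX gY hg) - gX) * torVal Wk gX gY (j + 1) ^ 2 =
      -(torVal Wk gX gY (j + 2) * torVal Wk gX gY j) := (D.gen (j + 1) (Nat.succ_ne_zero j)).2
  have h1 := congrArg A.valuation e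
  rw [map_mul, map_pow, D.sub_genX (Nat.succ_ne_zero j) h0, Valuation.map_neg, map_mul, hU2, hU0,
    mul_one] at h1
  exact h1

/-- (V2) the difference of the `x`-coordinates of two multiples with distinct reductions is a
unit. -/
theorem v2 {m m' d : ℕ} (hm : m = m' + d) (h1 : m • Point.some x₀ y₀ h₀ ≠ 0)
    (h2 : m' • Point.some x₀ y₀ h₀ ≠ 0) (hs : (m + m') • Point.some x₀ y₀ h₀ ≠ 0)
    (hd : d • Point.some x₀ y₀ h₀ ≠ 0) :
    A.valuation (torX Wk (m • Point.some gX gY hg) - torX Wk (m' • Point.some gX gY hg)) = 1 := by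
  have hξ : torX W (m • Point.some x₀ y₀ h₀) ≠ torX W (m' • Point.some x₀ y₀ h₀) := by
    intro heq
    rcases tor_eq_or_eq_neg h1 h2 heq with h | h
    · apply hd
      have : m • Point.some x₀ y₀ h₀ = m' • Point.some x₀ y₀ h₀ + d • Point.some x₀ y₀ h₀ := by
        rw [hm, add_nsmul]
      rw [h] at this
      exact (add_eq_left.mp this.symm)
    · apply hs
      rw [add_nsmul, h, neg_add_cancel]
  have hc := D.v_const (sub_ne_zero.mpr hξ)
  have e1 := D.d2 h1
  have e2 := D.d2 h2
  have hsplit : torX Wk (m • Point.some gX gY hg) - torX Wk (m' • Point.some gX gY hg) =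
      ((torX Wk (m • Point.some gX gY hg) - ι (torX W (m • Point.some x₀ y₀ h₀))) -
        (torX Wk (m' • Point.some gX gY hg) - ι (torX W (m' • Point.some x₀ y₀ h₀)))) +
      ι (torX W (m • Point.some x₀ y₀ h₀) - torX W (m' • Point.some x₀ y₀ h₀)) := by
    rw [map_sub]; ring
  rw [hsplit, Valuation.map_add_eq_of_lt_right, hc]
  rw [hc]
  exact Valuation.map_sub_lt _ e1 e2

theorem kodd (k : ℕ) :
    (torX Wk ((k + 2) • Point.some gX gY hg) - torX Wk ((k + 1) • Point.some gX gY hg)) *
      (torVal Wk gX gY (k + 1) ^ 2 * torVal Wk gX gY (k + 2) ^ 2) =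
      -torVal Wk gX gY (2 * (k + 1) + 1) := by
  have e1 : (torX Wk ((k + 1) • Point.some gX gY hg) - gX) * torVal Wk gX gY (k + 1) ^ 2 =
      -(torVal Wk gX gY (k + 2) * torVal Wk gX gY k) := (D.gen (k + 1) (by omega)).2
  have e2 : (torX Wk ((k + 2) • Point.some gX gY hg) - gX) * torVal Wk gX gY (k + 2) ^ 2 =
      -(torVal Wk gX gY (k + 3) * torVal Wk gX gY (k + 1)) := (D.gen (k + 2) (by omega)).2
  exact torDiff_alg gX _ _ _ _ _ _ _ e1 e2 (torVal_odd (W := Wk) gX gY k)

theorem keven (k : ℕ) :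
    (torX Wk ((k + 3) • Point.some gX gY hg) - torX Wk ((k + 1) • Point.some gX gY hg)) *
      (torVal Wk gX gY (k + 1) ^ 2 * torVal Wk gX gY (k + 3) ^ 2) =
      -(torVal Wk gX gY (2 * (k + 2)) * torVal Wk gX gY 2) := by
  have e1 : (torX Wk ((k + 1) • Point.some gX gY hg) - gX) * torVal Wk gX gY (k + 1) ^ 2 =
      -(torVal Wk gX gY (k + 2) * torVal Wk gX gY k) := (D.gen (k + 1) (by omega)).2
  have e3 : (torX Wk ((k + 3) • Point.some gX gY hg) - gX) * torVal Wk gX gY (k + 3) ^ 2 =
      -(torVal Wk gX gY (k + 4) * torVal Wk gX gY (k + 2)) := (D.gen (k + 3) (by omega)).2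
  have hE := torVal_even (W := Wk) gX gY k
  linear_combination torVal Wk gX gY (k + 1) ^ 2 * e3 - torVal Wk gX gY (k + 3) ^ 2 * e1 + hE

theorem kodd_val (k : ℕ) :
    A.valuation (torVal Wk gX gY (2 * (k + 1) + 1)) =
      A.valuation (torX Wk ((k + 2) • Point.some gX gY hg) -
        torX Wk ((k + 1) • Point.some gX gY hg)) *
      (A.valuation (torVal Wk gX gY (k + 1)) ^ 2 * A.valuation (torVal Wk gX gY (k + 2)) ^ 2) := by
  have h := congrArg A.valuation (D.kodd k)
  rw [map_mul, map_mul, map_pow, map_pow, Valuation.map_neg] at h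
  exact h.symm

theorem keven_val (k : ℕ) (hU2 : A.valuation (torVal Wk gX gY 2) = 1) :
    A.valuation (torVal Wk gX gY (2 * (k + 2))) =
      A.valuation (torX Wk ((k + 3) • Point.some gX gY hg) -
        torX Wk ((k + 1) • Point.some gX gY hg)) *
      (A.valuation (torVal Wk gX gY (k + 1)) ^ 2 * A.valuation (torVal Wk gX gY (k + 3)) ^ 2) := by
  have h := congrArg A.valuation (D.keven k)
  rw [map_mul, map_mul, map_pow, map_pow, Valuation.map_neg, map_mul, hU2, mul_one] at h
  exact h.symm

/-- (A') `n • P₀ ≠ 0 ⟹ ψ_n(P₀) ≠ 0`. -/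
theorem dirA (n : ℕ) (hn : n ≠ 0) (h0 : n • Point.some x₀ y₀ h₀ ≠ 0) :
    torVal W x₀ y₀ n ≠ 0 := by
  have hP₀ne : Point.some x₀ y₀ h₀ ≠ 0 := Point.some_ne_zero _
  induction n using Nat.strong_induction_on with
  | _ n ih =>
    -- `U m` for smaller indices
    have hU : ∀ m : ℕ, m < n → m ≠ 0 → m • Point.some x₀ y₀ h₀ ≠ 0 →
        A.valuation (torVal Wk gX gY m) = 1 :=
      fun m hm hm0 hmP => (D.unit_iff m).mpr (ih m hm hm0 hmP)
    obtain ⟨m, rfl | rfl⟩ := Nat.even_or_odd' n
    · -- n = 2 m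
      have h2P : 2 • Point.some x₀ y₀ h₀ ≠ 0 := by
        intro h2
        apply h0
        rw [mul_nsmul, h2, nsmul_zero]
      have ha2 : torVal W x₀ y₀ 2 ≠ 0 := by
        rw [torVal_two]
        intro h
        apply h2P
        rw [two_nsmul]
        exact (tor_dbl_eq_zero_iff hP₀ne).mpr h
      have hU2 : A.valuation (torVal Wk gX gY 2) = 1 := (D.unit_iff 2).mpr ha2
      rcases m with _ | _ | k
      · exact absurd rfl hn
      · exact ha2
      · by_cases h3 : (k + 3) • Point.some x₀ y₀ h₀ = 0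
        · -- case (ii)
          have e2 : (k + 2) • Point.some x₀ y₀ h₀ = -Point.some x₀ y₀ h₀ :=
            tor_ns_pred _ (k + 2) h3
          have e4 : (k + 4) • Point.some x₀ y₀ h₀ = Point.some x₀ y₀ h₀ :=
            tor_ns_succ _ (k + 2) h3
          have e1 : (k + 1) • Point.some x₀ y₀ h₀ ≠ 0 := by
            intro e1
            apply h2P
            have : (k + 3) • Point.some x₀ y₀ h₀ =
                (k + 1) • Point.some x₀ y₀ h₀ + 2 • Point.some x₀ y₀ h₀ := by rw [← add_nsmul]
            rw [h3, e1, zero_add] at this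
            exact this.symm
          rcases k with _ | k
          · -- n = 4, 3 • P₀ = 0
            have ha3 : torVal W x₀ y₀ 3 = 0 := D.dirB (by omega) h3
            rw [torVal_three] at ha3
            show torVal W x₀ y₀ 4 ≠ 0
            rw [torVal_four, tor_small4, ha3, zero_mul, zero_sub]
            have hsq := torP2_sq hP₀ne
            rw [torP2_some, torX_some, ← torVal_two] at hsq
            rw [← hsq]
            exact mul_ne_zero (neg_ne_zero.mpr (pow_ne_zero 2 (pow_ne_zero 2 ha2))) ha2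
          · have U1 := hU (k + 1 + 1) (by omega) (by omega) e1
            have U2' := hU (k + 1 + 2) (by omega) (by omega)
              (by rw [e2]; exact neg_ne_zero.mpr hP₀ne)
            have U4 := hU (k + 1 + 4) (by omega) (by omega) (by rw [e4]; exact hP₀ne)
            have hV1 := D.v1 (k + 1 + 2) h3 U4 U2'
            have hbig := D.d1 (by omega) h3
            have hsmall := D.d2' e1
            rw [← D.unit_iff, D.keven_val (k + 1) hU2,
              Valuation.map_sub_eq_of_lt_left _ (lt_of_le_of_lt hsmall hbig), U1, one_pow, one_mul]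
            exact hV1
        · by_cases h1 : (k + 1) • Point.some x₀ y₀ h₀ = 0
          · -- case (iii)
            have hk0 : k ≠ 0 := by
              rintro rfl
              rw [zero_add, one_nsmul] at h1
              exact hP₀ne h1
            have e0 : k • Point.some x₀ y₀ h₀ = -Point.some x₀ y₀ h₀ := tor_ns_pred _ k h1
            have e2 : (k + 2) • Point.some x₀ y₀ h₀ = Point.some x₀ y₀ h₀ := tor_ns_succ _ k h1
            have U3 := hU (k + 3) (by omega) (by omega) h3
            have U2' := hU (k + 2) (by omega) (by omega) (by rw [e2]; exact hP₀ne)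
            have U0 := hU k (by omega) hk0 (by rw [e0]; exact neg_ne_zero.mpr hP₀ne)
            have hV1 := D.v1 k h1 U2' U0
            have hbig := D.d1 (by omega) h1
            have hsmall := D.d2' h3
            rw [← D.unit_iff, D.keven_val k hU2,
              Valuation.map_sub_eq_of_lt_right _ (lt_of_le_of_lt hsmall hbig), U3, one_pow,
              mul_one]
            exact hV1
          · -- case (i)
            have U1 := hU (k + 1) (by omega) (by omega) h1
            have U3 := hU (k + 3) (by omega) (by omega) h3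
            have hs : (k + 3 + (k + 1)) • Point.some x₀ y₀ h₀ ≠ 0 := by
              have : k + 3 + (k + 1) = 2 * (k + 1 + 1) := by ring
              rw [this]; exact h0
            have hV2 := D.v2 (m := k + 3) (m' := k + 1) (d := 2) (by ring) h3 h1 hs h2P
            rw [← D.unit_iff, D.keven_val k hU2, hV2, U1, U3]
            simp
    · -- n = 2 m + 1
      rcases m with _ | k
      · rw [torVal_one]; exact one_ne_zero
      · by_cases h1 : (k + 1) • Point.some x₀ y₀ h₀ = 0
        · -- case (ii)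
          have hk0 : k ≠ 0 := by
            rintro rfl
            rw [zero_add, one_nsmul] at h1
            exact hP₀ne h1
          have e0 : k • Point.some x₀ y₀ h₀ = -Point.some x₀ y₀ h₀ := tor_ns_pred _ k h1
          have e2 : (k + 2) • Point.some x₀ y₀ h₀ = Point.some x₀ y₀ h₀ := tor_ns_succ _ k h1
          have h2 : (k + 2) • Point.some x₀ y₀ h₀ ≠ 0 := by rw [e2]; exact hP₀ne
          have U2 := hU (k + 2) (by omega) (by omega) h2
          have U0 := hU k (by omega) hk0 (by rw [e0]; exact neg_ne_zero.mpr hP₀ne)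
          have hV1 := D.v1 k h1 U2 U0
          have hbig := D.d1 (by omega) h1
          have hsmall := D.d2' h2
          rw [← D.unit_iff, D.kodd_val k,
            Valuation.map_sub_eq_of_lt_right _ (lt_of_le_of_lt hsmall hbig), U2, one_pow, mul_one]
          exact hV1
        · by_cases h2 : (k + 2) • Point.some x₀ y₀ h₀ = 0
          · -- case (iii)
            have e3 : (k + 3) • Point.some x₀ y₀ h₀ = Point.some x₀ y₀ h₀ :=
              tor_ns_succ _ (k + 1) h2
            rcases k with _ | k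
            · -- n = 3, 2 • P₀ = 0
              show torVal W x₀ y₀ 3 ≠ 0
              rw [torVal_three]
              apply tor_small3 h₀
              rw [zero_add, two_nsmul] at h2
              have := (tor_dbl_eq_zero_iff hP₀ne).mp h2
              rwa [torP2_some] at this
            · have U1 := hU (k + 1 + 1) (by omega) (by omega) h1
              have U3 := hU (k + 1 + 3) (by omega) (by omega) (by rw [e3]; exact hP₀ne)
              have hV1 := D.v1 (k + 1 + 1) h2 U3 U1
              have hbig := D.d1 (by omega) h2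
              have hsmall := D.d2' h1
              rw [← D.unit_iff, D.kodd_val (k + 1),
                Valuation.map_sub_eq_of_lt_left _ (lt_of_le_of_lt hsmall hbig), U1, one_pow,
                one_mul]
              exact hV1
          · -- case (i)
            have U1 := hU (k + 1) (by omega) (by omega) h1
            have U2 := hU (k + 2) (by omega) (by omega) h2
            have hs : (k + 2 + (k + 1)) • Point.some x₀ y₀ h₀ ≠ 0 := by
              have : k + 2 + (k + 1) = 2 * (k + 1) + 1 := by ring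
              rw [this]; exact h0
            have h1P : 1 • Point.some x₀ y₀ h₀ ≠ 0 := by rw [one_nsmul]; exact hP₀ne
            have hV2 := D.v2 (m := k + 2) (m' := k + 1) (d := 1) (by ring) h2 h1 hs h1P
            rw [← D.unit_iff, D.kodd_val k, hV2, U1, U2]
            simp

end TorData

/-! ### The main theorem -/

section Final

variable {F : Type*} [Field F] [CharZero F] [DecidableEq F] (W : Affine F)

/-- (T) `n • P = 0 ↔ ψ_n(P) = 0`. -/
theorem tor_nsmul_eq_zero_iff {x y : F} (h : W.Nonsingular x y) {n : ℕ} (hn : n ≠ 0) :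
    n • Point.some x y h = 0 ↔ torVal W x y n = 0 := by
  classical
  obtain ⟨A, hF, hX, hψ, hK, hI⟩ := tor_spec W h
  have D : TorData (algebraMap F W.FunctionField) W (W⁄W.FunctionField).toAffine A x y h
      (torGenX W) (torGenY W) (torGen_nonsingular W) :=
    { gen := tor_generic (torGen_nonsingular W) (torGen_val_ne_zero W)
      const_mem := hF
      genX_mem := hX
      val := hψ
      ker := hK
      int := hI }
  constructor
  · exact D.dirB hn
  · intro h0
    by_contra hne
    exact D.dirA n hn hne h0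

/-- (T) for odd `n`: `n • P = 0 ↔ preΨ'_n(x(P)) = 0`. -/
theorem tor_nsmul_eq_zero_iff_odd {x y : F} (h : W.Nonsingular x y) {n : ℕ} (hn : Odd n) :
    n • Point.some x y h = 0 ↔ (W.preΨ' n).eval x = 0 := by
  have hn0 : n ≠ 0 := by
    rintro rfl
    simp at hn
  rw [tor_nsmul_eq_zero_iff W h hn0, torVal_eq h.1, if_neg (Nat.not_even_iff_odd.mpr hn), mul_one]

/-- (T) for odd `n`, in terms of `Submodule.torsionBy`. -/
theorem tor_mem_torsionBy_iff_odd {x y : F} (h : W.Nonsingular x y) {n : ℕ} (hn : Odd n) :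
    Point.some x y h ∈ Submodule.torsionBy ℤ W.Point n ↔ (W.preΨ' n).eval x = 0 := by
  rw [Submodule.mem_torsionBy_iff, natCast_zsmul, tor_nsmul_eq_zero_iff_odd W h hn]

/-- `|E[n]| ≤ n²` for odd `n`. -/
theorem tor_card_le {n : ℕ} (hn : Odd n) :
    Finite (Submodule.torsionBy ℤ W.Point n) ∧
      Nat.card (Submodule.torsionBy ℤ W.Point n) ≤ n ^ 2 := by
  have hn0 : n ≠ 0 := by
    rintro rfl
    simp at hn
  have hnF : (n : F) ≠ 0 := Nat.cast_ne_zero.mpr hn0
  have hf : W.preΨ' n ≠ 0 := W.preΨ'_ne_zero hnF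
  obtain ⟨hfin, hcard⟩ := Fermat.Agent.S51.g_card_torsion_le W n (W.preΨ' n) hf
    (fun x y hxy h0 => by
      rw [natCast_zsmul] at h0
      exact (tor_nsmul_eq_zero_iff_odd W hxy hn).mp h0)
  refine ⟨hfin, hcard.trans ?_⟩
  have hdeg := W.natDegree_preΨ'_le n
  rw [if_neg (Nat.not_even_iff_odd.mpr hn)] at hdeg
  have hpos : 0 < n ^ 2 := by positivity
  omega

/-- Over an algebraically closed field every root of `preΨ'_n` (`n` odd) is the `x`-coordinate
of an `n`-torsion point. -/
theorem tor_exists_of_root [IsAlgClosed F] (hΔ : W.Δ ≠ 0) {n : ℕ} (hn : Odd n) {x : F}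
    (hx : (W.preΨ' n).eval x = 0) :
    ∃ (y : F) (h : W.Nonsingular x y), n • Point.some x y h = 0 := by
  have hdeg : (Fermat.Agent.S51.g_quad W x).degree ≠ 0 := by
    apply Polynomial.degree_ne_of_natDegree_ne
    rw [Fermat.Agent.S51.g_quad_natDegree]
    norm_num
  obtain ⟨y, hy⟩ := IsAlgClosed.exists_root (Fermat.Agent.S51.g_quad W x) hdeg
  have hE : W.Equation x y := by
    rw [equation_iff]
    have hy' : (Fermat.Agent.S51.g_quad W x).eval y = 0 := hy
    simp only [Fermat.Agent.S51.g_quad, Polynomial.eval_add, Polynomial.eval_mul,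
      Polynomial.eval_C, Polynomial.eval_pow, Polynomial.eval_X] at hy'
    linear_combination hy'
  have hns : W.Nonsingular x y := (W.equation_iff_nonsingular_of_Δ_ne_zero hΔ).mp hE
  exact ⟨y, hns, (tor_nsmul_eq_zero_iff_odd W hns hn).mpr hx⟩

/-- `E[n] ≠ 0` over an algebraically closed field, `n ≥ 3` odd. -/
theorem tor_nontrivial [IsAlgClosed F] (hΔ : W.Δ ≠ 0) {n : ℕ} (hn : Odd n) (hn3 : 3 ≤ n) :
    Nontrivial (Submodule.torsionBy ℤ W.Point n) := by
  have hnF : (n : F) ≠ 0 := Nat.cast_ne_zero.mpr (by omega)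
  have hdeg : (W.preΨ' n).degree ≠ 0 := by
    apply Polynomial.degree_ne_of_natDegree_ne
    exact (W.natDegree_preΨ'_pos (by omega) hnF).ne'
  obtain ⟨x, hx⟩ := IsAlgClosed.exists_root (W.preΨ' n) hdeg
  obtain ⟨y, h, h0⟩ := tor_exists_of_root W hΔ hn hx
  refine ⟨⟨⟨Point.some x y h, ?_⟩, 0, ?_⟩⟩
  · rw [Submodule.mem_torsionBy_iff, natCast_zsmul]; exact h0
  · intro heq
    exact Point.some_ne_zero h (congrArg Subtype.val heq)

end Final

end Fermat.Agent.S13
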