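import Mathlib
import Fermat.Agent.S13.Minkowski

set_option autoImplicit false

/-!
# S13, piece NP2: elements fixed by inertia have valuation in the value group of `ℚ`

`Mink.relInertia_fixed_valuation`: if `x ∈ M` (a finite normal extension of `ℚ` inside `ℚ̄`) is fixed
by every automorphism that is relatively inertial on `M` at the valuation subring `A` over `q`,
then the valuation of `x` is an integral power of the valuation of `q`.

Route: `x` lies in the inertia field `E` of the prime `P = m_A ∩ 𝓞 M`; the prime of `E` below `P`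
is unramified over `ℤ` (Mathlib `Ideal.card_inertia_eq_ramificationIdxIn` for `M/ℚ` and `M/E`,
and multiplicativity of the ramification index), so `q` is a local generator of it.
-/

namespace Fermat.Agent.S13

open NumberField Polynomial
open scoped Pointwise

namespace Mink

attribute [local instance] isAlgClosure_Qb isAlgebraic_tower normal_tower isGalois_tower

section Core

variable (L : Type*) [Field L] [NumberField L] [IsGalois ℚ L] (P : Ideal (𝓞 L)) [P.IsPrime]

/-- The inertia group of `P` in `Gal(L/ℚ)`. -/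
noncomputable abbrev inertiaGp : Subgroup Gal(L/ℚ) := P.inertia Gal(L/ℚ)

/-- The inertia field of `P`. -/
noncomputable abbrev inertiaFld : IntermediateField ℚ L :=
  FixedPoints.intermediateField (inertiaGp L P)

/-- The prime of the inertia field below `P` is unramified over `ℤ`. -/
theorem inertiaFld_ramificationIdx :
    (P.under (𝓞 (inertiaFld L P))).ramificationIdx ℤ = 1 := by
  have hgal : IsGaloisGroup (inertiaGp L P) (𝓞 (inertiaFld L P)) (𝓞 L) :=
    IsGaloisGroup.of_isFractionRing (inertiaGp L P) (𝓞 (inertiaFld L P)) (𝓞 L) (inertiaFld L P) L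
  have h1 : Nat.card (P.inertia Gal(L/ℚ)) = P.ramificationIdx ℤ := by
    have : P.LiesOver (P.under ℤ) := ⟨rfl⟩
    rw [Ideal.card_inertia_eq_ramificationIdxIn (P.under ℤ) P,
      Ideal.ramificationIdxIn_eq_ramificationIdx (P.under ℤ) P Gal(L/ℚ)]
  have h2 : Nat.card (P.inertia (inertiaGp L P)) = P.ramificationIdx (𝓞 (inertiaFld L P)) := by
    rw [Ideal.card_inertia_eq_ramificationIdxIn (P.under (𝓞 (inertiaFld L P))) P,
      Ideal.ramificationIdxIn_eq_ramificationIdx (P.under (𝓞 (inertiaFld L P))) P (inertiaGp L P)]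
  have h3 : Nat.card (P.inertia (inertiaGp L P)) = Nat.card (inertiaGp L P) := by
    have h : P.inertia (inertiaGp L P) = ⊤ := by
      ext σ
      simp only [Subgroup.mem_top, iff_true]
      intro x
      exact σ.2 x
    rw [h, Subgroup.card_top]
  have h4 := Ideal.ramificationIdx_tower (R := ℤ) (P.under (𝓞 (inertiaFld L P))) P
  have hpos : 0 < P.ramificationIdx ℤ := Ideal.ramificationIdx_pos P ℤ
  rw [← h2, h3, h1] at h4
  have h5 : (P.under (𝓞 (inertiaFld L P))).ramificationIdx ℤ * P.ramificationIdx ℤ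
      = 1 * P.ramificationIdx ℤ := by rw [one_mul]; exact h4.symm
  exact Nat.eq_of_mul_eq_mul_right hpos h5

end Core


/-- If a prime `Q` of a domain `S` has ramification index one over `ℤ` and lies over `(q)`, then
`q` generates `Q` locally at `Q`. -/
theorem exists_mul_eq_of_ramificationIdx_eq_one {S : Type*} [CommRing S] [IsDomain S]
    (Q : Ideal S) [Q.IsPrime] (h : Q.ramificationIdx ℤ = 1) (q : ℤ)
    (hq : Q.under ℤ = Ideal.span {q}) {y : S} (hy : y ∈ Q) :
    ∃ b s : S, s ∉ Q ∧ s * y = (q : S) * b := by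
  rw [Ideal.ramificationIdx_def, ENat.toNat_eq_iff_eq_natCast, Nat.cast_one,
    Module.length_eq_one_iff, isSimpleModule_iff_isCoatom, ← Ideal.isMaximal_def,
    IsLocalRing.isMaximal_iff] at h
  have h1 : algebraMap S (Localization.AtPrime Q) y ∈
      IsLocalRing.maximalIdeal (Localization.AtPrime Q) :=
    (IsLocalization.AtPrime.to_map_mem_maximal_iff _ Q y).2 hy
  rw [← h, hq, Ideal.map_span, Set.image_singleton, Ideal.mem_span_singleton'] at h1
  obtain ⟨c, hc⟩ := h1
  obtain ⟨b, s, rfl⟩ := IsLocalization.exists_mk'_eq Q.primeCompl c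
  refine ⟨b, s.1, s.2, ?_⟩
  have hinj : Function.Injective (algebraMap S (Localization.AtPrime Q)) :=
    IsLocalization.injective _ Q.primeCompl_le_nonZeroDivisors
  apply hinj
  rw [map_mul, map_mul, ← hc]
  have h2 := IsLocalization.mk'_spec (Localization.AtPrime Q) b s
  have h3 : algebraMap ℤ (Localization.AtPrime Q) q = algebraMap S (Localization.AtPrime Q) (q : S) := by
    simp
  rw [h3, ← h2]
  ring


section Frac2

variable {K : Type*} [Field K]

lemma hornerSum_mem (S : Subring K) (f : ℤ[X]) {x : K} (hx : x ∈ S) (j : ℕ) :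
    hornerSum f x j ∈ S := by
  unfold hornerSum
  apply Subring.sum_mem
  intro i _
  exact S.mul_mem (intCast_mem S _) (S.pow_mem hx i)

/-- `exists_integral_frac` with numerator and denominator in any subring containing `x`. -/
theorem exists_integral_frac_mem [CharZero K] (A : ValuationSubring K) {q : ℕ} (hq : q.Prime)
    (hA : (q : K) ∈ A.nonunits) {x : K} (hxalg : IsAlgebraic ℤ x) (hx : x ∈ A)
    (S : Subring K) (hxS : x ∈ S) :
    ∃ b s : K, b ∈ S ∧ s ∈ S ∧ IsIntegral ℤ b ∧ IsIntegral ℤ s ∧ A.valuation s = 1 ∧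
      x * s = b := by
  obtain ⟨f₀, hf₀, hf₀x⟩ := hxalg
  set f := f₀.primPart with hf
  have hprim : f.IsPrimitive := f₀.isPrimitive_primPart
  have hfx : aeval x f = 0 := by
    have h1 : f₀ = C f₀.content * f := f₀.eq_C_content_mul_primPart
    have h2 : aeval x f₀ = (f₀.content : K) * aeval x f := by
      conv_lhs => rw [h1]
      simp
    rw [hf₀x] at h2
    have h3 : (f₀.content : K) ≠ 0 := by
      exact_mod_cast (Polynomial.content_eq_zero_iff.not.2 hf₀)
    exact (mul_eq_zero.1 h2.symm).resolve_left h3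
  have hex : ∃ k, ¬ (q : ℤ) ∣ f.coeff k := by
    by_contra hcon
    have hcon' : ∀ k, (q : ℤ) ∣ f.coeff k := fun k => by_contra fun h => hcon ⟨k, h⟩
    have h1 : C (q : ℤ) ∣ f := (Polynomial.C_dvd_iff_dvd_coeff _ _).2 hcon'
    have h2 : IsUnit (q : ℤ) := hprim _ h1
    have h3 := Int.isUnit_iff.1 h2
    have h4 := hq.two_le
    omega
  obtain ⟨k, hk⟩ := hex
  have hkn : k ≤ f.natDegree := by
    by_contra h
    rw [coeff_eq_zero_of_natDegree_lt (by omega)] at hk
    exact hk (dvd_zero _)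
  let j := Nat.findGreatest (fun k => ¬ (q : ℤ) ∣ f.coeff k) f.natDegree
  have hj : ¬ (q : ℤ) ∣ f.coeff j :=
    Nat.findGreatest_spec (P := fun k => ¬ (q : ℤ) ∣ f.coeff k) hkn hk
  have hgt : ∀ i, j < i → (q : ℤ) ∣ f.coeff i := by
    intro i hi
    by_cases hin : i ≤ f.natDegree
    · by_contra h
      exact Nat.findGreatest_is_greatest (P := fun k => ¬ (q : ℤ) ∣ f.coeff k) hi hin h
    · rw [coeff_eq_zero_of_natDegree_lt (by omega)]
      exact dvd_zero _
  have hxv : A.valuation x ≤ 1 := (A.valuation_le_one_iff _).2 hx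
  have hsmall : A.valuation (x * hornerSum f x (j + 1)) < 1 := by
    rw [map_mul]
    have h1 : A.valuation (hornerSum f x (j + 1)) < 1 := by
      unfold hornerSum
      apply Valuation.map_sum_lt _ one_ne_zero
      intro i _
      rw [map_mul, map_pow]
      have h2 : A.valuation ((f.coeff (j + 1 + i) : ℤ) : K) < 1 :=
        valuation_intCast_lt_one_of_dvd A hA (hgt _ (by omega))
      have h3 : A.valuation x ^ i ≤ 1 := pow_le_one' hxv i
      calc A.valuation ((f.coeff (j + 1 + i) : ℤ) : K) * A.valuation x ^ i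
          ≤ A.valuation ((f.coeff (j + 1 + i) : ℤ) : K) * 1 := mul_le_mul_right h3 _
        _ < 1 := by rwa [mul_one]
    calc A.valuation x * A.valuation (hornerSum f x (j + 1))
        ≤ 1 * A.valuation (hornerSum f x (j + 1)) := mul_le_mul_left hxv _
      _ < 1 := by rwa [one_mul]
  have hcj : A.valuation ((f.coeff j : ℤ) : K) = 1 :=
    Fermat.Agent.S05.valuation_intCast_eq_one_of_not_dvd A hq hA hj
  have hval : A.valuation (hornerSum f x j) = 1 := by
    rw [hornerSum_succ f x j, Valuation.map_add_eq_of_lt_left, hcj]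
    rw [hcj]
    exact hsmall
  have hj1 : 1 ≤ j := by
    by_contra h
    have h0 : j = 0 := by omega
    rw [h0, hornerSum_zero, hfx, map_zero] at hval
    exact zero_ne_one hval
  exact ⟨x * hornerSum f x j, hornerSum f x j, S.mul_mem hxS (hornerSum_mem S f hxS j),
    hornerSum_mem S f hxS j, hornerSum_pred_isIntegral f x hfx hj1,
    hornerSum_isIntegral f x hfx hj1, hval, rfl⟩

end Frac2

section Induct

/-- If `q` generates the maximal ideal of the local ring of `E'` cut out by `A`, then every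
nonzero element of `E'` has valuation an integral power of the valuation of `q`. -/
theorem valuation_eq_zpow_of_unif (A : ValuationSubring Qb) {q : ℕ} (hq : q.Prime)
    (hA : (q : Qb) ∈ A.nonunits) (E' : IntermediateField ℚ Qb)
    (hU : ∀ y : Qb, y ∈ E' → IsIntegral ℤ y → y ∈ A.nonunits →
      ∃ b s : Qb, b ∈ E' ∧ IsIntegral ℤ b ∧ A.valuation s = 1 ∧ s * y = (q : Qb) * b)
    {x : Qb} (hx : x ∈ E') (hx0 : x ≠ 0) :
    ∃ k : ℤ, A.valuation x = A.valuation (q : Qb) ^ k := by
  have hq0 : (q : Qb) ≠ 0 := by exact_mod_cast hq.ne_zero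
  have hπ0 : A.valuation (q : Qb) ≠ 0 := (Valuation.ne_zero_iff _).2 hq0
  have hπ1 : A.valuation (q : Qb) < 1 := A.mem_nonunits_iff.1 hA
  have hqE : (q : Qb) ∈ E' := natCast_mem E' q
  -- the main induction
  have key : ∀ m : ℕ, ∀ y : Qb, y ∈ E' → y ≠ 0 → y ∈ A →
      (∃ n : ℕ, 0 < n ∧ A.valuation y ^ n = A.valuation (q : Qb) ^ m) →
      ∃ k : ℕ, A.valuation y = A.valuation (q : Qb) ^ k := by
    intro m
    induction m using Nat.strong_induction_on with
    | _ m ih =>
      intro y hyE hy0 hyA ⟨n, hn, hpow⟩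
      have hyv : A.valuation y ≤ 1 := (A.valuation_le_one_iff _).2 hyA
      rcases eq_or_lt_of_le hyv with h1 | h1
      · exact ⟨0, by rw [h1, pow_zero]⟩
      · have hyalg : IsAlgebraic ℤ y :=
          (IsFractionRing.isAlgebraic_iff ℤ ℚ Qb).2 (Algebra.IsAlgebraic.isAlgebraic y)
        obtain ⟨b, s, hbE, -, hb, -, hsv, hys⟩ :=
          exists_integral_frac_mem A hq hA hyalg hyA E'.toSubfield.toSubring hyE
        have hbv : A.valuation b = A.valuation y := by
          rw [← hys, map_mul, hsv, mul_one]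
        have hbn : b ∈ A.nonunits := by
          rw [A.mem_nonunits_iff, hbv]
          exact h1
        obtain ⟨b', s', hb'E, hb', hs'v, hsb⟩ := hU b hbE hb hbn
        have hb'v : A.valuation y = A.valuation (q : Qb) * A.valuation b' := by
          rw [← hbv, ← map_mul, ← hsb, map_mul, hs'v, one_mul]
        have hb'A : A.valuation b' ≤ 1 := (A.valuation_le_one_iff _).2 (integral_mem A hb')
        have hb'0 : b' ≠ 0 := by
          rintro rfl
          rw [map_zero, mul_zero] at hb'v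
          exact hy0 ((Valuation.zero_iff _).1 hb'v)
        -- `m ≥ n` and the new exponent
        have hpow' : A.valuation (q : Qb) ^ n * A.valuation b' ^ n = A.valuation (q : Qb) ^ m := by
          rw [← mul_pow, ← hb'v, hpow]
        have hmn : n ≤ m := by
          by_contra hlt
          have hlt' : m < n := by omega
          have h2 : A.valuation (q : Qb) ^ n < A.valuation (q : Qb) ^ m :=
            pow_lt_pow_right_of_lt_one₀ (zero_lt_iff.2 hπ0) hπ1 hlt'
          have h3 : A.valuation (q : Qb) ^ n * A.valuation b' ^ n ≤ A.valuation (q : Qb) ^ n := by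
            calc A.valuation (q : Qb) ^ n * A.valuation b' ^ n
                ≤ A.valuation (q : Qb) ^ n * 1 := mul_le_mul_right (pow_le_one' hb'A n) _
              _ = A.valuation (q : Qb) ^ n := mul_one _
          rw [hpow'] at h3
          exact absurd h3 (not_le.2 h2)
        have hpow'' : A.valuation b' ^ n = A.valuation (q : Qb) ^ (m - n) := by
          have h4 : A.valuation (q : Qb) ^ m =
              A.valuation (q : Qb) ^ n * A.valuation (q : Qb) ^ (m - n) := by
            rw [← pow_add]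
            congr 1
            omega
          rw [h4] at hpow'
          exact mul_left_cancel₀ (pow_ne_zero n hπ0) hpow'
        obtain ⟨k, hk⟩ := ih (m - n) (by omega) b' hb'E hb'0 (integral_mem A hb') ⟨n, hn, hpow''⟩
        exact ⟨k + 1, by rw [hb'v, hk, pow_succ, mul_comm]⟩
  -- reduce to the case `x ∈ A`
  have key2 : ∀ y : Qb, y ∈ E' → y ≠ 0 → y ∈ A →
      ∃ k : ℕ, A.valuation y = A.valuation (q : Qb) ^ k := by
    intro y hyE hy0 hyA
    obtain ⟨n, m, hn, hpow⟩ := Fermat.Agent.S05.exists_pow_valuation_eq_zpow A hq hA hy0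
      (Algebra.IsAlgebraic.isAlgebraic y)
    have hyv : A.valuation y ≤ 1 := (A.valuation_le_one_iff _).2 hyA
    have hm : 0 ≤ m := by
      by_contra hneg
      have hneg' : m < 0 := by omega
      have h1 : 1 < A.valuation (q : Qb) ^ m := by
        obtain ⟨j, rfl⟩ : ∃ j : ℕ, m = -(j + 1 : ℕ) := ⟨(-m - 1).toNat, by omega⟩
        rw [zpow_neg, zpow_natCast]
        rw [one_lt_inv₀ (zero_lt_iff.2 (pow_ne_zero _ hπ0))]
        exact pow_lt_one₀ zero_le hπ1 (by omega)
      rw [← hpow] at h1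
      exact absurd (pow_le_one' hyv n) (not_le.2 h1)
    obtain ⟨m', rfl⟩ : ∃ m' : ℕ, m = m' := ⟨m.toNat, by omega⟩
    rw [zpow_natCast] at hpow
    exact key m' y hyE hy0 hyA ⟨n, hn, hpow⟩
  by_cases hxA : x ∈ A
  · obtain ⟨k, hk⟩ := key2 x hx hx0 hxA
    exact ⟨k, by rw [hk, zpow_natCast]⟩
  · have hxinv : x⁻¹ ∈ A := (A.mem_or_inv_mem x).resolve_left hxA
    obtain ⟨k, hk⟩ := key2 x⁻¹ (E'.inv_mem hx) (inv_ne_zero hx0) hxinv
    refine ⟨-k, ?_⟩
    rw [map_inv₀] at hk
    rw [zpow_neg, zpow_natCast, ← hk, inv_inv]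

end Induct


section Glue

/-- Every element of the inertia group of `P = m_A ∩ 𝓞 M` in `Gal(M/ℚ)` is the restriction of an
element of the absolute inertia subgroup of `A`. -/
theorem exists_inertia_of_mem_inertiaGp (A : ValuationSubring Qb) {q : ℕ} (hq : q.Prime)
    (hA : (q : Qb) ∈ A.nonunits) (M : IntermediateField ℚ Qb) [Normal ℚ M]
    (τ : M ≃ₐ[ℚ] M) (hτ : τ ∈ ((primeOf A).under (𝓞 M)).inertia (M ≃ₐ[ℚ] M)) :
    ∃ σ : Qb ≃ₐ[ℚ] Qb, σ ∈ A.inertiaSubgroupIn ℚ ∧ ∀ a : M, σ (a : Qb) = ((τ a : M) : Qb) := by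
  have hPmem : ∀ a : 𝓞 M, a ∈ (primeOf A).under (𝓞 M) ↔ (((a : M) : Qb)) ∈ A.nonunits := by
    intro a
    show algebraMap (𝓞 M) (𝓞 Qb) a ∈ primeOf A ↔ _
    rw [mem_primeOf]
    rfl
  obtain ⟨σ₁, hσ₁⟩ := AlgEquiv.restrictNormalHom_surjective (F := ℚ) (K₁ := M) (E := Qb) τ
  have hres : ∀ a : M, σ₁ (a : Qb) = ((τ a : M) : Qb) := by
    intro a
    rw [← hσ₁]
    exact (AlgEquiv.restrictNormal_commutes σ₁ M a).symm
  have hLL : ∀ a : Qb, a ∈ M → IsIntegral ℤ a → σ₁ a - a ∈ A.nonunits := by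
    intro a ha hint
    have ha' : IsIntegral ℤ (⟨a, ha⟩ : M) :=
      (isIntegral_algebraMap_iff (algebraMap M Qb).injective).1 hint
    let a' : 𝓞 M := ⟨⟨a, ha⟩, ha'⟩
    have h1 : τ • a' - a' ∈ (primeOf A).under (𝓞 M) := hτ a'
    rw [hPmem] at h1
    have h2 := hres ⟨a, ha⟩
    rw [h2]
    exact h1
  obtain ⟨σ, hσI, hσM⟩ := exists_inertia_lift A hq hA M σ₁ hLL
  exact ⟨σ, hσI, fun a => by rw [hσM _ a.2, hres a]⟩

end Glue

end Mink

/-- (NP2), finite-level form. -/
theorem Mink.relInertia_fixed_valuation (M : IntermediateField ℚ (AlgebraicClosure ℚ))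
    [FiniteDimensional ℚ M] [Normal ℚ M] (A : ValuationSubring (AlgebraicClosure ℚ)) {q : ℕ}
    (hq : q.Prime) (hA : A.LiesOverPrime q) {x : AlgebraicClosure ℚ} (hxM : x ∈ M) (hx0 : x ≠ 0)
    (hfix : ∀ σ : AlgebraicClosure ℚ ≃ₐ[ℚ] AlgebraicClosure ℚ, RelInertia A M σ → σ x = x) :
    ∃ k : ℤ, A.valuation x = A.valuation (q : AlgebraicClosure ℚ) ^ k := by
  have : NumberField M := ⟨⟩
  have : IsGalois ℚ M := ⟨⟩
  have hA' : (q : Mink.Qb) ∈ A.nonunits := hA
  let P : Ideal (𝓞 M) := (Mink.primeOf A).under (𝓞 M)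
  let E : IntermediateField ℚ M := Mink.inertiaFld M P
  let E' : IntermediateField ℚ Mink.Qb := IntermediateField.lift E
  -- `x` lies in the inertia field
  have hxE : x ∈ E' := by
    have h1 : (⟨x, hxM⟩ : M) ∈ E := by
      rw [FixedPoints.mem_intermediateField_iff]
      intro τ
      obtain ⟨σ, hσI, hσM⟩ := Mink.exists_inertia_of_mem_inertiaGp A hq hA' M τ.1 τ.2
      have h2 := hfix σ (Mink.relInertia_of_mem_inertia A M σ hσI)
      have h3 := hσM ⟨x, hxM⟩
      apply Subtype.ext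
      exact h3.symm.trans h2
    exact (IntermediateField.mem_lift ⟨x, hxM⟩).2 h1
  -- the prime of `E` below `P` is unramified
  have he := Mink.inertiaFld_ramificationIdx M P
  have hint : ∀ c : 𝓞 E, IsIntegral ℤ ((((c : E) : M)) : Mink.Qb) := by
    intro c
    have h1 : IsIntegral ℤ (c : E) := c.2
    have h2 : IsIntegral ℤ ((c : E) : M) :=
      (isIntegral_algebraMap_iff (algebraMap E M).injective).2 h1
    exact (isIntegral_algebraMap_iff (algebraMap M Mink.Qb).injective).2 h2
  have hmem : ∀ c : 𝓞 E, c ∈ P.under (𝓞 E) ↔ ((((c : E) : M)) : Mink.Qb) ∈ A.nonunits := by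
    intro c
    show algebraMap (𝓞 M) (𝓞 Mink.Qb) (algebraMap (𝓞 E) (𝓞 M) c) ∈ Mink.primeOf A ↔ _
    rw [Mink.mem_primeOf]
    rfl
  have hunder : (P.under (𝓞 E)).under ℤ = Ideal.span {(q : ℤ)} := by
    have hmax : (Ideal.span {(q : ℤ)}).IsMaximal :=
      PrincipalIdealRing.isMaximal_of_irreducible (Nat.prime_iff_prime_int.1 hq).irreducible
    have hne : (P.under (𝓞 E)).under ℤ ≠ ⊤ := Ideal.IsPrime.ne_top inferInstance
    have hle : Ideal.span {(q : ℤ)} ≤ (P.under (𝓞 E)).under ℤ := by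
      rw [Ideal.span_le, Set.singleton_subset_iff]
      show algebraMap ℤ (𝓞 E) (q : ℤ) ∈ P.under (𝓞 E)
      rw [hmem]
      simpa using hA'
    exact (hmax.eq_of_le hne hle).symm
  refine Mink.valuation_eq_zpow_of_unif A hq hA' E' ?_ hxE hx0
  intro y hyE hyint hyn
  obtain ⟨z, hzE, rfl⟩ := hyE
  have hzint : IsIntegral ℤ (⟨z, hzE⟩ : E) := by
    have h2 : IsIntegral ℤ z := (isIntegral_algebraMap_iff (algebraMap M Mink.Qb).injective).1 hyint
    exact (isIntegral_algebraMap_iff (algebraMap E M).injective).1 h2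
  let c : 𝓞 E := ⟨⟨z, hzE⟩, hzint⟩
  have hc : c ∈ P.under (𝓞 E) := (hmem c).2 hyn
  obtain ⟨b, s, hs, hsb⟩ := Mink.exists_mul_eq_of_ramificationIdx_eq_one (P.under (𝓞 E)) he q
    hunder hc
  refine ⟨((((b : E) : M)) : Mink.Qb), ((((s : E) : M)) : Mink.Qb), ?_, hint b, ?_, ?_⟩
  · exact (IntermediateField.mem_lift ((b : E) : M)).2 (b : E).2
  · have h1 : A.valuation ((((s : E) : M)) : Mink.Qb) ≤ 1 :=
      (A.valuation_le_one_iff _).2 (Mink.integral_mem A (hint s))
    rcases eq_or_lt_of_le h1 with h2 | h2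
    · exact h2
    · exact absurd ((hmem s).2 (A.mem_nonunits_iff.2 h2)) hs
  · have h1 : ((((s * c : 𝓞 E) : E) : M) : Mink.Qb) =
        ((((((q : ℤ) : 𝓞 E) * b : 𝓞 E) : E) : M) : Mink.Qb) := by rw [hsb]
    have h2 : ((((s * c : 𝓞 E) : E) : M) : Mink.Qb) = ((((s : E) : M)) : Mink.Qb) * z := rfl
    have h3 : ((((((q : ℤ) : 𝓞 E) * b : 𝓞 E) : E) : M) : Mink.Qb) =
        (q : Mink.Qb) * ((((b : E) : M)) : Mink.Qb) := by
      have h4 : ((((((q : ℤ) : 𝓞 E)) : E) : M) : Mink.Qb) = (q : Mink.Qb) := by simp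
      rw [← h4]
      rfl
    exact h2.symm.trans (h1.trans h3)

/-- (NP2), real-valued form: with `V : RVal ℚ̄` attached to `A` as in `S05.exists_rval'`. -/
theorem Mink.relInertia_fixed_w (M : IntermediateField ℚ (AlgebraicClosure ℚ))
    [FiniteDimensional ℚ M] [Normal ℚ M] (A : ValuationSubring (AlgebraicClosure ℚ)) {q : ℕ}
    (hq : q.Prime) (hA : A.LiesOverPrime q) (V : Fermat.Agent.S05.RVal (AlgebraicClosure ℚ))
    (hV1 : ∀ x, V.w x ≤ 1 ↔ x ∈ A) {x : AlgebraicClosure ℚ} (hxM : x ∈ M) (hx0 : x ≠ 0)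
    (hfix : ∀ σ : AlgebraicClosure ℚ ≃ₐ[ℚ] AlgebraicClosure ℚ, RelInertia A M σ → σ x = x) :
    ∃ k : ℤ, V.w x = V.w (q : AlgebraicClosure ℚ) ^ k := by
  obtain ⟨k, hk⟩ := Mink.relInertia_fixed_valuation M A hq hA hxM hx0 hfix
  refine ⟨k, ?_⟩
  rw [← V.w_zpow]
  apply w_eq_of_valuation_eq V hV1
  rw [hk, map_zpow₀]

end Fermat.Agent.S13
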